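import Fermat.Agent.S18x.E.H29_StConst
import Fermat.Agent.S18x.Spec.H26_Adapt
import Fermat.Agent.S18x.Dict.H20_GaussModular

/-!
# S18 [IG] (helper29): the coordinate inputs for a base coordinate `x` (Hauptmodul)

`x₀ : LaurentSeries ℤ` with `x₀.order = -1` and leading coefficient `1` (`h = q⁻¹(1 + …)`),
`x := coeffMap (Int.castRingHom K) x₀` assumed to lie in `F_M = modularFunctionFieldFullC K M`
(hypothesis `hmem`; this is the Hauptmodul package).  Then, for every field `K`, every level `M`:

* `transcendental_coordM`, `finiteDimensional_coordM` : `x` is transcendental over `K` and `F_M` is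
  finite over `K(x)` (no degree count: exchange + finiteness over `K(j)`);
* for a valuation subring `O` of `K`: `transcendental_coordM_O`, `finOver_coordM`,
  `finOver_coordM_inv` (the hypotheses `hj`, `hfinF` of `h26_spec` for `j := x`);
* for a discrete valuation subring `O`: `coordM_mem_gaussValM`, `coordM_inv_mem_gaussValM`
  (`hjV`, `hj'V`), `gaussRedM_coordM` (the reduction of `x` is `coeffMap _ x₀`, of order `-1`),
  `transcendental_gaussRedM_coordM`.
-/

set_option autoImplicit false
set_option linter.unusedSectionVars false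
set_option linter.style.haveILetI false
set_option synthInstance.maxHeartbeats 400000
set_option maxHeartbeats 1000000

open IntermediateField ModularCurve

noncomputable section

namespace Fermat.Agent.S18x.IG.H29

open Fermat.Agent.S18x.Spec.H26 Fermat.Agent.S18x.Dict.H20

/-! ### Generic facts on Laurent series -/

/-- A Laurent series of non-zero order is transcendental over the coefficient field. -/
theorem transcendental_of_order_ne_zero {k : Type*} [Field k] (y : LaurentSeries k)
    (hy : y.order ≠ 0) : Transcendental k y := by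
  intro halg
  obtain ⟨c, rfl⟩ := Fermat.Agent.S18x.E.H29.laurent_mem_range_of_isAlgebraic y halg
  apply hy
  rw [algebraMap_laurentSeries_eq_single]
  by_cases hc : c = 0
  · rw [hc, HahnSeries.single_eq_zero, HahnSeries.order_zero]
  · exact HahnSeries.order_single hc

section CoeffMap

variable {R : Type*} [CommRing R] [Nontrivial R]

theorem coeff_coeffMap_neg_one (φ : ℤ →+* R) (x₀ : LaurentSeries ℤ)
    (hlead : x₀.coeff (-1) = 1) : (coeffMap φ x₀).coeff (-1) = 1 := by
  rw [coeffMap_coeff, hlead, map_one]

theorem coeffMap_ne_zero (φ : ℤ →+* R) (x₀ : LaurentSeries ℤ)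
    (hlead : x₀.coeff (-1) = 1) : coeffMap φ x₀ ≠ 0 := by
  intro h
  have h1 := coeff_coeffMap_neg_one φ x₀ hlead
  rw [h, HahnSeries.coeff_zero] at h1
  exact zero_ne_one h1

/-- The order of the base change of `x₀ = q⁻¹ + …` is `-1`. -/
theorem order_coeffMap (φ : ℤ →+* R) (x₀ : LaurentSeries ℤ) (hord : x₀.order = -1)
    (hlead : x₀.coeff (-1) = 1) : (coeffMap φ x₀).order = -1 := by
  have h1 : (coeffMap φ x₀).coeff (-1) ≠ 0 := by
    rw [coeff_coeffMap_neg_one φ x₀ hlead]
    exact one_ne_zero
  apply le_antisymm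
  · exact HahnSeries.order_le_of_coeff_ne_zero h1
  · by_contra hlt
    push Not at hlt
    have h2 : (coeffMap φ x₀).coeff (coeffMap φ x₀).order ≠ 0 := fun h =>
      coeffMap_ne_zero φ x₀ hlead (HahnSeries.coeff_order_eq_zero.mp h)
    apply h2
    rw [coeffMap_coeff, HahnSeries.coeff_eq_zero_of_lt_order (by rw [hord]; exact hlt), map_zero]

end CoeffMap

/-! ### The coordinate in `F_M` -/

section Field

variable (K : Type) [Field K] (M : ℕ) [NeZero M] (x₀ : LaurentSeries ℤ)
  (hord : x₀.order = -1) (hlead : x₀.coeff (-1) = 1)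
  (hmem : coeffMap (Int.castRingHom K) x₀ ∈ modularFunctionFieldFullC K M)

/-- The base coordinate as an element of `F_M`. -/
def coordM : ↥(modularFunctionFieldFullC K M) := ⟨coeffMap (Int.castRingHom K) x₀, hmem⟩

theorem coe_coordM :
    ((coordM K M x₀ hmem : ↥(modularFunctionFieldFullC K M)) : LaurentSeries K)
      = coeffMap (Int.castRingHom K) x₀ := rfl

include hlead in
theorem coordM_ne_zero : coordM K M x₀ hmem ≠ 0 := by
  intro h
  have h1 := congrArg (Subtype.val) h
  exact coeffMap_ne_zero (Int.castRingHom K) x₀ hlead h1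

include hlead in
theorem coordM_mul_inv : coordM K M x₀ hmem * (coordM K M x₀ hmem)⁻¹ = 1 :=
  mul_inv_cancel₀ (coordM_ne_zero K M x₀ hlead hmem)

include hord hlead in
/-- **(C2)** the coordinate is transcendental over `K`. -/
theorem transcendental_coordM : Transcendental K (coordM K M x₀ hmem) := by
  intro halg
  have h1 : IsAlgebraic K ((coordM K M x₀ hmem : ↥(modularFunctionFieldFullC K M)) :
      LaurentSeries K) := halg.algebraMap (A := LaurentSeries K)
  refine transcendental_of_order_ne_zero _ ?_ h1
  rw [coe_coordM, order_coeffMap (Int.castRingHom K) x₀ hord hlead]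
  decide

include hord hlead in
/-- **(C3)** `F_M` is finite over `K(x)`. -/
theorem finiteDimensional_coordM :
    FiniteDimensional (IntermediateField.adjoin K {coordM K M x₀ hmem})
      ↥(modularFunctionFieldFullC K M) := by
  haveI := Fermat.Agent.S18x.E.H29.finDimC K M
  exact Fermat.Agent.S18x.E.H29.finiteDimensional_adjoin_of_transcendental
    (Fermat.Agent.S18x.E.H29.transcendental_jbFull K M)
    (transcendental_coordM K M x₀ hord hlead hmem)

end Field

/-! ### Over a valuation subring `O` of `K` -/

section Val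

variable {K : Type} [Field K] (O : ValuationSubring K) (M : ℕ) [NeZero M]
  [Algebra O ↥(modularFunctionFieldFullC K M)]
  [IsScalarTower O K ↥(modularFunctionFieldFullC K M)]
  (x₀ : LaurentSeries ℤ) (hord : x₀.order = -1) (hlead : x₀.coeff (-1) = 1)
  (hmem : coeffMap (Int.castRingHom K) x₀ ∈ modularFunctionFieldFullC K M)

include hord hlead in
/-- `hj` of `h26_spec` for `j := x`. -/
theorem transcendental_coordM_O : Transcendental O (coordM K M x₀ hmem) :=
  h26_transcendental_of_tower (O := O) K (IsFractionRing.injective O K)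
    (transcendental_coordM K M x₀ hord hlead hmem)

include hord hlead in
/-- `hfinF` of `h26_spec` for `j := x`. -/
theorem finOver_coordM : H26FinOver O (coordM K M x₀ hmem) := by
  haveI := finiteDimensional_coordM K M x₀ hord hlead hmem
  exact h26_finOver_of_finiteDimensional O K (coordM K M x₀ hmem)

include hord hlead in
/-- `hfinF` for `j := x⁻¹`. -/
theorem finOver_coordM_inv : H26FinOver O (coordM K M x₀ hmem)⁻¹ :=
  h26_finOver_inv (O := O) (coordM_mul_inv K M x₀ hlead hmem)
    (finOver_coordM O M x₀ hord hlead hmem)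

include hord hlead in
theorem transcendental_coordM_inv_O : Transcendental O (coordM K M x₀ hmem)⁻¹ :=
  h26_transcendental_inv (O := O) (coordM_mul_inv K M x₀ hlead hmem)
    (transcendental_coordM_O O M x₀ hord hlead hmem)

end Val

/-! ### Over a discrete valuation subring: the Gauss valuation -/

section DVR

variable {K : Type} [Field K] (O : ValuationSubring K) [IsDiscreteValuationRing O]
  (M : ℕ) [NeZero M]
  (x₀ : LaurentSeries ℤ) (hord : x₀.order = -1) (hlead : x₀.coeff (-1) = 1)
  (hmem : coeffMap (Int.castRingHom K) x₀ ∈ modularFunctionFieldFullC K M)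

/-- `x` comes from `O((q))`. -/
theorem gIota_coeffMap_int :
    gIota O (coeffMap (Int.castRingHom O) x₀) = coeffMap (Int.castRingHom K) x₀ := by
  show coeffMap (O.subtype : O →+* K) (coeffMap (Int.castRingHom O) x₀) = _
  rw [coeffMap_coeffMap]
  exact coeffMap_congr (RingHom.ext_int _ _) x₀

theorem gRed_coeffMap_int :
    gRed O (coeffMap (Int.castRingHom O) x₀)
      = coeffMap (Int.castRingHom (IsLocalRing.ResidueField O)) x₀ := by
  show coeffMap (IsLocalRing.residue O) (coeffMap (Int.castRingHom O) x₀) = _
  rw [coeffMap_coeffMap]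
  exact coeffMap_congr (RingHom.ext_int _ _) x₀

theorem coeffMap_int_mem_gaussRing : coeffMap (Int.castRingHom K) x₀ ∈ gaussRing O := by
  rw [← gIota_coeffMap_int O x₀]
  exact coeffMap_subtype_mem_gaussRing O _

theorem gaussRed_coeffMap_int :
    gaussRed O ⟨coeffMap (Int.castRingHom K) x₀, coeffMap_int_mem_gaussRing O x₀⟩
      = coeffMap (Int.castRingHom (IsLocalRing.ResidueField O)) x₀ := by
  rw [gaussRed_eq O _ (coeffMap (Int.castRingHom O) x₀) 1 (by rw [map_one]; exact one_ne_zero)
    (by rw [map_one, mul_one]; exact (gIota_coeffMap_int O x₀).symm), map_one, div_one]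
  exact gRed_coeffMap_int O x₀

/-- **(C4)** `hjV` of `h26_spec` for `j := x`. -/
theorem coordM_mem_gaussValM : coordM K M x₀ hmem ∈ gaussValM O M :=
  coeffMap_int_mem_gaussRing O x₀

/-- The reduction of the coordinate is the coordinate over the residue field. -/
theorem gaussRedM_coordM :
    gaussRedM O M ⟨coordM K M x₀ hmem, coordM_mem_gaussValM O M x₀ hmem⟩
      = coeffMap (Int.castRingHom (IsLocalRing.ResidueField O)) x₀ :=
  gaussRed_coeffMap_int O x₀

include hlead in
theorem gaussRedM_coordM_ne_zero :
    gaussRedM O M ⟨coordM K M x₀ hmem, coordM_mem_gaussValM O M x₀ hmem⟩ ≠ 0 := by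
  rw [gaussRedM_coordM]
  exact coeffMap_ne_zero _ x₀ hlead

include hord hlead in
theorem order_gaussRedM_coordM :
    (gaussRedM O M ⟨coordM K M x₀ hmem, coordM_mem_gaussValM O M x₀ hmem⟩).order = -1 := by
  rw [gaussRedM_coordM]
  exact order_coeffMap _ x₀ hord hlead

include hord hlead in
/-- The reduction of the coordinate is transcendental over the residue field. -/
theorem transcendental_gaussRedM_coordM :
    Transcendental (IsLocalRing.ResidueField O)
      (gaussRedM O M ⟨coordM K M x₀ hmem, coordM_mem_gaussValM O M x₀ hmem⟩) := by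
  refine transcendental_of_order_ne_zero _ ?_
  rw [order_gaussRedM_coordM O M x₀ hord hlead hmem]
  decide

include hlead in
/-- **(C4)** `hj'V` of `h26_spec` for `j := x`, `j' := x⁻¹`. -/
theorem coordM_inv_mem_gaussValM : (coordM K M x₀ hmem)⁻¹ ∈ gaussValM O M := by
  have hu : IsUnit (⟨coordM K M x₀ hmem, coordM_mem_gaussValM O M x₀ hmem⟩ : gaussValM O M) :=
    (isUnit_iff_gaussRedM_ne_zero O M).mpr (gaussRedM_coordM_ne_zero O M x₀ hlead hmem)
  obtain ⟨⟨b, hb⟩, hmul⟩ := isUnit_iff_exists_inv.mp hu
  have h1 : coordM K M x₀ hmem * b = 1 := congrArg Subtype.val hmul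
  have h2 : (coordM K M x₀ hmem)⁻¹ = b := (eq_inv_of_mul_eq_one_right h1).symm
  rw [h2]
  exact hb

/-- **(C5)** the five coordinate hypotheses `hjj'`, `hj`, `hfinF`, `hjV`, `hj'V` of
`h26_spec_val` for `j := x`, `j' := x⁻¹`, `V := gaussValM O M`. -/
theorem coord_inputs [Algebra O ↥(modularFunctionFieldFullC K M)]
    [IsScalarTower O K ↥(modularFunctionFieldFullC K M)]
    (hord : x₀.order = -1) (hlead : x₀.coeff (-1) = 1) :
    coordM K M x₀ hmem * (coordM K M x₀ hmem)⁻¹ = 1 ∧
      Transcendental O (coordM K M x₀ hmem) ∧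
      H26FinOver O (coordM K M x₀ hmem) ∧
      coordM K M x₀ hmem ∈ gaussValM O M ∧
      (coordM K M x₀ hmem)⁻¹ ∈ gaussValM O M :=
  ⟨coordM_mul_inv K M x₀ hlead hmem, transcendental_coordM_O O M x₀ hord hlead hmem,
    finOver_coordM O M x₀ hord hlead hmem, coordM_mem_gaussValM O M x₀ hmem,
    coordM_inv_mem_gaussValM O M x₀ hlead hmem⟩

end DVR

end Fermat.Agent.S18x.IG.H29
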