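import Fermat.Agent.S18x.IG.H4_HorInst

/-!
# S18 [IG] (I2-HOR), the four base levels (helper4)

Certificates (degree, Bezout, `A ^ 3 * B - 1728 * D = S ^ 2 * E`) for the Hauptmoduln of
`X₀(2)`, `X₀(3)`, `X₀(4)`, `X₀(9)` and the resulting unramifiedness statements in Place form:
the ONLY input is the identity `j * D(h) = A(h) ^ 3 * B(h)` in `LaurentSeries ℤ` and the
membership of (the image of) `h` in the modular function field of level `M`.

* level 2: `j * h ^ 2 = (h + 256) ^ 3`, elliptic value `h = -64`;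
* level 3: `j * h ^ 3 = (h + 243) ^ 3 * (h + 27)`, elliptic value `h = -27`;
* level 4: `j * (h ^ 4 * (h + 16)) = (h ^ 2 + 256 * h + 4096) ^ 3`;
* level 9: `j * (h ^ 9 * (h ^ 2 + 9 * h + 27)) = ((h + 9) * (h ^ 3 + 243 * h ^ 2 + 2187 * h + 6561)) ^ 3`.
-/

set_option autoImplicit false

noncomputable section

namespace Fermat.Agent.S18x.IG.H4

open AlgebraicCurve Polynomial ModularCurve
open Fermat.Agent.S24 Fermat.Agent.S24.RH Fermat.Agent.S24.Real

/-! ### The polynomials -/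

/-- level 2 -/
def h4D2 : ℤ[X] := X ^ 2
def h4A2 : ℤ[X] := X + C 256
def h4S2 : ℤ[X] := X - C 512
def h4E2 : ℤ[X] := X + C 64

/-- level 3 -/
def h4D3 : ℤ[X] := X ^ 3
def h4A3 : ℤ[X] := X + C 243
def h4B3 : ℤ[X] := X + C 27
def h4S3 : ℤ[X] := X ^ 2 - C 486 * X - C 19683

/-- level 4 -/
def h4D4 : ℤ[X] := X ^ 4 * (X + C 16)
def h4A4 : ℤ[X] := X ^ 2 + C 256 * X + C 4096
def h4S4 : ℤ[X] := (X + C 32) * (X ^ 2 - C 512 * X - C 8192)

/-- level 9 -/
def h4D9 : ℤ[X] := X ^ 9 * (X ^ 2 + C 9 * X + C 27)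
def h4A9 : ℤ[X] := (X + C 9) * (X ^ 3 + C 243 * X ^ 2 + C 2187 * X + C 6561)
def h4S9 : ℤ[X] := X ^ 6 - C 486 * X ^ 5 - C 24057 * X ^ 4 - C 367416 * X ^ 3 - C 2657205 * X ^ 2
  - C 9565938 * X - C 14348907

/-! ### Certificates -/

theorem h4_bez2 : (1 : ℤ[X]) * h4D2 + (C 256 - X) * (h4A2 * 1) = C 65536 := by
  simp only [h4D2, h4A2, map_ofNat]; ring

theorem h4_poly2 : h4A2 ^ 3 * 1 - C 1728 * h4D2 = h4S2 ^ 2 * h4E2 := by
  simp only [h4D2, h4A2, h4S2, h4E2, map_ofNat]; ring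

theorem h4_bez3 : (-(C 22140) - C 91 * X : ℤ[X]) * h4D3
    + (C 59049 - C 2430 * X + C 91 * X ^ 2) * (h4A3 * h4B3) = C 387420489 := by
  simp only [h4D3, h4A3, h4B3, map_ofNat]; ring

theorem h4_poly3 : h4A3 ^ 3 * h4B3 - C 1728 * h4D3 = h4S3 ^ 2 * 1 := by
  simp only [h4D3, h4A3, h4B3, h4S3, map_ofNat]; ring

theorem h4_bez4 : (-(C 46576) - C 195 * X : ℤ[X]) * h4D4
    + (C 1048576 - C 65536 * X + C 3840 * X ^ 2 - C 224 * X ^ 3 + C 195 * X ^ 4) * (h4A4 * 1)
      = C 4294967296 := by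
  simp only [h4D4, h4A4, map_ofNat]; ring

theorem h4_poly4 : h4A4 ^ 3 * 1 - C 1728 * h4D4 = h4S4 ^ 2 * 1 := by
  simp only [h4D4, h4A4, h4S4, map_ofNat]; ring

theorem h4_bez9 : (C 1718318610 + C 1407556359 * X + C 140347593 * X ^ 2
      + C 574757 * X ^ 3 : ℤ[X]) * h4D9
    + (C 94143178827 - C 41841412812 * X + C 11622614670 * X ^ 2 - C 2468012004 * X ^ 3
      + C 412929657 * X ^ 4 - C 49601160 * X ^ 5 + C 1793340 * X ^ 6 + C 1156680 * X ^ 7
      - C 442233 * X ^ 8 - C 681642 * X ^ 9 - C 574757 * X ^ 10) * (h4A9 * 1)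
      = C 5559060566555523 := by
  simp only [h4D9, h4A9, map_ofNat]; ring

theorem h4_poly9 : h4A9 ^ 3 * 1 - C 1728 * h4D9 = h4S9 ^ 2 * 1 := by
  simp only [h4D9, h4A9, h4S9, map_ofNat]; ring

theorem h4_natDegree_D2 : h4D2.natDegree = 2 := by rw [h4D2]; compute_degree!
theorem h4_natDegree_A2 : h4A2.natDegree = 1 := by rw [h4A2]; compute_degree!
theorem h4_natDegree_D3 : h4D3.natDegree = 3 := by rw [h4D3]; compute_degree!
theorem h4_natDegree_A3 : h4A3.natDegree = 1 := by rw [h4A3]; compute_degree!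
theorem h4_natDegree_B3 : h4B3.natDegree = 1 := by rw [h4B3]; compute_degree!
theorem h4_natDegree_D4 : h4D4.natDegree = 5 := by rw [h4D4]; compute_degree!
theorem h4_natDegree_A4 : h4A4.natDegree = 2 := by rw [h4A4]; compute_degree!
theorem h4_natDegree_D9 : h4D9.natDegree = 11 := by rw [h4D9]; compute_degree!
theorem h4_natDegree_A9 : h4A9.natDegree = 4 := by rw [h4A9]; compute_degree!

/-! ### The four instances -/

variable {K : Type*} [Field K] [Algebra ℚ K] [CharZero K] [IsAlgClosed K]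
variable (e : K →+* ℂ) (M : ℕ) [NeZero M]

include e in
/-- **Level 2**: horizontal data from `j * h ^ 2 = (h + 256) ^ 3`. -/
theorem h4_horData_level2 (h : LaurentSeries ℤ) (hmem : coeffMap (Int.castRingHom K) h ∈ FK K M)
    (hid : jqModC ℤ * h ^ 2 = (h + 256) ^ 3) :
    H4HorData (Final.jF K M) (⟨coeffMap (Int.castRingHom K) h, hmem⟩ : FK K M)
      (h4D2.map (Int.castRingHom K)) (h4A2.map (Int.castRingHom K))
      ((1 : ℤ[X]).map (Int.castRingHom K))
      (h4S2.map (Int.castRingHom K)) (h4E2.map (Int.castRingHom K)) := by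
  refine h4_horData_of_int e M h hmem h4D2 h4A2 1 h4S2 h4E2 1 (C 256 - X) 65536 (by norm_num)
    ?_ h4_bez2 h4_poly2 ?_
  · rw [h4_natDegree_D2, h4_natDegree_A2, natDegree_one]; norm_num
  · simp only [h4D2, h4A2, map_pow, map_add, aeval_X, map_one, mul_one, map_ofNat]
    exact hid

include e in
/-- **Level 3**: horizontal data from `j * h ^ 3 = (h + 243) ^ 3 * (h + 27)`. -/
theorem h4_horData_level3 (h : LaurentSeries ℤ) (hmem : coeffMap (Int.castRingHom K) h ∈ FK K M)
    (hid : jqModC ℤ * h ^ 3 = (h + 243) ^ 3 * (h + 27)) :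
    H4HorData (Final.jF K M) (⟨coeffMap (Int.castRingHom K) h, hmem⟩ : FK K M)
      (h4D3.map (Int.castRingHom K)) (h4A3.map (Int.castRingHom K))
      (h4B3.map (Int.castRingHom K))
      (h4S3.map (Int.castRingHom K)) ((1 : ℤ[X]).map (Int.castRingHom K)) := by
  refine h4_horData_of_int e M h hmem h4D3 h4A3 h4B3 h4S3 1 _ _ 387420489 (by norm_num)
    ?_ h4_bez3 h4_poly3 ?_
  · rw [h4_natDegree_D3, h4_natDegree_A3, h4_natDegree_B3]; norm_num
  · simp only [h4D3, h4A3, h4B3, map_pow, map_add, aeval_X, map_ofNat]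
    exact hid

include e in
/-- **Level 4**: horizontal data from
`j * (h ^ 4 * (h + 16)) = (h ^ 2 + 256 * h + 4096) ^ 3`. -/
theorem h4_horData_level4 (h : LaurentSeries ℤ) (hmem : coeffMap (Int.castRingHom K) h ∈ FK K M)
    (hid : jqModC ℤ * (h ^ 4 * (h + 16)) = (h ^ 2 + 256 * h + 4096) ^ 3) :
    H4HorData (Final.jF K M) (⟨coeffMap (Int.castRingHom K) h, hmem⟩ : FK K M)
      (h4D4.map (Int.castRingHom K)) (h4A4.map (Int.castRingHom K))
      ((1 : ℤ[X]).map (Int.castRingHom K))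
      (h4S4.map (Int.castRingHom K)) ((1 : ℤ[X]).map (Int.castRingHom K)) := by
  refine h4_horData_of_int e M h hmem h4D4 h4A4 1 h4S4 1 _ _ 4294967296 (by norm_num)
    ?_ h4_bez4 h4_poly4 ?_
  · rw [h4_natDegree_D4, h4_natDegree_A4, natDegree_one]; norm_num
  · simp only [h4D4, h4A4, map_pow, map_add, map_mul, aeval_X, map_one, mul_one,
      map_ofNat]
    exact hid

include e in
/-- **Level 9**: horizontal data from
`j * (h ^ 9 * (h ^ 2 + 9 * h + 27)) = ((h + 9) * (h ^ 3 + 243 * h ^ 2 + 2187 * h + 6561)) ^ 3`. -/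
theorem h4_horData_level9 (h : LaurentSeries ℤ) (hmem : coeffMap (Int.castRingHom K) h ∈ FK K M)
    (hid : jqModC ℤ * (h ^ 9 * (h ^ 2 + 9 * h + 27)) =
      ((h + 9) * (h ^ 3 + 243 * h ^ 2 + 2187 * h + 6561)) ^ 3) :
    H4HorData (Final.jF K M) (⟨coeffMap (Int.castRingHom K) h, hmem⟩ : FK K M)
      (h4D9.map (Int.castRingHom K)) (h4A9.map (Int.castRingHom K))
      ((1 : ℤ[X]).map (Int.castRingHom K))
      (h4S9.map (Int.castRingHom K)) ((1 : ℤ[X]).map (Int.castRingHom K)) := by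
  refine h4_horData_of_int e M h hmem h4D9 h4A9 1 h4S9 1 _ _ 5559060566555523 (by norm_num)
    ?_ h4_bez9 h4_poly9 ?_
  · rw [h4_natDegree_D9, h4_natDegree_A9, natDegree_one]; norm_num
  · simp only [h4D9, h4A9, map_pow, map_add, map_mul, aeval_X, map_one, mul_one,
      map_ofNat]
    exact hid

/-! ### Simplified conclusions -/

include e in
/-- **Level 2, final form**: at every place `v` of `F_M` where `j` is regular, `h` is regular
and non-zero, and `h - c` is a uniformiser unless `c = -64`. -/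
theorem h4_unramified_level2 (h : LaurentSeries ℤ)
    (hmem : coeffMap (Int.castRingHom K) h ∈ FK K M)
    (hid : jqModC ℤ * h ^ 2 = (h + 256) ^ 3)
    (v : Place K (FK K M)) (hj : 0 ≤ v.ord (Final.jF K M)) :
    0 ≤ v.ord (⟨coeffMap (Int.castRingHom K) h, hmem⟩ : FK K M) ∧
      ∀ c : K, 0 < v.ord ((⟨coeffMap (Int.castRingHom K) h, hmem⟩ : FK K M)
          - algebraMap K (FK K M) c) →
        c ≠ 0 ∧ (c ≠ -64 →
          v.ord ((⟨coeffMap (Int.castRingHom K) h, hmem⟩ : FK K M)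
            - algebraMap K (FK K M) c) = 1) := by
  have hd := h4_horData_level2 e M h hmem hid
  refine ⟨hd.ord_t_nonneg v hj, fun c hc => ⟨?_, fun hc64 => ?_⟩⟩
  · have := hd.eval_D_ne_zero v hj hc
    intro h0
    apply this
    simp [h4D2, h0]
  · refine hd.ord_t_sub_eq_one v hj hc (by simp) ?_
    simp only [h4E2, Polynomial.map_add, Polynomial.map_X, Polynomial.map_C, eval_add, eval_X,
      eval_C]
    intro h0
    apply hc64
    have : c = -((Int.castRingHom K) 64) := eq_neg_of_add_eq_zero_left h0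
    rw [this]; simp

include e in
/-- **Level 3, final form**: at every place `v` of `F_M` where `j` is regular, `h` is regular
and non-zero, and `h - c` is a uniformiser unless `c = -27`. -/
theorem h4_unramified_level3 (h : LaurentSeries ℤ)
    (hmem : coeffMap (Int.castRingHom K) h ∈ FK K M)
    (hid : jqModC ℤ * h ^ 3 = (h + 243) ^ 3 * (h + 27))
    (v : Place K (FK K M)) (hj : 0 ≤ v.ord (Final.jF K M)) :
    0 ≤ v.ord (⟨coeffMap (Int.castRingHom K) h, hmem⟩ : FK K M) ∧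
      ∀ c : K, 0 < v.ord ((⟨coeffMap (Int.castRingHom K) h, hmem⟩ : FK K M)
          - algebraMap K (FK K M) c) →
        c ≠ 0 ∧ (c ≠ -27 →
          v.ord ((⟨coeffMap (Int.castRingHom K) h, hmem⟩ : FK K M)
            - algebraMap K (FK K M) c) = 1) := by
  have hd := h4_horData_level3 e M h hmem hid
  refine ⟨hd.ord_t_nonneg v hj, fun c hc => ⟨?_, fun hc27 => ?_⟩⟩
  · have := hd.eval_D_ne_zero v hj hc
    intro h0
    apply this
    simp [h4D3, h0]
  · refine hd.ord_t_sub_eq_one v hj hc ?_ (by simp)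
    simp only [h4B3, Polynomial.map_add, Polynomial.map_X, Polynomial.map_C, eval_add, eval_X,
      eval_C]
    intro h0
    apply hc27
    have : c = -((Int.castRingHom K) 27) := eq_neg_of_add_eq_zero_left h0
    rw [this]; simp

include e in
/-- **Level 4, final form**: at every place `v` of `F_M` where `j` is regular, `h` is regular,
`h ≠ 0, -16` there, and `h - c` is a uniformiser. -/
theorem h4_unramified_level4 (h : LaurentSeries ℤ)
    (hmem : coeffMap (Int.castRingHom K) h ∈ FK K M)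
    (hid : jqModC ℤ * (h ^ 4 * (h + 16)) = (h ^ 2 + 256 * h + 4096) ^ 3)
    (v : Place K (FK K M)) (hj : 0 ≤ v.ord (Final.jF K M)) :
    0 ≤ v.ord (⟨coeffMap (Int.castRingHom K) h, hmem⟩ : FK K M) ∧
      ∀ c : K, 0 < v.ord ((⟨coeffMap (Int.castRingHom K) h, hmem⟩ : FK K M)
          - algebraMap K (FK K M) c) →
        c ≠ 0 ∧ c ≠ -16 ∧
          v.ord ((⟨coeffMap (Int.castRingHom K) h, hmem⟩ : FK K M)
            - algebraMap K (FK K M) c) = 1 := by
  have hd := h4_horData_level4 e M h hmem hid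
  refine ⟨hd.ord_t_nonneg v hj, fun c hc => ⟨?_, ?_, ?_⟩⟩
  · have := hd.eval_D_ne_zero v hj hc
    intro h0
    apply this
    simp [h4D4, h0]
  · have := hd.eval_D_ne_zero v hj hc
    intro h0
    apply this
    simp [h4D4, h0]
  · exact hd.ord_t_sub_eq_one v hj hc (by simp) (by simp)

include e in
/-- **Level 9, final form**: at every place `v` of `F_M` where `j` is regular, `h` is regular,
`h` is not a cusp value there (`c ≠ 0`, `c ^ 2 + 9 * c + 27 ≠ 0`), and `h - c` is a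
uniformiser. -/
theorem h4_unramified_level9 (h : LaurentSeries ℤ)
    (hmem : coeffMap (Int.castRingHom K) h ∈ FK K M)
    (hid : jqModC ℤ * (h ^ 9 * (h ^ 2 + 9 * h + 27)) =
      ((h + 9) * (h ^ 3 + 243 * h ^ 2 + 2187 * h + 6561)) ^ 3)
    (v : Place K (FK K M)) (hj : 0 ≤ v.ord (Final.jF K M)) :
    0 ≤ v.ord (⟨coeffMap (Int.castRingHom K) h, hmem⟩ : FK K M) ∧
      ∀ c : K, 0 < v.ord ((⟨coeffMap (Int.castRingHom K) h, hmem⟩ : FK K M)
          - algebraMap K (FK K M) c) →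
        c ≠ 0 ∧ c ^ 2 + 9 * c + 27 ≠ 0 ∧
          v.ord ((⟨coeffMap (Int.castRingHom K) h, hmem⟩ : FK K M)
            - algebraMap K (FK K M) c) = 1 := by
  have hd := h4_horData_level9 e M h hmem hid
  refine ⟨hd.ord_t_nonneg v hj, fun c hc => ⟨?_, ?_, ?_⟩⟩
  · have := hd.eval_D_ne_zero v hj hc
    intro h0
    apply this
    simp [h4D9, h0]
  · have := hd.eval_D_ne_zero v hj hc
    intro h0
    apply this
    simp [h4D9, h0]
  · exact hd.ord_t_sub_eq_one v hj hc (by simp) (by simp)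

end Fermat.Agent.S18x.IG.H4
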