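import Fermat.Agent.S18x.IG.H6_HmbInst
import Fermat.Agent.S18x.Qepo.H1_Basis
import Fermat.Agent.S28.Deg.H8_Psi

/-!
# S18 [IG] (HM-b), final form (helper6): the Hauptmodul lies in the modular function field

Given the (HM-a) identities `j(q^d) * D_d(t₀) = N_d(t₀)` in `ℤ((q))` for `d ∣ m`
(`N_1` monic of degree `ψ(m)`, `D_d` monic, `deg D_1 < deg N_1`, `t₀ = q⁻¹ + ..`):
for every field `K` of characteristic `0` and every field `κ` of characteristic `ℓ ∤ m`
the image `t` of `t₀` lies in `K(j_d : d ∣ m)`, generates it, and is transcendental.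
Hence `t ∈ K(j_d : d ∣ M)` for every multiple `M` of `m`.
-/

set_option autoImplicit false
set_option linter.unusedSectionVars false
set_option linter.style.haveILetI false
set_option synthInstance.maxHeartbeats 400000
set_option maxHeartbeats 1000000

open ModularCurve IntermediateField Polynomial

noncomputable section

namespace Fermat.Agent.S18x.IG.H6

open Fermat.Agent.S28.Asm

/-- The hypotheses on a Hauptmodul `t₀ ∈ ℤ((q))` of level `m` ((HM-a) in `aeval` form). -/
structure H6Haupt (m : ℕ) [NeZero m] (t₀ : LaurentSeries ℤ) (N D : ℕ → ℤ[X]) : Prop where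
  coeff_neg_one : t₀.coeff (-1) = 1
  monicN : (N 1).Monic
  monicD : ∀ d, d ∣ m → (D d).Monic
  deg_lt : (D 1).natDegree < (N 1).natDegree
  deg_eq : (N 1).natDegree = psi m
  rel : ∀ (d : ℕ) [NeZero d], d ∣ m →
    qExpand ℤ d (jqModC ℤ) * aeval t₀ (D d) = aeval t₀ (N d)

variable {m : ℕ} [NeZero m] {t₀ : LaurentSeries ℤ} {N D : ℕ → ℤ[X]}

/-- **(HM-b), characteristic `0`.** -/
theorem H6Haupt.char_zero (h : H6Haupt m t₀ N D) (K : Type) [Field K] [CharZero K] :
    coeffMap (Int.castRingHom K) t₀ ∈ modularFunctionFieldFullC K m ∧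
      modularFunctionFieldFullC K m = K⟮coeffMap (Int.castRingHom K) t₀⟯ ∧
      Transcendental K (coeffMap (Int.castRingHom K) t₀) := by
  have hdeg : (N 1).natDegree ≤ degC K m := by
    rw [h.deg_eq, (Fermat.Agent.S18x.Qepo.degC_char_zero K m).2]
  obtain ⟨h1, h2, -, h4⟩ := h6_hauptmodul_int m t₀ h.coeff_neg_one N D h.monicN h.monicD h.deg_lt
    h.rel K hdeg
  exact ⟨h1, h2, h4⟩

/-- **(HM-b), characteristic `ℓ ∤ m`.** -/
theorem H6Haupt.char_l (h : H6Haupt m t₀ N D) (κ : Type) [Field κ] (ℓ : ℕ) [Fact ℓ.Prime]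
    [CharP κ ℓ] (hℓ : ¬ ℓ ∣ m) :
    coeffMap (Int.castRingHom κ) t₀ ∈ modularFunctionFieldFullC κ m ∧
      modularFunctionFieldFullC κ m = κ⟮coeffMap (Int.castRingHom κ) t₀⟯ ∧
      Transcendental κ (coeffMap (Int.castRingHom κ) t₀) := by
  have hdeg : (N 1).natDegree ≤ degC κ m := by
    rw [h.deg_eq, (Fermat.Agent.S18x.Qepo.degC_kappa κ m ℓ hℓ).2]
  obtain ⟨h1, h2, -, h4⟩ := h6_hauptmodul_int m t₀ h.coeff_neg_one N D h.monicN h.monicD h.deg_lt
    h.rel κ hdeg
  exact ⟨h1, h2, h4⟩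

/-- The Hauptmodul of level `m` lies in the function field of every level `M` with `m ∣ M`
(characteristic `0`). -/
theorem H6Haupt.mem_full (h : H6Haupt m t₀ N D) (K : Type) [Field K] [CharZero K]
    (M : ℕ) [NeZero M] (hmM : m ∣ M) :
    coeffMap (Int.castRingHom K) t₀ ∈ modularFunctionFieldFullC K M :=
  full_degeneracyC_le K hmM (h.char_zero K).1

/-- The same in characteristic `ℓ ∤ m`. -/
theorem H6Haupt.mem_full_l (h : H6Haupt m t₀ N D) (κ : Type) [Field κ] (ℓ : ℕ) [Fact ℓ.Prime]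
    [CharP κ ℓ] (hℓ : ¬ ℓ ∣ m) (M : ℕ) [NeZero M] (hmM : m ∣ M) :
    coeffMap (Int.castRingHom κ) t₀ ∈ modularFunctionFieldFullC κ M :=
  full_degeneracyC_le κ hmM (h.char_l κ ℓ hℓ).1

/-- The identities over an arbitrary commutative ring `R`. -/
theorem H6Haupt.rel_map (h : H6Haupt m t₀ N D) (R : Type*) [CommRing R] (d : ℕ) [NeZero d]
    (hd : d ∣ m) :
    qExpand R d (jqModC R) * aeval (coeffMap (Int.castRingHom R) t₀)
        ((D d).map (Int.castRingHom R)) =
      aeval (coeffMap (Int.castRingHom R) t₀) ((N d).map (Int.castRingHom R)) := by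
  have h1 := congrArg (coeffMap (Int.castRingHom R)) (h.rel d hd)
  rw [map_mul, coeffMap_qExpand, coeffMap_jqModC, h6_coeffMap_aeval, h6_coeffMap_aeval] at h1
  exact h1

/-- The values of `ψ` at the four base levels. -/
theorem h6_psi_two : psi 2 = 3 := Fermat.Agent.S28.Deg.H8.psi_prime 2 Nat.prime_two

theorem h6_psi_three : psi 3 = 4 := Fermat.Agent.S28.Deg.H8.psi_prime 3 Nat.prime_three

theorem h6_psi_four : psi 4 = 6 := by
  have h := Fermat.Agent.S28.Deg.H8.psi_mul_prime_of_dvd 2 2 Nat.prime_two dvd_rfl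
  rw [h6_psi_two] at h
  exact h

theorem h6_psi_nine : psi 9 = 12 := by
  have h := Fermat.Agent.S28.Deg.H8.psi_mul_prime_of_dvd 3 3 Nat.prime_three dvd_rfl
  rw [h6_psi_three] at h
  exact h

end Fermat.Agent.S18x.IG.H6
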