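import Fermat.Agent.S18x.IG.H28_HmLaurent
import Fermat.Agent.S18x.IG.H6_HmbDeg
import Fermat.Agent.S18x.IG.H29_Coord
import Fermat.Agent.S18x.IG.H4_HorLevels
import Fermat.Agent.S18x.Desc.H19_Bridge

/-!
# S18 [IG] (HM-INST) (helper28): the level 2 and level 3 Hauptmoduln, instantiated

`h2, h3 : LaurentSeries ℤ` (from `H28_HmLaurent`) satisfy helper6's `H6Haupt` at the levels
`2` and `3`.  Hence, with no hypothesis left:

* `h2R K ∈ F_M` for every field `K` of characteristic `0` and every even `M`, and for every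
  field of characteristic `ℓ ≠ 2`; `F_2 = K(h2R K)`; the same for `h3` (levels divisible by `3`,
  characteristic `ℓ ≠ 3`);
* the inputs `hord`, `hlead`, `hmem` of helper29's coordinate package;
* helper4's unramifiedness in `Place` form.
-/

set_option autoImplicit false
set_option linter.unusedSectionVars false
set_option linter.style.haveILetI false
set_option synthInstance.maxHeartbeats 400000
set_option maxHeartbeats 1000000

open ModularCurve IntermediateField Polynomial

noncomputable section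

namespace Fermat.Agent.S18x.IG.H28

/-! ### orders -/

theorem order_of_shape (x : LaurentSeries ℤ) (h1 : x.coeff (-1) = 1)
    (h2 : ∀ k : ℤ, k < -1 → x.coeff k = 0) : x.order = -1 := by
  have hne : x ≠ 0 := by
    intro h0
    rw [h0, HahnSeries.coeff_zero] at h1
    exact zero_ne_one h1
  apply le_antisymm
  · exact HahnSeries.order_le_of_coeff_ne_zero (by rw [h1]; exact one_ne_zero)
  · by_contra hlt
    rw [not_le] at hlt
    exact hne (HahnSeries.coeff_order_eq_zero.mp (h2 _ hlt))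

theorem order_h2 : h2.order = -1 :=
  order_of_shape h2 coeff_h2_neg_one fun _ hk => coeff_h2_of_lt hk

theorem order_h3 : h3.order = -1 :=
  order_of_shape h3 coeff_h3_neg_one fun _ hk => coeff_h3_of_lt hk

/-! ### the polynomial data -/

/-- numerators at level 2: `N2 1 = (X + 256)³` (for `j`), `N2 d = (X + 16)³` (for `j(q²)`) -/
def N2 (d : ℕ) : ℤ[X] := if d = 1 then (X + C 256) ^ 3 else (X + C 16) ^ 3

/-- denominators at level 2: `D2 1 = X²`, `D2 d = X` -/
def D2 (d : ℕ) : ℤ[X] := if d = 1 then X ^ 2 else X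

/-- numerators at level 3 -/
def N3 (d : ℕ) : ℤ[X] :=
  if d = 1 then (X + C 243) ^ 3 * (X + C 27) else (X + C 27) * (X + C 3) ^ 3

/-- denominators at level 3 -/
def D3 (d : ℕ) : ℤ[X] := if d = 1 then X ^ 3 else X

theorem N2_one : N2 1 = (X + C 256) ^ 3 := if_pos rfl
theorem N2_two : N2 2 = (X + C 16) ^ 3 := if_neg (by norm_num)
theorem D2_one : D2 1 = X ^ 2 := if_pos rfl
theorem D2_two : D2 2 = X := if_neg (by norm_num)
theorem N3_one : N3 1 = (X + C 243) ^ 3 * (X + C 27) := if_pos rfl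
theorem N3_three : N3 3 = (X + C 27) * (X + C 3) ^ 3 := if_neg (by norm_num)
theorem D3_one : D3 1 = X ^ 3 := if_pos rfl
theorem D3_three : D3 3 = X := if_neg (by norm_num)

theorem natDegree_N2_one : (N2 1).natDegree = 3 := by
  rw [N2_one, natDegree_pow, natDegree_X_add_C]

theorem natDegree_N3_one : (N3 1).natDegree = 4 := by
  rw [N3_one, Monic.natDegree_mul ((monic_X_add_C _).pow 3) (monic_X_add_C _),
    natDegree_pow, natDegree_X_add_C, natDegree_X_add_C]

/-- **(HM-a) at level 2 in helper6's packaged form.** -/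
theorem haupt_two : H6.H6Haupt 2 h2 N2 D2 where
  coeff_neg_one := coeff_h2_neg_one
  monicN := by rw [N2_one]; exact (monic_X_add_C _).pow 3
  monicD := by
    intro d hd
    rcases (Nat.dvd_prime Nat.prime_two).mp hd with rfl | rfl
    · rw [D2_one]; exact monic_X_pow 2
    · rw [D2_two]; exact monic_X
  deg_lt := by rw [natDegree_N2_one, D2_one, natDegree_X_pow]; norm_num
  deg_eq := by rw [natDegree_N2_one, H6.h6_psi_two]
  rel := by
    intro d _ hd
    rcases (Nat.dvd_prime Nat.prime_two).mp hd with rfl | rfl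
    · rw [N2_one, D2_one, qExpand_one_apply]
      simp only [map_pow, map_add, aeval_X, map_ofNat]
      exact j_h2
    · rw [N2_two, D2_two]
      simp only [map_pow, map_add, aeval_X, map_ofNat]
      exact j2_h2

/-- **(HM-a) at level 3 in helper6's packaged form.** -/
theorem haupt_three : H6.H6Haupt 3 h3 N3 D3 where
  coeff_neg_one := coeff_h3_neg_one
  monicN := by rw [N3_one]; exact ((monic_X_add_C _).pow 3).mul (monic_X_add_C _)
  monicD := by
    intro d hd
    rcases (Nat.dvd_prime Nat.prime_three).mp hd with rfl | rfl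
    · rw [D3_one]; exact monic_X_pow 3
    · rw [D3_three]; exact monic_X
  deg_lt := by rw [natDegree_N3_one, D3_one, natDegree_X_pow]; norm_num
  deg_eq := by rw [natDegree_N3_one, H6.h6_psi_three]
  rel := by
    intro d _ hd
    rcases (Nat.dvd_prime Nat.prime_three).mp hd with rfl | rfl
    · rw [N3_one, D3_one, qExpand_one_apply]
      simp only [map_pow, map_add, map_mul, aeval_X, map_ofNat]
      exact j_h3
    · rw [N3_three, D3_three]
      simp only [map_pow, map_add, map_mul, aeval_X, map_ofNat]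
      exact j3_h3

/-! ### membership and generation, characteristic `0` -/

section CharZero

variable (K : Type) [Field K] [CharZero K]

/-- `h2 ∈ F_M` for every even `M` (characteristic `0`), in helper29's spelling of `hmem`. -/
theorem h2_mem_full (M : ℕ) [NeZero M] (hM : 2 ∣ M) :
    coeffMap (Int.castRingHom K) h2 ∈ modularFunctionFieldFullC K M :=
  haupt_two.mem_full K M hM

theorem h3_mem_full (M : ℕ) [NeZero M] (hM : 3 ∣ M) :
    coeffMap (Int.castRingHom K) h3 ∈ modularFunctionFieldFullC K M :=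
  haupt_three.mem_full K M hM

theorem h2R_mem_full (M : ℕ) [NeZero M] (hM : 2 ∣ M) :
    h2R K ∈ modularFunctionFieldFullC K M :=
  h2_mem_full K M hM

theorem h3R_mem_full (M : ℕ) [NeZero M] (hM : 3 ∣ M) :
    h3R K ∈ modularFunctionFieldFullC K M :=
  h3_mem_full K M hM

/-- `F_2 = K(h2)` -/
theorem full_two_eq : modularFunctionFieldFullC K 2 = K⟮h2R K⟯ :=
  (haupt_two.char_zero K).2.1

/-- `F_3 = K(h3)` -/
theorem full_three_eq : modularFunctionFieldFullC K 3 = K⟮h3R K⟯ :=
  (haupt_three.char_zero K).2.1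

theorem transcendental_h2R : Transcendental K (h2R K) :=
  (haupt_two.char_zero K).2.2

theorem transcendental_h3R : Transcendental K (h3R K) :=
  (haupt_three.char_zero K).2.2

end CharZero

/-! ### membership and generation, characteristic `ℓ` -/

section CharL

variable (κ : Type) [Field κ] (ℓ : ℕ) [Fact ℓ.Prime] [CharP κ ℓ]

theorem not_dvd_two_of_ne (hℓ : ℓ ≠ 2) : ¬ ℓ ∣ 2 := by
  intro h
  rcases (Nat.dvd_prime Nat.prime_two).mp h with h1 | h1
  · exact (Fact.out : ℓ.Prime).one_lt.ne' h1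
  · exact hℓ h1

theorem not_dvd_three_of_ne (hℓ : ℓ ≠ 3) : ¬ ℓ ∣ 3 := by
  intro h
  rcases (Nat.dvd_prime Nat.prime_three).mp h with h1 | h1
  · exact (Fact.out : ℓ.Prime).one_lt.ne' h1
  · exact hℓ h1

/-- `h̄2 ∈ F̄_M` for every even `M`, in characteristic `ℓ ≠ 2` -/
theorem h2R_mem_full_l (hℓ : ℓ ≠ 2) (M : ℕ) [NeZero M] (hM : 2 ∣ M) :
    h2R κ ∈ modularFunctionFieldFullC κ M :=
  haupt_two.mem_full_l κ ℓ (not_dvd_two_of_ne ℓ hℓ) M hM

/-- `h̄3 ∈ F̄_M` for every `M` divisible by `3`, in characteristic `ℓ ≠ 3` -/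
theorem h3R_mem_full_l (hℓ : ℓ ≠ 3) (M : ℕ) [NeZero M] (hM : 3 ∣ M) :
    h3R κ ∈ modularFunctionFieldFullC κ M :=
  haupt_three.mem_full_l κ ℓ (not_dvd_three_of_ne ℓ hℓ) M hM

/-- `F̄_2 = κ(h̄2)` in characteristic `ℓ ≠ 2` -/
theorem full_two_eq_l (hℓ : ℓ ≠ 2) : modularFunctionFieldFullC κ 2 = κ⟮h2R κ⟯ :=
  (haupt_two.char_l κ ℓ (not_dvd_two_of_ne ℓ hℓ)).2.1

/-- `F̄_3 = κ(h̄3)` in characteristic `ℓ ≠ 3` -/
theorem full_three_eq_l (hℓ : ℓ ≠ 3) : modularFunctionFieldFullC κ 3 = κ⟮h3R κ⟯ :=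
  (haupt_three.char_l κ ℓ (not_dvd_three_of_ne ℓ hℓ)).2.1

theorem transcendental_h2R_l (hℓ : ℓ ≠ 2) : Transcendental κ (h2R κ) :=
  (haupt_two.char_l κ ℓ (not_dvd_two_of_ne ℓ hℓ)).2.2

theorem transcendental_h3R_l (hℓ : ℓ ≠ 3) : Transcendental κ (h3R κ) :=
  (haupt_three.char_l κ ℓ (not_dvd_three_of_ne ℓ hℓ)).2.2

end CharL

/-! ### helper29's coordinate package at `x₀ = h2`, `h3` -/

section Coord

variable (K : Type) [Field K] [CharZero K] (M : ℕ) [NeZero M]

/-- the Hauptmodul of level 2 as an element of `F_M`, `2 ∣ M` -/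
def coord2 (hM : 2 ∣ M) : ↥(modularFunctionFieldFullC K M) :=
  H29.coordM K M h2 (h2_mem_full K M hM)

/-- the Hauptmodul of level 3 as an element of `F_M`, `3 ∣ M` -/
def coord3 (hM : 3 ∣ M) : ↥(modularFunctionFieldFullC K M) :=
  H29.coordM K M h3 (h3_mem_full K M hM)

theorem coe_coord2 (hM : 2 ∣ M) : (coord2 K M hM : LaurentSeries K) = h2R K := rfl

theorem coe_coord3 (hM : 3 ∣ M) : (coord3 K M hM : LaurentSeries K) = h3R K := rfl

theorem transcendental_coord2 (hM : 2 ∣ M) : Transcendental K (coord2 K M hM) :=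
  H29.transcendental_coordM K M h2 order_h2 coeff_h2_neg_one (h2_mem_full K M hM)

theorem transcendental_coord3 (hM : 3 ∣ M) : Transcendental K (coord3 K M hM) :=
  H29.transcendental_coordM K M h3 order_h3 coeff_h3_neg_one (h3_mem_full K M hM)

theorem finiteDimensional_coord2 (hM : 2 ∣ M) :
    FiniteDimensional (IntermediateField.adjoin K {coord2 K M hM})
      ↥(modularFunctionFieldFullC K M) :=
  H29.finiteDimensional_coordM K M h2 order_h2 coeff_h2_neg_one (h2_mem_full K M hM)

theorem finiteDimensional_coord3 (hM : 3 ∣ M) :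
    FiniteDimensional (IntermediateField.adjoin K {coord3 K M hM})
      ↥(modularFunctionFieldFullC K M) :=
  H29.finiteDimensional_coordM K M h3 order_h3 coeff_h3_neg_one (h3_mem_full K M hM)

end Coord

/-! ### helper4's unramifiedness, hypothesis-free -/

section Hor

variable {K : Type} [Field K] [Algebra ℚ K] [CharZero K] [IsAlgClosed K]
variable (e : K →+* ℂ) (M : ℕ) [NeZero M]

theorem h2_mem_FK (hM : 2 ∣ M) :
    coeffMap (Int.castRingHom K) h2 ∈ Fermat.Agent.S24.Real.FK K M := by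
  rw [show Fermat.Agent.S24.Real.FK K M = modularFunctionFieldFullC K M from
    Fermat.Agent.S18x.Desc.H19.h19_laurentBaseChange_eq K M]
  exact h2_mem_full K M hM

theorem h3_mem_FK (hM : 3 ∣ M) :
    coeffMap (Int.castRingHom K) h3 ∈ Fermat.Agent.S24.Real.FK K M := by
  rw [show Fermat.Agent.S24.Real.FK K M = modularFunctionFieldFullC K M from
    Fermat.Agent.S18x.Desc.H19.h19_laurentBaseChange_eq K M]
  exact h3_mem_full K M hM

include e in
/-- **Level 2, horizontal unramifiedness, no hypothesis**: at every place `v` of `F_M`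
(`2 ∣ M`) where `j` is regular, `h2` is regular and non-zero, and `h2 - c` is a uniformiser
unless `c = -64`. -/
theorem unramified_h2 (hM : 2 ∣ M) (v : AlgebraicCurve.Place K (Fermat.Agent.S24.Real.FK K M))
    (hj : 0 ≤ v.ord (Fermat.Agent.S24.Final.jF K M)) :
    0 ≤ v.ord (⟨coeffMap (Int.castRingHom K) h2, h2_mem_FK M hM⟩ :
        Fermat.Agent.S24.Real.FK K M) ∧
      ∀ c : K, 0 < v.ord ((⟨coeffMap (Int.castRingHom K) h2, h2_mem_FK M hM⟩ :
          Fermat.Agent.S24.Real.FK K M) - algebraMap K (Fermat.Agent.S24.Real.FK K M) c) →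
        c ≠ 0 ∧ (c ≠ -64 →
          v.ord ((⟨coeffMap (Int.castRingHom K) h2, h2_mem_FK M hM⟩ :
            Fermat.Agent.S24.Real.FK K M) - algebraMap K (Fermat.Agent.S24.Real.FK K M) c) = 1) :=
  H4.h4_unramified_level2 e M h2 (h2_mem_FK M hM) j_h2 v hj

include e in
/-- **Level 3, horizontal unramifiedness, no hypothesis**: the same with `-27`. -/
theorem unramified_h3 (hM : 3 ∣ M) (v : AlgebraicCurve.Place K (Fermat.Agent.S24.Real.FK K M))
    (hj : 0 ≤ v.ord (Fermat.Agent.S24.Final.jF K M)) :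
    0 ≤ v.ord (⟨coeffMap (Int.castRingHom K) h3, h3_mem_FK M hM⟩ :
        Fermat.Agent.S24.Real.FK K M) ∧
      ∀ c : K, 0 < v.ord ((⟨coeffMap (Int.castRingHom K) h3, h3_mem_FK M hM⟩ :
          Fermat.Agent.S24.Real.FK K M) - algebraMap K (Fermat.Agent.S24.Real.FK K M) c) →
        c ≠ 0 ∧ (c ≠ -27 →
          v.ord ((⟨coeffMap (Int.castRingHom K) h3, h3_mem_FK M hM⟩ :
            Fermat.Agent.S24.Real.FK K M) - algebraMap K (Fermat.Agent.S24.Real.FK K M) c) = 1) :=
  H4.h4_unramified_level3 e M h3 (h3_mem_FK M hM) j_h3 v hj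

end Hor

end Fermat.Agent.S18x.IG.H28
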