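import Fermat.Agent.S18x.IG.H29_Coord

/-!
# S18 [IG] (helper29): the reduction of the inverse coordinate `x⁻¹`

Complement to `H29_Coord`: for the base coordinate `x = coordM K M x₀ hmem`
(`x₀ ∈ ℤ((q))` of order `-1` with leading coefficient `1`) and a discrete valuation subring `O`
of `K`, the reduction of `x⁻¹ ∈ gaussValM O M` is the inverse of the reduction of `x`; it has
`q`-order `+1`, so it is non-zero, transcendental over the residue field, and its order is
prime to every prime `p` (the hypothesis `¬ (p : ℤ) ∣ order` of the vertical separability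
criterion, for both charts `x` and `x⁻¹`).
-/

set_option autoImplicit false
set_option linter.unusedSectionVars false
set_option linter.style.haveILetI false
set_option synthInstance.maxHeartbeats 400000
set_option maxHeartbeats 1000000

open IntermediateField ModularCurve

noncomputable section

namespace Fermat.Agent.S18x.IG.H29

open Fermat.Agent.S18x.Spec.H26 Fermat.Agent.S18x.Dict.H20

/-- In a field of Laurent series, the order of an inverse is the negative of the order. -/
theorem order_inv_laurent {k : Type*} [Field k] (y : LaurentSeries k) (hy : y ≠ 0) :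
    (y⁻¹).order = -y.order := by
  have h1 : y * y⁻¹ = 1 := mul_inv_cancel₀ hy
  have h2 : (y * y⁻¹).order = y.order + (y⁻¹).order :=
    HahnSeries.order_mul hy (inv_ne_zero hy)
  rw [h1, HahnSeries.order_one] at h2
  linarith

section DVR

variable {K : Type} [Field K] (O : ValuationSubring K) [IsDiscreteValuationRing O]
  (M : ℕ) [NeZero M]
  (x₀ : LaurentSeries ℤ) (hord : x₀.order = -1) (hlead : x₀.coeff (-1) = 1)
  (hmem : coeffMap (Int.castRingHom K) x₀ ∈ modularFunctionFieldFullC K M)

include hlead in
/-- The reduction of `x⁻¹` is the inverse of the reduction of `x`. -/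
theorem gaussRedM_coordM_inv :
    gaussRedM O M ⟨(coordM K M x₀ hmem)⁻¹, coordM_inv_mem_gaussValM O M x₀ hlead hmem⟩
      = (gaussRedM O M ⟨coordM K M x₀ hmem, coordM_mem_gaussValM O M x₀ hmem⟩)⁻¹ := by
  have hmul : (⟨coordM K M x₀ hmem, coordM_mem_gaussValM O M x₀ hmem⟩ : gaussValM O M)
      * ⟨(coordM K M x₀ hmem)⁻¹, coordM_inv_mem_gaussValM O M x₀ hlead hmem⟩ = 1 :=
    Subtype.ext (coordM_mul_inv K M x₀ hlead hmem)
  have h1 := congrArg (gaussRedM O M) hmul
  rw [map_mul, map_one] at h1
  exact eq_inv_of_mul_eq_one_right h1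

include hlead in
/-- The reduction of `x⁻¹` over the residue field, explicitly. -/
theorem gaussRedM_coordM_inv' :
    gaussRedM O M ⟨(coordM K M x₀ hmem)⁻¹, coordM_inv_mem_gaussValM O M x₀ hlead hmem⟩
      = (coeffMap (Int.castRingHom (IsLocalRing.ResidueField O)) x₀)⁻¹ := by
  rw [gaussRedM_coordM_inv O M x₀ hlead hmem, gaussRedM_coordM]

include hlead in
theorem gaussRedM_coordM_inv_ne_zero :
    gaussRedM O M ⟨(coordM K M x₀ hmem)⁻¹, coordM_inv_mem_gaussValM O M x₀ hlead hmem⟩ ≠ 0 := by
  rw [gaussRedM_coordM_inv O M x₀ hlead hmem]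
  exact inv_ne_zero (gaussRedM_coordM_ne_zero O M x₀ hlead hmem)

include hord hlead in
/-- The reduction of `x⁻¹` has `q`-order `+1`. -/
theorem order_gaussRedM_coordM_inv :
    (gaussRedM O M
      ⟨(coordM K M x₀ hmem)⁻¹, coordM_inv_mem_gaussValM O M x₀ hlead hmem⟩).order = 1 := by
  rw [gaussRedM_coordM_inv O M x₀ hlead hmem,
    order_inv_laurent _ (gaussRedM_coordM_ne_zero O M x₀ hlead hmem),
    order_gaussRedM_coordM O M x₀ hord hlead hmem]
  norm_num

include hord hlead in
/-- The reduction of `x⁻¹` is transcendental over the residue field. -/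
theorem transcendental_gaussRedM_coordM_inv :
    Transcendental (IsLocalRing.ResidueField O)
      (gaussRedM O M
        ⟨(coordM K M x₀ hmem)⁻¹, coordM_inv_mem_gaussValM O M x₀ hlead hmem⟩) := by
  refine transcendental_of_order_ne_zero _ ?_
  rw [order_gaussRedM_coordM_inv O M x₀ hord hlead hmem]
  decide

include hord hlead in
/-- Hypothesis (ii) of the vertical separability criterion for the chart `x`: the `q`-order of
the reduction is prime to `p`. -/
theorem not_dvd_order_gaussRedM_coordM (p : ℕ) (hp : p.Prime) :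
    ¬ (p : ℤ) ∣
      (gaussRedM O M ⟨coordM K M x₀ hmem, coordM_mem_gaussValM O M x₀ hmem⟩).order := by
  rw [order_gaussRedM_coordM O M x₀ hord hlead hmem, Int.dvd_neg]
  intro h
  have h1 : p ∣ 1 := by exact_mod_cast h
  exact hp.one_lt.ne' (Nat.dvd_one.mp h1)

include hord hlead in
/-- Hypothesis (ii) of the vertical separability criterion for the chart `x⁻¹`. -/
theorem not_dvd_order_gaussRedM_coordM_inv (p : ℕ) (hp : p.Prime) :
    ¬ (p : ℤ) ∣
      (gaussRedM O M
        ⟨(coordM K M x₀ hmem)⁻¹, coordM_inv_mem_gaussValM O M x₀ hlead hmem⟩).order := by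
  rw [order_gaussRedM_coordM_inv O M x₀ hord hlead hmem]
  intro h
  have h1 : p ∣ 1 := by exact_mod_cast h
  exact hp.one_lt.ne' (Nat.dvd_one.mp h1)

end DVR

end Fermat.Agent.S18x.IG.H29

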