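import Fermat.Agent.S18x.IG.H28_HmInst
import Fermat.Agent.S18x.IG.H29_CoordInv
import Fermat.Agent.S18x.Qepo.H1_Sat
import Fermat.Agent.S18x.Qepo.H2_SatH

/-!
# (SAT-INST): the three saturation statements of `Dict.H7.H7IG` at the Hauptmodul levels

For a discrete valuation ring `O` of a field `K` of characteristic `0` with residue
characteristic `ℓ ∤ M`, `F = modularFunctionFieldFullC K M`, `V = gaussValM O M`, and a
coordinate `x = coordM K M x₀ hmem` (`x₀ ∈ ℤ((q))`) satisfying a Hauptmodul identity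
`j * D₀(x₀) = N₀(x₀)` over `ℤ` (`N₀`, `D₀` monic, `deg D₀ < deg N₀`, `D₀(0) = 0`, `N₀(0)` a unit
of `O`), the charts `chart O x`, `chart O x⁻¹` and `chart₁₂ O x x⁻¹` are saturated in `V`:

* `h10_sat_coordM` : the generic statement (any level, any `x₀`);
* `h10_sat_coord2` : level `2` (`x = H28.coord2 K M hM`, `2 ∣ M`, `ℓ ∤ M`);
* `h10_sat_coord3` : level `3` (`x = H28.coord3 K M hM`, `3 ∣ M`, `ℓ ∤ M`).

The conclusions are VERBATIM the three saturation conjuncts of `Dict.H7.H7IG` (with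
`x' := x⁻¹`), for any `[Algebra O F] [IsScalarTower O K F]`.

Inputs: helper1's `Qepo.sat_chart` (saturation of the `j`-chart), helper2's
`Qepo.H2.h2sat_of_identity` (transfer along a Hauptmodul identity), helper28's `j_h2`, `j_h3`,
helper29's `coordM`.
-/

set_option autoImplicit false
set_option linter.unusedSectionVars false
set_option linter.unusedVariables false
set_option synthInstance.maxHeartbeats 400000
set_option maxHeartbeats 1000000

open ModularCurve Polynomial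

noncomputable section

namespace Fermat.Agent.S18x.IG.H10

open Fermat.Agent.S18x.Dict.H20 Fermat.Agent.S18x.Spec.H26 Fermat.Agent.S28.Asm
  Fermat.Agent.S18x.IG.H29 Fermat.Agent.S18x.IG.H28

section Unit

variable {K : Type} [Field K] (O : ValuationSubring K)

/-- A natural number prime to the residue characteristic is a unit of `O`. -/
theorem h10_isUnit_natCast (ℓ : ℕ) [CharP (IsLocalRing.ResidueField O) ℓ] (n : ℕ)
    (hn : ¬ ℓ ∣ n) : IsUnit ((n : ℕ) : O) := by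
  by_contra hu
  have h1 : (n : O) ∈ IsLocalRing.maximalIdeal O := (IsLocalRing.mem_maximalIdeal _).2 hu
  have h2 : IsLocalRing.residue O (n : O) = 0 := (IsLocalRing.residue_eq_zero_iff _).2 h1
  rw [map_natCast] at h2
  exact hn ((CharP.cast_eq_zero_iff (IsLocalRing.ResidueField O) ℓ n).1 h2)

/-- An integer which is a natural number prime to the residue characteristic is a unit of
`O`. -/
theorem h10_isUnit_intCast (ℓ : ℕ) [CharP (IsLocalRing.ResidueField O) ℓ] (n : ℕ)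
    (hn : ¬ ℓ ∣ n) (z : ℤ) (hz : z = (n : ℤ)) : IsUnit ((z : ℤ) : O) := by
  rw [hz, Int.cast_natCast]
  exact h10_isUnit_natCast O ℓ n hn

end Unit

section Coe

variable {K : Type} [Field K] (O : ValuationSubring K) (M : ℕ) [NeZero M]
  [Algebra O ↥(modularFunctionFieldFullC K M)]

/-- The value at `x ∈ F` of an integral polynomial (mapped to `O[X]`), as a Laurent series. -/
theorem h10_coe_aeval_int (x₀ : LaurentSeries ℤ)
    (hmem : coeffMap (Int.castRingHom K) x₀ ∈ modularFunctionFieldFullC K M) (P₀ : ℤ[X]) :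
    ((aeval (coordM K M x₀ hmem) (P₀.map (Int.castRingHom O)) :
        ↥(modularFunctionFieldFullC K M)) : LaurentSeries K) =
      coeffMap (Int.castRingHom K) (aeval x₀ P₀) := by
  have h1 : ((aeval (coordM K M x₀ hmem) (P₀.map (Int.castRingHom O)) :
        ↥(modularFunctionFieldFullC K M)) : LaurentSeries K) =
      (algebraMap ↥(modularFunctionFieldFullC K M) (LaurentSeries K))
        (aeval (coordM K M x₀ hmem) (P₀.map (Int.castRingHom O))) := rfl
  rw [h1, aeval_def, Polynomial.eval₂_map, Polynomial.hom_eval₂, aeval_def,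
    Polynomial.hom_eval₂]
  have h2 : (algebraMap ↥(modularFunctionFieldFullC K M) (LaurentSeries K)).comp
      ((algebraMap O ↥(modularFunctionFieldFullC K M)).comp (Int.castRingHom O)) =
      (coeffMap (Int.castRingHom K)).comp (algebraMap ℤ (LaurentSeries ℤ)) :=
    RingHom.ext_int _ _
  rw [h2]
  rfl

end Coe

section Generic

variable {K : Type} [Field K] [CharZero K] (O : ValuationSubring K)
  [IsDiscreteValuationRing O] (M : ℕ) [NeZero M]
  [Algebra O ↥(modularFunctionFieldFullC K M)]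
  [IsScalarTower O K ↥(modularFunctionFieldFullC K M)]

/-- **The Hauptmodul identity in `F`**, over `O`. -/
theorem h10_identity_coordM (x₀ : LaurentSeries ℤ)
    (hmem : coeffMap (Int.castRingHom K) x₀ ∈ modularFunctionFieldFullC K M)
    (N₀ D₀ : ℤ[X]) (hid : jqModC ℤ * aeval x₀ D₀ = aeval x₀ N₀) :
    jbFull K M * aeval (coordM K M x₀ hmem) (D₀.map (Int.castRingHom O)) =
      aeval (coordM K M x₀ hmem) (N₀.map (Int.castRingHom O)) := by
  apply Subtype.ext
  show ((jbFull K M : ↥(modularFunctionFieldFullC K M)) : LaurentSeries K) *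
      ((aeval (coordM K M x₀ hmem) (D₀.map (Int.castRingHom O)) :
        ↥(modularFunctionFieldFullC K M)) : LaurentSeries K) =
      ((aeval (coordM K M x₀ hmem) (N₀.map (Int.castRingHom O)) :
        ↥(modularFunctionFieldFullC K M)) : LaurentSeries K)
  rw [h10_coe_aeval_int, h10_coe_aeval_int, ← hid, map_mul, coeffMap_jqModC]
  rfl

/-- **(SAT-INST), generic form**: the three saturation conjuncts of `Dict.H7.H7IG` for a
coordinate `x = coordM K M x₀ hmem` satisfying a Hauptmodul identity over `ℤ`. -/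
theorem h10_sat_coordM (x₀ : LaurentSeries ℤ) (hord : x₀.order = -1)
    (hlead : x₀.coeff (-1) = 1)
    (hmem : coeffMap (Int.castRingHom K) x₀ ∈ modularFunctionFieldFullC K M)
    (N₀ D₀ : ℤ[X]) (hN : N₀.Monic) (hD : D₀.Monic) (hdeg : D₀.natDegree < N₀.natDegree)
    (hid : jqModC ℤ * aeval x₀ D₀ = aeval x₀ N₀) (hD0 : D₀.coeff 0 = 0)
    (hu : IsUnit ((N₀.coeff 0 : ℤ) : O))
    (π₀ : O) (hπ₀ : Irreducible π₀) (ℓ : ℕ) [Fact ℓ.Prime]
    [CharP (IsLocalRing.ResidueField O) ℓ] (hℓM : ¬ ℓ ∣ M) :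
    (∀ v ∈ gaussValM O M,
      algebraMap O ↥(modularFunctionFieldFullC K M) π₀ * v ∈ chart O (coordM K M x₀ hmem) →
        v ∈ chart O (coordM K M x₀ hmem)) ∧
    (∀ v ∈ gaussValM O M,
      algebraMap O ↥(modularFunctionFieldFullC K M) π₀ * v ∈ chart O (coordM K M x₀ hmem)⁻¹ →
        v ∈ chart O (coordM K M x₀ hmem)⁻¹) ∧
    (∀ v ∈ gaussValM O M,
      algebraMap O ↥(modularFunctionFieldFullC K M) π₀ * v ∈
        chart₁₂ O (coordM K M x₀ hmem) (coordM K M x₀ hmem)⁻¹ →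
        v ∈ chart₁₂ O (coordM K M x₀ hmem) (coordM K M x₀ hmem)⁻¹) := by
  obtain ⟨u, hu'⟩ := hu
  have hinj : Function.Injective (Int.castRingHom O) := by
    have : CharZero O := inferInstance
    exact Int.cast_injective
  have h := Fermat.Agent.S18x.Qepo.H2.h2sat_of_identity (O := O)
    (F := ↥(modularFunctionFieldFullC K M)) (jbFull K M) (coordM K M x₀ hmem)
    (N₀.map (Int.castRingHom O)) (D₀.map (Int.castRingHom O)) (gaussValM O M).toSubring
    (transcendental_coordM_O O M x₀ hord hlead hmem) π₀ hπ₀.prime (hN.map _) (hD.map _)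
    (by rw [hN.natDegree_map, hD.natDegree_map]; exact hdeg)
    (h10_identity_coordM O M x₀ hmem N₀ D₀ hid)
    (by rw [coeff_map, hD0, map_zero])
    ((u⁻¹ : Oˣ) : O)
    (by rw [coeff_map, eq_intCast, ← hu']; exact Units.inv_mul u)
    (coordM_mem_gaussValM O M x₀ hmem)
    (Fermat.Agent.S18x.Qepo.sat_chart O π₀ hπ₀ M ℓ hℓM)
  exact ⟨fun v hv => h.1 v hv, fun v hv => h.2.1 v hv, fun v hv => h.2.2 v hv⟩

end Generic

section Levels

variable {K : Type} [Field K] [CharZero K] (O : ValuationSubring K)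
  [IsDiscreteValuationRing O] (M : ℕ) [NeZero M]
  [Algebra O ↥(modularFunctionFieldFullC K M)]
  [IsScalarTower O K ↥(modularFunctionFieldFullC K M)]

/-- The level `2` numerator `(X + 256) ^ 3`. -/
def h10_N2 : ℤ[X] := (X + C 256) ^ 3

/-- The level `2` denominator `X ^ 2`. -/
def h10_D2 : ℤ[X] := X ^ 2

/-- The level `3` numerator `(X + 243) ^ 3 * (X + 27)`. -/
def h10_N3 : ℤ[X] := (X + C 243) ^ 3 * (X + C 27)

/-- The level `3` denominator `X ^ 3`. -/
def h10_D3 : ℤ[X] := X ^ 3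

theorem h10_N2_monic : h10_N2.Monic := (monic_X_add_C 256).pow 3

theorem h10_D2_monic : h10_D2.Monic := monic_X_pow 2

theorem h10_N3_monic : h10_N3.Monic := ((monic_X_add_C 243).pow 3).mul (monic_X_add_C 27)

theorem h10_D3_monic : h10_D3.Monic := monic_X_pow 3

theorem h10_natDegree_N2 : h10_N2.natDegree = 3 := by
  rw [h10_N2, (monic_X_add_C (256 : ℤ)).natDegree_pow, natDegree_X_add_C]

theorem h10_natDegree_D2 : h10_D2.natDegree = 2 := natDegree_X_pow 2

theorem h10_natDegree_N3 : h10_N3.natDegree = 4 := by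
  rw [h10_N3, ((monic_X_add_C (243 : ℤ)).pow 3).natDegree_mul (monic_X_add_C 27),
    (monic_X_add_C (243 : ℤ)).natDegree_pow, natDegree_X_add_C, natDegree_X_add_C]

theorem h10_natDegree_D3 : h10_D3.natDegree = 3 := natDegree_X_pow 3

theorem h10_coeff_zero_N2 : h10_N2.coeff 0 = 16777216 := by
  rw [coeff_zero_eq_eval_zero, h10_N2]
  simp

theorem h10_coeff_zero_D2 : h10_D2.coeff 0 = 0 := by
  rw [coeff_zero_eq_eval_zero, h10_D2]
  simp

theorem h10_coeff_zero_N3 : h10_N3.coeff 0 = 387420489 := by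
  rw [coeff_zero_eq_eval_zero, h10_N3]
  simp

theorem h10_coeff_zero_D3 : h10_D3.coeff 0 = 0 := by
  rw [coeff_zero_eq_eval_zero, h10_D3]
  simp

/-- The level `2` Hauptmodul identity over `ℤ`, in polynomial form. -/
theorem h10_identity_two : jqModC ℤ * aeval h2 h10_D2 = aeval h2 h10_N2 := by
  rw [h10_D2, h10_N2, map_pow, aeval_X, map_pow, map_add, aeval_X, aeval_C, map_ofNat]
  exact j_h2

/-- The level `3` Hauptmodul identity over `ℤ`, in polynomial form. -/
theorem h10_identity_three : jqModC ℤ * aeval h3 h10_D3 = aeval h3 h10_N3 := by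
  rw [h10_D3, h10_N3, map_pow, aeval_X, map_mul, map_pow, map_add, map_add, aeval_X, aeval_C,
    aeval_C, map_ofNat, map_ofNat]
  exact j_h3

/-- `2 ^ 24` is prime to `ℓ ≠ 2`. -/
theorem h10_not_dvd_two_pow {ℓ : ℕ} (hℓ : ℓ.Prime) (h2 : ℓ ≠ 2) : ¬ ℓ ∣ 16777216 := by
  intro hd
  have h1 : ℓ ∣ 2 ^ 24 := by
    have : (2 : ℕ) ^ 24 = 16777216 := by norm_num
    rw [this]; exact hd
  exact h2 ((Nat.prime_dvd_prime_iff_eq hℓ Nat.prime_two).1 (hℓ.dvd_of_dvd_pow h1))

/-- `3 ^ 18` is prime to `ℓ ≠ 3`. -/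
theorem h10_not_dvd_three_pow {ℓ : ℕ} (hℓ : ℓ.Prime) (h3 : ℓ ≠ 3) : ¬ ℓ ∣ 387420489 := by
  intro hd
  have h1 : ℓ ∣ 3 ^ 18 := by
    have : (3 : ℕ) ^ 18 = 387420489 := by norm_num
    rw [this]; exact hd
  exact h3 ((Nat.prime_dvd_prime_iff_eq hℓ Nat.prime_three).1 (hℓ.dvd_of_dvd_pow h1))

/-- **(SAT-INST), level `2`**: the three saturation conjuncts of `Dict.H7.H7IG` for
`x = H28.coord2 K M hM`, `x' = x⁻¹`, when the residue characteristic `ℓ` is `≠ 2`. -/
theorem h10_sat_coord2_of_ne (hM : 2 ∣ M) (π₀ : O) (hπ₀ : Irreducible π₀) (ℓ : ℕ)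
    [Fact ℓ.Prime] [CharP (IsLocalRing.ResidueField O) ℓ] (hℓM : ¬ ℓ ∣ M) (hℓ2 : ℓ ≠ 2) :
    (∀ v ∈ gaussValM O M,
      algebraMap O ↥(modularFunctionFieldFullC K M) π₀ * v ∈ chart O (coord2 K M hM) →
        v ∈ chart O (coord2 K M hM)) ∧
    (∀ v ∈ gaussValM O M,
      algebraMap O ↥(modularFunctionFieldFullC K M) π₀ * v ∈ chart O (coord2 K M hM)⁻¹ →
        v ∈ chart O (coord2 K M hM)⁻¹) ∧
    (∀ v ∈ gaussValM O M,
      algebraMap O ↥(modularFunctionFieldFullC K M) π₀ * v ∈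
        chart₁₂ O (coord2 K M hM) (coord2 K M hM)⁻¹ →
        v ∈ chart₁₂ O (coord2 K M hM) (coord2 K M hM)⁻¹) :=
  h10_sat_coordM O M h2 order_h2 coeff_h2_neg_one (h2_mem_full K M hM) h10_N2 h10_D2
    h10_N2_monic h10_D2_monic (by rw [h10_natDegree_D2, h10_natDegree_N2]; norm_num)
    h10_identity_two h10_coeff_zero_D2
    (h10_isUnit_intCast O ℓ 16777216 (h10_not_dvd_two_pow Fact.out hℓ2) _
      (by rw [h10_coeff_zero_N2]; rfl))
    π₀ hπ₀ ℓ hℓM

/-- **(SAT-INST), level `2`** (`2 ∣ M`, `ℓ ∤ M`). -/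
theorem h10_sat_coord2 (hM : 2 ∣ M) (π₀ : O) (hπ₀ : Irreducible π₀) (ℓ : ℕ)
    [Fact ℓ.Prime] [CharP (IsLocalRing.ResidueField O) ℓ] (hℓM : ¬ ℓ ∣ M) :
    (∀ v ∈ gaussValM O M,
      algebraMap O ↥(modularFunctionFieldFullC K M) π₀ * v ∈ chart O (coord2 K M hM) →
        v ∈ chart O (coord2 K M hM)) ∧
    (∀ v ∈ gaussValM O M,
      algebraMap O ↥(modularFunctionFieldFullC K M) π₀ * v ∈ chart O (coord2 K M hM)⁻¹ →
        v ∈ chart O (coord2 K M hM)⁻¹) ∧
    (∀ v ∈ gaussValM O M,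
      algebraMap O ↥(modularFunctionFieldFullC K M) π₀ * v ∈
        chart₁₂ O (coord2 K M hM) (coord2 K M hM)⁻¹ →
        v ∈ chart₁₂ O (coord2 K M hM) (coord2 K M hM)⁻¹) :=
  h10_sat_coord2_of_ne O M hM π₀ hπ₀ ℓ hℓM (fun h => hℓM (h ▸ hM))

/-- **(SAT-INST), level `3`**: the three saturation conjuncts of `Dict.H7.H7IG` for
`x = H28.coord3 K M hM`, `x' = x⁻¹`, when the residue characteristic `ℓ` is `≠ 3`. -/
theorem h10_sat_coord3_of_ne (hM : 3 ∣ M) (π₀ : O) (hπ₀ : Irreducible π₀) (ℓ : ℕ)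
    [Fact ℓ.Prime] [CharP (IsLocalRing.ResidueField O) ℓ] (hℓM : ¬ ℓ ∣ M) (hℓ3 : ℓ ≠ 3) :
    (∀ v ∈ gaussValM O M,
      algebraMap O ↥(modularFunctionFieldFullC K M) π₀ * v ∈ chart O (coord3 K M hM) →
        v ∈ chart O (coord3 K M hM)) ∧
    (∀ v ∈ gaussValM O M,
      algebraMap O ↥(modularFunctionFieldFullC K M) π₀ * v ∈ chart O (coord3 K M hM)⁻¹ →
        v ∈ chart O (coord3 K M hM)⁻¹) ∧
    (∀ v ∈ gaussValM O M,
      algebraMap O ↥(modularFunctionFieldFullC K M) π₀ * v ∈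
        chart₁₂ O (coord3 K M hM) (coord3 K M hM)⁻¹ →
        v ∈ chart₁₂ O (coord3 K M hM) (coord3 K M hM)⁻¹) :=
  h10_sat_coordM O M h3 order_h3 coeff_h3_neg_one (h3_mem_full K M hM) h10_N3 h10_D3
    h10_N3_monic h10_D3_monic (by rw [h10_natDegree_D3, h10_natDegree_N3]; norm_num)
    h10_identity_three h10_coeff_zero_D3
    (h10_isUnit_intCast O ℓ 387420489 (h10_not_dvd_three_pow Fact.out hℓ3) _
      (by rw [h10_coeff_zero_N3]; rfl))
    π₀ hπ₀ ℓ hℓM

/-- **(SAT-INST), level `3`** (`3 ∣ M`, `ℓ ∤ M`). -/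
theorem h10_sat_coord3 (hM : 3 ∣ M) (π₀ : O) (hπ₀ : Irreducible π₀) (ℓ : ℕ)
    [Fact ℓ.Prime] [CharP (IsLocalRing.ResidueField O) ℓ] (hℓM : ¬ ℓ ∣ M) :
    (∀ v ∈ gaussValM O M,
      algebraMap O ↥(modularFunctionFieldFullC K M) π₀ * v ∈ chart O (coord3 K M hM) →
        v ∈ chart O (coord3 K M hM)) ∧
    (∀ v ∈ gaussValM O M,
      algebraMap O ↥(modularFunctionFieldFullC K M) π₀ * v ∈ chart O (coord3 K M hM)⁻¹ →
        v ∈ chart O (coord3 K M hM)⁻¹) ∧
    (∀ v ∈ gaussValM O M,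
      algebraMap O ↥(modularFunctionFieldFullC K M) π₀ * v ∈
        chart₁₂ O (coord3 K M hM) (coord3 K M hM)⁻¹ →
        v ∈ chart₁₂ O (coord3 K M hM) (coord3 K M hM)⁻¹) :=
  h10_sat_coord3_of_ne O M hM π₀ hπ₀ ℓ hℓM (fun h => hℓM (h ▸ hM))

end Levels

end Fermat.Agent.S18x.IG.H10
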