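import Mathlib
import Fermat.Agent.S18x.Spec.H26_Charts

/-!
# S18 [IG] — shared definitions of the assembly [IG-ASM] (helper24)

* `HSM π 𝔫` : **(SM) in element form** at an ideal `𝔫` of a ring `B`: there is `t ∈ 𝔫` such
  that every `y ∈ 𝔫` satisfies `s * y = π * u + t * w` for some `s ∉ 𝔫`
  (after localisation at `𝔫` the ideal `𝔫` is generated by `π` and `t`).
* `chartX O x`, `chartPi O x π₀` : the coordinate and the uniformiser as elements of the chart
  `(Spec.H26.chart O x).toSubring`.
* `chartHom O x : O[X] →+* ↥(chart O x).toSubring`, `X ↦ x`, and the algebra structure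
  `chartAlgebra O x` it induces (a reducible definition, to be activated by `letI`).
* `HSMChart O x π₀` : (SM) at every maximal ideal of the chart containing the uniformiser.
-/

set_option autoImplicit false

open Polynomial

namespace Fermat.Agent.S18x.IG

/-- **(SM) in element form** at an ideal `𝔫`. -/
def HSM {B : Type*} [CommRing B] (π : B) (𝔫 : Ideal B) : Prop :=
  ∃ t ∈ 𝔫, ∀ y ∈ 𝔫, ∃ s : B, s ∉ 𝔫 ∧ ∃ u w : B, s * y = π * u + t * w

theorem hSM_iff {B : Type*} [CommRing B] (π : B) (𝔫 : Ideal B) :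
    HSM π 𝔫 ↔ ∃ t ∈ 𝔫, ∀ y ∈ 𝔫, ∃ s : B, s ∉ 𝔫 ∧ ∃ u w : B, s * y = π * u + t * w :=
  Iff.rfl

section Chart

variable (O : Type*) {F : Type*} [CommRing O] [CommRing F] [Algebra O F]

/-- The coordinate `x` as an element of its chart. -/
def chartX (x : F) : ↥(Spec.H26.chart O x).toSubring :=
  ⟨x, Spec.H26.self_mem_chart O x⟩

/-- The constants in the chart. -/
def chartC (x : F) : O →+* ↥(Spec.H26.chart O x).toSubring :=
  (algebraMap O F).codRestrict (Spec.H26.chart O x).toSubring
    (fun c => (Spec.H26.chart O x).algebraMap_mem c)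

/-- The uniformiser as an element of the chart. -/
def chartPi (x : F) (π₀ : O) : ↥(Spec.H26.chart O x).toSubring :=
  ⟨algebraMap O F π₀, (Spec.H26.chart O x).algebraMap_mem π₀⟩

@[simp] theorem coe_chartX (x : F) : ((chartX O x : ↥(Spec.H26.chart O x).toSubring) : F) = x :=
  rfl

@[simp] theorem coe_chartC (x : F) (c : O) :
    ((chartC O x c : ↥(Spec.H26.chart O x).toSubring) : F) = algebraMap O F c := rfl

@[simp] theorem coe_chartPi (x : F) (π₀ : O) :
    ((chartPi O x π₀ : ↥(Spec.H26.chart O x).toSubring) : F) = algebraMap O F π₀ := rfl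

theorem chartC_eq_chartPi (x : F) (π₀ : O) : chartC O x π₀ = chartPi O x π₀ := rfl

/-- The structure map `O[X] → chart O x`, `X ↦ x`. -/
noncomputable def chartHom (x : F) : O[X] →+* ↥(Spec.H26.chart O x).toSubring :=
  Polynomial.eval₂RingHom (chartC O x) (chartX O x)

theorem coe_chartHom (x : F) (P : O[X]) :
    ((chartHom O x P : ↥(Spec.H26.chart O x).toSubring) : F) = Polynomial.aeval x P := by
  have h : ((Spec.H26.chart O x).toSubring.subtype).comp (chartHom O x)
      = (Polynomial.aeval x : O[X] →ₐ[O] F).toRingHom := by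
    apply Polynomial.ringHom_ext
    · intro c
      simp only [chartHom, RingHom.coe_comp, Function.comp_apply, Polynomial.coe_eval₂RingHom,
        Polynomial.eval₂_C, AlgHom.toRingHom_eq_coe, RingHom.coe_coe, Polynomial.aeval_C]
      rfl
    · simp only [chartHom, RingHom.coe_comp, Function.comp_apply, Polynomial.coe_eval₂RingHom,
        Polynomial.eval₂_X, AlgHom.toRingHom_eq_coe, RingHom.coe_coe, Polynomial.aeval_X]
      rfl
  exact congrArg (fun φ : O[X] →+* F => φ P) h

@[simp] theorem chartHom_X (x : F) : chartHom O x X = chartX O x := by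
  simp [chartHom]

@[simp] theorem chartHom_C (x : F) (c : O) : chartHom O x (C c) = chartC O x c := by
  simp [chartHom]

theorem chartHom_C_pi (x : F) (π₀ : O) : chartHom O x (C π₀) = chartPi O x π₀ := by
  rw [chartHom_C, chartC_eq_chartPi]

/-- The `O[X]`-algebra structure of the chart (`X ↦ x`); activate with `letI`. -/
@[reducible] noncomputable def chartAlgebra (x : F) :
    Algebra O[X] ↥(Spec.H26.chart O x).toSubring :=
  (chartHom O x).toAlgebra

theorem chartAlgebra_algebraMap (x : F) :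
    @algebraMap O[X] ↥(Spec.H26.chart O x).toSubring _ _ (chartAlgebra O x) = chartHom O x :=
  rfl

/-- **(SM) for a chart**: (SM) in element form at every maximal ideal of `chart O x`
containing the uniformiser.  This is `hSM₁` / `hSM₂` of `h26_kum_abs`, and `ht𝔫` + `hSM` of
`h7_LOC`. -/
def HSMChart (x : F) (π₀ : O) : Prop :=
  ∀ 𝔫 : Ideal ↥(Spec.H26.chart O x).toSubring, 𝔫.IsMaximal → chartPi O x π₀ ∈ 𝔫 →
    HSM (chartPi O x π₀) 𝔫

theorem hSMChart_iff (x : F) (π₀ : O) :
    HSMChart O x π₀ ↔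
      ∀ 𝔫 : Ideal ↥(Spec.H26.chart O x).toSubring, 𝔫.IsMaximal →
        (⟨algebraMap O F π₀, (Spec.H26.chart O x).algebraMap_mem π₀⟩ :
          ↥(Spec.H26.chart O x).toSubring) ∈ 𝔫 →
        ∃ t ∈ 𝔫, ∀ y ∈ 𝔫, ∃ s : ↥(Spec.H26.chart O x).toSubring, s ∉ 𝔫 ∧
          ∃ u w : ↥(Spec.H26.chart O x).toSubring,
            s * y = ⟨algebraMap O F π₀, (Spec.H26.chart O x).algebraMap_mem π₀⟩ * u + t * w :=
  Iff.rfl

end Chart

end Fermat.Agent.S18x.IG
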