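import Mathlib

/-!
# [IG] (I2-SEP): separability over a subfield of `k((q))` generated by an element of
order prime to `p`

Let `k` be a perfect field of characteristic `p`, `E` a field mapping to `L = k((q))` which is
generated over `k` (as a field) by one element `tE` whose `q`-order is prime to `p`
(e.g. `tE = j`, of order `-1`).  Then every element of `k((q))` algebraic over `E` is separable
over `E` (`h10_isSeparable_laurent`).  In particular every field `F` between `E` and `k((q))`
which is algebraic over `E` is a separable extension of `E` (`h10_algebra_isSeparable`,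
`h10_isSeparable_adjoin`).

Proof.  `L^p ⊗ 1, t, …, t^(p-1)` are independent (orders `p n_r + r e` are pairwise distinct
mod `p`), and `E = ⊕_{r<p} E^p t^r`.  If the minimal polynomial `m` of `x` over `E` were
inseparable, `m = g(X^p)`; splitting the coefficients of `g` along `E = ⊕ E^p t^r` gives
`0 = g(x^p) = ∑_r G_r(x)^p t^r`, hence `G_r(x) = 0` with `deg G_r ≤ deg g < deg m`, so all
`G_r = 0` and `g = 0`.

Mathlib only.
-/

namespace Fermat.Agent.S18x.IG.H10

open Polynomial

/-- For an additive valuation, a nonempty finite sum of terms with pairwise distinct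
valuations has the valuation of one of its terms. -/
theorem h10_exists_val_sum_eq {R Γ : Type*} [Ring R] [LinearOrderedAddCommMonoidWithTop Γ]
    (v : AddValuation R Γ) {ι : Type*} (s : Finset ι) (hs : s.Nonempty) (f : ι → R)
    (hinj : ∀ i ∈ s, ∀ j ∈ s, v (f i) = v (f j) → i = j) :
    ∃ i ∈ s, v (∑ j ∈ s, f j) = v (f i) := by
  induction hs using Finset.Nonempty.cons_induction with
  | singleton a => exact ⟨a, Finset.mem_singleton_self a, by simp⟩
  | cons a s ha hs ih =>
    obtain ⟨i, hi, hvi⟩ := ih (fun i hi j hj h =>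
      hinj i (Finset.mem_cons.2 (Or.inr hi)) j (Finset.mem_cons.2 (Or.inr hj)) h)
    have hne : v (f a) ≠ v (∑ j ∈ s, f j) := by
      rw [hvi]
      intro h
      have := hinj a (Finset.mem_cons_self a s) i (Finset.mem_cons.2 (Or.inr hi)) h
      exact ha (this ▸ hi)
    rw [Finset.sum_cons, AddValuation.map_add_of_distinct_val v hne]
    rcases min_choice (v (f a)) (v (∑ j ∈ s, f j)) with h | h
    · exact ⟨a, Finset.mem_cons_self a s, h⟩
    · exact ⟨i, Finset.mem_cons.2 (Or.inr hi), h.trans hvi⟩

/-- `1, t, …, t^(p-1)` are linearly independent over the `p`-th powers of `k((q))` as soon as the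
order of `t` is prime to `p`.  (`k` is any field here.) -/
theorem h10_ind {k : Type*} [Field k] (p : ℕ) [hp : Fact p.Prime]
    (t : LaurentSeries k) (ht : t ≠ 0) (he : ¬ (p : ℤ) ∣ t.order)
    (c : ℕ → LaurentSeries k) (hsum : ∑ r ∈ Finset.range p, c r ^ p * t ^ r = 0) :
    ∀ r ∈ Finset.range p, c r = 0 := by
  classical
  by_contra hcon
  push Not at hcon
  obtain ⟨r₀, hr₀, hcr₀⟩ := hcon
  set s : Finset ℕ := (Finset.range p).filter (fun r => c r ≠ 0) with hs
  have hsne : s.Nonempty := ⟨r₀, Finset.mem_filter.2 ⟨hr₀, hcr₀⟩⟩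
  set f : ℕ → LaurentSeries k := fun r => c r ^ p * t ^ r with hf
  have hsum' : ∑ r ∈ s, f r = 0 := by
    rw [← hsum, hs, Finset.sum_filter]
    refine Finset.sum_congr rfl (fun r _ => ?_)
    by_cases h : c r = 0
    · simp [hf, h, hp.out.ne_zero]
    · simp [hf, h]
  have hfne : ∀ r ∈ s, f r ≠ 0 := fun r hr =>
    mul_ne_zero (pow_ne_zero _ (Finset.mem_filter.1 hr).2) (pow_ne_zero _ ht)
  have hford : ∀ r ∈ s, (f r).order = (p : ℤ) * (c r).order + (r : ℤ) * t.order := by
    intro r hr
    have h1 : c r ≠ 0 := (Finset.mem_filter.1 hr).2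
    simp only [hf]
    rw [HahnSeries.order_mul (pow_ne_zero _ h1) (pow_ne_zero _ ht), HahnSeries.order_pow,
      HahnSeries.order_pow]
    simp
  obtain ⟨i, hi, hvi⟩ := h10_exists_val_sum_eq (HahnSeries.addVal ℤ k) s hsne f (by
    intro i hi j hj h
    rw [HahnSeries.addVal_apply_of_ne (hfne i hi), HahnSeries.addVal_apply_of_ne (hfne j hj)] at h
    have h' : (f i).order = (f j).order := by exact_mod_cast h
    rw [hford i hi, hford j hj] at h'
    have hdvd : (p : ℤ) ∣ ((i : ℤ) - j) * t.order := by
      refine ⟨(c j).order - (c i).order, ?_⟩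
      linear_combination h'
    have hdvd' : (p : ℤ) ∣ ((i : ℤ) - j) :=
      ((Nat.prime_iff_prime_int.mp hp.out).dvd_or_dvd hdvd).resolve_right he
    have hi' : i < p := Finset.mem_range.1 (Finset.mem_filter.1 hi).1
    have hj' : j < p := Finset.mem_range.1 (Finset.mem_filter.1 hj).1
    have h0 : ((i : ℤ) - j) = 0 := by
      refine Int.eq_zero_of_abs_lt_dvd hdvd' ?_
      rw [abs_lt]
      constructor <;> omega
    omega)
  rw [hsum', HahnSeries.addVal_apply_of_ne (hfne i hi)] at hvi
  simp at hvi

/-- `p`-section of a polynomial over a perfect field of characteristic `p`: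
`u = ∑_{r<p} X^r f_r^p`. -/
theorem h10_poly_psection {k : Type*} [Field k] (p : ℕ) [hp : Fact p.Prime] [CharP k p]
    [PerfectRing k p] (u : k[X]) :
    ∃ f : ℕ → k[X], u = ∑ r ∈ Finset.range p, X ^ r * (f r) ^ p := by
  induction u using Polynomial.induction_on' with
  | add u w hu hw =>
    obtain ⟨f, hf⟩ := hu
    obtain ⟨g, hg⟩ := hw
    refine ⟨fun r => f r + g r, ?_⟩
    conv_lhs => rw [hf, hg]
    rw [← Finset.sum_add_distrib]
    refine Finset.sum_congr rfl (fun r _ => ?_)
    rw [add_pow_char, mul_add]
  | monomial n a =>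
    classical
    refine ⟨fun r => if r = n % p then C ((frobeniusEquiv k p).symm a) * X ^ (n / p) else 0, ?_⟩
    rw [Finset.sum_eq_single (n % p)]
    · beta_reduce
      rw [if_pos rfl, mul_pow, ← C_pow, frobeniusEquiv_symm_pow_p, ← pow_mul, mul_left_comm,
        ← pow_add, ← C_mul_X_pow_eq_monomial]
      congr 2
      rw [mul_comm (n / p) p]
      exact (Nat.mod_add_div n p).symm
    · intro r _ hr
      beta_reduce
      rw [if_neg hr, zero_pow hp.out.ne_zero, mul_zero]
    · intro h
      exact absurd (Finset.mem_range.2 (Nat.mod_lt n hp.out.pos)) h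

/-- Every element of a field `E = k(tE)` (in the weak sense: every element is a quotient of
polynomial expressions in `tE`) is a combination of `1, tE, …, tE^(p-1)` with coefficients
`p`-th powers. -/
theorem h10_dec {k E : Type*} [Field k] [Field E] [Algebra k E] (p : ℕ) [hp : Fact p.Prime]
    [CharP k p] [PerfectRing k p] (tE : E)
    (hgen : ∀ a : E, ∃ r s : k[X], a = aeval tE r / aeval tE s) (a : E) :
    ∃ b : ℕ → E, a = ∑ r ∈ Finset.range p, (b r) ^ p * tE ^ r := by
  obtain ⟨r, s, rfl⟩ := hgen a
  by_cases hs : aeval tE s = 0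
  · refine ⟨fun _ => 0, ?_⟩
    simp [hs, hp.out.ne_zero]
  · obtain ⟨f, hf⟩ := h10_poly_psection p (r * s ^ (p - 1))
    refine ⟨fun i => aeval tE (f i) / aeval tE s, ?_⟩
    have h1 : aeval tE r * aeval tE s ^ (p - 1)
        = ∑ i ∈ Finset.range p, tE ^ i * (aeval tE (f i)) ^ p := by
      have := congrArg (aeval tE) hf
      simpa [map_sum] using this
    have h2 : aeval tE s ^ p = aeval tE s ^ (p - 1) * aeval tE s := by
      rw [← pow_succ, Nat.sub_add_cancel hp.out.one_le]
    have h3 : aeval tE r / aeval tE s
        = (aeval tE r * aeval tE s ^ (p - 1)) / aeval tE s ^ p := by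
      rw [h2]
      field_simp
    rw [h3, h1, Finset.sum_div]
    refine Finset.sum_congr rfl (fun i _ => ?_)
    rw [div_pow]
    ring

/-- **(I2-SEP), element form.**  `k` perfect of characteristic `p`, `E = k(tE)` a field mapping
to `k((q))` such that the `q`-order of (the image of) `tE` is prime to `p`.  Then every element
of `k((q))` which is algebraic over `E` is separable over `E`. -/
theorem h10_isSeparable_laurent {k : Type*} [Field k] (p : ℕ) [hp : Fact p.Prime] [CharP k p]
    [PerfectRing k p] {E : Type*} [Field E] [Algebra k E] [Algebra E (LaurentSeries k)]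
    (tE : E) (hgen : ∀ a : E, ∃ r s : k[X], a = aeval tE r / aeval tE s)
    (he : ¬ (p : ℤ) ∣ (algebraMap E (LaurentSeries k) tE).order)
    (x : LaurentSeries k) (hx : IsAlgebraic E x) : IsSeparable E x := by
  classical
  have : CharP E p := charP_of_injective_algebraMap (algebraMap k E).injective p
  have : CharP (LaurentSeries k) p :=
    charP_of_injective_algebraMap (algebraMap E (LaurentSeries k)).injective p
  have hint : IsIntegral E x := hx.isIntegral
  have hirr := minpoly.irreducible hint
  rcases Polynomial.separable_or p hirr with h | ⟨_, g, hg, hgm⟩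
  · exact h
  exfalso
  have hgx : aeval (x ^ p) g = 0 := by
    rw [← expand_aeval, hgm, minpoly.aeval]
  choose b hb using fun i : ℕ => h10_dec p tE hgen (g.coeff i)
  set n := g.natDegree with hn
  set G : ℕ → E[X] := fun r => ∑ i ∈ Finset.range (n + 1), C (b i r) * X ^ i with hG
  set t := algebraMap E (LaurentSeries k) tE with htdef
  have ht : t ≠ 0 := by
    intro h
    apply he
    rw [h]
    simp
  have key : ∑ r ∈ Finset.range p, (aeval x (G r)) ^ p * t ^ r = 0 := by
    rw [← hgx, aeval_eq_sum_range]
    have h1 : ∀ r, (aeval x (G r)) ^ p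
        = ∑ i ∈ Finset.range (n + 1),
            (algebraMap E (LaurentSeries k) (b i r)) ^ p * (x ^ p) ^ i := by
      intro r
      simp only [hG, map_sum, map_mul, aeval_C, map_pow, aeval_X]
      rw [sum_pow_char]
      refine Finset.sum_congr rfl (fun i _ => ?_)
      rw [mul_pow, pow_right_comm]
    have h2 : ∀ i, g.coeff i • (x ^ p) ^ i
        = ∑ r ∈ Finset.range p,
            (algebraMap E (LaurentSeries k) (b i r)) ^ p * t ^ r * (x ^ p) ^ i := by
      intro i
      rw [Algebra.smul_def]
      conv_lhs => rw [hb i]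
      rw [map_sum, Finset.sum_mul]
      refine Finset.sum_congr rfl (fun r _ => ?_)
      rw [map_mul, map_pow, map_pow]
    simp only [h1, h2, Finset.sum_mul]
    rw [Finset.sum_comm]
    refine Finset.sum_congr rfl (fun i _ => Finset.sum_congr rfl (fun r _ => ?_))
    ring
  have hzero := h10_ind p t ht he (fun r => aeval x (G r)) key
  have hGdeg : ∀ r, (G r).natDegree ≤ n := by
    intro r
    refine Polynomial.natDegree_sum_le_of_forall_le _ _ (fun i hi => ?_)
    exact (natDegree_C_mul_X_pow_le _ _).trans (Nat.lt_succ_iff.1 (Finset.mem_range.1 hi))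
  have hnpos : 0 < n := hg.natDegree_pos
  have hmdeg : (minpoly E x).natDegree = n * p := by
    rw [← hgm, natDegree_expand]
  have hG0 : ∀ r ∈ Finset.range p, G r = 0 := by
    intro r hr
    by_contra hne
    have h1 := minpoly.degree_le_of_ne_zero E x hne (hzero r hr)
    have h2 := natDegree_le_natDegree h1
    have h3 := hGdeg r
    have h4 : n * 1 < n * p := Nat.mul_lt_mul_of_pos_left hp.out.one_lt hnpos
    omega
  have hb0 : ∀ i, i ≤ n → ∀ r ∈ Finset.range p, b i r = 0 := by
    intro i hi r hr
    have h1 := congrArg (fun q => q.coeff i) (hG0 r hr)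
    simp only [hG, finsetSum_coeff, coeff_C_mul_X_pow, coeff_zero] at h1
    rw [Finset.sum_eq_single i] at h1
    · simpa using h1
    · intro j _ hj
      rw [if_neg (Ne.symm hj)]
    · intro h
      exact absurd (Finset.mem_range.2 (Nat.lt_succ_iff.2 hi)) h
  apply hg.ne_zero
  ext i
  by_cases hi : i ≤ n
  · rw [hb i, coeff_zero]
    refine Finset.sum_eq_zero (fun r hr => ?_)
    rw [hb0 i hi r hr, zero_pow hp.out.ne_zero, zero_mul]
  · rw [coeff_zero]
    exact coeff_eq_zero_of_natDegree_lt (not_le.1 hi)

/-- **(I2-SEP), algebra form.**  `E = k(tE) → F → k((q))` fields, the `q`-order of `tE` prime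
to `p = char k`, `k` perfect, `F/E` algebraic.  Then `F/E` is separable. -/
theorem h10_algebra_isSeparable {k : Type*} [Field k] (p : ℕ) [Fact p.Prime] [CharP k p]
    [PerfectRing k p] {E F : Type*} [Field E] [Field F] [Algebra k E] [Algebra E F]
    [Algebra F (LaurentSeries k)] [Algebra E (LaurentSeries k)]
    [IsScalarTower E F (LaurentSeries k)]
    (tE : E) (hgen : ∀ a : E, ∃ r s : k[X], a = aeval tE r / aeval tE s)
    (he : ¬ (p : ℤ) ∣ (algebraMap E (LaurentSeries k) tE).order)
    [Algebra.IsAlgebraic E F] : Algebra.IsSeparable E F := by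
  refine ⟨fun x => ?_⟩
  have hx : IsAlgebraic E (algebraMap F (LaurentSeries k) x) :=
    (Algebra.IsAlgebraic.isAlgebraic x).algebraMap
  have h := h10_isSeparable_laurent p tE hgen he _ hx
  unfold IsSeparable at h ⊢
  rwa [minpoly.algebraMap_eq (algebraMap F (LaurentSeries k)).injective x] at h

set_option synthInstance.maxHeartbeats 400000 in
set_option maxHeartbeats 1600000 in
/-- **(I2-SEP), intermediate field form.**  `F` a subfield of `k((q))` containing `k`
(`k` perfect of characteristic `p`), `t ∈ F` of `q`-order prime to `p`, `F` algebraic over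
`k(t)`.  Then `F/k(t)` is separable. -/
theorem h10_isSeparable_adjoin {k : Type*} [Field k] (p : ℕ) [Fact p.Prime] [CharP k p]
    [PerfectRing k p] (F : IntermediateField k (LaurentSeries k)) (t : F)
    (ht : ¬ (p : ℤ) ∣ (t : LaurentSeries k).order)
    [Algebra.IsAlgebraic (IntermediateField.adjoin k {t}) F] :
    Algebra.IsSeparable (IntermediateField.adjoin k {t}) F := by
  have hgen : ∀ a : IntermediateField.adjoin k {t}, ∃ r s : k[X],
      a = aeval (IntermediateField.AdjoinSimple.gen k t) r
        / aeval (IntermediateField.AdjoinSimple.gen k t) s := by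
    intro a
    obtain ⟨r, s, hrs⟩ := (IntermediateField.mem_adjoin_simple_iff k (a : F)).1 a.2
    refine ⟨r, s, Subtype.ext ?_⟩
    rw [hrs]
    simp
  let i1 : Algebra (IntermediateField.adjoin k {t}) (LaurentSeries k) :=
    ((algebraMap F (LaurentSeries k)).comp
      (algebraMap (IntermediateField.adjoin k {t}) F)).toAlgebra
  have i2 : @IsScalarTower (IntermediateField.adjoin k {t}) F (LaurentSeries k) _ _
      i1.toSMul :=
    @IsScalarTower.of_algebraMap_eq (IntermediateField.adjoin k {t}) F (LaurentSeries k)
      _ _ _ _ _ i1 (fun _ => rfl)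
  exact @h10_algebra_isSeparable k _ p _ _ _ (IntermediateField.adjoin k {t}) F _ _ _ _ _ i1 i2
    (IntermediateField.AdjoinSimple.gen k t) hgen ht _

set_option synthInstance.maxHeartbeats 400000 in
set_option maxHeartbeats 1600000 in
/-- Finite-dimensional variant of `h10_isSeparable_adjoin`. -/
theorem h10_isSeparable_adjoin_of_finite {k : Type*} [Field k] (p : ℕ) [Fact p.Prime]
    [CharP k p] [PerfectRing k p] (F : IntermediateField k (LaurentSeries k)) (t : F)
    (ht : ¬ (p : ℤ) ∣ (t : LaurentSeries k).order)
    (hfin : FiniteDimensional (IntermediateField.adjoin k {t}) F) :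
    Algebra.IsSeparable (IntermediateField.adjoin k {t}) F := by
  have : Algebra.IsAlgebraic (IntermediateField.adjoin k {t}) F :=
    Algebra.IsAlgebraic.of_finite _ _
  exact h10_isSeparable_adjoin p F t ht

end Fermat.Agent.S18x.IG.H10
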