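import Mathlib
import Fermat.Agent.S18x.IG.H10_Sep

/-!
# [IG] (I2-SEP): adapters for the purity assembly (helper25's `(T2d')`, `hsep`)

Shape of the consumer: `A → B` integral, `f : A →+* K'`, `g : B →+* L' = κ((q))` compatible
(`hcomm`), `K' = κ(tE)` with `ord_q tE` prime to `p = char κ`, `κ` perfect.  Then
`∀ x : B, IsSeparable K' (g x)`.
-/

set_option autoImplicit false

namespace Fermat.Agent.S18x.IG.H10

open Polynomial

/-- **`hsep` of helper25's `(T2d')`** in the abstract shape: `K' = κ(tE)` any field with an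
algebra structure over `κ` and a map to `κ((q))`. -/
theorem h10_hsep {κ : Type*} [Field κ] (p : ℕ) [Fact p.Prime] [CharP κ p] [PerfectRing κ p]
    {K' : Type*} [Field K'] [Algebra κ K'] [Algebra K' (LaurentSeries κ)]
    (tE : K') (hgen : ∀ a : K', ∃ r s : κ[X], a = aeval tE r / aeval tE s)
    (he : ¬ (p : ℤ) ∣ (algebraMap K' (LaurentSeries κ) tE).order)
    {A B : Type*} [CommRing A] [CommRing B] [Algebra A B] [Algebra.IsIntegral A B]
    (f : A →+* K') (g : B →+* LaurentSeries κ)
    (hcomm : ∀ a, g (algebraMap A B a) = algebraMap K' (LaurentSeries κ) (f a)) :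
    ∀ x : B, IsSeparable K' (g x) := by
  intro x
  refine h10_isSeparable_laurent p tE hgen he (g x) (IsIntegral.isAlgebraic ?_)
  refine IsIntegral.map_of_comp_eq f g (RingHom.ext fun a => ?_) (Algebra.IsIntegral.isIntegral x)
  exact (hcomm a).symm

/-- `hgen` from the fraction-field property `hK` of helper25 and a description of `f A`:
if every `f a` is a rational expression in `tE` over `κ`, so is every element of
`K' = Frac (f A)`. -/
theorem h10_hgen_of_hK {κ : Type*} [Field κ] {K' : Type*} [Field K'] [Algebra κ K'] (tE : K')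
    {A : Type*} [CommRing A] (f : A →+* K')
    (hK : ∀ c : K', ∃ a s : A, f s ≠ 0 ∧ c * f s = f a)
    (hA : ∀ a : A, ∃ r s : κ[X], f a = aeval tE r / aeval tE s) :
    ∀ c : K', ∃ r s : κ[X], c = aeval tE r / aeval tE s := by
  intro c
  obtain ⟨a, s, hs, hc⟩ := hK c
  obtain ⟨r₁, s₁, h₁⟩ := hA a
  obtain ⟨r₂, s₂, h₂⟩ := hA s
  refine ⟨r₁ * s₂, s₁ * r₂, ?_⟩
  have hc' : c = f a / f s := by
    rw [eq_div_iff hs]
    exact hc
  rw [hc', h₁, h₂, map_mul, map_mul]
  rw [h₂] at hs
  have hr₂ : aeval tE r₂ ≠ 0 := by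
    intro h
    rw [h, zero_div] at hs
    exact hs rfl
  have hs₂ : aeval tE s₂ ≠ 0 := by
    intro h
    rw [h, div_zero] at hs
    exact hs rfl
  by_cases hs₁ : aeval tE s₁ = 0
  · simp [hs₁]
  · field_simp

set_option synthInstance.maxHeartbeats 400000 in
set_option maxHeartbeats 1600000 in
/-- Element form over `K' = κ(t) ⊆ κ((q))` (`IntermediateField.adjoin κ {t}`). -/
theorem h10_isSeparable_adjoin_laurent {κ : Type*} [Field κ] (p : ℕ) [Fact p.Prime] [CharP κ p]
    [PerfectRing κ p] (t : LaurentSeries κ) (ht : ¬ (p : ℤ) ∣ t.order)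
    (x : LaurentSeries κ) (hx : IsAlgebraic (IntermediateField.adjoin κ {t}) x) :
    IsSeparable (IntermediateField.adjoin κ {t}) x := by
  have hgen : ∀ a : IntermediateField.adjoin κ {t}, ∃ r s : κ[X],
      a = aeval (IntermediateField.AdjoinSimple.gen κ t) r
        / aeval (IntermediateField.AdjoinSimple.gen κ t) s := by
    intro a
    obtain ⟨r, s, hrs⟩ := (IntermediateField.mem_adjoin_simple_iff κ (a : LaurentSeries κ)).1 a.2
    refine ⟨r, s, Subtype.ext ?_⟩
    rw [hrs]
    simp
  exact h10_isSeparable_laurent p (IntermediateField.AdjoinSimple.gen κ t) hgen ht x hx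

set_option synthInstance.maxHeartbeats 400000 in
set_option maxHeartbeats 1600000 in
/-- **`hsep` of helper25's `(T2d')`** for `K' = κ(t) ⊆ κ((q))`
(`IntermediateField.adjoin κ {t}`), `ord_q t` prime to `p`. -/
theorem h10_hsep_adjoin {κ : Type*} [Field κ] (p : ℕ) [Fact p.Prime] [CharP κ p]
    [PerfectRing κ p] (t : LaurentSeries κ) (ht : ¬ (p : ℤ) ∣ t.order)
    {A B : Type*} [CommRing A] [CommRing B] [Algebra A B] [Algebra.IsIntegral A B]
    (f : A →+* IntermediateField.adjoin κ {t}) (g : B →+* LaurentSeries κ)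
    (hcomm : ∀ a, g (algebraMap A B a) = (f a : LaurentSeries κ)) :
    ∀ x : B, IsSeparable (IntermediateField.adjoin κ {t}) (g x) := by
  intro x
  refine h10_isSeparable_adjoin_laurent p t ht (g x) (IsIntegral.isAlgebraic ?_)
  refine IsIntegral.map_of_comp_eq f g (RingHom.ext fun a => ?_) (Algebra.IsIntegral.isIntegral x)
  exact (hcomm a).symm

/-- A nonzero Laurent series of order `-1` or `1` has order prime to `p`. -/
theorem h10_not_dvd_of_order_eq_neg_one (p : ℕ) [hp : Fact p.Prime] {e : ℤ}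
    (he : e = -1 ∨ e = 1) : ¬ (p : ℤ) ∣ e := by
  intro h
  have h1 : (p : ℤ) ∣ ((1 : ℕ) : ℤ) := by
    rcases he with rfl | rfl
    · simpa using h
    · simpa using h
  exact hp.out.one_lt.ne' (Nat.dvd_one.1 (Int.natCast_dvd_natCast.1 h1))

end Fermat.Agent.S18x.IG.H10
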