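import Mathlib
import Fermat.Agent.S18x.IG.H10_SepAdapt
import Fermat.Agent.S18x.E.H29_LaurentAlg

/-!
# [IG] (IG4-f): the (VERT) inputs of the purity assembly over the polynomial base `A = O[X]`

Abstract part (Mathlib + (I2-SEP) only).  `res : O → κ` a surjective ring homomorphism onto a
field with kernel `(π)`; `K'` a field over `κ` and `t' : K'`.  The reduction map

  `h10_vertMap res t' : O[X] →+* K'`, `P ↦ P̄(t')`

has kernel `(C π)` when `t'` is transcendental (`hf`), kills `C π` (`hfπ`), and `K'` is the
fraction field of its image when `K' = κ(t')` (`hK`).  Everything extends to any localisation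
`A'` of `O[X]` at a submonoid on which the reduction map does not vanish.

Names of the hypotheses = those of helper25's `purity_SM` / `discr_ne_zero_of_separable_fibre`.
-/

set_option autoImplicit false

namespace Fermat.Agent.S18x.IG.H10

open Polynomial

section Abstract

variable {O κ : Type*} [CommRing O] [Field κ] (res : O →+* κ)
variable {K' : Type*} [Field K'] [Algebra κ K'] (t' : K')

/-- The reduction map `O[X] → K'`, `P ↦ P̄(t')`. -/
noncomputable def h10_vertMap : O[X] →+* K' :=
  (aeval t' : κ[X] →ₐ[κ] K').toRingHom.comp (mapRingHom res)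

theorem h10_vertMap_apply (P : O[X]) : h10_vertMap res t' P = aeval t' (P.map res) := rfl

@[simp] theorem h10_vertMap_C (c : O) : h10_vertMap res t' (C c) = algebraMap κ K' (res c) := by
  rw [h10_vertMap_apply, Polynomial.map_C, aeval_C]

@[simp] theorem h10_vertMap_X : h10_vertMap res t' (X : O[X]) = t' := by
  rw [h10_vertMap_apply, Polynomial.map_X, aeval_X]

/-- `(hfπ)`. -/
theorem h10_vertMap_C_unif (π : O) (hπ : res π = 0) : h10_vertMap res t' (C π) = 0 := by
  rw [h10_vertMap_C, hπ, map_zero]

/-- `(hf)`: the kernel of the reduction map is `(C π)`. -/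
theorem h10_vertMap_eq_zero (π : O) (hker : RingHom.ker res = Ideal.span {π})
    (ht' : Transcendental κ t') (P : O[X]) (hP : h10_vertMap res t' P = 0) : C π ∣ P := by
  rw [h10_vertMap_apply] at hP
  have h1 : P.map res = 0 := by
    by_contra hne
    exact ht' ⟨P.map res, hne, hP⟩
  have h2 : P ∈ RingHom.ker (mapRingHom res) := by
    rw [RingHom.mem_ker]
    exact h1
  rw [Polynomial.ker_mapRingHom, hker, Ideal.map_span, Set.image_singleton] at h2
  exact Ideal.mem_span_singleton.1 h2

theorem h10_vertMap_eq_zero_iff (π : O) (hker : RingHom.ker res = Ideal.span {π})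
    (ht' : Transcendental κ t') (P : O[X]) : h10_vertMap res t' P = 0 ↔ C π ∣ P := by
  refine ⟨h10_vertMap_eq_zero res t' π hker ht' P, ?_⟩
  rintro ⟨Q, rfl⟩
  have hπ : res π = 0 := by
    have : π ∈ RingHom.ker res := by
      rw [hker]
      exact Ideal.mem_span_singleton_self π
    exact this
  rw [map_mul, h10_vertMap_C_unif res t' π hπ, zero_mul]

/-- `ker f = (C π)` as ideals. -/
theorem h10_vertMap_ker (π : O) (hker : RingHom.ker res = Ideal.span {π})
    (ht' : Transcendental κ t') :
    RingHom.ker (h10_vertMap res t' : O[X] →+* K') = Ideal.span {C π} := by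
  ext P
  rw [RingHom.mem_ker, h10_vertMap_eq_zero_iff res t' π hker ht', Ideal.mem_span_singleton]

/-- Lifting polynomials along a surjective ring homomorphism. -/
theorem h10_exists_map_eq (hres : Function.Surjective res) (r : κ[X]) :
    ∃ P : O[X], P.map res = r :=
  Polynomial.map_surjective res hres r

/-- `(hK)`: `K' = κ(t')` is the fraction field of the image of the reduction map. -/
theorem h10_vertMap_hK (hres : Function.Surjective res)
    (hgen : ∀ c : K', ∃ r s : κ[X], c = aeval t' r / aeval t' s) :
    ∀ c : K', ∃ a s : O[X], h10_vertMap res t' s ≠ 0 ∧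
      c * h10_vertMap res t' s = h10_vertMap res t' a := by
  intro c
  obtain ⟨r, s, rfl⟩ := hgen c
  by_cases hs : aeval t' s = 0
  · refine ⟨0, 1, ?_, ?_⟩
    · rw [map_one]
      exact one_ne_zero
    · rw [hs, div_zero, zero_mul, map_zero]
  · obtain ⟨a, ha⟩ := h10_exists_map_eq res hres r
    obtain ⟨b, hb⟩ := h10_exists_map_eq res hres s
    refine ⟨a, b, ?_, ?_⟩
    · rw [h10_vertMap_apply, hb]
      exact hs
    · rw [h10_vertMap_apply, h10_vertMap_apply, ha, hb, div_mul_cancel₀ _ hs]

/-- `(hA)`: the image of the reduction map consists of rational expressions in `t'`. -/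
theorem h10_vertMap_hA (a : O[X]) :
    ∃ r s : κ[X], h10_vertMap res t' a = aeval t' r / aeval t' s :=
  ⟨a.map res, 1, by rw [map_one, div_one, h10_vertMap_apply]⟩

/-! ### Localisations of `O[X]` -/

section Loc

variable (S : Submonoid O[X]) (A' : Type*) [CommRing A'] [Algebra O[X] A'] [IsLocalization S A']

/-- The reduction map on a localisation of `O[X]` at a submonoid on which the reduction does
not vanish. -/
noncomputable def h10_vertMapLoc (hS : ∀ s ∈ S, h10_vertMap res t' s ≠ 0) : A' →+* K' :=
  IsLocalization.lift (M := S) (g := h10_vertMap res t')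
    (fun y => (hS y.1 y.2).isUnit)

theorem h10_vertMapLoc_algebraMap (hS : ∀ s ∈ S, h10_vertMap res t' s ≠ 0) (P : O[X]) :
    h10_vertMapLoc res t' S A' hS (algebraMap O[X] A' P) = h10_vertMap res t' P :=
  IsLocalization.lift_eq _ P

/-- `(hfπ)` on the localisation. -/
theorem h10_vertMapLoc_C_unif (hS : ∀ s ∈ S, h10_vertMap res t' s ≠ 0) (π : O)
    (hπ : res π = 0) :
    h10_vertMapLoc res t' S A' hS (algebraMap O[X] A' (C π)) = 0 := by
  rw [h10_vertMapLoc_algebraMap, h10_vertMap_C_unif res t' π hπ]

/-- `(hf)` on the localisation. -/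
theorem h10_vertMapLoc_eq_zero (hS : ∀ s ∈ S, h10_vertMap res t' s ≠ 0) (π : O)
    (hker : RingHom.ker res = Ideal.span {π}) (ht' : Transcendental κ t') (a : A')
    (ha : h10_vertMapLoc res t' S A' hS a = 0) : algebraMap O[X] A' (C π) ∣ a := by
  obtain ⟨⟨P, s⟩, hPs⟩ := IsLocalization.surj S a
  have h1 : h10_vertMap res t' P = 0 := by
    have := congrArg (h10_vertMapLoc res t' S A' hS) hPs
    rw [map_mul, ha, zero_mul, h10_vertMapLoc_algebraMap] at this
    exact this.symm
  obtain ⟨Q, rfl⟩ := h10_vertMap_eq_zero res t' π hker ht' P h1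
  obtain ⟨u, hu⟩ := (IsLocalization.map_units A' s).exists_right_inv
  refine ⟨algebraMap O[X] A' Q * u, ?_⟩
  have h2 : a = a * (algebraMap O[X] A' s * u) := by rw [hu, mul_one]
  rw [h2, ← mul_assoc, hPs, map_mul]
  ring

/-- `(hK)` on the localisation. -/
theorem h10_vertMapLoc_hK (hS : ∀ s ∈ S, h10_vertMap res t' s ≠ 0)
    (hres : Function.Surjective res)
    (hgen : ∀ c : K', ∃ r s : κ[X], c = aeval t' r / aeval t' s) :
    ∀ c : K', ∃ a s : A', h10_vertMapLoc res t' S A' hS s ≠ 0 ∧
      c * h10_vertMapLoc res t' S A' hS s = h10_vertMapLoc res t' S A' hS a := by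
  intro c
  obtain ⟨a, s, hs, h⟩ := h10_vertMap_hK res t' hres hgen c
  refine ⟨algebraMap O[X] A' a, algebraMap O[X] A' s, ?_, ?_⟩
  · rw [h10_vertMapLoc_algebraMap]
    exact hs
  · rw [h10_vertMapLoc_algebraMap, h10_vertMapLoc_algebraMap]
    exact h

/-- `(hA)` on the localisation. -/
theorem h10_vertMapLoc_hA (hS : ∀ s ∈ S, h10_vertMap res t' s ≠ 0) (a : A') :
    ∃ r s : κ[X], h10_vertMapLoc res t' S A' hS a = aeval t' r / aeval t' s := by
  obtain ⟨⟨P, s⟩, hPs⟩ := IsLocalization.surj S a
  refine ⟨P.map res, (s : O[X]).map res, ?_⟩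
  have h1 := congrArg (h10_vertMapLoc res t' S A' hS) hPs
  rw [map_mul, h10_vertMapLoc_algebraMap, h10_vertMapLoc_algebraMap] at h1
  rw [eq_div_iff (by exact hS s.1 s.2)]
  exact h1

/-- The complement of a prime ideal containing `C π` … more precisely: if `M` is a proper ideal
of `O[X]` containing `C π` then the reduction map does not vanish off `M`. -/
theorem h10_vertMap_ne_zero_of_not_mem (π : O) (hker : RingHom.ker res = Ideal.span {π})
    (ht' : Transcendental κ t') (M : Ideal O[X]) (hπM : C π ∈ M) (s : O[X]) (hs : s ∉ M) :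
    h10_vertMap res t' s ≠ 0 := by
  intro h
  obtain ⟨Q, rfl⟩ := h10_vertMap_eq_zero res t' π hker ht' s h
  exact hs (M.mul_mem_right Q hπM)

end Loc

end Abstract

/-! ### The concrete target `K' = κ(t) ⊆ κ((q))`

Everything is stated for a *variable* field `κ` and a ring homomorphism `res : O →+* κ`
(instantiate `κ := IsLocalRing.ResidueField O`, `res := IsLocalRing.residue O` at the very end:
instance search for `IntermediateField.adjoin` over `LaurentSeries (ResidueField O)` is slow). -/

section Adjoin

variable {O κ : Type*} [CommRing O] [Field κ] (res : O →+* κ) (t : LaurentSeries κ)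

/-- The reduction map `O[X] → κ(t) ⊆ κ((q))`, `P ↦ P̄(t)`. -/
noncomputable def h10_vertRed : O[X] →+* ↥(IntermediateField.adjoin κ {t}) :=
  h10_vertMap res (IntermediateField.AdjoinSimple.gen κ t)

theorem h10_vertRed_coe (P : O[X]) :
    ((h10_vertRed res t P : ↥(IntermediateField.adjoin κ {t})) : LaurentSeries κ)
      = aeval t (P.map res) := by
  rw [h10_vertRed, h10_vertMap_apply]
  exact IntermediateField.AdjoinSimple.coe_aeval_gen_apply _ _ _

theorem h10_algebraMap_laurent {k : Type*} [Field k] (c : k) :
    algebraMap k (LaurentSeries k) c = HahnSeries.C c := by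
  change HahnSeries.ofPowerSeries ℤ k (PowerSeries.C c) = _
  exact HahnSeries.ofPowerSeries_C c

theorem h10_vertRed_coe_eval₂ (P : O[X]) :
    ((h10_vertRed res t P : ↥(IntermediateField.adjoin κ {t})) : LaurentSeries κ)
      = eval₂ ((HahnSeries.C : κ →+* LaurentSeries κ).comp res) t P := by
  have h1 : algebraMap κ (LaurentSeries κ) = (HahnSeries.C : κ →+* LaurentSeries κ) :=
    RingHom.ext fun c => h10_algebraMap_laurent c
  rw [h10_vertRed_coe, aeval_def, eval₂_map, h1]

theorem h10_vertRed_X :
    ((h10_vertRed res t X : ↥(IntermediateField.adjoin κ {t})) : LaurentSeries κ) = t := by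
  rw [h10_vertRed_coe, Polynomial.map_X, aeval_X]

theorem h10_vertRed_C (c : O) :
    ((h10_vertRed res t (C c) : ↥(IntermediateField.adjoin κ {t})) : LaurentSeries κ)
      = HahnSeries.C (res c) := by
  rw [h10_vertRed_coe, Polynomial.map_C, aeval_C, h10_algebraMap_laurent]

/-- The generator of `κ(t)` is transcendental if `t` is. -/
theorem h10_transcendental_gen (ht : Transcendental κ t) :
    Transcendental κ (IntermediateField.AdjoinSimple.gen κ t) := by
  intro h
  apply ht
  have := h.algebraMap (A := LaurentSeries κ)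
  exact this

/-- `hgen` for `κ(t)`. -/
theorem h10_hgen_adjoin :
    ∀ a : IntermediateField.adjoin κ {t}, ∃ r s : κ[X],
      a = aeval (IntermediateField.AdjoinSimple.gen κ t) r
        / aeval (IntermediateField.AdjoinSimple.gen κ t) s := by
  intro a
  obtain ⟨r, s, hrs⟩ := (IntermediateField.mem_adjoin_simple_iff κ (a : LaurentSeries κ)).1 a.2
  refine ⟨r, s, Subtype.ext ?_⟩
  rw [hrs]
  simp

/-- `(hfπ)`. -/
theorem h10_vertRed_C_unif (π : O) (hπ : res π = 0) : h10_vertRed res t (C π) = 0 :=
  h10_vertMap_C_unif _ _ π hπ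

/-- `(hf)`: the kernel of the reduction map is `(C π)`. -/
theorem h10_vertRed_eq_zero (π : O) (hker : RingHom.ker res = Ideal.span {π})
    (ht : Transcendental κ t) (P : O[X]) (hP : h10_vertRed res t P = 0) : C π ∣ P :=
  h10_vertMap_eq_zero _ _ π hker (h10_transcendental_gen t ht) P hP

theorem h10_vertRed_eq_zero_iff (π : O) (hker : RingHom.ker res = Ideal.span {π})
    (ht : Transcendental κ t) (P : O[X]) : h10_vertRed res t P = 0 ↔ C π ∣ P :=
  h10_vertMap_eq_zero_iff _ _ π hker (h10_transcendental_gen t ht) P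

theorem h10_vertRed_ker (π : O) (hker : RingHom.ker res = Ideal.span {π})
    (ht : Transcendental κ t) : RingHom.ker (h10_vertRed res t) = Ideal.span {C π} :=
  h10_vertMap_ker _ _ π hker (h10_transcendental_gen t ht)

/-- `(hK)`: `κ(t)` is the fraction field of the image of the reduction map. -/
theorem h10_vertRed_hK (hres : Function.Surjective res) :
    ∀ c : IntermediateField.adjoin κ {t},
      ∃ a s : O[X], h10_vertRed res t s ≠ 0 ∧ c * h10_vertRed res t s = h10_vertRed res t a :=
  h10_vertMap_hK _ _ hres (h10_hgen_adjoin t)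

/-- `(hsep)`: for every `O[X]`-algebra `B`, integral over `O[X]`, with a compatible reduction
`g : B → κ((q))`: all `g x` are separable over `κ(t)`, provided `κ` is perfect of characteristic
`p` and `p ∤ ord_q t`. -/
theorem h10_vertRed_hsep (p : ℕ) [Fact p.Prime] [CharP κ p] [PerfectRing κ p]
    (ht : ¬ (p : ℤ) ∣ t.order)
    {B : Type*} [CommRing B] [Algebra O[X] B] [Algebra.IsIntegral O[X] B]
    (g : B →+* LaurentSeries κ)
    (hcomm : ∀ P : O[X], g (algebraMap O[X] B P)
      = ((h10_vertRed res t P : ↥(IntermediateField.adjoin κ {t})) : LaurentSeries κ)) :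
    ∀ x : B, IsSeparable (IntermediateField.adjoin κ {t}) (g x) :=
  h10_hsep_adjoin p t ht (h10_vertRed res t) g hcomm

end Adjoin

/-! ### Transcendence from the order -/

/-- A Laurent series of nonzero order is transcendental over the coefficient field. -/
theorem h10_transcendental_of_order_ne_zero {k : Type*} [Field k] (t : LaurentSeries k)
    (ht : t.order ≠ 0) : Transcendental k t := by
  intro halg
  obtain ⟨c, hc⟩ := Fermat.Agent.S18x.E.H29.laurent_mem_range_of_isAlgebraic t halg
  apply ht
  rw [← hc]
  have h1 : algebraMap k (LaurentSeries k) c = HahnSeries.C c := by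
    change HahnSeries.ofPowerSeries ℤ k (PowerSeries.C c) = _
    exact HahnSeries.ofPowerSeries_C c
  rw [h1]
  exact HahnSeries.order_C

/-- A Laurent series whose order is not divisible by a prime `p` is transcendental. -/
theorem h10_transcendental_of_not_dvd_order {k : Type*} [Field k] (p : ℕ)
    (t : LaurentSeries k) (ht : ¬ (p : ℤ) ∣ t.order) : Transcendental k t :=
  h10_transcendental_of_order_ne_zero t (fun h => ht (h ▸ dvd_zero _))

end Fermat.Agent.S18x.IG.H10
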