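import Mathlib
import Fermat.Agent.S18x.IG.H10_Vert
import Fermat.Agent.S18x.Dict.H20_GaussVal

/-!
# [IG] (IG4-f): the (VERT) inputs over `A = O[X]`, `O` a discrete valuation subring

Specialisation of `H10_Vert` to `res = IsLocalRing.residue O` and compatibility of the
reduction map `h10_vertRed` with helper20's Gauss reduction `gaussRed O`
(`hcomm` for `g = gaussRed` on any chart contained in the Gauss ring).
-/

set_option autoImplicit false

namespace Fermat.Agent.S18x.IG.H10

open Polynomial ModularCurve Fermat.Agent.S18x.Dict.H20

variable {K : Type*} [Field K] (O : ValuationSubring K)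

section DVR

variable [IsDiscreteValuationRing O] (π : O) (hπ : Irreducible π)

include hπ

/-- `hker` of `H10_Vert` for a DVR. -/
theorem h10_ker_residue : RingHom.ker (IsLocalRing.residue O) = Ideal.span {π} := by
  rw [IsLocalRing.ker_residue]
  exact hπ.maximalIdeal_eq

/-- `hπ` of `H10_Vert` for a DVR. -/
theorem h10_residue_unif : IsLocalRing.residue O π = 0 := by
  have : π ∈ RingHom.ker (IsLocalRing.residue O) := by
    rw [h10_ker_residue O π hπ]
    exact Ideal.mem_span_singleton_self π
  exact this

end DVR

/-- `hres` of `H10_Vert`. -/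
theorem h10_residue_surjective : Function.Surjective (IsLocalRing.residue O) :=
  IsLocalRing.residue_surjective

/-- The Gauss reduction of `P(x)`, `x` in the Gauss ring, is `P̄(x̄)` (`eval₂` form). -/
theorem h10_gaussRed_eval₂ (x : gaussRing O) (P : O[X]) :
    gaussRed O (eval₂ (gaussC O) x P)
      = eval₂ ((HahnSeries.C : IsLocalRing.ResidueField O →+* _).comp (IsLocalRing.residue O))
          (gaussRed O x) P := by
  rw [Polynomial.hom_eval₂]
  congr 1
  exact RingHom.ext fun c => gaussRed_gaussC O c

/-- `(hcomm)` for `g = gaussRed`: the Gauss reduction of `P(x)` is the reduction map at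
`t = x̄` evaluated at `P`. -/
theorem h10_vertRed_gaussRed (x : gaussRing O) (P : O[X]) :
    gaussRed O (eval₂ (gaussC O) x P)
      = (h10_vertRed (IsLocalRing.residue O) (gaussRed O x) P).1 := by
  rw [h10_gaussRed_eval₂]
  exact (h10_vertRed_coe_eval₂ (IsLocalRing.residue O) (gaussRed O x) P).symm

/-- Variant of `h10_vertRed_gaussRed` with a prescribed name `t` for the reduction of `x`. -/
theorem h10_vertRed_gaussRed' (x : gaussRing O) (t : LaurentSeries (IsLocalRing.ResidueField O))
    (hx : gaussRed O x = t) (P : O[X]) :
    gaussRed O (eval₂ (gaussC O) x P) = (h10_vertRed (IsLocalRing.residue O) t P).1 := by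
  subst hx
  exact h10_vertRed_gaussRed O x P

end Fermat.Agent.S18x.IG.H10
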