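import Mathlib
import Fermat.Agent.S18x.IG.Defs
import Fermat.Agent.S18x.IG.H10_VertGauss
import Fermat.Agent.S18x.Dict.H20_GaussField

/-!
# [IG] (VERT-INST): the six vertical hypotheses of `ig_hSMChart`, generic form

`O : ValuationSubring K` a DVR with uniformiser `π₀`, `κ` its residue field; `F` a field with
`ι : F →+* K((q))` landing in `Frac O((q))` and an `O`-algebra structure compatible with `ι`;
`x : F` in the Gauss valuation ring `V` of `F`; `B := chart O x` (the integral closure of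
`O[x]` in `F`).

* `h10_viT` : `t := x̄ ∈ κ((q))`, `K' := κ(t)`, `L' := κ((q))`;
* `h10_viF := h10_vertRed (residue O) t : O[X] →+* K'`;
* `h10_viG : B →+* L'` the Gauss reduction on the chart (`chart ≤ V`);
* `h10_vi_hcomm`, `h10_vi_hK`, `h10_vi_hfπ`, `h10_vi_hf`, `h10_vi_hg`, `h10_vi_hsep` :
  the hypotheses `hcomm`, `hK`, `hfπ`, `hf`, `hg`, `hsep` of helper24's `ig_hSMChart`, verbatim.
-/

set_option autoImplicit false
set_option linter.unusedSectionVars false

namespace Fermat.Agent.S18x.IG.H10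

open Polynomial ModularCurve Fermat.Agent.S18x.Dict.H20 Fermat.Agent.S18x.Spec.H26
  Fermat.Agent.S18x.IG

section Generic

variable {K : Type*} [Field K] (O : ValuationSubring K) [IsDiscreteValuationRing O]
variable {F : Type*} [Field F] (ι : F →+* LaurentSeries K) (hι : ∀ x, ι x ∈ fracLam O)
variable [Algebra O F] (hO : ∀ c : O, ι (algebraMap O F c) = HahnSeries.C (c : K))
variable (x : F) (hxV : x ∈ gaussValSubring O ι hι)

include hO hxV in
/-- `O[x] ⊆ V`. -/
theorem h10_adjoin_le_gaussVal (y : F) (hy : y ∈ Algebra.adjoin O {x}) :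
    y ∈ gaussValSubring O ι hι := by
  induction hy using Algebra.adjoin_induction with
  | mem g hg =>
    rw [Set.mem_singleton_iff] at hg
    rw [hg]
    exact hxV
  | algebraMap c =>
    show ι (algebraMap O F c) ∈ gaussRing O
    rw [hO]
    exact C_mem_gaussRing O c
  | add u v _ _ hu hv => exact (gaussValSubring O ι hι).add_mem _ _ hu hv
  | mul u v _ _ hu hv => exact (gaussValSubring O ι hι).mul_mem _ _ hu hv

include hO hxV in
/-- **`chart O x ≤ V`**: the chart lies in the Gauss valuation ring. -/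
theorem h10_chart_le_gaussVal (y : F) (hy : y ∈ chart O x) : y ∈ gaussValSubring O ι hι := by
  obtain ⟨p, hp, hcoeff, hz⟩ := (h26_isIntegral_iff (Algebra.adjoin O {x}) y).1 hy
  have hl : p ∈ lifts (algebraMap (gaussValSubring O ι hι) F) := by
    rw [lifts_iff_coeff_lifts]
    intro n
    exact ⟨⟨p.coeff n, h10_adjoin_le_gaussVal O ι hι hO x hxV _ (hcoeff n)⟩, rfl⟩
  obtain ⟨q, hq, -, hqm⟩ := lifts_and_natDegree_eq_and_monic hl hp
  have hint : IsIntegral (gaussValSubring O ι hι) y := by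
    refine ⟨q, hqm, ?_⟩
    rw [← eval_map, hq]
    exact hz
  obtain ⟨z, hz'⟩ := (IsIntegrallyClosed.isIntegral_iff (R := gaussValSubring O ι hι)
    (K := F)).mp hint
  rw [← hz']
  exact z.2

/-- The reduction of the coordinate, `t = x̄ ∈ κ((q))`. -/
noncomputable def h10_viT : LaurentSeries (IsLocalRing.ResidueField O) :=
  gaussRed O ⟨ι x, hxV⟩

/-- The Gauss reduction on the chart, `g : chart O x → κ((q))`. -/
noncomputable def h10_viG : ↥(chart O x).toSubring →+* LaurentSeries (IsLocalRing.ResidueField O) :=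
  (gaussRed O).comp
    (RingHom.codRestrict (ι.comp (chart O x).toSubring.subtype) (gaussRing O)
      (fun y => h10_chart_le_gaussVal O ι hι hO x hxV y.1 y.2))

theorem h10_viG_apply (y : ↥(chart O x).toSubring) :
    h10_viG O ι hι hO x hxV y
      = gaussRed O ⟨ι (y : F), h10_chart_le_gaussVal O ι hι hO x hxV y.1 y.2⟩ := rfl

theorem h10_viG_eq_gaussValRed (y : ↥(chart O x).toSubring) :
    h10_viG O ι hι hO x hxV y
      = gaussValRed O ι hι ⟨(y : F), h10_chart_le_gaussVal O ι hι hO x hxV y.1 y.2⟩ := rfl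

/-- The structure map `f : O[X] → κ(t)`. -/
noncomputable def h10_viF :
    O[X] →+* ↥(IntermediateField.adjoin (IsLocalRing.ResidueField O)
      {h10_viT O ι hι x hxV}) :=
  h10_vertRed (IsLocalRing.residue O) (h10_viT O ι hι x hxV)

include hO in
theorem h10_vi_iota_aeval (P : O[X]) :
    ι (aeval x P)
      = ((eval₂ (gaussC O) (⟨ι x, hxV⟩ : gaussRing O) P : gaussRing O) : LaurentSeries K) := by
  have h1 : ((eval₂ (gaussC O) (⟨ι x, hxV⟩ : gaussRing O) P : gaussRing O) : LaurentSeries K)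
      = eval₂ ((gaussRing O).subtype.comp (gaussC O)) (ι x) P := by
    have := Polynomial.hom_eval₂ P (gaussC O) (gaussRing O).subtype (⟨ι x, hxV⟩ : gaussRing O)
    exact this
  rw [h1, aeval_def, Polynomial.hom_eval₂]
  congr 1
  exact RingHom.ext fun c => hO c

include hO in
/-- **`hcomm`**. -/
theorem h10_vi_hcomm (P : O[X]) :
    h10_viG O ι hι hO x hxV (chartHom O x P)
      = algebraMap (↥(IntermediateField.adjoin (IsLocalRing.ResidueField O)
          {h10_viT O ι hι x hxV})) (LaurentSeries (IsLocalRing.ResidueField O))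
          (h10_viF O ι hι x hxV P) := by
  rw [h10_viG_apply]
  have h1 : (⟨ι ((chartHom O x P : ↥(chart O x).toSubring) : F),
      h10_chart_le_gaussVal O ι hι hO x hxV _ (chartHom O x P).2⟩ : gaussRing O)
      = eval₂ (gaussC O) (⟨ι x, hxV⟩ : gaussRing O) P := by
    apply Subtype.ext
    show ι ((chartHom O x P : ↥(chart O x).toSubring) : F) = _
    rw [coe_chartHom]
    exact h10_vi_iota_aeval O ι hι hO x hxV P
  rw [h1]
  exact h10_vertRed_gaussRed O ⟨ι x, hxV⟩ P

omit [Algebra O F] in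
/-- **`hK`**. -/
theorem h10_vi_hK :
    ∀ c : ↥(IntermediateField.adjoin (IsLocalRing.ResidueField O) {h10_viT O ι hι x hxV}),
      ∃ a d : O[X], h10_viF O ι hι x hxV d ≠ 0 ∧
        c * h10_viF O ι hι x hxV d = h10_viF O ι hι x hxV a :=
  h10_vertRed_hK (IsLocalRing.residue O) (h10_viT O ι hι x hxV) (h10_residue_surjective O)

omit [Algebra O F] in
/-- **`hfπ`**. -/
theorem h10_vi_hfπ (π₀ : O) (hπ₀ : Irreducible π₀) : h10_viF O ι hι x hxV (C π₀) = 0 :=
  h10_vertRed_C_unif (IsLocalRing.residue O) (h10_viT O ι hι x hxV) π₀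
    (h10_residue_unif O π₀ hπ₀)

omit [Algebra O F] in
/-- **`hf`** (needs: `x̄` transcendental over `κ`, e.g. of `q`-order `≠ 0`). -/
theorem h10_vi_hf (π₀ : O) (hπ₀ : Irreducible π₀)
    (ht : Transcendental (IsLocalRing.ResidueField O) (h10_viT O ι hι x hxV)) :
    ∀ a : O[X], h10_viF O ι hι x hxV a = 0 → C π₀ ∣ a :=
  fun a ha => h10_vertRed_eq_zero (IsLocalRing.residue O) (h10_viT O ι hι x hxV) π₀
    (h10_ker_residue O π₀ hπ₀) ht a ha

include hO in
/-- **`hg`** (needs the saturation of the chart, `hsat₁` of `h26_kum_abs`). -/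
theorem h10_vi_hg (π₀ : O) (hπ₀ : Irreducible π₀)
    (hsat : ∀ v ∈ (gaussValSubring O ι hι).toSubring,
      algebraMap O F π₀ * v ∈ chart O x → v ∈ chart O x) :
    ∀ y : ↥(chart O x).toSubring, h10_viG O ι hι hO x hxV y = 0 → chartPi O x π₀ ∣ y := by
  intro y hy
  rw [h10_viG_eq_gaussValRed] at hy
  obtain ⟨y', hy'⟩ := exists_eq_mul_of_gaussValRed_eq_zero O ι hι π₀ hπ₀
    (algebraMap O F π₀) (hO π₀) hy
  have hmem : (y' : F) ∈ chart O x := by
    refine hsat (y' : F) y'.2 ?_
    have : algebraMap O F π₀ * (y' : F) = (y : F) := hy'.symm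
    rw [this]
    exact y.2
  exact ⟨⟨(y' : F), hmem⟩, Subtype.ext hy'⟩

omit [IsDiscreteValuationRing O] in
/-- The chart is integral over `O[X]` (for the algebra structure `chartAlgebra O x`). -/
theorem h10_chart_isIntegral :
    @Algebra.IsIntegral O[X] ↥(chart O x).toSubring _ _ (chartAlgebra O x) := by
  let _ := chartAlgebra O x
  refine ⟨fun y => ?_⟩
  obtain ⟨p, hp, hcoeff, hz⟩ := (h26_isIntegral_iff (Algebra.adjoin O {x}) (y : F)).1 y.2
  have hl : p ∈ lifts ((aeval x : O[X] →ₐ[O] F) : O[X] →+* F) := by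
    rw [lifts_iff_coeff_lifts]
    intro n
    have h1 := hcoeff n
    rw [Algebra.adjoin_singleton_eq_range_aeval] at h1
    obtain ⟨c, hc⟩ := h1
    exact ⟨c, hc⟩
  obtain ⟨q, hq, -, hqm⟩ := lifts_and_natDegree_eq_and_monic hl hp
  refine ⟨q, hqm, ?_⟩
  apply Subtype.ext
  have h2 : (((eval₂ (algebraMap O[X] ↥(chart O x).toSubring) y q :
      ↥(chart O x).toSubring)) : F)
      = eval₂ ((chart O x).toSubring.subtype.comp (chartHom O x)) (y : F) q := by
    have := Polynomial.hom_eval₂ q (chartHom O x) (chart O x).toSubring.subtype y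
    exact this
  rw [h2]
  have h3 : (chart O x).toSubring.subtype.comp (chartHom O x)
      = ((aeval x : O[X] →ₐ[O] F) : O[X] →+* F) :=
    RingHom.ext fun P => coe_chartHom O x P
  rw [h3, ← eval_map, hq]
  exact hz

include hO in
/-- **`hsep`** (needs: `κ` perfect of characteristic `p`, `p ∤ ord_q x̄`). -/
theorem h10_vi_hsep (p : ℕ) [Fact p.Prime] [CharP (IsLocalRing.ResidueField O) p]
    [PerfectRing (IsLocalRing.ResidueField O) p]
    (ht : ¬ (p : ℤ) ∣ (h10_viT O ι hι x hxV).order) :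
    ∀ y : ↥(chart O x).toSubring,
      IsSeparable (↥(IntermediateField.adjoin (IsLocalRing.ResidueField O)
        {h10_viT O ι hι x hxV})) (h10_viG O ι hι hO x hxV y) := by
  let _ := chartAlgebra O x
  have := h10_chart_isIntegral O x
  exact h10_vertRed_hsep (IsLocalRing.residue O) (h10_viT O ι hι x hxV) p ht
    (h10_viG O ι hι hO x hxV) (fun P => h10_vi_hcomm O ι hι hO x hxV P)

include hO in
/-- **(VERT-INST), bundled**: the six vertical hypotheses of `ig_hSMChart` for
`K' := κ(x̄)`, `L' := κ((q))`. -/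
theorem h10_vi_bundle (π₀ : O) (hπ₀ : Irreducible π₀)
    (p : ℕ) [Fact p.Prime] [CharP (IsLocalRing.ResidueField O) p]
    [PerfectRing (IsLocalRing.ResidueField O) p]
    (ht : ¬ (p : ℤ) ∣ (h10_viT O ι hι x hxV).order)
    (hsat : ∀ v ∈ (gaussValSubring O ι hι).toSubring,
      algebraMap O F π₀ * v ∈ chart O x → v ∈ chart O x) :
    ∃ (f : O[X] →+* ↥(IntermediateField.adjoin (IsLocalRing.ResidueField O)
          {h10_viT O ι hι x hxV}))
      (g : ↥(chart O x).toSubring →+* LaurentSeries (IsLocalRing.ResidueField O)),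
      (∀ P : O[X], g (chartHom O x P)
        = algebraMap (↥(IntermediateField.adjoin (IsLocalRing.ResidueField O)
            {h10_viT O ι hι x hxV})) (LaurentSeries (IsLocalRing.ResidueField O)) (f P)) ∧
      (∀ c : ↥(IntermediateField.adjoin (IsLocalRing.ResidueField O)
          {h10_viT O ι hι x hxV}), ∃ a d : O[X], f d ≠ 0 ∧ c * f d = f a) ∧
      f (C π₀) = 0 ∧
      (∀ a : O[X], f a = 0 → C π₀ ∣ a) ∧
      (∀ y : ↥(chart O x).toSubring, g y = 0 → chartPi O x π₀ ∣ y) ∧
      (∀ y : ↥(chart O x).toSubring,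
        IsSeparable (↥(IntermediateField.adjoin (IsLocalRing.ResidueField O)
          {h10_viT O ι hι x hxV})) (g y)) :=
  ⟨h10_viF O ι hι x hxV, h10_viG O ι hι hO x hxV,
    h10_vi_hcomm O ι hι hO x hxV,
    h10_vi_hK O ι hι x hxV,
    h10_vi_hfπ O ι hι x hxV π₀ hπ₀,
    h10_vi_hf O ι hι x hxV π₀ hπ₀ (h10_transcendental_of_not_dvd_order p _ ht),
    h10_vi_hg O ι hι hO x hxV π₀ hπ₀ hsat,
    h10_vi_hsep O ι hι hO x hxV p ht⟩

end Generic

end Fermat.Agent.S18x.IG.H10
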