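import Mathlib
import Fermat.Agent.S18x.IG.H10_VertInst
import Fermat.Agent.S18x.IG.H29_CoordInv

/-!
# [IG] (VERT-INST) for the modular function fields

`F := ↥(modularFunctionFieldFullC K M)`, `O : ValuationSubring K` a DVR, `V := gaussValM O M`,
any `[Algebra O F] [IsScalarTower O K F]`.

* `h10_vi_bundle_full` : the six vertical hypotheses of `ig_hSMChart` for ANY coordinate
  `x ∈ V` whose reduction has `q`-order prime to `p = char κ`;
* `h10_vi_bundle_coord`, `h10_vi_bundle_coord_inv` : the same for helper29's coordinate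
  `x := coordM K M x₀ hmem` (`x₀ ∈ ℤ((q))` of order `-1`, leading coefficient `1`:
  the Hauptmodul) and for `x⁻¹`.

Only remaining input: the saturation `hsat` of the chart (`= hsat₁`, `hsat₂` of `h26_kum_abs`).
-/

set_option autoImplicit false
set_option linter.unusedSectionVars false

namespace Fermat.Agent.S18x.IG.H10

open Polynomial ModularCurve Fermat.Agent.S18x.Dict.H20 Fermat.Agent.S18x.Spec.H26
  Fermat.Agent.S18x.IG Fermat.Agent.S18x.IG.H29

section Full

variable {K : Type} [Field K] (O : ValuationSubring K) [IsDiscreteValuationRing O]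
  (M : ℕ) [NeZero M]
  [Algebra O ↥(modularFunctionFieldFullC K M)]
  [IsScalarTower O K ↥(modularFunctionFieldFullC K M)]

/-- Compatibility of the constants: `hO` of `H10_VertInst` for `F_M`. -/
theorem h10_hO_full (c : O) :
    inclM (K := K) M (algebraMap O ↥(modularFunctionFieldFullC K M) c)
      = HahnSeries.C (c : K) := by
  rw [IsScalarTower.algebraMap_apply O K ↥(modularFunctionFieldFullC K M)]
  show algebraMap K (LaurentSeries K) (algebraMap O K c) = _
  rw [h10_algebraMap_laurent]
  rfl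

/-- The reduction of the coordinate is `gaussRedM`. -/
theorem h10_viT_full (x : ↥(modularFunctionFieldFullC K M)) (hxV : x ∈ gaussValM O M) :
    h10_viT O (inclM M) (inclM_mem_fracLam O M) x hxV = gaussRedM O M ⟨x, hxV⟩ := rfl

/-- **(VERT-INST)** for `F_M` and any coordinate `x ∈ V`: the six vertical hypotheses of
`ig_hSMChart`. -/
theorem h10_vi_bundle_full (x : ↥(modularFunctionFieldFullC K M)) (hxV : x ∈ gaussValM O M)
    (π₀ : O) (hπ₀ : Irreducible π₀)
    (p : ℕ) [Fact p.Prime] [CharP (IsLocalRing.ResidueField O) p]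
    [PerfectRing (IsLocalRing.ResidueField O) p]
    (ht : ¬ (p : ℤ) ∣ (gaussRedM O M ⟨x, hxV⟩).order)
    (hsat : ∀ v ∈ (gaussValM O M).toSubring,
      algebraMap O ↥(modularFunctionFieldFullC K M) π₀ * v ∈ chart O x → v ∈ chart O x) :
    ∃ (f : O[X] →+* ↥(IntermediateField.adjoin (IsLocalRing.ResidueField O)
          {h10_viT O (inclM M) (inclM_mem_fracLam O M) x hxV}))
      (g : ↥(chart O x).toSubring →+* LaurentSeries (IsLocalRing.ResidueField O)),
      (∀ P : O[X], g (chartHom O x P)
        = algebraMap (↥(IntermediateField.adjoin (IsLocalRing.ResidueField O)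
            {h10_viT O (inclM M) (inclM_mem_fracLam O M) x hxV}))
            (LaurentSeries (IsLocalRing.ResidueField O)) (f P)) ∧
      (∀ c : ↥(IntermediateField.adjoin (IsLocalRing.ResidueField O)
          {h10_viT O (inclM M) (inclM_mem_fracLam O M) x hxV}),
          ∃ a d : O[X], f d ≠ 0 ∧ c * f d = f a) ∧
      f (C π₀) = 0 ∧
      (∀ a : O[X], f a = 0 → C π₀ ∣ a) ∧
      (∀ y : ↥(chart O x).toSubring, g y = 0 → chartPi O x π₀ ∣ y) ∧
      (∀ y : ↥(chart O x).toSubring,
        IsSeparable (↥(IntermediateField.adjoin (IsLocalRing.ResidueField O)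
          {h10_viT O (inclM M) (inclM_mem_fracLam O M) x hxV})) (g y)) :=
  h10_vi_bundle O (inclM M) (inclM_mem_fracLam O M) (h10_hO_full O M) x hxV π₀ hπ₀ p ht hsat

variable (x₀ : LaurentSeries ℤ) (hord : x₀.order = -1) (hlead : x₀.coeff (-1) = 1)
  (hmem : coeffMap (Int.castRingHom K) x₀ ∈ modularFunctionFieldFullC K M)

include hord hlead in
/-- **(VERT-INST)** for the chart of the coordinate `x := coordM K M x₀ hmem` (Hauptmodul). -/
theorem h10_vi_bundle_coord (π₀ : O) (hπ₀ : Irreducible π₀)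
    (p : ℕ) [hp : Fact p.Prime] [CharP (IsLocalRing.ResidueField O) p]
    [PerfectRing (IsLocalRing.ResidueField O) p]
    (hsat : ∀ v ∈ (gaussValM O M).toSubring,
      algebraMap O ↥(modularFunctionFieldFullC K M) π₀ * v ∈ chart O (coordM K M x₀ hmem) →
        v ∈ chart O (coordM K M x₀ hmem)) :
    ∃ (f : O[X] →+* ↥(IntermediateField.adjoin (IsLocalRing.ResidueField O)
          {h10_viT O (inclM M) (inclM_mem_fracLam O M) (coordM K M x₀ hmem)
            (coordM_mem_gaussValM O M x₀ hmem)}))
      (g : ↥(chart O (coordM K M x₀ hmem)).toSubring →+*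
        LaurentSeries (IsLocalRing.ResidueField O)),
      (∀ P : O[X], g (chartHom O (coordM K M x₀ hmem) P)
        = algebraMap (↥(IntermediateField.adjoin (IsLocalRing.ResidueField O)
            {h10_viT O (inclM M) (inclM_mem_fracLam O M) (coordM K M x₀ hmem)
              (coordM_mem_gaussValM O M x₀ hmem)}))
            (LaurentSeries (IsLocalRing.ResidueField O)) (f P)) ∧
      (∀ c : ↥(IntermediateField.adjoin (IsLocalRing.ResidueField O)
          {h10_viT O (inclM M) (inclM_mem_fracLam O M) (coordM K M x₀ hmem)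
            (coordM_mem_gaussValM O M x₀ hmem)}),
          ∃ a d : O[X], f d ≠ 0 ∧ c * f d = f a) ∧
      f (C π₀) = 0 ∧
      (∀ a : O[X], f a = 0 → C π₀ ∣ a) ∧
      (∀ y : ↥(chart O (coordM K M x₀ hmem)).toSubring,
        g y = 0 → chartPi O (coordM K M x₀ hmem) π₀ ∣ y) ∧
      (∀ y : ↥(chart O (coordM K M x₀ hmem)).toSubring,
        IsSeparable (↥(IntermediateField.adjoin (IsLocalRing.ResidueField O)
          {h10_viT O (inclM M) (inclM_mem_fracLam O M) (coordM K M x₀ hmem)
            (coordM_mem_gaussValM O M x₀ hmem)})) (g y)) :=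
  h10_vi_bundle_full O M (coordM K M x₀ hmem) (coordM_mem_gaussValM O M x₀ hmem) π₀ hπ₀ p
    (not_dvd_order_gaussRedM_coordM O M x₀ hord hlead hmem p hp.out) hsat

include hord hlead in
/-- **(VERT-INST)** for the chart at infinity, coordinate `x⁻¹`. -/
theorem h10_vi_bundle_coord_inv (π₀ : O) (hπ₀ : Irreducible π₀)
    (p : ℕ) [hp : Fact p.Prime] [CharP (IsLocalRing.ResidueField O) p]
    [PerfectRing (IsLocalRing.ResidueField O) p]
    (hsat : ∀ v ∈ (gaussValM O M).toSubring,
      algebraMap O ↥(modularFunctionFieldFullC K M) π₀ * v ∈ chart O (coordM K M x₀ hmem)⁻¹ →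
        v ∈ chart O (coordM K M x₀ hmem)⁻¹) :
    ∃ (f : O[X] →+* ↥(IntermediateField.adjoin (IsLocalRing.ResidueField O)
          {h10_viT O (inclM M) (inclM_mem_fracLam O M) (coordM K M x₀ hmem)⁻¹
            (coordM_inv_mem_gaussValM O M x₀ hlead hmem)}))
      (g : ↥(chart O (coordM K M x₀ hmem)⁻¹).toSubring →+*
        LaurentSeries (IsLocalRing.ResidueField O)),
      (∀ P : O[X], g (chartHom O (coordM K M x₀ hmem)⁻¹ P)
        = algebraMap (↥(IntermediateField.adjoin (IsLocalRing.ResidueField O)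
            {h10_viT O (inclM M) (inclM_mem_fracLam O M) (coordM K M x₀ hmem)⁻¹
              (coordM_inv_mem_gaussValM O M x₀ hlead hmem)}))
            (LaurentSeries (IsLocalRing.ResidueField O)) (f P)) ∧
      (∀ c : ↥(IntermediateField.adjoin (IsLocalRing.ResidueField O)
          {h10_viT O (inclM M) (inclM_mem_fracLam O M) (coordM K M x₀ hmem)⁻¹
            (coordM_inv_mem_gaussValM O M x₀ hlead hmem)}),
          ∃ a d : O[X], f d ≠ 0 ∧ c * f d = f a) ∧
      f (C π₀) = 0 ∧
      (∀ a : O[X], f a = 0 → C π₀ ∣ a) ∧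
      (∀ y : ↥(chart O (coordM K M x₀ hmem)⁻¹).toSubring,
        g y = 0 → chartPi O (coordM K M x₀ hmem)⁻¹ π₀ ∣ y) ∧
      (∀ y : ↥(chart O (coordM K M x₀ hmem)⁻¹).toSubring,
        IsSeparable (↥(IntermediateField.adjoin (IsLocalRing.ResidueField O)
          {h10_viT O (inclM M) (inclM_mem_fracLam O M) (coordM K M x₀ hmem)⁻¹
            (coordM_inv_mem_gaussValM O M x₀ hlead hmem)})) (g y)) :=
  h10_vi_bundle_full O M (coordM K M x₀ hmem)⁻¹ (coordM_inv_mem_gaussValM O M x₀ hlead hmem)
    π₀ hπ₀ p (not_dvd_order_gaussRedM_coordM_inv O M x₀ hord hlead hmem p hp.out) hsat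

end Full

end Fermat.Agent.S18x.IG.H10
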