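import Mathlib
import Fermat.Agent.S18x.Dict.H23_Dvr

/-!
# S18 [IG] (Z-INST) (helper21): the branch values of the base coordinate are distinct mod `π`

For the base coordinate `x = h` (Hauptmodul of level `2` resp. `3`) the branch values are
`0` (a cusp) and `-64` resp. `-27` (the elliptic point); for `x = h⁻¹` they are `0` (the cusp
`h = ∞`) and `-1/64` resp. `-1/27`.  In a ring `O` in which `2` resp. `3` is a unit and `π₀` is
not, the two values of each set are distinct modulo `π₀`: this is the hypothesis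
`hZ : ∀ c ∈ Z, ∀ c' ∈ Z, π₀ ∣ c - c' → c = c'` of `ig_hSMChart`.
-/

set_option autoImplicit false

namespace Fermat.Agent.S18x.IG.H21

section Abstract

variable {O : Type*} [CommRing O]

/-- `Z = {0, a}` with `π₀ ∤ a`. -/
theorem h21_hZ_pair (π₀ a : O) (ha : ¬ π₀ ∣ a) :
    ∀ c ∈ ({0, a} : Set O), ∀ c' ∈ ({0, a} : Set O), π₀ ∣ c - c' → c = c' := by
  intro c hc c' hc' h
  simp only [Set.mem_insert_iff, Set.mem_singleton_iff] at hc hc'
  rcases hc with rfl | rfl <;> rcases hc' with rfl | rfl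
  · rfl
  · exfalso
    rw [zero_sub, dvd_neg] at h
    exact ha h
  · exfalso
    rw [sub_zero] at h
    exact ha h
  · rfl

/-- a non-unit does not divide a unit -/
theorem h21_not_dvd_of_isUnit (π₀ a : O) (hπ₀ : ¬ IsUnit π₀) (ha : IsUnit a) : ¬ π₀ ∣ a :=
  fun h => hπ₀ (isUnit_of_dvd_unit h ha)

/-- `Z = {0, a}` with `a` a unit and `π₀` a non-unit. -/
theorem h21_hZ_unit (π₀ a : O) (hπ₀ : ¬ IsUnit π₀) (ha : IsUnit a) :
    ∀ c ∈ ({0, a} : Set O), ∀ c' ∈ ({0, a} : Set O), π₀ ∣ c - c' → c = c' :=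
  h21_hZ_pair π₀ a (h21_not_dvd_of_isUnit π₀ a hπ₀ ha)

/-- the inverse of a unit, as an element -/
noncomputable def h21_inv (a : O) (ha : IsUnit a) : O := ((ha.unit⁻¹ : Oˣ) : O)

theorem h21_inv_mul (a : O) (ha : IsUnit a) : h21_inv a ha * a = 1 := by
  rw [h21_inv]
  exact IsUnit.val_inv_mul ha

theorem h21_mul_inv (a : O) (ha : IsUnit a) : a * h21_inv a ha = 1 := by
  rw [mul_comm, h21_inv_mul]

theorem h21_isUnit_inv (a : O) (ha : IsUnit a) : IsUnit (h21_inv a ha) :=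
  (ha.unit⁻¹).isUnit

/-- the image of `h21_inv a` in a field is the inverse -/
theorem h21_algebraMap_inv {F : Type*} [Field F] [Algebra O F] (a : O) (ha : IsUnit a) :
    algebraMap O F (h21_inv a ha) = (algebraMap O F a)⁻¹ := by
  have h := congrArg (algebraMap O F) (h21_inv_mul a ha)
  rw [map_mul, map_one] at h
  exact eq_inv_of_mul_eq_one_left h

theorem h21_isUnit_64 (h2 : IsUnit (2 : O)) : IsUnit (64 : O) := by
  have : (64 : O) = 2 ^ 6 := by norm_num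
  rw [this]
  exact h2.pow 6

theorem h21_isUnit_27 (h3 : IsUnit (3 : O)) : IsUnit (27 : O) := by
  have : (27 : O) = 3 ^ 3 := by norm_num
  rw [this]
  exact h3.pow 3

/-! ### level 2 (`2` a unit) -/

/-- **(Z-INST), level 2, coordinate `h`**: `Z = {0, -64}`. -/
theorem h21_hZ_two (π₀ : O) (hπ₀ : ¬ IsUnit π₀) (h2 : IsUnit (2 : O)) :
    ∀ c ∈ ({0, -64} : Set O), ∀ c' ∈ ({0, -64} : Set O), π₀ ∣ c - c' → c = c' :=
  h21_hZ_unit π₀ (-64) hπ₀ (h21_isUnit_64 h2).neg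

/-- **(Z-INST), level 2, coordinate `h⁻¹`**: `Z = {0, -1/64}`. -/
theorem h21_hZ_two_inv (π₀ : O) (hπ₀ : ¬ IsUnit π₀) (h2 : IsUnit (2 : O)) :
    ∀ c ∈ ({0, -h21_inv 64 (h21_isUnit_64 h2)} : Set O),
      ∀ c' ∈ ({0, -h21_inv 64 (h21_isUnit_64 h2)} : Set O), π₀ ∣ c - c' → c = c' :=
  h21_hZ_unit π₀ _ hπ₀ (h21_isUnit_inv 64 (h21_isUnit_64 h2)).neg

/-! ### level 3 (`3` a unit) -/

/-- **(Z-INST), level 3, coordinate `h`**: `Z = {0, -27}`. -/
theorem h21_hZ_three (π₀ : O) (hπ₀ : ¬ IsUnit π₀) (h3 : IsUnit (3 : O)) :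
    ∀ c ∈ ({0, -27} : Set O), ∀ c' ∈ ({0, -27} : Set O), π₀ ∣ c - c' → c = c' :=
  h21_hZ_unit π₀ (-27) hπ₀ (h21_isUnit_27 h3).neg

/-- **(Z-INST), level 3, coordinate `h⁻¹`**: `Z = {0, -1/27}`. -/
theorem h21_hZ_three_inv (π₀ : O) (hπ₀ : ¬ IsUnit π₀) (h3 : IsUnit (3 : O)) :
    ∀ c ∈ ({0, -h21_inv 27 (h21_isUnit_27 h3)} : Set O),
      ∀ c' ∈ ({0, -h21_inv 27 (h21_isUnit_27 h3)} : Set O), π₀ ∣ c - c' → c = c' :=
  h21_hZ_unit π₀ _ hπ₀ (h21_isUnit_inv 27 (h21_isUnit_27 h3)).neg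

/-- in a field containing `O`: `h - (-64) = 0 ↔ h⁻¹ - (-1/64) = 0` (the elliptic value in the
two coordinates), for `h ≠ 0`. -/
theorem h21_inv_sub_eq {F : Type*} [Field F] (h a : F) (hh : h ≠ 0) (ha : a ≠ 0) :
    h⁻¹ - a⁻¹ = -(h⁻¹ * a⁻¹) * (h - a) := by
  field_simp
  ring

end Abstract

/-! ### the instance `O = A ∩ K`, `A` over `ℓ` -/

section Inst

variable {K L : Type*} [Field K] [Field L] [Algebra K L] (A : ValuationSubring L) {ℓ : ℕ}

/-- `2` is a unit of `A ∩ K` for odd `ℓ`. -/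
theorem h21_isUnit_two (hℓ : ℓ.Prime) (hA : A.LiesOverPrime ℓ) (h2 : ℓ ≠ 2) :
    IsUnit (2 : A.comap (algebraMap K L)) := by
  have h := Fermat.Agent.S18x.Dict.H23.h23_isUnit_natCast (K := K) A hℓ hA 2
    (fun hd => h2 ((Nat.prime_dvd_prime_iff_eq hℓ Nat.prime_two).mp hd))
  exact_mod_cast h

/-- `3` is a unit of `A ∩ K` for `ℓ ≠ 3`. -/
theorem h21_isUnit_three (hℓ : ℓ.Prime) (hA : A.LiesOverPrime ℓ) (h3 : ℓ ≠ 3) :
    IsUnit (3 : A.comap (algebraMap K L)) := by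
  have h := Fermat.Agent.S18x.Dict.H23.h23_isUnit_natCast (K := K) A hℓ hA 3
    (fun hd => h3 ((Nat.prime_dvd_prime_iff_eq hℓ Nat.prime_three).mp hd))
  exact_mod_cast h

end Inst

end Fermat.Agent.S18x.IG.H21
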