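import Fermat.Agent.S18x.IG.H11_BaseLocal

/-!
# S18 [IG] [BASE-MAX], part 3 (helper11): the choice of the generator `g` at a branch value

The maximal ideal `M = (π, g)` determines `g` only modulo `π`; PRINCIPLE (*) needs at the closed
point through which a branch section `X = c₀` passes the generator `s = X - c₀` EXACTLY (the
section must be the divisor `s = 0`).

* `span_pair_eq_of_associated` : `(π, g) = (π, g')` if `ḡ`, `ḡ'` are associated;
* `eq_span_pair_of_mem` : a maximal ideal containing `π` and `g'` (`ḡ'` irreducible) is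
  `(π, g')`;
* `eq_span_X_sub_C_of_mem` : a maximal ideal containing `π` and `X - c` is `(π, X - c)`;
* `X_sub_C_mem_span_pair_iff` : `X - c' ∈ (π, X - c) ↔ π ∣ c - c'` (branch values which are
  distinct modulo `π` pass through different closed points);
* `X_sub_C_mem_or` : every maximal ideal over `π` contains at most one of the `X - cᵢ` for
  values `cᵢ` pairwise distinct modulo `π`.
-/

set_option autoImplicit false

open Polynomial

namespace Fermat.Agent.S18x.IG.H11

section Branch

variable {O : Type*} [CommRing O] (π : O)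

theorem span_pair_eq_of_associated (g g' : O[X])
    (h : Associated (redPoly π g) (redPoly π g')) :
    Ideal.span {C π, g} = Ideal.span {C π, g'} := by
  have h1 : Ideal.span {redPoly π g} = Ideal.span {redPoly π g'} :=
    le_antisymm (Ideal.span_singleton_le_span_singleton.mpr h.symm.dvd)
      (Ideal.span_singleton_le_span_singleton.mpr h.dvd)
  rw [← comap_span_redPoly, ← comap_span_redPoly, h1]

theorem span_pair_eq_of_redPoly_eq (g g' : O[X]) (h : redPoly π g = redPoly π g') :
    Ideal.span {C π, g} = Ideal.span {C π, g'} :=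
  span_pair_eq_of_associated π g g' (by rw [h])

variable [hmax : (Ideal.span {π}).IsMaximal]

/-- A maximal ideal containing `π` and `g'` (with `ḡ'` irreducible) is `(π, g')`. -/
theorem eq_span_pair_of_mem {M : Ideal O[X]} (hM : M.IsMaximal) (hπM : C π ∈ M) (g' : O[X])
    (hg' : Irreducible (g'.map (Ideal.Quotient.mk (Ideal.span {π})))) (hmem : g' ∈ M) :
    M = Ideal.span {C π, g'} := by
  have hle : Ideal.span {C π, g'} ≤ M := by
    rw [Ideal.span_le]
    rintro x (rfl | rfl)
    · exact hπM
    · exact hmem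
  exact ((isMaximal_span_pair π g' hg').eq_of_le hM.ne_top hle).symm

theorem irreducible_map_X_sub_C (c : O) :
    Irreducible ((X - C c : O[X]).map (Ideal.Quotient.mk (Ideal.span {π}))) := by
  let _ : Field (O ⧸ Ideal.span {π}) := Ideal.Quotient.field _
  rw [Polynomial.map_sub, Polynomial.map_X, Polynomial.map_C]
  exact Polynomial.irreducible_X_sub_C _

theorem irreducible_map_X :
    Irreducible ((X : O[X]).map (Ideal.Quotient.mk (Ideal.span {π}))) := by
  let _ : Field (O ⧸ Ideal.span {π}) := Ideal.Quotient.field _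
  rw [Polynomial.map_X]
  exact Polynomial.irreducible_X

/-- A maximal ideal containing `π` and `X - c` is `(π, X - c)`. -/
theorem eq_span_X_sub_C_of_mem {M : Ideal O[X]} (hM : M.IsMaximal) (hπM : C π ∈ M) (c : O)
    (hmem : X - C c ∈ M) : M = Ideal.span {C π, X - C c} :=
  eq_span_pair_of_mem π hM hπM _ (irreducible_map_X_sub_C π c) hmem

/-- A maximal ideal containing `π` and `X` is `(π, X)`. -/
theorem eq_span_X_of_mem {M : Ideal O[X]} (hM : M.IsMaximal) (hπM : C π ∈ M)
    (hmem : (X : O[X]) ∈ M) : M = Ideal.span {C π, X} :=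
  eq_span_pair_of_mem π hM hπM _ (irreducible_map_X π) hmem

omit hmax in
/-- `X - c' ∈ (π, X - c)` iff `c ≡ c'` modulo `π`. -/
theorem X_sub_C_mem_span_pair_iff [Nontrivial (O ⧸ Ideal.span {π})] (c c' : O) :
    X - C c' ∈ Ideal.span {C π, X - C c} ↔ π ∣ c - c' := by
  rw [mem_span_pair_iff_redPoly]
  have h1 : redPoly π (X - C c) = X - C (Ideal.Quotient.mk (Ideal.span {π}) c) := by
    simp [redPoly]
  have h2 : redPoly π (X - C c') = X - C (Ideal.Quotient.mk (Ideal.span {π}) c') := by
    simp [redPoly]
  rw [h1, h2, Polynomial.dvd_iff_isRoot, Polynomial.IsRoot.def, Polynomial.eval_sub,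
    Polynomial.eval_X, Polynomial.eval_C, ← map_sub, Ideal.Quotient.eq_zero_iff_mem,
    Ideal.mem_span_singleton]

/-- Two values which are distinct modulo `π` do not lie on the same closed point. -/
theorem not_mem_of_not_dvd {M : Ideal O[X]} (hM : M.IsMaximal) (hπM : C π ∈ M) (c c' : O)
    (hcc' : ¬ π ∣ c - c') (hmem : X - C c ∈ M) : X - C c' ∉ M := by
  have : Nontrivial (O ⧸ Ideal.span {π}) := Ideal.Quotient.nontrivial_iff.mpr hmax.ne_top
  rw [eq_span_X_sub_C_of_mem π hM hπM c hmem, X_sub_C_mem_span_pair_iff]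
  exact hcc'

omit hmax in
/-- The value at the closed point `(π, X - c)`: `P ∈ (π, X - c) ↔ π ∣ P(c)`. -/
theorem mem_span_X_sub_C_iff_eval [Nontrivial (O ⧸ Ideal.span {π})] (c : O) (P : O[X]) :
    P ∈ Ideal.span {C π, X - C c} ↔ π ∣ P.eval c := by
  rw [mem_span_pair_iff_redPoly]
  have h1 : redPoly π (X - C c) = X - C (Ideal.Quotient.mk (Ideal.span {π}) c) := by
    simp [redPoly]
  rw [h1, Polynomial.dvd_iff_isRoot, Polynomial.IsRoot.def]
  have h2 : (redPoly π P).eval (Ideal.Quotient.mk (Ideal.span {π}) c) =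
      Ideal.Quotient.mk (Ideal.span {π}) (P.eval c) := by
    rw [Polynomial.coe_mapRingHom, Polynomial.eval_map, Polynomial.eval₂_at_apply]
  rw [h2, Ideal.Quotient.eq_zero_iff_mem, Ideal.mem_span_singleton]

end Branch

end Fermat.Agent.S18x.IG.H11
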