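import Mathlib
import Fermat.Agent.S18x.CA.H25_Disc

/-!
# S18 [IG] — PRINCIPLE (*), special fibre (helper15)

`R` a principal ideal domain (in the application the DVR `A₀ ⧸ π`), `t : R` a prime element,
`C` a domain, finite and torsion-free over `R` (hence free).  Suppose that `t` times every
`R`-linear functional on `C` is represented, through the trace form, by an element of `C`
that is nilpotent modulo `t C`:

  `(Ubar)  ∀ φ : C →ₗ[R] R, ∃ y : C, (∃ N, y ^ N ∈ (t) C) ∧ ∀ c, t * φ c = trace R C (y * c)`

(classically: `t • codifferent ⊆ rad (t C)`).  Then `C` is integrally closed.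

Proof: for `z ∈ Frac C` integral over `C`, the ring `C' = C[z]` is a finite free `R`-algebra;
`r z = c ∈ C` for some `r ≠ 0`; `t * φᵢ c = tr_C (yᵢ c) = r * tr_{C'} (yᵢ z)` and `yᵢ z` is
nilpotent modulo `t C'`, so its trace is in `(t)`; hence every coordinate of `c` is divisible
by `r`, i.e. `z ∈ C`.
-/

namespace Fermat.Agent.S18x.IG.H15

open Module nonZeroDivisors

section SubLattice

variable {R E : Type*} [CommRing R] [IsDomain R] [Field E] [Algebra R E]

/-- A finite free `R`-subalgebra `Λ` of `E` with `K Λ = E` is a lattice: `E` is the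
localisation of `Λ` at the nonzero elements of `R`. -/
theorem h15_isLocalization_subalgebra (hinj : Function.Injective (algebraMap R E))
    (Λ : Subalgebra R E) (hspan : ∀ e : E, ∃ r : R, r ≠ 0 ∧ r • e ∈ Λ) :
    IsLocalization (Algebra.algebraMapSubmonoid (↥Λ) R⁰) E := by
  rw [isLocalization_iff]
  refine ⟨?_, ?_, ?_⟩
  · rintro ⟨y, hy⟩
    obtain ⟨r, hr, rfl⟩ := hy
    have hr0 : r ≠ 0 := nonZeroDivisors.ne_zero hr
    have : (algebraMap (↥Λ) E) ((algebraMap R ↥Λ) r) = algebraMap R E r := rfl
    rw [this]
    exact IsUnit.mk0 _ (fun h => hr0 (hinj (by rw [h, map_zero])))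
  · intro e
    obtain ⟨r, hr, hre⟩ := hspan e
    refine ⟨(⟨r • e, hre⟩, ⟨algebraMap R Λ r, r, mem_nonZeroDivisors_of_ne_zero hr, rfl⟩), ?_⟩
    change e * algebraMap R E r = r • e
    rw [Algebra.smul_def, mul_comm]
  · intro x y hxy
    refine ⟨1, ?_⟩
    have : x = y := Subtype.ext hxy
    rw [this]

variable {K : Type*} [Field K] [Algebra R K] [IsFractionRing R K] [Algebra K E]
  [IsScalarTower R K E]

/-- The trace of a lattice subalgebra is the restriction of the trace of `E / K`. -/
theorem h15_trace_subalgebra (Λ : Subalgebra R E) [Module.Free R Λ] [Module.Finite R Λ]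
    (hspan : ∀ e : E, ∃ r : R, r ≠ 0 ∧ r • e ∈ Λ) (x : Λ) :
    Algebra.trace K E (x : E) = algebraMap R K (Algebra.trace R Λ x) := by
  have hinj : Function.Injective (algebraMap R E) := by
    rw [IsScalarTower.algebraMap_eq R K E]
    exact (algebraMap K E).injective.comp (IsFractionRing.injective R K)
  have := h15_isLocalization_subalgebra hinj Λ hspan
  exact Algebra.trace_localization R R⁰ (Rₘ := K) (Sₘ := E) x

end SubLattice

section Special

variable {R C : Type*} [CommRing R] [IsDomain R] [IsPrincipalIdealRing R]
  [CommRing C] [IsDomain C] [Algebra R C] [Module.Finite R C] [FaithfulSMul R C]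

attribute [local instance] FractionRing.liftAlgebra FractionRing.isScalarTower_liftAlgebra

/-- **PRINCIPLE (*), special fibre.** If `t` times every `R`-linear functional on `C` is the
trace pairing with an element of `C` nilpotent modulo `t C`, then `C` is integrally closed. -/
theorem h15_isIntegrallyClosed_of_dual (t : R) (ht : Prime t)
    (hU : ∀ φ : C →ₗ[R] R, ∃ y : C, (∃ N : ℕ, y ^ N ∈ Ideal.span {algebraMap R C t}) ∧
      ∀ c : C, t * φ c = Algebra.trace R C (y * c)) :
    IsIntegrallyClosed C := by
  classical
  have hinjRC : Function.Injective (algebraMap R C) := FaithfulSMul.algebraMap_injective R C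
  have : Module.IsTorsionFree R C := inferInstance
  have : Module.Free R C := Module.free_of_finite_type_torsion_free'
  have : Algebra.IsIntegral R C := inferInstance
  have : FaithfulSMul R (FractionRing C) := inferInstance
  rw [isIntegrallyClosed_iff (FractionRing C)]
  intro z hz
  have hzR : IsIntegral R z := isIntegral_trans z hz
  have hloc : IsLocalization (Algebra.algebraMapSubmonoid C R⁰) (FractionRing C) := inferInstance
  obtain ⟨⟨c, ⟨s, r, hr, rfl⟩⟩, hcz⟩ :=
    IsLocalization.surj (Algebra.algebraMapSubmonoid C R⁰) z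
  have hr0 : r ≠ 0 := nonZeroDivisors.ne_zero hr
  replace hcz : z * algebraMap C (FractionRing C) (algebraMap R C r) =
      algebraMap C (FractionRing C) c := hcz
  -- the finite free subalgebra `C' = C[z]`
  let C₀ : Subalgebra R (FractionRing C) := (IsScalarTower.toAlgHom R C (FractionRing C)).range
  let C' : Subalgebra R (FractionRing C) := C₀ ⊔ Algebra.adjoin R {z}
  have hC₀ : ∀ x : C, algebraMap C (FractionRing C) x ∈ C' := fun x =>
    (le_sup_left : C₀ ≤ C') ⟨x, rfl⟩
  have hzC' : z ∈ C' :=
    (le_sup_right : Algebra.adjoin R {z} ≤ C') (Algebra.subset_adjoin (Set.mem_singleton z))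
  have : Module.Finite R C₀ := by
    have h := Module.Finite.range (IsScalarTower.toAlgHom R C (FractionRing C)).toLinearMap
    exact h
  have : Module.Finite R (Algebra.adjoin R ({z} : Set (FractionRing C))) :=
    Module.Finite.iff_fg.mpr hzR.fg_adjoin_singleton
  have : Module.Finite R C' := Subalgebra.finite_sup _ _
  have : Module.IsTorsionFree R (FractionRing C) := inferInstance
  have : Module.IsTorsionFree R C' := inferInstance
  have : Module.Free R C' := Module.free_of_finite_type_torsion_free'
  have hspan' : ∀ e : FractionRing C, ∃ r : R, r ≠ 0 ∧ r • e ∈ C' := by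
    intro e
    obtain ⟨⟨c, ⟨s, r, hr, rfl⟩⟩, h⟩ :=
      IsLocalization.surj (Algebra.algebraMapSubmonoid C R⁰) e
    refine ⟨r, nonZeroDivisors.ne_zero hr, ?_⟩
    have h' : e * algebraMap C (FractionRing C) (algebraMap R C r) =
      algebraMap C (FractionRing C) c := h
    have : r • e = algebraMap C (FractionRing C) c := by
      rw [← h', Algebra.smul_def, IsScalarTower.algebraMap_apply R C (FractionRing C), mul_comm]
    rw [this]
    exact hC₀ c
  let b := Module.Free.chooseBasis R C
  let b' := Module.Free.chooseBasis R C'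
  have hprime : (Ideal.span {t} : Ideal R).IsPrime :=
    (Ideal.span_singleton_prime ht.ne_zero).mpr ht
  have key : ∀ i, ∃ a : R, b.repr c i = r * a := by
    intro i
    obtain ⟨y, ⟨N, hyN⟩, hy⟩ := hU (b.coord i)
    let w : C' := ⟨algebraMap C (FractionRing C) y, hC₀ y⟩ * ⟨z, hzC'⟩
    have hw : w ^ N ∈ Ideal.map (algebraMap R C') (Ideal.span {t}) := by
      obtain ⟨u, hu⟩ := Ideal.mem_span_singleton'.mp hyN
      have : w ^ N = algebraMap R C' t *
          (⟨algebraMap C (FractionRing C) u, hC₀ u⟩ * ⟨z, hzC'⟩ ^ N) := by
        apply Subtype.ext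
        simp only [w, mul_pow, Subalgebra.coe_mul, Subalgebra.coe_pow, Subalgebra.coe_algebraMap]
        rw [← map_pow, ← hu, map_mul, IsScalarTower.algebraMap_apply R C (FractionRing C)]
        ring
      rw [this]
      exact Ideal.mul_mem_right _ _ (Ideal.mem_map_of_mem _ (Ideal.mem_span_singleton_self t))
    have htr := CA.H25.trace_mem_of_pow_mem b' (Ideal.span {t}) hw
    obtain ⟨a, ha⟩ := Ideal.mem_span_singleton'.mp htr
    have h1 : algebraMap R (FractionRing R) (Algebra.trace R C (y * c)) =
        Algebra.trace (FractionRing R) (FractionRing C) (algebraMap C (FractionRing C) (y * c)) :=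
      (Algebra.trace_localization R R⁰ (Rₘ := FractionRing R) (Sₘ := FractionRing C)
        (y * c)).symm
    have h2 : Algebra.trace (FractionRing R) (FractionRing C) ((w : C') : FractionRing C) =
        algebraMap R (FractionRing R) (Algebra.trace R C' w) :=
      h15_trace_subalgebra C' hspan' w
    have h3 : algebraMap C (FractionRing C) (y * c) =
        (algebraMap R (FractionRing R) r) • ((w : C') : FractionRing C) := by
      have e1 : algebraMap (FractionRing R) (FractionRing C) (algebraMap R (FractionRing R) r) =
          algebraMap C (FractionRing C) (algebraMap R C r) := by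
        rw [← IsScalarTower.algebraMap_apply, ← IsScalarTower.algebraMap_apply]
      rw [map_mul, ← hcz, Algebra.smul_def, e1]
      simp only [w, Subalgebra.coe_mul]
      ring
    have h4 : Algebra.trace R C (y * c) = r * Algebra.trace R C' w := by
      apply IsFractionRing.injective R (FractionRing R)
      rw [h1, h3, LinearMap.map_smul, h2, smul_eq_mul, RingHom.map_mul]
    refine ⟨a, ?_⟩
    apply mul_left_cancel₀ ht.ne_zero
    have h5 := hy c
    rw [Module.Basis.coord_apply] at h5
    rw [h5, h4, ← ha]
    ring
  choose a ha using key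
  refine ⟨∑ i, a i • b i, ?_⟩
  have hc : c = algebraMap R C r * ∑ i, a i • b i := by
    conv_lhs => rw [← b.sum_repr c]
    rw [Finset.mul_sum]
    refine Finset.sum_congr rfl (fun i _ => ?_)
    rw [ha i, mul_smul, Algebra.smul_def r]
  have hrE : algebraMap C (FractionRing C) (algebraMap R C r) ≠ 0 := by
    intro h
    apply hr0
    apply hinjRC
    apply IsFractionRing.injective C (FractionRing C)
    rw [h, map_zero, map_zero]
  apply mul_right_cancel₀ hrE
  rw [hcz, hc, map_mul, mul_comm]

end Special

end Fermat.Agent.S18x.IG.H15
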