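import Mathlib
import Fermat.Agent.S18x.CA.H25_Disc
import Fermat.Agent.S18x.IG.H15_DualSpecial

/-!
# S18 [IG] — PRINCIPLE (*): glueing and reduction modulo `π` (helper15)

`A` a domain, `π, s : A`, `π` prime, `π` regular modulo `s`; `B` an `A`-algebra with a finite
basis `b` (by (T1): `B` normal and finite over the regular local ring `A`).

* `h15_exists_trace_repr` (Cramer): `discr • φ` is a trace pairing, for every functional `φ`.
* `h15_eq_zero_of_trace` : the trace form is non-degenerate as soon as `discr ≠ 0`.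
* `h15_glue` : if `π ∤ discr` and `π ^ n * s * φ = tr (y₂ ·)` with `y₂` nilpotent modulo `s B`
  (information from the generic fibre), then `s * φ = tr (y ·)` with `y` nilpotent modulo `s B`.
* `h15_principle` : **PRINCIPLE (*)**. Let `f : A → R`, `g : B → C` be compatible surjections
  with kernels `(π)`, `π B` onto a PID `R` and a domain `C`, with `f s` prime. If `π ∤ discr`
  and the generic fibre hypothesis `(h_gen)` holds, then `C` is integrally closed.
-/

namespace Fermat.Agent.S18x.IG.H15

open Module

section Glue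

variable {A B : Type*} [CommRing A] [CommRing B] [Algebra A B]
variable {ι : Type*} [Fintype ι] [DecidableEq ι]

omit [DecidableEq ι] in
/-- The trace pairing of `∑ cᵢ bᵢ` with a basis vector. -/
theorem h15_trace_sum_mul (b : Basis ι A B) (c : ι → A) (j : ι) :
    Algebra.trace A B ((∑ i, c i • b i) * b j) =
      Matrix.vecMul c (Algebra.traceMatrix A b) j := by
  rw [Finset.sum_mul, map_sum]
  simp only [Matrix.vecMul, dotProduct, Algebra.traceMatrix_apply, Algebra.traceForm_apply]
  refine Finset.sum_congr rfl (fun k _ => ?_)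
  rw [smul_mul_assoc, map_smul, smul_eq_mul]

/-- **Cramer.** For every functional `φ`, `discr • φ` is represented by the trace form. -/
theorem h15_exists_trace_repr (b : Basis ι A B) (φ : B →ₗ[A] A) :
    ∃ y : B, ∀ x : B, Algebra.discr A b * φ x = Algebra.trace A B (y * x) := by
  set T := Algebra.traceMatrix A b with hT
  set v : ι → A := fun j => φ (b j) with hv
  set c : ι → A := Matrix.vecMul v T.adjugate with hc
  refine ⟨∑ i, c i • b i, fun x => ?_⟩
  have hb : ∀ j, Algebra.trace A B ((∑ i, c i • b i) * b j) = Algebra.discr A b * v j := by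
    intro j
    rw [h15_trace_sum_mul, hc, Matrix.vecMul_vecMul, Matrix.adjugate_mul, Matrix.vecMul_smul,
      Matrix.vecMul_one, Algebra.discr_def]
    rfl
  conv_lhs => rw [← b.sum_repr x, map_sum, Finset.mul_sum]
  conv_rhs => rw [← b.sum_repr x, Finset.mul_sum, map_sum]
  refine Finset.sum_congr rfl (fun j _ => ?_)
  rw [mul_smul_comm, map_smul, map_smul, hb j, smul_eq_mul, smul_eq_mul]
  ring

/-- The trace form is non-degenerate when the discriminant is nonzero. -/
theorem h15_eq_zero_of_trace [IsDomain A] (b : Basis ι A B) (hd : Algebra.discr A b ≠ 0)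
    (y : B) (h : ∀ x, Algebra.trace A B (y * x) = 0) : y = 0 := by
  have h1 := CA.H25.mem_map_of_forall_trace_mem b (⊥ : Ideal A)
    (fun hmem => hd (by simpa using hmem)) (x := y) (fun x => by rw [h x]; exact Ideal.zero_mem _)
  rw [Ideal.map_bot] at h1
  simpa using h1

omit [DecidableEq ι] in
/-- Divisibility of an element of `B` by an element of `A`, read off on coordinates. -/
theorem h15_dvd_iff_repr (b : Basis ι A B) (a : A) (w : B) :
    w ∈ Ideal.span {algebraMap A B a} ↔ ∀ i, a ∣ b.repr w i := by
  have hmap : Ideal.span {algebraMap A B a} = Ideal.map (algebraMap A B) (Ideal.span {a}) := by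
    rw [Ideal.map_span, Set.image_singleton]
  rw [hmap]
  constructor
  · intro h i
    exact Ideal.mem_span_singleton.mp (CA.H25.repr_mem_of_mem_map b _ h i)
  · intro h
    exact CA.H25.mem_map_of_repr_mem b _ (fun i => Ideal.mem_span_singleton.mpr (h i))

/-- `π ^ m` is regular modulo `s` if `π` is. -/
theorem h15_dvd_of_dvd_pow_mul {π s : A} (hπs : ∀ a : A, s ∣ π * a → s ∣ a) (m : ℕ) (a : A)
    (h : s ∣ π ^ m * a) : s ∣ a := by
  induction m with
  | zero => simpa using h
  | succ k ih =>
    apply ih
    apply hπs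
    rw [← mul_assoc, ← pow_succ']
    exact h

/-- **Glue.** Information at the vertical prime (`π ∤ discr`) and on the generic fibre
(`π ^ n * s * φ` is a trace pairing with an element nilpotent modulo `s B`) give:
`s * φ` is a trace pairing with an element nilpotent modulo `s B`. -/
theorem h15_glue [IsDomain A] (b : Basis ι A B) (π s : A) (hπ : Prime π)
    (hπs : ∀ a : A, s ∣ π * a → s ∣ a) (hdisc : ¬ π ∣ Algebra.discr A b) (φ : B →ₗ[A] A)
    (hgen : ∃ (n N : ℕ) (y : B), y ^ N ∈ Ideal.span {algebraMap A B s} ∧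
      ∀ x, π ^ n * s * φ x = Algebra.trace A B (y * x)) :
    ∃ (N : ℕ) (y : B), y ^ N ∈ Ideal.span {algebraMap A B s} ∧
      ∀ x, s * φ x = Algebra.trace A B (y * x) := by
  obtain ⟨n, N, y₂, hy₂N, hy₂⟩ := hgen
  obtain ⟨y₁, hy₁⟩ := h15_exists_trace_repr b φ
  have hd0 : Algebra.discr A b ≠ 0 := fun h => hdisc (by rw [h]; exact dvd_zero _)
  have hπ0 : π ^ n ≠ 0 := pow_ne_zero _ hπ.ne_zero
  -- `π ^ n s y₁ = d y₂`
  have e : (π ^ n * s) • y₁ = Algebra.discr A b • y₂ := by
    rw [← sub_eq_zero]
    refine h15_eq_zero_of_trace b hd0 _ (fun x => ?_)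
    rw [sub_mul, map_sub, smul_mul_assoc, smul_mul_assoc, map_smul, map_smul, ← hy₁, ← hy₂,
      smul_eq_mul, smul_eq_mul]
    ring
  -- coordinates of `y₂` are divisible by `π ^ n`
  have hcoord : ∀ i, π ^ n ∣ b.repr y₂ i := by
    intro i
    have h1 : Algebra.discr A b * b.repr y₂ i = π ^ n * s * b.repr y₁ i := by
      have := congrArg (fun w => b.repr w i) e
      simp only [map_smul, Finsupp.smul_apply, smul_eq_mul] at this
      exact this.symm
    refine Prime.pow_dvd_of_dvd_mul_left hπ n hdisc ?_
    rw [h1, mul_assoc]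
    exact dvd_mul_right _ _
  choose c hc using hcoord
  set y : B := ∑ i, c i • b i with hy
  have hy₂y : y₂ = π ^ n • y := by
    conv_lhs => rw [← b.sum_repr y₂]
    rw [hy, Finset.smul_sum]
    refine Finset.sum_congr rfl (fun i _ => ?_)
    rw [hc i, mul_smul]
  refine ⟨N, y, ?_, fun x => ?_⟩
  · rw [h15_dvd_iff_repr b]
    intro i
    have h2 := (h15_dvd_iff_repr b s (y₂ ^ N)).mp hy₂N i
    rw [hy₂y, smul_pow, map_smul, Finsupp.smul_apply, smul_eq_mul, ← pow_mul] at h2
    exact h15_dvd_of_dvd_pow_mul hπs _ _ h2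
  · apply mul_left_cancel₀ hπ0
    rw [← mul_assoc, hy₂ x, hy₂y, smul_mul_assoc, map_smul, smul_eq_mul]

end Glue

section Principle

variable {A B R C : Type*} [CommRing A] [CommRing B] [Algebra A B]
  [CommRing R] [CommRing C] [Algebra R C]
variable {ι : Type*} [Fintype ι]

/-- `g` is `f`-semilinear on coordinates. -/
theorem h15_map_eq_sum (f : A →+* R) (g : B →+* C)
    (hcomm : ∀ a, g (algebraMap A B a) = algebraMap R C (f a)) (b : Basis ι A B) (x : B) :
    g x = ∑ i, f (b.repr x i) • g (b i) := by
  conv_lhs => rw [← b.sum_repr x, map_sum]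
  refine Finset.sum_congr rfl (fun k _ => ?_)
  rw [Algebra.smul_def, map_mul, hcomm, Algebra.smul_def]

/-- The image of a basis of `B / A` is a basis of the fibre `C / R`. -/
theorem h15_exists_fibreBasis (f : A →+* R) (g : B →+* C)
    (hcomm : ∀ a, g (algebraMap A B a) = algebraMap R C (f a))
    (hf : Function.Surjective f) (hg : Function.Surjective g) (π : A) (hfπ : f π = 0)
    (hkg : ∀ x, g x = 0 → x ∈ Ideal.span {algebraMap A B π}) (b : Basis ι A B) :
    ∃ b' : Basis ι R C, ∀ i, b' i = g (b i) := by
  classical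
  have hli : LinearIndependent R (fun i => g (b i)) := by
    rw [Fintype.linearIndependent_iff]
    intro r hr i
    choose a ha using fun j => hf (r j)
    have h1 : g (∑ j, a j • b j) = 0 := by
      rw [map_sum, ← hr]
      refine Finset.sum_congr rfl (fun j _ => ?_)
      rw [Algebra.smul_def, map_mul, hcomm, ha, Algebra.smul_def]
    have h2 := (h15_dvd_iff_repr b π _).mp (hkg _ h1) i
    rw [b.repr_sum_self] at h2
    obtain ⟨u, hu⟩ := h2
    rw [← ha i, hu, map_mul, hfπ, zero_mul]
  have hsp : ⊤ ≤ Submodule.span R (Set.range (fun i => g (b i))) := by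
    intro c _
    obtain ⟨x, rfl⟩ := hg c
    rw [h15_map_eq_sum f g hcomm b x]
    exact Submodule.sum_mem _ (fun i _ => Submodule.smul_mem _ _
      (Submodule.subset_span ⟨i, rfl⟩))
  exact ⟨Basis.mk hli hsp, fun i => by rw [Basis.mk_apply]⟩

variable [IsDomain A] [IsDomain R] [IsPrincipalIdealRing R] [IsDomain C] [DecidableEq ι]

/-- **PRINCIPLE (*)**: smoothness of the special fibre from the generic fibre.

`A` a domain (in the application: a regular local ring of dimension two with maximal ideal
`(π, s)`), `B` an `A`-algebra with a finite basis `b` ((T1)). `f : A → R`, `g : B → C` are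
compatible surjections with `ker f = (π)`, `ker g = π B`, onto a principal ideal domain `R`
and a domain `C` (`C = B / π B` is the special fibre, `R = A / π` a DVR), `f s` is a prime
element of `R`, and `π` is regular modulo `s`. Assume

* `hdisc` : `π ∤ discr` (the special fibre is generically étale over `R`);
* `hgen` : for every functional `φ : B → A` some `π ^ n * s * φ` is the trace pairing with an
  element of `B` which is nilpotent modulo `s B` (generic fibre: `s • codifferent ⊆ rad (s)`,
  i.e. no branch point other than `s = 0`, and tame ramification there).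

Then `C` is integrally closed. -/
theorem h15_principle (f : A →+* R) (g : B →+* C)
    (hcomm : ∀ a, g (algebraMap A B a) = algebraMap R C (f a))
    (hf : Function.Surjective f) (hg : Function.Surjective g) (π s : A) (hπ : Prime π)
    (hfπ : f π = 0) (hkg : ∀ x, g x = 0 → x ∈ Ideal.span {algebraMap A B π})
    (hs : Prime (f s)) (hπs : ∀ a : A, s ∣ π * a → s ∣ a)
    (b : Basis ι A B) (hdisc : ¬ π ∣ Algebra.discr A b)
    (hgen : ∀ φ : B →ₗ[A] A, ∃ (n N : ℕ) (y : B), y ^ N ∈ Ideal.span {algebraMap A B s} ∧
      ∀ x, π ^ n * s * φ x = Algebra.trace A B (y * x)) :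
    IsIntegrallyClosed C := by
  obtain ⟨b', hb'⟩ := h15_exists_fibreBasis f g hcomm hf hg π hfπ hkg b
  have : Module.Finite R C := Module.Finite.of_basis b'
  have : Module.Free R C := Module.Free.of_basis b'
  have : FaithfulSMul R C := inferInstance
  refine h15_isIntegrallyClosed_of_dual (f s) hs (fun φ' => ?_)
  -- lift the functional
  choose v hv using fun i => hf (φ' (g (b i)))
  set φ : B →ₗ[A] A := b.constr ℕ v with hφ
  have hφf : ∀ x, f (φ x) = φ' (g x) := by
    intro x
    rw [h15_map_eq_sum f g hcomm b x, map_sum, hφ, Basis.constr_apply_fintype, map_sum]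
    refine Finset.sum_congr rfl (fun i _ => ?_)
    rw [smul_eq_mul, map_mul, hv, Basis.equivFun_apply, LinearMap.map_smul, smul_eq_mul]
  obtain ⟨N, y, hyN, hy⟩ := h15_glue b π s hπ hπs hdisc φ (hgen φ)
  refine ⟨g y, ⟨N, ?_⟩, fun c => ?_⟩
  · obtain ⟨u, hu⟩ := Ideal.mem_span_singleton'.mp hyN
    rw [← map_pow, ← hu, map_mul, hcomm]
    exact Ideal.mul_mem_left _ _ (Ideal.mem_span_singleton_self _)
  · obtain ⟨x, rfl⟩ := hg c
    rw [← hφf, ← map_mul, hy x, ← map_mul, CA.H25.trace_map_eq f g hcomm b b' hb']

end Principle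

end Fermat.Agent.S18x.IG.H15
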