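import Mathlib
import Fermat.Agent.S20.H16_DualVal

/-!
# S18 [IG] (P-d), part 1 — the tame half of `(h_gen)` in Dedekind form (helper16)

`A ⊆ B` Dedekind domains with fraction fields `K ⊆ L` (finite separable), all residue fields of
`A` of characteristic zero.  Let `s ∈ A` generate a prime ideal and assume that `B` is unramified
over `A` at every prime of `B` not containing `s`.  Then for every `z ∈ L` in the trace dual of
`B` (`Tr (z b) ∈ A` for all `b ∈ B`) the element `s z` lies in `B`, in every prime of `B`
containing `s`, and a power of it lies in `s B`: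

  `s · 𝔇⁻¹ ⊆ rad (s B)`.

This is the generic-fibre input of helper15's PRINCIPLE (*) (findings #166), hypothesis `(h_gen)`.
Mathlib + the S20 tame-different files only.
-/

namespace Fermat.Agent.S18x.IG.H16

open Ideal Algebra Module UniqueFactorizationMonoid IsDedekindDomain WithZero nonZeroDivisors

attribute [local instance] FractionRing.liftAlgebra FractionRing.isScalarTower_liftAlgebra
  Ideal.Quotient.field

section Count

variable {B : Type*} [CommRing B] [IsDedekindDomain B]

/-- `I ⊄ P ^ 2` forces the multiplicity of `P` in `I` to be at most one. -/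
theorem count_le_one_of_not_le_sq (I : Ideal B) (hI : I ≠ ⊥) (P : Ideal B) [P.IsMaximal]
    (h : ¬ I ≤ P ^ 2) : (normalizedFactors I).count P ≤ 1 := by
  by_contra hlt
  rw [not_le] at hlt
  apply h
  obtain ⟨Q, -, hQ⟩ := Ideal.eq_prime_pow_mul_coprime hI P
  have h1 : P ^ (normalizedFactors I).count P ≤ P ^ 2 := Ideal.pow_le_pow_right hlt
  calc I = P ^ (normalizedFactors I).count P * Q := hQ
    _ ≤ P ^ (normalizedFactors I).count P := Ideal.mul_le_left
    _ ≤ P ^ 2 := h1

end Count

section Main

variable (A K : Type*) {L B : Type*} [CommRing A] [Field K] [CommRing B] [Field L]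
  [Algebra A K] [Algebra B L] [Algebra A B] [Algebra K L] [Algebra A L]
  [IsScalarTower A K L] [IsScalarTower A B L]
  [IsFractionRing A K] [IsFractionRing B L] [IsDedekindDomain A] [IsDedekindDomain B]
  [Module.IsTorsionFree A B] [Module.Finite A B]
  [FiniteDimensional K L] [Algebra.IsSeparable K L]

/-- Valuation form of the tame dual: under the hypotheses of the file header,
`v_P (s z) ≤ 1` for all `P`, and `v_P (s z) < 1` if `s ∈ P`. -/
theorem valuation_smul_dual
    (hchar : ∀ p : Ideal A, p.IsMaximal → p ≠ ⊥ → CharZero (A ⧸ p))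
    (s : A) (hs : (Ideal.span {s}).IsPrime) (hs0 : s ≠ 0)
    (hunr : ∀ P : HeightOneSpectrum B, algebraMap A B s ∉ P.asIdeal →
      ¬ ((P.asIdeal.under A).map (algebraMap A B) ≤ P.asIdeal ^ 2))
    (z : L)
    (hz : ∀ b : B, Algebra.trace K L (z * algebraMap B L b) ∈ (algebraMap A K).range)
    (P : HeightOneSpectrum B) :
    P.valuation L (algebraMap A L s * z) ≤ 1 ∧
      (algebraMap A B s ∈ P.asIdeal → P.valuation L (algebraMap A L s * z) < 1) := by
  have hsep : Algebra.IsSeparable (FractionRing A) (FractionRing B) :=
    Fermat.Agent.S20.Tame.h16_isSeparable_fractionRing A K L B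
  have hval := (Fermat.Agent.S20.Tame.h16_forall_trace_mem_iff A K hchar z).mp hz P
  have hp0 : P.asIdeal.under A ≠ ⊥ := Ideal.under_ne_bot A P.ne_bot
  have hpmax : (P.asIdeal.under A).IsMaximal :=
    Ideal.IsPrime.isMaximal inferInstance hp0
  have hmap0 : (P.asIdeal.under A).map (algebraMap A B) ≠ ⊥ :=
    Ideal.map_ne_bot_of_ne_bot hp0
  have hram : (P.asIdeal.ramificationIdx A : ℤ) =
      ((normalizedFactors ((P.asIdeal.under A).map (algebraMap A B))).count P.asIdeal : ℤ) := by
    rw [Ideal.IsDedekindDomain.ramificationIdx_eq_normalizedFactors_count (P.asIdeal.under A)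
      P.asIdeal hmap0]
  have hcount_pos :
      (normalizedFactors ((P.asIdeal.under A).map (algebraMap A B))).count P.asIdeal ≠ 0 :=
    Fermat.Agent.S20.Tame.h16_count_map_ne_zero A hp0 P.asIdeal
  have hsL : algebraMap A L s = algebraMap B L (algebraMap A B s) :=
    IsScalarTower.algebraMap_apply A B L s
  rw [map_mul, hsL, HeightOneSpectrum.valuation_of_algebraMap]
  by_cases hsP : algebraMap A B s ∈ P.asIdeal
  · -- `P` lies over `(s)`
    have hle : Ideal.span {s} ≤ P.asIdeal.under A := by
      rw [Ideal.span_le, Set.singleton_subset_iff]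
      exact hsP
    have hsmax : (Ideal.span {s}).IsMaximal :=
      Ideal.IsPrime.isMaximal hs (by
        rw [Ne, Ideal.span_singleton_eq_bot]
        exact hs0)
    have hunder : P.asIdeal.under A = Ideal.span {s} :=
      (hsmax.eq_of_le hpmax.ne_top hle).symm
    have hmem : algebraMap A B s ∈ (P.asIdeal.under A).map (algebraMap A B) := by
      rw [hunder]
      exact Ideal.mem_map_of_mem _ (Ideal.mem_span_singleton_self s)
    have h1 := Fermat.Agent.S20.Tame.h16_intValuation_le_of_mem _ P hmem
    have hlt : P.intValuation (algebraMap A B s) * P.valuation L z < 1 := by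
      calc P.intValuation (algebraMap A B s) * P.valuation L z
          ≤ exp (-((normalizedFactors ((P.asIdeal.under A).map (algebraMap A B))).count
              P.asIdeal : ℤ)) * exp ((P.asIdeal.ramificationIdx A : ℤ) - 1) := by
            gcongr
        _ = exp (-1) := by
            rw [← exp_add, hram]
            congr 1
            ring
        _ < 1 := by
            rw [← exp_zero, exp_lt_exp]
            norm_num
    exact ⟨hlt.le, fun _ => hlt⟩
  · refine ⟨?_, fun h => absurd h hsP⟩
    have hPmax : P.asIdeal.IsMaximal := P.isMaximal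
    have hc1 := count_le_one_of_not_le_sq _ hmap0 P.asIdeal (hunr P hsP)
    have hc : (normalizedFactors ((P.asIdeal.under A).map (algebraMap A B))).count P.asIdeal
        = 1 := by omega
    have hz1 : P.valuation L z ≤ 1 := by
      have : exp ((P.asIdeal.ramificationIdx A : ℤ) - 1) = (1 : ℤᵐ⁰) := by
        rw [hram, hc]
        simp
      rw [← this]
      exact hval
    calc P.intValuation (algebraMap A B s) * P.valuation L z
        ≤ 1 * 1 := by
          gcongr
          exact P.intValuation_le_one _
      _ = 1 := one_mul 1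

/-- **(PD1) Tame dual**: `s · 𝔇⁻¹ ⊆ rad (s B)` when `B / A` is unramified outside `s = 0`
(residue characteristic zero). -/
theorem tame_dual
    (hchar : ∀ p : Ideal A, p.IsMaximal → p ≠ ⊥ → CharZero (A ⧸ p))
    (s : A) (hs : (Ideal.span {s}).IsPrime) (hs0 : s ≠ 0)
    (hunr : ∀ P : HeightOneSpectrum B, algebraMap A B s ∉ P.asIdeal →
      ¬ ((P.asIdeal.under A).map (algebraMap A B) ≤ P.asIdeal ^ 2))
    (z : L)
    (hz : ∀ b : B, Algebra.trace K L (z * algebraMap B L b) ∈ (algebraMap A K).range) :
    ∃ y : B, algebraMap B L y = algebraMap A L s * z ∧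
      (∀ P : Ideal B, P.IsPrime → algebraMap A B s ∈ P → y ∈ P) ∧
      ∃ N : ℕ, y ^ N ∈ Ideal.span {algebraMap A B s} := by
  have hv := valuation_smul_dual A K hchar s hs hs0 hunr z hz
  obtain ⟨y, hy⟩ := HeightOneSpectrum.mem_integers_of_valuation_le_one (R := B) (K := L)
    (algebraMap A L s * z) (fun P => (hv P).1)
  have hsB : algebraMap A B s ≠ 0 := by
    intro h
    apply hs0
    have hinj : Function.Injective (algebraMap A B) := FaithfulSMul.algebraMap_injective A B
    exact hinj (by rw [h, map_zero])
  have hprime : ∀ P : Ideal B, P.IsPrime → algebraMap A B s ∈ P → y ∈ P := by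
    intro P hP hsP
    have hPbot : P ≠ ⊥ := by
      rintro rfl
      exact hsB (by simpa using hsP)
    let P' : HeightOneSpectrum B := ⟨P, hP, hPbot⟩
    have h1 := (hv P').2 hsP
    rw [← hy, HeightOneSpectrum.valuation_of_algebraMap] at h1
    exact (P'.intValuation_lt_one_iff_mem y).mp h1
  refine ⟨y, hy, hprime, ?_⟩
  have hrad : y ∈ (Ideal.span {algebraMap A B s}).radical := by
    rw [Ideal.radical_eq_sInf, Ideal.mem_sInf]
    rintro P ⟨hle, hP⟩
    exact hprime P hP (hle (Ideal.mem_span_singleton_self _))
  exact hrad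

end Main

end Fermat.Agent.S18x.IG.H16
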