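import Mathlib
import Fermat.Agent.S18x.IG.H16_TameDual

/-!
# S18 [IG] (P-d), part 2 — the tame step at the height-one prime `(s)` (helper16)

`A ⊆ B` domains, `B` integrally closed, free of finite rank over `A`; `As` the localisation of
`A` at a multiplicative set `M`, a local Dedekind domain (a DVR) whose maximal ideal is generated
by the image of `s`; residue characteristic zero.  If `d * φ x = Tr (y₁ * x)` for an `A`-linear
form `φ` on `B` (Cramer), then, "locally at `(s)`",

  `σ * (s * y₁) = d * y₃`  and  `σ' * y₃ ^ N ∈ s B`   with `σ, σ' ∈ M`, `y₃ ∈ B`: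

`s * (y₁ / d)` is integral at `(s)` and lies in the radical of `s B_(s)` (tame different).
Mathlib + `H16_TameDual` only; the fields `K = Frac A`, `L = Frac B` are abstract.
-/

set_option linter.unusedSectionVars false

namespace Fermat.Agent.S18x.IG.H16

open Ideal Algebra Module IsDedekindDomain nonZeroDivisors

section Core

variable {A B : Type*} [CommRing A] [IsDomain A] [CommRing B] [IsDomain B] [Algebra A B]
  [Module.Free A B] [Module.Finite A B] [IsIntegrallyClosed B]
  (As K L : Type*) [CommRing As] [Field K] [Field L]
  [Algebra A As] [Algebra A K] [Algebra As K] [IsScalarTower A As K]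
  [Algebra B L] [Algebra K L] [Algebra A L] [IsScalarTower A K L] [IsScalarTower A B L]
  [Algebra As L] [IsScalarTower As K L]
  [IsFractionRing A K] [IsFractionRing B L] [IsFractionRing As K]
  [IsDedekindDomain As] [IsLocalRing As] [FiniteDimensional K L] [Algebra.IsSeparable K L]
  [IsLocalization (Algebra.algebraMapSubmonoid B A⁰) L]

include K in
/-- The scalar tower `A → As → L`. -/
theorem isScalarTower_loc : IsScalarTower A As L :=
  IsScalarTower.of_algebraMap_eq fun x => by
    rw [IsScalarTower.algebraMap_apply A K L, IsScalarTower.algebraMap_apply As K L,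
      ← IsScalarTower.algebraMap_apply A As K]

include K in
/-- Elements of `L` integral over `As` become elements of `B` after multiplication by an
element of `M`. -/
theorem exists_mul_eq_of_isIntegral (M : Submonoid A) [IsLocalization M As]
    (x : L) (hx : IsIntegral As x) :
    ∃ σ ∈ M, ∃ β : B, algebraMap A L σ * x = algebraMap B L β := by
  have : IsScalarTower A As L := isScalarTower_loc As K L
  obtain ⟨m, hm⟩ := IsIntegral.exists_multiple_integral_of_isLocalization M x hx
  have hB : IsIntegral B ((m : A) • x) := hm.tower_top
  obtain ⟨β, hβ⟩ := IsIntegrallyClosed.isIntegral_iff.mp hB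
  refine ⟨m, m.2, β, ?_⟩
  rw [hβ, Algebra.smul_def]

include K L in
/-- **The tame step at `(s)`**, element form. -/
theorem tame_local (M : Submonoid A) [IsLocalization M As]
    (hchar : ∀ p : Ideal As, p.IsMaximal → p ≠ ⊥ → CharZero (As ⧸ p))
    (s : A) (hs0 : s ≠ 0)
    (hsmax : IsLocalRing.maximalIdeal As = Ideal.span {algebraMap A As s})
    (d : A) (hd : d ≠ 0) (y₁ : B) (φ : B →ₗ[A] A)
    (hφ : ∀ x, d * φ x = Algebra.trace A B (y₁ * x)) :
    ∃ σ ∈ M, ∃ y₃ : B,
      algebraMap A B σ * (algebraMap A B s * y₁) = algebraMap A B d * y₃ ∧
      ∃ N : ℕ, ∃ σ' ∈ M, ∃ β : B, algebraMap A B σ' * y₃ ^ N = algebraMap A B s * β := by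
  have hT : IsScalarTower A As L := isScalarTower_loc As K L
  have hDed : IsDedekindDomain (integralClosure As L) :=
    integralClosure.isDedekindDomain As K L
  have hFrac : IsFractionRing (integralClosure As L) L :=
    integralClosure.isFractionRing_of_finite_extension K L
  have hFin : Module.Finite As (integralClosure As L) := IsIntegralClosure.finite As K L _
  have hTFL : Module.IsTorsionFree As L := .trans_faithfulSMul As K L
  have hTF : Module.IsTorsionFree As (integralClosure As L) :=
    IsIntegralClosure.isTorsionFree As L
  have hinjAL : Function.Injective (algebraMap A L) := by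
    rw [IsScalarTower.algebraMap_eq A K L]
    exact (algebraMap K L).injective.comp (IsFractionRing.injective A K)
  have hinjBL : Function.Injective (algebraMap B L) := IsFractionRing.injective B L
  have hdL : algebraMap A L d ≠ 0 := fun h => hd (hinjAL (by rw [h, map_zero]))
  set s' : As := algebraMap A As s with hs'def
  have hs'L : algebraMap As L s' = algebraMap A L s :=
    (IsScalarTower.algebraMap_apply A As L s).symm
  have hs'0 : s' ≠ 0 := by
    intro h
    have : algebraMap A L s = 0 := by rw [← hs'L, h, map_zero]
    exact hs0 (hinjAL (by rw [this, map_zero]))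
  have hs'prime : (Ideal.span {s'}).IsPrime := by
    rw [← hsmax]
    exact (IsLocalRing.maximalIdeal.isMaximal As).isPrime
  -- every nonzero prime of the integral closure contains `s`
  have hmem : ∀ P : HeightOneSpectrum (integralClosure As L),
      algebraMap As (integralClosure As L) s' ∈ P.asIdeal := by
    intro P
    have hp0 : P.asIdeal.under As ≠ ⊥ := Ideal.under_ne_bot As P.ne_bot
    have hpmax : (P.asIdeal.under As).IsMaximal :=
      Ideal.IsPrime.isMaximal inferInstance hp0
    have h1 : P.asIdeal.under As = IsLocalRing.maximalIdeal As :=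
      IsLocalRing.eq_maximalIdeal hpmax
    have h2 : s' ∈ P.asIdeal.under As := by
      rw [h1, hsmax]
      exact Ideal.mem_span_singleton_self _
    exact h2
  set z : L := algebraMap B L y₁ / algebraMap A L d with hzdef
  have hz : ∀ b' : integralClosure As L,
      Algebra.trace K L (z * algebraMap (integralClosure As L) L b') ∈
        (algebraMap As K).range := by
    intro b'
    obtain ⟨σ, hσ, β, hβ⟩ := exists_mul_eq_of_isIntegral (A := A) (B := B) As K L M (b' : L) b'.2
    have hσ0 : algebraMap A K σ ≠ 0 := by
      intro h
      have h1 : algebraMap As K (algebraMap A As σ) = 0 := by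
        rw [← IsScalarTower.algebraMap_apply, h]
      have h2 : IsUnit (algebraMap A As σ) := IsLocalization.map_units As ⟨σ, hσ⟩
      have h3 : algebraMap A As σ = 0 :=
        (IsFractionRing.injective As K) (by rw [h1, map_zero])
      rw [h3] at h2
      exact not_isUnit_zero h2
    have hdK : algebraMap A K d ≠ 0 := fun h =>
      hd ((IsFractionRing.injective A K) (by rw [h, map_zero]))
    have hkey : algebraMap A K (d * σ) • (z * algebraMap (integralClosure As L) L b') =
        algebraMap B L (y₁ * β) := by
      rw [Algebra.smul_def, ← IsScalarTower.algebraMap_apply, map_mul, map_mul, ← hβ, hzdef]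
      have : algebraMap (integralClosure As L) L b' = (b' : L) := rfl
      rw [this]
      field_simp
    have htr : Algebra.trace K L (algebraMap B L (y₁ * β)) =
        algebraMap A K (Algebra.trace A B (y₁ * β)) :=
      Algebra.trace_localization (R := A) (S := B) (Rₘ := K) (Sₘ := L) A⁰ (y₁ * β)
    have h1 : algebraMap A K (d * σ) * Algebra.trace K L
        (z * algebraMap (integralClosure As L) L b') = algebraMap A K (d * φ β) := by
      rw [← smul_eq_mul, ← map_smul, hkey, htr, hφ]
    have hmk : algebraMap As K (IsLocalization.mk' As (φ β) ⟨σ, hσ⟩) * algebraMap A K σ =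
        algebraMap A K (φ β) := by
      rw [IsScalarTower.algebraMap_apply A As K σ, ← map_mul]
      have := IsLocalization.mk'_spec As (φ β) ⟨σ, hσ⟩
      rw [this, ← IsScalarTower.algebraMap_apply]
    have h2 : Algebra.trace K L (z * algebraMap (integralClosure As L) L b') =
        algebraMap As K (IsLocalization.mk' As (φ β) ⟨σ, hσ⟩) := by
      have e1 : algebraMap A K (d * σ) = algebraMap A K d * algebraMap A K σ := map_mul _ _ _
      have e2 : algebraMap A K (d * φ β) = algebraMap A K d * algebraMap A K (φ β) :=
        map_mul _ _ _
      rw [e1, e2] at h1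
      have h3 : algebraMap A K d * (Algebra.trace K L
          (z * algebraMap (integralClosure As L) L b') * algebraMap A K σ) =
          algebraMap A K d * algebraMap A K (φ β) := by
        rw [← h1]; ring
      have h4 := mul_left_cancel₀ hdK h3
      rw [← hmk] at h4
      exact mul_right_cancel₀ hσ0 h4
    exact ⟨_, h2.symm⟩
  obtain ⟨y', hy', -, N, hN⟩ := tame_dual As K hchar s' hs'prime hs'0
    (fun P hP => absurd (hmem P) hP) z hz
  -- descend `y'`
  obtain ⟨σ, hσ, y₃, hy₃⟩ := exists_mul_eq_of_isIntegral (A := A) (B := B) As K L M (y' : L) y'.2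
  have hy'L : (y' : L) = algebraMap A L s * z := by
    have : algebraMap (integralClosure As L) L y' = (y' : L) := rfl
    rw [← this, hy', hs'L]
  refine ⟨σ, hσ, y₃, ?_, ?_⟩
  · apply hinjBL
    rw [map_mul, map_mul, map_mul, ← IsScalarTower.algebraMap_apply,
      ← IsScalarTower.algebraMap_apply, ← IsScalarTower.algebraMap_apply, ← hy₃, hy'L, hzdef]
    field_simp
  · obtain ⟨β', hβ'⟩ := Ideal.mem_span_singleton'.mp hN
    obtain ⟨σ₂, hσ₂, β, hβ⟩ := exists_mul_eq_of_isIntegral (A := A) (B := B) As K L M (β' : L) β'.2
    refine ⟨N, σ₂, hσ₂, algebraMap A B (σ ^ N) * β, ?_⟩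
    apply hinjBL
    have h1 : ((y' : L)) ^ N = (β' : L) * algebraMap A L s := by
      have := congrArg (algebraMap (integralClosure As L) L) hβ'
      rw [map_mul, map_pow] at this
      have e1 : algebraMap (integralClosure As L) L y' = (y' : L) := rfl
      have e2 : algebraMap (integralClosure As L) L β' = (β' : L) := rfl
      have e3 : algebraMap (integralClosure As L) L (algebraMap As (integralClosure As L) s')
          = algebraMap A L s := by
        rw [← IsScalarTower.algebraMap_apply, hs'L]
      rw [e1, e2, e3] at this
      exact this.symm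
    rw [map_mul, map_mul, map_mul, map_pow, ← IsScalarTower.algebraMap_apply,
      ← IsScalarTower.algebraMap_apply, ← IsScalarTower.algebraMap_apply, ← hy₃, ← hβ,
      mul_pow, h1, map_pow]
    ring

end Core

end Fermat.Agent.S18x.IG.H16
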