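import Mathlib
import Fermat.Agent.S18x.CA.H25_Disc
import Fermat.Agent.S18x.IG.H15_DualGlue
import Fermat.Agent.S18x.IG.H16_HgenCore

/-!
# S18 [IG] (P-d), part 3 — `(h_gen)` of PRINCIPLE (*) from the discriminant (helper16)

`hgen_of_hhor` (= `h15_hgen` in helper15's spelling, board #1001): for a noetherian local
domain `A` with primes `π`, `s`, a domain `B` integrally closed and free of finite rank over `A`
(basis `b`), residue characteristic zero at `(s)`, and

  `hhor : ∀ 𝔭 prime, π ∉ 𝔭 → s ∉ 𝔭 → discr A b ∉ 𝔭`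

(the generic fibre is unramified at every horizontal prime other than `(s)`), every `A`-linear
form `φ : B → A` satisfies `π ^ n * s * φ x = Tr (y * x)` with `y ^ N ∈ s B`: the hypothesis
`hgen` of `Fermat.Agent.S18x.IG.H15.h15_principle`.  Tameness at `(s)` itself is automatic
(residue characteristic zero): `H16_TameDual` / `H16_HgenCore`.
-/

set_option linter.unusedSectionVars false
set_option linter.unusedVariables false

namespace Fermat.Agent.S18x.IG.H16

open Ideal Algebra Module nonZeroDivisors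

section Factor

variable {A : Type*} [CommRing A] [IsDomain A] [IsNoetherianRing A]

/-- If `d ≠ 0` lies in no prime ideal avoiding both primes `π` and `s`, then
`d = u * π ^ a * s ^ c` with `u` a unit. -/
theorem exists_eq_unit_mul_pow_mul_pow (π s : A) (hπ : Prime π) (hs : Prime s) (d : A)
    (hd0 : d ≠ 0) (hhor : ∀ 𝔭 : Ideal A, 𝔭.IsPrime → π ∉ 𝔭 → s ∉ 𝔭 → d ∉ 𝔭) :
    ∃ (u : Aˣ) (a c : ℕ), d = u * π ^ a * s ^ c := by
  have : WfDvdMonoid A := IsNoetherianRing.wfDvdMonoid
  obtain ⟨a, d₁, hπd₁, hd⟩ := WfDvdMonoid.max_power_factor hd0 hπ.irreducible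
  have hd₁0 : d₁ ≠ 0 := by
    rintro rfl
    exact hd0 (by rw [hd, mul_zero])
  obtain ⟨c, d₂, hsd₂, hd₁⟩ := WfDvdMonoid.max_power_factor hd₁0 hs.irreducible
  have hd₂0 : d₂ ≠ 0 := by
    rintro rfl
    exact hd₁0 (by rw [hd₁, mul_zero])
  have hπd₂ : ¬ π ∣ d₂ := fun h => hπd₁ (by rw [hd₁]; exact h.mul_left _)
  have hd₂d : d₂ ∣ d := by
    rw [hd, hd₁]
    exact (dvd_mul_left _ _).mul_left _
  have hunit : IsUnit d₂ := by
    refine CA.H25.isUnit_of_forall_minimal_nonzero_prime_not_mem hd₂0 ?_
    intro 𝔭 h𝔭 h𝔭0 hmin hmem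
    have hdmem : d ∈ 𝔭 := 𝔭.mem_of_dvd hd₂d hmem
    by_cases hπ𝔭 : π ∈ 𝔭
    · have hle : Ideal.span {π} ≤ 𝔭 := by
        rw [Ideal.span_le, Set.singleton_subset_iff]; exact hπ𝔭
      have hprime : (Ideal.span {π}).IsPrime :=
        (Ideal.span_singleton_prime hπ.ne_zero).mpr hπ
      have hne : Ideal.span {π} ≠ ⊥ := by
        rw [Ne, Ideal.span_singleton_eq_bot]; exact hπ.ne_zero
      have heq := hmin _ hprime hne hle
      rw [← heq, Ideal.mem_span_singleton] at hmem
      exact hπd₂ hmem
    · by_cases hs𝔭 : s ∈ 𝔭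
      · have hle : Ideal.span {s} ≤ 𝔭 := by
          rw [Ideal.span_le, Set.singleton_subset_iff]; exact hs𝔭
        have hprime : (Ideal.span {s}).IsPrime :=
          (Ideal.span_singleton_prime hs.ne_zero).mpr hs
        have hne : Ideal.span {s} ≠ ⊥ := by
          rw [Ne, Ideal.span_singleton_eq_bot]; exact hs.ne_zero
        have heq := hmin _ hprime hne hle
        rw [← heq, Ideal.mem_span_singleton] at hmem
        exact hsd₂ hmem
      · exact hhor 𝔭 h𝔭 hπ𝔭 hs𝔭 hdmem
  obtain ⟨u, hu⟩ := hunit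
  refine ⟨u, a, c, ?_⟩
  rw [hd, hd₁, hu]
  ring

end Factor

section Assemble

variable {A B : Type*} [CommRing A] [IsDomain A] [IsNoetherianRing A]
  [CommRing B] [IsDomain B] [Algebra A B]
  {ι : Type*} [Fintype ι] [DecidableEq ι]

/-- Coordinatewise cancellation: `s ^ k ∣ σ w` in `B` with `s` prime, `s ∤ σ` gives
`s ^ k ∣ w` (`B` free over `A`). -/
theorem pow_dvd_of_dvd_algebraMap_mul (b : Basis ι A B) (s σ : A) (hs : Prime s)
    (hσ : ¬ s ∣ σ) (k : ℕ) (w : B)
    (h : algebraMap A B σ * w ∈ Ideal.span {algebraMap A B (s ^ k)}) :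
    w ∈ Ideal.span {algebraMap A B (s ^ k)} := by
  rw [H15.h15_dvd_iff_repr b] at h ⊢
  intro i
  have hi := h i
  rw [← Algebra.smul_def, map_smul, Finsupp.smul_apply, smul_eq_mul] at hi
  exact hs.pow_dvd_of_dvd_mul_left k hσ hi

/-- **Assembly**: `(h_gen)` from the factorisation of the discriminant and the tame step at
`(s)` (the latter as a hypothesis `hloc` in element form). -/
theorem hgen_of_tame_local (π s : A) (hπ : Prime π) (hs : Prime s)
    (b : Basis ι A B) (hd0 : Algebra.discr A b ≠ 0)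
    (hhor : ∀ 𝔭 : Ideal A, 𝔭.IsPrime → π ∉ 𝔭 → s ∉ 𝔭 → Algebra.discr A b ∉ 𝔭)
    (hloc : ∀ (y₁ : B) (φ : B →ₗ[A] A),
      (∀ x, Algebra.discr A b * φ x = Algebra.trace A B (y₁ * x)) →
      ∃ σ : A, ¬ s ∣ σ ∧ ∃ y₃ : B,
        algebraMap A B σ * (algebraMap A B s * y₁) = algebraMap A B (Algebra.discr A b) * y₃ ∧
        ∃ N : ℕ, ∃ σ' : A, ¬ s ∣ σ' ∧ ∃ β : B,
          algebraMap A B σ' * y₃ ^ N = algebraMap A B s * β) :
    ∀ φ : B →ₗ[A] A, ∃ (n N : ℕ) (y : B), y ^ N ∈ Ideal.span {algebraMap A B s} ∧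
      ∀ x, π ^ n * s * φ x = Algebra.trace A B (y * x) := by
  intro φ
  have hinj : Function.Injective (algebraMap A B) := by
    have : Module.Free A B := Module.Free.of_basis b
    have : Nontrivial B := inferInstance
    exact FaithfulSMul.algebraMap_injective A B
  obtain ⟨y₁, hy₁⟩ := H15.h15_exists_trace_repr b φ
  obtain ⟨u, a, c, hd⟩ := exists_eq_unit_mul_pow_mul_pow π s hπ hs _ hd0 hhor
  have hsB : algebraMap A B s ≠ 0 := fun h => hs.ne_zero (hinj (by rw [h, map_zero]))
  have hu : (↑u⁻¹ : A) * ↑u = 1 := Units.inv_mul u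
  rcases Nat.eq_zero_or_pos c with hc | hc
  · -- unramified at `(s)`
    subst hc
    rw [pow_zero, mul_one] at hd
    refine ⟨a, 1, (↑u⁻¹ * s : A) • y₁, ?_, fun x => ?_⟩
    · rw [pow_one, Ideal.mem_span_singleton]
      exact ⟨algebraMap A B ↑u⁻¹ * y₁, by rw [Algebra.smul_def, map_mul]; ring⟩
    · rw [smul_mul_assoc, map_smul, smul_eq_mul, ← hy₁ x, hd]
      linear_combination (-(π ^ a * s * φ x)) * hu
  · obtain ⟨σ, hσ, y₃, h1, N, σ', hσ', β, h2⟩ := hloc y₁ φ hy₁
    obtain ⟨c', rfl⟩ : ∃ c', c = c' + 1 := ⟨c - 1, by omega⟩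
    -- cancel `s`
    have e1 : algebraMap A B (Algebra.discr A b) =
        algebraMap A B s * algebraMap A B (↑u * π ^ a * s ^ c') := by
      rw [← map_mul, hd]
      congr 1
      ring
    have h3 : algebraMap A B σ * y₁ = algebraMap A B (↑u * π ^ a * s ^ c') * y₃ := by
      have : algebraMap A B s * (algebraMap A B σ * y₁) =
          algebraMap A B s * (algebraMap A B (↑u * π ^ a * s ^ c') * y₃) := by
        rw [e1] at h1
        linear_combination h1
      exact mul_left_cancel₀ hsB this
    have e2 : algebraMap A B (↑u * π ^ a * s ^ c') =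
        algebraMap A B (s ^ c') * algebraMap A B (↑u * π ^ a) := by
      rw [← map_mul]
      congr 1
      ring
    have h4 : y₁ ∈ Ideal.span {algebraMap A B (s ^ c')} := by
      apply pow_dvd_of_dvd_algebraMap_mul b s σ hs hσ c' y₁
      rw [h3, Ideal.mem_span_singleton]
      exact ⟨algebraMap A B (↑u * π ^ a) * y₃, by rw [e2]; ring⟩
    obtain ⟨y₂, hy₂⟩ := Ideal.mem_span_singleton'.mp h4
    have hsc'B : algebraMap A B (s ^ c') ≠ 0 := fun h =>
      (pow_ne_zero c' hs.ne_zero) (hinj (by rw [h, map_zero]))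
    have h5 : algebraMap A B σ * y₂ = algebraMap A B (↑u * π ^ a) * y₃ := by
      have : algebraMap A B (s ^ c') * (algebraMap A B σ * y₂) =
          algebraMap A B (s ^ c') * (algebraMap A B (↑u * π ^ a) * y₃) := by
        linear_combination h3 + algebraMap A B σ * hy₂ + y₃ * e2
      exact mul_left_cancel₀ hsc'B this
    refine ⟨a, N, (↑u⁻¹ : A) • y₂, ?_, fun x => ?_⟩
    · -- `y ^ N ∈ s B`
      have h5' : (algebraMap A B σ * y₂) ^ N = (algebraMap A B (↑u * π ^ a) * y₃) ^ N := by
        rw [h5]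
      have h6 : algebraMap A B (σ' * σ ^ N) * y₂ ^ N ∈ Ideal.span {algebraMap A B (s ^ 1)} := by
        rw [pow_one, Ideal.mem_span_singleton]
        refine ⟨algebraMap A B (↑u * π ^ a) ^ N * β, ?_⟩
        rw [map_mul, map_pow]
        rw [mul_pow, mul_pow] at h5'
        linear_combination (algebraMap A B σ') * h5' + algebraMap A B (↑u * π ^ a) ^ N * h2
      have hndvd : ¬ s ∣ σ' * σ ^ N := by
        intro h
        rcases hs.dvd_or_dvd h with h | h
        · exact hσ' h
        · exact hσ (hs.dvd_of_dvd_pow h)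
      have h7 := pow_dvd_of_dvd_algebraMap_mul b s _ hs hndvd 1 _ h6
      rw [pow_one] at h7
      rw [smul_pow, Algebra.smul_def]
      exact Ideal.mul_mem_left _ _ h7
    · have e3 : y₁ = (s ^ c' : A) • y₂ := by
        rw [Algebra.smul_def, mul_comm]
        exact hy₂.symm
      have h8 := hy₁ x
      rw [e3, smul_mul_assoc, map_smul, smul_eq_mul, hd] at h8
      have h9 : ↑u * π ^ a * s * φ x = Algebra.trace A B (y₂ * x) := by
        have : s ^ c' * (↑u * π ^ a * s * φ x) = s ^ c' * Algebra.trace A B (y₂ * x) := by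
          rw [← h8]; ring
        exact mul_left_cancel₀ (pow_ne_zero c' hs.ne_zero) this
      rw [smul_mul_assoc, map_smul, smul_eq_mul, ← h9]
      linear_combination (-(π ^ a * s * φ x)) * hu

end Assemble

section Final

variable {A B : Type*} [CommRing A] [IsDomain A] [IsLocalRing A] [IsNoetherianRing A]
  [CommRing B] [IsDomain B] [IsIntegrallyClosed B] [Algebra A B]
  {ι : Type*} [Fintype ι] [DecidableEq ι]

attribute [local instance] FractionRing.liftAlgebra FractionRing.isScalarTower_liftAlgebra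

/-- The tame step at `(s)` for the concrete localisation `A_(s)`. -/
theorem tame_local_atPrime (s : A) (hs : Prime s)
    (hchar : ∀ n : ℕ, n ≠ 0 → ¬ s ∣ (n : A))
    (b : Basis ι A B) (d : A) (hd : d ≠ 0) (y₁ : B) (φ : B →ₗ[A] A)
    (hφ : ∀ x, d * φ x = Algebra.trace A B (y₁ * x)) :
    ∃ σ : A, ¬ s ∣ σ ∧ ∃ y₃ : B,
      algebraMap A B σ * (algebraMap A B s * y₁) = algebraMap A B d * y₃ ∧
      ∃ N : ℕ, ∃ σ' : A, ¬ s ∣ σ' ∧ ∃ β : B,
        algebraMap A B σ' * y₃ ^ N = algebraMap A B s * β := by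
  have hfree : Module.Free A B := .of_basis b
  have hfin : Module.Finite A B := .of_basis b
  have hTF : Module.IsTorsionFree A B := inferInstance
  have hp : (Ideal.span {s}).IsPrime := (Ideal.span_singleton_prime hs.ne_zero).mpr hs
  have hcz : CharZero A := charZero_of_inj_zero fun n hn => by
    by_contra h0
    exact hchar n h0 (by rw [hn]; exact dvd_zero s)
  have hint : Algebra.IsIntegral A B := inferInstance
  have hIC : IsIntegralClosure B A (FractionRing B) :=
    IsIntegralClosure.of_isIntegrallyClosed _ _ _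
  have halg : Algebra.IsAlgebraic (FractionRing A) (FractionRing B) :=
    isAlgebraic_of_isFractionRing A B (FractionRing A) (FractionRing B)
  have hloc : IsLocalization (Algebra.algebraMapSubmonoid B A⁰) (FractionRing B) :=
    IsIntegralClosure.isLocalization A (FractionRing A) (FractionRing B) B
  have hfd : FiniteDimensional (FractionRing A) (FractionRing B) :=
    .of_isLocalization A B A⁰
  have hczK : CharZero (FractionRing A) :=
    charZero_of_injective_algebraMap (IsFractionRing.injective A (FractionRing A))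
  have hsep : Algebra.IsSeparable (FractionRing A) (FractionRing B) := inferInstance
  letI : Algebra (Localization.AtPrime (Ideal.span {s})) (FractionRing B) :=
    ((algebraMap (FractionRing A) (FractionRing B)).comp
      (algebraMap (Localization.AtPrime (Ideal.span {s})) (FractionRing A))).toAlgebra
  have hT : IsScalarTower (Localization.AtPrime (Ideal.span {s})) (FractionRing A)
      (FractionRing B) := IsScalarTower.of_algebraMap_eq' rfl
  have hFr : IsFractionRing (Localization.AtPrime (Ideal.span {s})) (FractionRing A) :=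
    IsFractionRing.isFractionRing_of_isDomain_of_isLocalization (Ideal.span {s}).primeCompl
      (Localization.AtPrime (Ideal.span {s})) (FractionRing A)
  have hsmax : IsLocalRing.maximalIdeal (Localization.AtPrime (Ideal.span {s})) =
      Ideal.span {algebraMap A (Localization.AtPrime (Ideal.span {s})) s} := by
    rw [← IsLocalization.AtPrime.map_eq_maximalIdeal (Ideal.span {s})
      (Localization.AtPrime (Ideal.span {s})), Ideal.map_span, Set.image_singleton]
  have hs'0 : algebraMap A (Localization.AtPrime (Ideal.span {s})) s ≠ 0 := by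
    intro h
    have hinj : Function.Injective (algebraMap A (Localization.AtPrime (Ideal.span {s}))) :=
      IsLocalization.injective _ (Ideal.span {s}).primeCompl_le_nonZeroDivisors
    exact hs.ne_zero (hinj (by rw [h, map_zero]))
  have hnf : ¬ IsField (Localization.AtPrime (Ideal.span {s})) := by
    intro hf
    have h1 : IsLocalRing.maximalIdeal (Localization.AtPrime (Ideal.span {s})) = ⊥ :=
      IsLocalRing.isField_iff_maximalIdeal_eq.mp hf
    rw [hsmax, Ideal.span_singleton_eq_bot] at h1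
    exact hs'0 h1
  have hDed : IsDedekindDomain (Localization.AtPrime (Ideal.span {s})) := by
    have hprin : (IsLocalRing.maximalIdeal
        (Localization.AtPrime (Ideal.span {s}))).IsPrincipal := by
      rw [hsmax]
      exact ⟨⟨_, rfl⟩⟩
    exact ((IsDiscreteValuationRing.TFAE _ hnf).out 4 2).mp hprin
  have hchar' : ∀ p : Ideal (Localization.AtPrime (Ideal.span {s})), p.IsMaximal → p ≠ ⊥ →
      CharZero (Localization.AtPrime (Ideal.span {s}) ⧸ p) := by
    intro p hpmax _
    have hpe : p = IsLocalRing.maximalIdeal _ := IsLocalRing.eq_maximalIdeal hpmax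
    refine charZero_of_inj_zero fun n hn => ?_
    by_contra h0
    have h1 : ((n : ℕ) : Localization.AtPrime (Ideal.span {s})) ∈ p := by
      rw [← Ideal.Quotient.eq_zero_iff_mem]
      rw [map_natCast]
      exact hn
    have h2 : (n : A) ∈ (IsLocalRing.maximalIdeal
        (Localization.AtPrime (Ideal.span {s}))).under A := by
      rw [Ideal.mem_comap, map_natCast, ← hpe]
      exact h1
    rw [IsLocalization.AtPrime.under_maximalIdeal _ (Ideal.span {s}),
      Ideal.mem_span_singleton] at h2
    exact hchar n h0 h2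
  obtain ⟨σ, hσ, y₃, h1, N, σ', hσ', β, h2⟩ :=
    tame_local (Localization.AtPrime (Ideal.span {s})) (FractionRing A) (FractionRing B)
      (Ideal.span {s}).primeCompl hchar' s hs.ne_zero hsmax d hd y₁ φ hφ
  refine ⟨σ, ?_, y₃, h1, N, σ', ?_, β, h2⟩
  · intro h
    exact hσ (Ideal.mem_span_singleton.mpr h)
  · intro h
    exact hσ' (Ideal.mem_span_singleton.mpr h)

/-- **(P-d) = `h15_hgen`** (helper15's spelling, board #1001): the hypothesis `hgen` of
`H15.h15_principle` from the discriminant condition at the horizontal primes other than `(s)`.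
Tameness at `(s)` is automatic in residue characteristic zero. -/
theorem hgen_of_hhor (π s : A) (hm : IsLocalRing.maximalIdeal A = Ideal.span {π, s})
    (hπ : Prime π) (hs : Prime s) (hπs : ¬ s ∣ π)
    (hchar : ∀ n : ℕ, n ≠ 0 → ¬ s ∣ (n : A))
    (b : Basis ι A B) (hd0 : Algebra.discr A b ≠ 0)
    (hhor : ∀ 𝔭 : Ideal A, 𝔭.IsPrime → π ∉ 𝔭 → s ∉ 𝔭 → Algebra.discr A b ∉ 𝔭) :
    ∀ φ : B →ₗ[A] A, ∃ (n N : ℕ) (y : B), y ^ N ∈ Ideal.span {algebraMap A B s} ∧
      ∀ x, π ^ n * s * φ x = Algebra.trace A B (y * x) :=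
  hgen_of_tame_local π s hπ hs b hd0 hhor
    (fun y₁ φ hφ => tame_local_atPrime s hs hchar b _ hd0 y₁ φ hφ)

end Final

end Fermat.Agent.S18x.IG.H16
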