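import Fermat.Agent.S18x.IG.H11_Base

/-!
# S18 [IG] [BASE-MAX], part 2 (helper11): the inputs of PRINCIPLE (*) for the local base ring

* generic: `quot_isDomain`, `quot_isLocalRing`, `quot_isPrincipalIdealRing`, `quot_prime_mk`:
  for a noetherian local domain `R₀` with maximal ideal `(π, t)`, `(π)` prime, `t ∉ (π)`, the
  quotient `R₀ ⧸ (π)` is a local principal ideal domain (a DVR) with prime element `t̄`;
* `prime_of_monic_of_irreducible_map` : `g` is a prime element of `O[X]`;
* for `A₀ := Localization.AtPrime (span {C π, g})` : `prime_g_localization`,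
  `algebraMap_dvd_iff`, `not_g_dvd_pi_localization`, `not_g_dvd_natCast_localization`,
  `g_dvd_of_dvd_pi_mul`, `pi_dvd_of_dvd_g_mul`.
-/

set_option autoImplicit false

open Polynomial

namespace Fermat.Agent.S18x.IG.H11

section Quot

variable {R₀ : Type*} [CommRing R₀] [IsDomain R₀] [IsLocalRing R₀]
  (π t : R₀) (hm : IsLocalRing.maximalIdeal R₀ = Ideal.span {π, t})

omit [IsDomain R₀] [IsLocalRing R₀] in
theorem quot_isDomain (hπ : (Ideal.span {π}).IsPrime) : IsDomain (R₀ ⧸ Ideal.span {π}) :=
  Ideal.Quotient.isDomain _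

omit [IsDomain R₀] [IsLocalRing R₀] in
theorem quot_nontrivial (hπ : (Ideal.span {π}).IsPrime) : Nontrivial (R₀ ⧸ Ideal.span {π}) :=
  Ideal.Quotient.nontrivial_iff.mpr hπ.ne_top

omit [IsDomain R₀] in
theorem quot_isLocalRing (hπ : (Ideal.span {π}).IsPrime) : IsLocalRing (R₀ ⧸ Ideal.span {π}) :=
  have := quot_nontrivial π hπ
  IsLocalRing.of_surjective' (Ideal.Quotient.mk (Ideal.span {π})) Ideal.Quotient.mk_surjective

include hm in
omit [IsDomain R₀] in
/-- The maximal ideal of `R₀ ⧸ (π)` is generated by `t̄`. -/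
theorem quot_maximalIdeal (hπ : (Ideal.span {π}).IsPrime) :
    haveI := quot_isLocalRing π hπ
    IsLocalRing.maximalIdeal (R₀ ⧸ Ideal.span {π}) =
      Ideal.span {Ideal.Quotient.mk (Ideal.span {π}) t} := by
  have := quot_isLocalRing π hπ
  rw [← IsLocalRing.map_maximalIdeal_of_surjective (Ideal.Quotient.mk (Ideal.span {π}))
    Ideal.Quotient.mk_surjective, hm, Ideal.map_span, Set.image_pair]
  have h0 : Ideal.Quotient.mk (Ideal.span {π}) π = 0 :=
    Ideal.Quotient.eq_zero_iff_mem.mpr (Ideal.mem_span_singleton_self π)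
  rw [h0]
  apply le_antisymm
  · rw [Ideal.span_le]
    rintro x (rfl | rfl)
    · exact Ideal.zero_mem _
    · exact Ideal.mem_span_singleton_self _
  · exact Ideal.span_mono (by simp)

include hm in
omit [IsDomain R₀] in
/-- **`R₀ ⧸ (π)` is a principal ideal ring** (a DVR or a field). -/
theorem quot_isPrincipalIdealRing [IsNoetherianRing R₀] (hπ : (Ideal.span {π}).IsPrime) :
    IsPrincipalIdealRing (R₀ ⧸ Ideal.span {π}) := by
  have := quot_isLocalRing π hπ
  have := quot_isDomain π hπ
  have h5 : (IsLocalRing.maximalIdeal (R₀ ⧸ Ideal.span {π})).IsPrincipal :=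
    ⟨⟨_, quot_maximalIdeal π t hm hπ⟩⟩
  exact ((tfae_of_isNoetherianRing_of_isLocalRing_of_isDomain
    (R := R₀ ⧸ Ideal.span {π})).out 4 0).mp h5

include hm in
omit [IsDomain R₀] in
/-- `t̄` is a prime element of `R₀ ⧸ (π)`. -/
theorem quot_prime_mk (hπ : (Ideal.span {π}).IsPrime) (ht : t ∉ Ideal.span {π}) :
    Prime (Ideal.Quotient.mk (Ideal.span {π}) t) := by
  have := quot_isLocalRing π hπ
  have hne : Ideal.Quotient.mk (Ideal.span {π}) t ≠ 0 := fun h =>
    ht (Ideal.Quotient.eq_zero_iff_mem.mp h)
  rw [← Ideal.span_singleton_prime hne, ← quot_maximalIdeal π t hm hπ]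
  exact (IsLocalRing.maximalIdeal.isMaximal _).isPrime

end Quot

section PrimeG

variable {O : Type*} [CommRing O] [IsDomain O] (π : O)

/-- A monic polynomial which is irreducible modulo `π` is irreducible. -/
theorem irreducible_of_monic_of_irreducible_map [hmax : (Ideal.span {π}).IsMaximal] (g : O[X])
    (hgm : g.Monic) (hg : Irreducible (g.map (Ideal.Quotient.mk (Ideal.span {π})))) :
    Irreducible g := by
  have : IsDomain (O ⧸ Ideal.span {π}) := Ideal.Quotient.isDomain _
  exact Polynomial.Monic.irreducible_of_irreducible_map _ g hgm hg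

/-- **`g` is a prime element of `O[X]`** (`O` factorial, e.g. a DVR). -/
theorem prime_of_monic_of_irreducible_map [UniqueFactorizationMonoid O]
    [hmax : (Ideal.span {π}).IsMaximal] (g : O[X])
    (hgm : g.Monic) (hg : Irreducible (g.map (Ideal.Quotient.mk (Ideal.span {π})))) :
    Prime g :=
  UniqueFactorizationMonoid.irreducible_iff_prime.mp
    (irreducible_of_monic_of_irreducible_map π g hgm hg)

omit [IsDomain O] in
theorem natDegree_pos_of_irreducible_map [Nontrivial O] (g : O[X])
    (hgm : g.Monic) (hg : Irreducible (g.map (Ideal.Quotient.mk (Ideal.span {π})))) :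
    0 < g.natDegree := by
  by_contra h
  have h0 : g.natDegree = 0 := by omega
  have h1 : g = 1 := (Polynomial.Monic.natDegree_eq_zero hgm).mp h0
  rw [h1, Polynomial.map_one] at hg
  exact hg.not_isUnit isUnit_one

omit [IsDomain O] in
/-- A monic polynomial of positive degree does not divide a non-zero constant. -/
theorem not_monic_dvd_C (g : O[X]) (hgm : g.Monic) (hdeg : 0 < g.natDegree) (c : O)
    (hc : c ≠ 0) : ¬ g ∣ C c := by
  rintro ⟨a, ha⟩
  have ha0 : a ≠ 0 := by
    rintro rfl
    rw [mul_zero] at ha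
    exact hc (Polynomial.C_eq_zero.mp ha)
  have h1 := congrArg Polynomial.natDegree ha
  rw [Polynomial.natDegree_C, hgm.natDegree_mul' ha0] at h1
  omega

end PrimeG

section LocalG

variable {O : Type*} [CommRing O] [IsDomain O] (π : O) (g : O[X])
  [hP : (Ideal.span {C π, g}).IsPrime]

/-- Divisibility by a prime element of `(π, g)` can be tested in `O[X]`. -/
theorem algebraMap_dvd_iff (p c : O[X]) (hp : Prime p) (hpM : p ∈ Ideal.span {C π, g}) :
    algebraMap O[X] (Localization.AtPrime (Ideal.span {C π, g})) p ∣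
      algebraMap O[X] (Localization.AtPrime (Ideal.span {C π, g})) c ↔ p ∣ c := by
  constructor
  · rintro ⟨y, hy⟩
    obtain ⟨a, s, rfl⟩ := IsLocalization.exists_mk'_eq (Ideal.span {C π, g}).primeCompl y
    have h1 : algebraMap O[X] (Localization.AtPrime (Ideal.span {C π, g})) (c * s) =
        algebraMap O[X] (Localization.AtPrime (Ideal.span {C π, g})) (p * a) := by
      rw [map_mul, map_mul, hy, mul_assoc, IsLocalization.mk'_spec]
    have h2 := (IsLocalization.injective (Localization.AtPrime (Ideal.span {C π, g}))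
        (Ideal.primeCompl_le_nonZeroDivisors (Ideal.span {C π, g}))) h1
    have h3 : p ∣ c * s := ⟨a, h2⟩
    rcases hp.dvd_or_dvd h3 with h4 | h4
    · exact h4
    · exfalso
      apply s.2
      obtain ⟨w, hw⟩ := h4
      rw [hw]
      exact Ideal.mul_mem_right _ _ hpM
  · rintro ⟨a, rfl⟩
    exact ⟨algebraMap _ _ a, map_mul _ _ _⟩

/-- A prime element of `O[X]` lying in `(π, g)` stays prime in the local ring. -/
theorem prime_algebraMap_localization (p : O[X]) (hp : Prime p)
    (hpM : p ∈ Ideal.span {C π, g}) :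
    Prime (algebraMap O[X] (Localization.AtPrime (Ideal.span {C π, g})) p) := by
  have hpI : (Ideal.span {p}).IsPrime := (Ideal.span_singleton_prime hp.ne_zero).mpr hp
  have hd : Disjoint ((Ideal.span {C π, g}).primeCompl : Set O[X])
      (Ideal.span {p} : Set O[X]) := by
    rw [Set.disjoint_left]
    intro a ha ha'
    apply ha
    obtain ⟨w, rfl⟩ := Ideal.mem_span_singleton.mp ha'
    exact Ideal.mul_mem_right _ _ hpM
  have h1 := IsLocalization.isPrime_of_isPrime_disjoint (Ideal.span {C π, g}).primeCompl
    (Localization.AtPrime (Ideal.span {C π, g})) (Ideal.span {p}) hpI hd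
  rw [Ideal.map_span, Set.image_singleton] at h1
  have hne : algebraMap O[X] (Localization.AtPrime (Ideal.span {C π, g})) p ≠ 0 := by
    intro h
    have := (IsLocalization.injective (Localization.AtPrime (Ideal.span {C π, g}))
      (Ideal.primeCompl_le_nonZeroDivisors (Ideal.span {C π, g}))) (h.trans (map_zero _).symm)
    exact hp.ne_zero this
  exact (Ideal.span_singleton_prime hne).mp h1

variable [UniqueFactorizationMonoid O] [hmax : (Ideal.span {π}).IsMaximal]
  (hgm : g.Monic) (hg : Irreducible (g.map (Ideal.Quotient.mk (Ideal.span {π}))))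

include hgm hg in
/-- **`g` is a prime element of the local ring at `(π, g)`.** -/
theorem prime_g_localization :
    Prime (algebraMap O[X] (Localization.AtPrime (Ideal.span {C π, g})) g) :=
  prime_algebraMap_localization π g g (prime_of_monic_of_irreducible_map π g hgm hg)
    (Ideal.subset_span (by simp))

include hgm hg in
/-- `g ∤ c` in the local ring at `(π, g)` for every non-zero constant `c`. -/
theorem not_g_dvd_C_localization (c : O) (hc : c ≠ 0) :
    ¬ algebraMap O[X] (Localization.AtPrime (Ideal.span {C π, g})) g ∣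
      algebraMap O[X] (Localization.AtPrime (Ideal.span {C π, g})) (C c) := by
  rw [algebraMap_dvd_iff π g g (C c) (prime_of_monic_of_irreducible_map π g hgm hg)
    (Ideal.subset_span (by simp))]
  exact not_monic_dvd_C g hgm (natDegree_pos_of_irreducible_map π g hgm hg) c hc

include hgm hg in
/-- `g ∤ π` in the local ring at `(π, g)`. -/
theorem not_g_dvd_pi_localization (hπ0 : π ≠ 0) :
    ¬ algebraMap O[X] (Localization.AtPrime (Ideal.span {C π, g})) g ∣
      algebraMap O[X] (Localization.AtPrime (Ideal.span {C π, g})) (C π) :=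
  not_g_dvd_C_localization π g hgm hg π hπ0

include hgm hg in
/-- `g ∤ n` in the local ring at `(π, g)` for every non-zero natural number `n`
(characteristic zero). -/
theorem not_g_dvd_natCast_localization [CharZero O] (n : ℕ) (hn : n ≠ 0) :
    ¬ algebraMap O[X] (Localization.AtPrime (Ideal.span {C π, g})) g ∣
      (n : Localization.AtPrime (Ideal.span {C π, g})) := by
  have h1 : (n : Localization.AtPrime (Ideal.span {C π, g})) =
      algebraMap O[X] (Localization.AtPrime (Ideal.span {C π, g})) (C (n : O)) := by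
    rw [Polynomial.C_eq_natCast, map_natCast]
  rw [h1]
  exact not_g_dvd_C_localization π g hgm hg (n : O) (by exact_mod_cast hn)

include hgm hg in
/-- **`π` is regular modulo `g`** in the local ring at `(π, g)` (= `hπs` of `h15_principle`). -/
theorem g_dvd_of_dvd_pi_mul (hπ0 : π ≠ 0) (a : Localization.AtPrime (Ideal.span {C π, g}))
    (h : algebraMap O[X] (Localization.AtPrime (Ideal.span {C π, g})) g ∣
      algebraMap O[X] (Localization.AtPrime (Ideal.span {C π, g})) (C π) * a) :
    algebraMap O[X] (Localization.AtPrime (Ideal.span {C π, g})) g ∣ a :=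
  ((prime_g_localization π g hgm hg).dvd_or_dvd h).resolve_left
    (not_g_dvd_pi_localization π g hgm hg hπ0)

include hg in
omit [UniqueFactorizationMonoid O] in
/-- **`g` is regular modulo `π`** in the local ring at `(π, g)`. -/
theorem pi_dvd_of_dvd_g_mul (hπ0 : π ≠ 0) (a : Localization.AtPrime (Ideal.span {C π, g}))
    (h : algebraMap O[X] (Localization.AtPrime (Ideal.span {C π, g})) (C π) ∣
      algebraMap O[X] (Localization.AtPrime (Ideal.span {C π, g})) g * a) :
    algebraMap O[X] (Localization.AtPrime (Ideal.span {C π, g})) (C π) ∣ a := by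
  rcases (prime_pi_localization π g hπ0).dvd_or_dvd h with h1 | h1
  · exfalso
    exact not_mem_span_pi_localization π g hg hπ0 (Ideal.mem_span_singleton.mpr h1)
  · exact h1

end LocalG

section BaseQuot

variable {O : Type*} [CommRing O] [IsDomain O] (π : O) (g : O[X])
  [hP : (Ideal.span {C π, g}).IsPrime] [hmax : (Ideal.span {π}).IsMaximal]

/-- `(π)` is a prime ideal of the local ring at `(π, g)`. -/
theorem isPrime_span_pi_localization (hπ0 : π ≠ 0) :
    (Ideal.span {algebraMap O[X] (Localization.AtPrime (Ideal.span {C π, g})) (C π)}).IsPrime :=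
  (Ideal.span_singleton_prime (prime_pi_localization π g hπ0).ne_zero).mpr
    (prime_pi_localization π g hπ0)

/-- **The special fibre of the base**: `A₀ ⧸ (π)` is a principal ideal domain
(`A₀` the local ring of `O[X]` at `(π, g)`). -/
theorem baseQuot_isPrincipalIdealRing [IsNoetherianRing O] (hπ0 : π ≠ 0) :
    IsPrincipalIdealRing (Localization.AtPrime (Ideal.span {C π, g}) ⧸
      Ideal.span {algebraMap O[X] (Localization.AtPrime (Ideal.span {C π, g})) (C π)}) :=
  quot_isPrincipalIdealRing _ _ (maximalIdeal_localization π g)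
    (isPrime_span_pi_localization π g hπ0)

theorem baseQuot_isDomain (hπ0 : π ≠ 0) :
    IsDomain (Localization.AtPrime (Ideal.span {C π, g}) ⧸
      Ideal.span {algebraMap O[X] (Localization.AtPrime (Ideal.span {C π, g})) (C π)}) :=
  quot_isDomain _ (isPrime_span_pi_localization π g hπ0)

/-- `ḡ` is a prime element of `A₀ ⧸ (π)` (= `hs` of `h15_principle` with `f` the quotient map). -/
theorem baseQuot_prime_g (hπ0 : π ≠ 0)
    (hg : Irreducible (g.map (Ideal.Quotient.mk (Ideal.span {π})))) :
    Prime (Ideal.Quotient.mk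
      (Ideal.span {algebraMap O[X] (Localization.AtPrime (Ideal.span {C π, g})) (C π)})
      (algebraMap O[X] (Localization.AtPrime (Ideal.span {C π, g})) g)) :=
  quot_prime_mk _ _ (maximalIdeal_localization π g) (isPrime_span_pi_localization π g hπ0)
    (not_mem_span_pi_localization π g hg hπ0)

end BaseQuot

section Contraction

variable {O : Type*} [CommRing O] (π : O) [hmax : (Ideal.span {π}).IsMaximal]
  {B : Type*} [CommRing B] [Algebra O[X] B] [Algebra.IsIntegral O[X] B]

/-- **(B4)** A maximal ideal of an integral extension `B` of `O[X]` containing `π` lies over a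
maximal ideal `(π, g)`. -/
theorem exists_monic_comap_eq (n : Ideal B) [hn : n.IsMaximal]
    (hπn : algebraMap O[X] B (C π) ∈ n) :
    ∃ g : O[X], g.Monic ∧ Irreducible (g.map (Ideal.Quotient.mk (Ideal.span {π}))) ∧
      n.comap (algebraMap O[X] B) = Ideal.span {C π, g} :=
  exists_monic_of_isMaximal π (Ideal.isMaximal_comap_of_isIntegral_of_isMaximal n)
    (Ideal.mem_comap.mpr hπn)

/-- **(B4)**, element form. -/
theorem exists_monic_mem_iff (n : Ideal B) [hn : n.IsMaximal]
    (hπn : algebraMap O[X] B (C π) ∈ n) :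
    ∃ g : O[X], g.Monic ∧ Irreducible (g.map (Ideal.Quotient.mk (Ideal.span {π}))) ∧
      algebraMap O[X] B g ∈ n ∧
      ∀ a : O[X], algebraMap O[X] B a ∈ n ↔ ∃ u v : O[X], a = C π * u + g * v := by
  obtain ⟨g, hgm, hg, h⟩ := exists_monic_comap_eq π n hπn
  refine ⟨g, hgm, hg, ?_, fun a => ?_⟩
  · rw [← Ideal.mem_comap, h]
    exact Ideal.subset_span (by simp)
  · rw [← Ideal.mem_comap, h, mem_span_pair_iff]

end Contraction

end Fermat.Agent.S18x.IG.H11
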