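import Mathlib
import Fermat.Agent.S18x.IG.Defs

/-!
# S18 [IG-ASM] (helper24): from "the special fibre is a Dedekind domain" to (SM)

* `h24_isDedekindDomain_of_finite` : an integrally closed domain which is finite over a
  principal ideal domain is a Dedekind domain.
* `h24_hSM_of_dedekind` : if `B ⧸ (π)` is a Dedekind domain, every prime ideal `𝔫 ∋ π` of `B`
  satisfies (SM) in element form: `𝔫 B_𝔫 = (π, t)`.
-/

set_option autoImplicit false

namespace Fermat.Agent.S18x.IG

/-- An integrally closed domain, finite over a principal ideal domain, is a Dedekind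
domain. -/
theorem h24_isDedekindDomain_of_finite (R C : Type*) [CommRing R] [IsDomain R]
    [IsPrincipalIdealRing R] [CommRing C] [IsDomain C] [Algebra R C] [Module.Finite R C]
    [IsIntegrallyClosed C] : IsDedekindDomain C := by
  have h1 : IsNoetherianRing C := IsNoetherianRing.of_finite R C
  have h2 : Algebra.IsIntegral R C := Algebra.IsIntegral.of_finite R C
  have h3 : Ring.DimensionLEOne C := Ring.DimensionLEOne.of_isIntegral (R := R) C
  exact
    { toIsDomain := inferInstance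
      toIsNoetherian := h1
      toDimensionLEOne := h3
      toIsIntegralClosure := inferInstance }

/-- **(W-b)** If the special fibre `B ⧸ (π)` is a Dedekind domain, then (SM) holds in element
form at every prime ideal of `B` containing `π`. -/
theorem h24_hSM_of_dedekind {B : Type*} [CommRing B] (π : B)
    [hD : IsDedekindDomain (B ⧸ Ideal.span {π})] (𝔫 : Ideal B) (h𝔫 : 𝔫.IsPrime)
    (hπ𝔫 : π ∈ 𝔫) : HSM π 𝔫 := by
  classical
  set q := Ideal.Quotient.mk (Ideal.span {π}) with hq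
  have hqs : Function.Surjective q := Ideal.Quotient.mk_surjective
  have hker : ∀ y : B, q y = 0 → ∃ u, y = π * u := by
    intro y hy
    rw [hq, Ideal.Quotient.eq_zero_iff_mem, Ideal.mem_span_singleton] at hy
    exact hy
  have hle : Ideal.span {π} ≤ 𝔫 := (Ideal.span_singleton_le_iff_mem 𝔫).mpr hπ𝔫
  -- membership in the image ideal
  have hmem : ∀ y : B, q y ∈ 𝔫.map q → y ∈ 𝔫 := by
    intro y hy
    have h1 : y ∈ (𝔫.map q).comap q := hy
    rw [Ideal.comap_map_of_surjective q hqs, ← RingHom.ker_eq_comap_bot, hq,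
      Ideal.mk_ker] at h1
    rwa [sup_eq_left.mpr hle] at h1
  have hP : (𝔫.map q).IsPrime := by
    refine Ideal.map_isPrime_of_surjective hqs ?_
    rw [hq, Ideal.mk_ker]
    exact hle
  have hone : (1 : B) ∉ 𝔫 := fun h => h𝔫.ne_top ((Ideal.eq_top_iff_one 𝔫).mpr h)
  by_cases hbot : 𝔫.map q = ⊥
  · -- degenerate case: `𝔫 = (π)`
    refine ⟨0, 𝔫.zero_mem, fun y hy => ⟨1, hone, ?_⟩⟩
    have h1 : q y ∈ 𝔫.map q := Ideal.mem_map_of_mem q hy
    rw [hbot, Ideal.mem_bot] at h1
    obtain ⟨u, hu⟩ := hker y h1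
    exact ⟨u, 0, by rw [one_mul, hu]; ring⟩
  · -- `P ≠ P ^ 2`
    have hlt : (𝔫.map q) ^ (1 + 1) < (𝔫.map q) ^ 1 := Ideal.pow_succ_lt_pow hbot 1
    rw [pow_one] at hlt
    obtain ⟨tb, htP, htP2⟩ := SetLike.exists_of_lt hlt
    obtain ⟨t, rfl⟩ := hqs tb
    have ht𝔫 : t ∈ 𝔫 := hmem t htP
    -- `(t̄) = P * J`
    have hdvd : 𝔫.map q ∣ Ideal.span {q t} :=
      Ideal.dvd_iff_le.mpr ((Ideal.span_singleton_le_iff_mem _).mpr htP)
    obtain ⟨J, hJ⟩ := hdvd
    have hJP : ¬ J ≤ 𝔫.map q := by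
      intro hle'
      apply htP2
      have h1 : q t ∈ Ideal.span {q t} := Ideal.mem_span_singleton_self _
      rw [hJ] at h1
      have h2 : 𝔫.map q * J ≤ (𝔫.map q) ^ (1 + 1) := by
        rw [pow_succ, pow_one]
        exact Ideal.mul_mono_right hle'
      exact h2 h1
    obtain ⟨cb, hcJ, hcP⟩ := SetLike.not_le_iff_exists.mp hJP
    obtain ⟨c, rfl⟩ := hqs cb
    have hc𝔫 : c ∉ 𝔫 := fun h => hcP (Ideal.mem_map_of_mem q h)
    refine ⟨t, ht𝔫, fun y hy => ⟨c, hc𝔫, ?_⟩⟩
    have h1 : q y * q c ∈ 𝔫.map q * J := Ideal.mul_mem_mul (Ideal.mem_map_of_mem q hy) hcJ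
    rw [← hJ, Ideal.mem_span_singleton] at h1
    obtain ⟨wb, hw⟩ := h1
    obtain ⟨w, rfl⟩ := hqs wb
    have h2 : q (c * y - t * w) = 0 := by
      rw [map_sub, map_mul, map_mul, mul_comm (q c), hw, sub_self]
    obtain ⟨u, hu⟩ := hker _ h2
    exact ⟨u, w, by rw [← hu]; ring⟩

end Fermat.Agent.S18x.IG
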