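import Mathlib
import Fermat.Agent.S18x.IG.Defs
import Fermat.Agent.S18x.IG.H24_Wb
import Fermat.Agent.S18x.IG.H15_DualGlue
import Fermat.Agent.S18x.IG.H11_BaseLocal
import Fermat.Agent.S18x.CA.H25_Purity
import Fermat.Agent.S18x.CA.H16_T1

/-!
# S18 [IG-ASM] (helper24): PRINCIPLE (*) in global form

`A` a noetherian integrally closed domain, `(π, s)` a maximal ideal of `A`, `π` and `s` prime;
`B` an integrally closed domain, finite and torsion-free over `A`.

* (VERT) `π B` is prime with separable residue extension (data `f : A → K`, `g : B → L`);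
* (HOR) the fibres of `B` over the primes `𝔭 ≤ (π, s)` of `A` with `π ∉ 𝔭`, `s ∉ 𝔭` are reduced
  and of residue characteristic zero;
* (GEN) the generic-fibre statement `hgen` of PRINCIPLE (*) for the localisation `B'` of `B`
  over the local ring `A'` of `A` at `(π, s)` (tameness at `s = 0`, supplied by `h15_hgen`).

Then (SM) holds in element form at every maximal ideal `𝔫` of `B` above `(π, s)`:
`𝔫 B_𝔫 = (π, t)` for some `t ∈ 𝔫`.

`principle_SM_aux` is the statement for an abstract localisation `(A', B')`,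
`principle_SM_of_hgen` for `Localization.AtPrime`.
-/

set_option autoImplicit false
set_option linter.style.haveILetI false

namespace Fermat.Agent.S18x.IG

open Module Fermat.Agent.S18x.CA.H25 Fermat.Agent.S18x.CA.H25F Fermat.Agent.S18x.CA.H25P

section Aux

/-- A prime element `p ∈ 𝔪` stays prime in the localisation at `𝔪`. -/
theorem h24_prime_algebraMap {A : Type*} [CommRing A] [IsDomain A] (𝔪 : Ideal A) [𝔪.IsPrime]
    (A' : Type*) [CommRing A'] [Algebra A A'] [IsLocalization.AtPrime A' 𝔪] (p : A)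
    (hp : Prime p) (hp𝔪 : p ∈ 𝔪) : Prime (algebraMap A A' p) := by
  have hMnz : 𝔪.primeCompl ≤ nonZeroDivisors A := Ideal.primeCompl_le_nonZeroDivisors 𝔪
  have hinjA : Function.Injective (algebraMap A A') := IsLocalization.injective A' hMnz
  have hprime : (Ideal.span {p} : Ideal A).IsPrime :=
    (Ideal.span_singleton_prime hp.ne_zero).mpr hp
  have hle : (Ideal.span {p} : Ideal A) ≤ 𝔪 := (Ideal.span_singleton_le_iff_mem 𝔪).mpr hp𝔪
  have hdisj : Disjoint (𝔪.primeCompl : Set A) ((Ideal.span {p} : Ideal A) : Set A) :=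
    Set.disjoint_left.mpr (fun a ha hap => ha (hle hap))
  have hmap : Ideal.map (algebraMap A A') (Ideal.span {p}) = Ideal.span {algebraMap A A' p} := by
    rw [Ideal.map_span, Set.image_singleton]
  have hp'0 : algebraMap A A' p ≠ 0 := fun h => hp.ne_zero (hinjA (by rw [h, map_zero]))
  rw [← Ideal.span_singleton_prime hp'0, ← hmap]
  exact IsLocalization.isPrime_of_isPrime_disjoint 𝔪.primeCompl A' _ hprime hdisj

/-- Divisibility by a prime element of `𝔪` can be tested in the localisation at `𝔪`. -/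
theorem h24_dvd_of_algebraMap_dvd {A : Type*} [CommRing A] [IsDomain A] (𝔪 : Ideal A)
    [𝔪.IsPrime] (A' : Type*) [CommRing A'] [Algebra A A'] [IsLocalization.AtPrime A' 𝔪] (p : A)
    (hp : Prime p) (hp𝔪 : p ∈ 𝔪) (a : A) (h : algebraMap A A' p ∣ algebraMap A A' a) :
    p ∣ a := by
  have hprime : (Ideal.span {p} : Ideal A).IsPrime :=
    (Ideal.span_singleton_prime hp.ne_zero).mpr hp
  have hle : (Ideal.span {p} : Ideal A) ≤ 𝔪 := (Ideal.span_singleton_le_iff_mem 𝔪).mpr hp𝔪
  have hdisj : Disjoint (𝔪.primeCompl : Set A) ((Ideal.span {p} : Ideal A) : Set A) :=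
    Set.disjoint_left.mpr (fun a ha hap => ha (hle hap))
  have hmap : Ideal.map (algebraMap A A') (Ideal.span {p}) = Ideal.span {algebraMap A A' p} := by
    rw [Ideal.map_span, Set.image_singleton]
  have h1 : algebraMap A A' a ∈ Ideal.map (algebraMap A A') (Ideal.span {p}) := by
    rw [hmap]
    exact Ideal.mem_span_singleton.mpr h
  have h2 : a ∈ (Ideal.map (algebraMap A A') (Ideal.span {p})).under A := h1
  rw [IsLocalization.under_map_of_isPrime_disjoint 𝔪.primeCompl A' hprime hdisj] at h2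
  exact Ideal.mem_span_singleton.mp h2

end Aux

section Assembly

/-- **PRINCIPLE (*), global form, abstract localisation.** -/
theorem principle_SM_aux {A B : Type*} [CommRing A] [IsDomain A] [CommRing B] [IsDomain B]
    [Algebra A B] [FaithfulSMul A B] (𝔪 : Ideal A) [h𝔪 : 𝔪.IsMaximal]
    (A' B' : Type*) [CommRing A'] [CommRing B'] [Algebra A A'] [Algebra B B']
    [Algebra A' B'] [Algebra A B'] [IsScalarTower A A' B'] [IsScalarTower A B B']
    [IsLocalization.AtPrime A' 𝔪] [IsLocalization (Algebra.algebraMapSubmonoid B 𝔪.primeCompl) B']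
    [IsDomain A'] [IsLocalRing A'] [IsNoetherianRing A'] [IsIntegrallyClosed A']
    [IsDomain B'] [IsIntegrallyClosed B'] [FaithfulSMul A' B'] [Module.Finite A' B']
    (π s : A) (hm : 𝔪 = Ideal.span {π, s}) (hπ : Prime π) (hs : Prime s) (hsπ : ¬ s ∣ π)
    {K L : Type*} [Field K] [Field L] [Algebra K L] (f : A →+* K) (g : B →+* L)
    (hcomm : ∀ a, g (algebraMap A B a) = algebraMap K L (f a))
    (hK : ∀ c : K, ∃ a d : A, f d ≠ 0 ∧ c * f d = f a)
    (hfπ : f π = 0) (hf : ∀ a, f a = 0 → π ∣ a)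
    (hg : ∀ x : B, g x = 0 → algebraMap A B π ∣ x)
    (hsep : ∀ x : B, IsSeparable K (g x))
    (hchar : ∀ 𝔭 : Ideal A, 𝔭.IsPrime → π ∉ 𝔭 → ∀ n : ℕ, n ≠ 0 → (n : A) ∉ 𝔭)
    (hred : ∀ 𝔭 : Ideal A, 𝔭.IsPrime → π ∉ 𝔭 → s ∉ 𝔭 → 𝔭 ≤ Ideal.span {π, s} →
      ∀ x : B, x * x ∈ 𝔭.map (algebraMap A B) →
        ∃ c : A, c ∉ 𝔭 ∧ algebraMap A B c * x ∈ 𝔭.map (algebraMap A B))
    (hgenAll : ∀ (n : ℕ) (b : Basis (Fin n) A' B'), Algebra.discr A' b ≠ 0 →
      (∀ 𝔭 : Ideal A', 𝔭.IsPrime → algebraMap A A' π ∉ 𝔭 → algebraMap A A' s ∉ 𝔭 →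
        Algebra.discr A' b ∉ 𝔭) →
      ∀ φ : B' →ₗ[A'] A', ∃ (k N : ℕ) (y : B'),
        y ^ N ∈ Ideal.span {algebraMap A' B' (algebraMap A A' s)} ∧
        ∀ x, algebraMap A A' π ^ k * algebraMap A A' s * φ x = Algebra.trace A' B' (y * x))
    (𝔫 : Ideal B) (h𝔫 : 𝔫.IsMaximal) (hover : ∀ a ∈ Ideal.span {π, s}, algebraMap A B a ∈ 𝔫) :
    HSM (algebraMap A B π) 𝔫 := by
  classical
  set M : Submonoid A := 𝔪.primeCompl with hMdef
  have hπ𝔪 : π ∈ 𝔪 := by rw [hm]; exact Ideal.subset_span (by simp)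
  have hs𝔪 : s ∈ 𝔪 := by rw [hm]; exact Ideal.subset_span (by simp)
  have hMnz : M ≤ nonZeroDivisors A := Ideal.primeCompl_le_nonZeroDivisors 𝔪
  have hinjA : Function.Injective (algebraMap A A') := IsLocalization.injective A' hMnz
  have hinjAB : Function.Injective (algebraMap A B) := FaithfulSMul.algebraMap_injective A B
  have hMBnz : Algebra.algebraMapSubmonoid B M ≤ nonZeroDivisors B :=
    Submonoid.map_le_of_le_comap _ <| hMnz.trans
      (nonZeroDivisors_le_comap_nonZeroDivisors_of_injective _ hinjAB)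
  have hinjB : Function.Injective (algebraMap B B') := IsLocalization.injective B' hMBnz
  -- the maximal ideal of `A'`
  have hm' : IsLocalRing.maximalIdeal A'
      = Ideal.span {algebraMap A A' π, algebraMap A A' s} := by
    rw [← IsLocalization.AtPrime.map_eq_maximalIdeal 𝔪 A', hm, Ideal.map_span, Set.image_pair]
  have hπ' : Prime (algebraMap A A' π) := h24_prime_algebraMap 𝔪 A' π hπ hπ𝔪
  have hs' : Prime (algebraMap A A' s) := h24_prime_algebraMap 𝔪 A' s hs hs𝔪
  have hπle : (Ideal.span {π} : Ideal A) ≤ 𝔪 := (Ideal.span_singleton_le_iff_mem 𝔪).mpr hπ𝔪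
  -- `s ∉ (π)`
  have hsnot : ¬ π ∣ s := by
    rintro ⟨c, hc⟩
    have h1 : s ∣ π * c := ⟨1, by rw [mul_one, hc]⟩
    rcases hs.dvd_or_dvd h1 with h2 | h2
    · exact hsπ h2
    · obtain ⟨d, hd⟩ := h2
      have h3 : s * 1 = s * (π * d) := by
        rw [mul_one]
        conv_lhs => rw [hc, hd]
        ring
      have h4 : (1 : A) = π * d := mul_left_cancel₀ hs.ne_zero h3
      exact hπ.not_isUnit (IsUnit.of_mul_eq_one d h4.symm)
  have ht' : algebraMap A A' s ∉ Ideal.span {algebraMap A A' π} := by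
    intro h
    exact hsnot (h24_dvd_of_algebraMap_dvd 𝔪 A' π hπ hπ𝔪 s (Ideal.mem_span_singleton.mp h))
  have hsπ' : ¬ algebraMap A A' s ∣ algebraMap A A' π := fun h =>
    hsπ (h24_dvd_of_algebraMap_dvd 𝔪 A' s hs hs𝔪 π h)
  obtain ⟨n, ⟨b⟩⟩ := Fermat.Agent.S18x.CA.H16.exists_basis_of_normal_of_finite (B := B')
    (algebraMap A A' π) (algebraMap A A' s) hm' hπ' ht'
  -- vertical prime
  have hker : RingHom.ker f = Ideal.span {π} := by
    ext a
    rw [RingHom.mem_ker, Ideal.mem_span_singleton]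
    exact ⟨hf a, fun ⟨c, hc⟩ => by rw [hc, map_mul, hfπ, zero_mul]⟩
  have hMf : ∀ a ∈ M, f a ≠ 0 := by
    intro a ha h0
    have : a ∈ Ideal.span {π} := hker ▸ (RingHom.mem_ker.mpr h0)
    exact ha (hπle this)
  have hg' : ∀ x : B, g x = 0 → x ∈ Ideal.map (algebraMap A B) (RingHom.ker f) := by
    intro x hx0
    rw [hker, Ideal.map_span, Set.image_singleton, Ideal.mem_span_singleton]
    exact hg x hx0
  have hmapπ : Ideal.map (algebraMap A A') (Ideal.span {π}) = Ideal.span {algebraMap A A' π} := by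
    rw [Ideal.map_span, Set.image_singleton]
  have hvert : Algebra.discr A' b ∉ Ideal.span {algebraMap A A' π} := by
    have := discr_not_mem_map_ker_of_separable M b f g hcomm hK hg' hsep hMf
    rwa [hker, hmapπ] at this
  have hdisc : ¬ algebraMap A A' π ∣ Algebra.discr A' b := fun h =>
    hvert (Ideal.mem_span_singleton.mpr h)
  have hd0 : Algebra.discr A' b ≠ 0 := fun h => hdisc (by rw [h]; exact dvd_zero _)
  -- horizontal primes
  have hhor' : ∀ 𝔭' : Ideal A', 𝔭'.IsPrime → algebraMap A A' π ∉ 𝔭' →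
      algebraMap A A' s ∉ 𝔭' → Algebra.discr A' b ∉ 𝔭' := by
    intro 𝔭' h𝔭' hπ𝔭' hs𝔭'
    by_cases h0 : 𝔭' = ⊥
    · rw [h0, Ideal.mem_bot]
      exact hd0
    set 𝔭 : Ideal A := 𝔭'.comap (algebraMap A A') with h𝔭def
    have h𝔭 : 𝔭.IsPrime := Ideal.comap_isPrime _ _
    have hmap : 𝔭.map (algebraMap A A') = 𝔭' := IsLocalization.map_under M A' 𝔭'
    have hπ𝔭 : π ∉ 𝔭 := fun h => hπ𝔭' h
    have hs𝔭 : s ∉ 𝔭 := fun h => hs𝔭' h
    have h𝔭le : 𝔭 ≤ 𝔪 := by
      intro a ha
      by_contra ha'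
      have hu : IsUnit (algebraMap A A' a) := IsLocalization.map_units A' (⟨a, ha'⟩ : M)
      exact h𝔭'.ne_top (Ideal.eq_top_of_isUnit_mem _ ha hu)
    have hchar' := hchar 𝔭 h𝔭 hπ𝔭
    have hred' := hred 𝔭 h𝔭 hπ𝔭 hs𝔭 (hm ▸ h𝔭le)
    let κ := FractionRing (A ⧸ 𝔭)
    let f₀ : A →+* κ := (algebraMap (A ⧸ 𝔭) κ).comp (Ideal.Quotient.mk 𝔭)
    have hinjκ : Function.Injective (algebraMap (A ⧸ 𝔭) κ) := IsFractionRing.injective _ _
    have hf₀ : ∀ a, f₀ a = 0 ↔ a ∈ 𝔭 := by
      intro a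
      change algebraMap (A ⧸ 𝔭) κ (Ideal.Quotient.mk 𝔭 a) = 0 ↔ _
      rw [map_eq_zero_iff _ hinjκ, Ideal.Quotient.eq_zero_iff_mem]
    have hker₀ : RingHom.ker f₀ = 𝔭 := by
      ext a; rw [RingHom.mem_ker, hf₀]
    have hcz : CharZero κ := by
      refine charZero_of_inj_zero (fun k hk => ?_)
      by_contra hk0
      have h1 : f₀ (k : A) = 0 := by rw [map_natCast]; exact hk
      exact hchar' k hk0 ((hf₀ _).mp h1)
    have hK₀ : ∀ c : κ, ∃ a s : A, f₀ s ≠ 0 ∧ c * f₀ s = f₀ a := by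
      intro c
      obtain ⟨⟨a', ⟨s', hs'⟩⟩, h⟩ := IsLocalization.surj (nonZeroDivisors (A ⧸ 𝔭)) c
      obtain ⟨a, rfl⟩ := Ideal.Quotient.mk_surjective a'
      obtain ⟨s, rfl⟩ := Ideal.Quotient.mk_surjective s'
      refine ⟨a, s, ?_, h⟩
      intro h0
      have : Ideal.Quotient.mk 𝔭 s = 0 := (map_eq_zero_iff _ hinjκ).mp h0
      exact nonZeroDivisors.ne_zero hs' this
    have hred₀ : ∀ x : B, x * x ∈ Ideal.map (algebraMap A B) (RingHom.ker f₀) →
        ∃ s : A, f₀ s ≠ 0 ∧
          algebraMap A B s * x ∈ Ideal.map (algebraMap A B) (RingHom.ker f₀) := by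
      intro x hx2
      rw [hker₀] at hx2 ⊢
      obtain ⟨s, hs, hsx⟩ := hred' x hx2
      exact ⟨s, fun h => hs ((hf₀ s).mp h), hsx⟩
    have hM₀ : ∀ a ∈ M, f₀ a ≠ 0 := fun a ha h => ha (h𝔭le ((hf₀ a).mp h))
    have := discr_not_mem_map_ker_of_reduced M b f₀ hK₀ hred₀ hM₀
    rwa [hker₀, hmap] at this
  -- the generic fibre
  have hgen := hgenAll n b hd0 hhor'
  -- the special fibre
  have hprimeπ' : (Ideal.span {algebraMap A A' π} : Ideal A').IsPrime :=
    (Ideal.span_singleton_prime hπ'.ne_zero).mpr hπ'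
  have hπB : algebraMap B B' (algebraMap A B π) = algebraMap A' B' (algebraMap A A' π) := by
    rw [← IsScalarTower.algebraMap_apply A B B', ← IsScalarTower.algebraMap_apply A A' B']
  have hkerg : RingHom.ker g = Ideal.span {algebraMap A B π} := by
    ext x
    rw [RingHom.mem_ker, Ideal.mem_span_singleton]
    refine ⟨hg x, ?_⟩
    rintro ⟨c, rfl⟩
    rw [map_mul, hcomm, hfπ, map_zero, zero_mul]
  have hJprime : (Ideal.span {algebraMap A B π} : Ideal B).IsPrime := by
    rw [← hkerg]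
    exact RingHom.ker_isPrime g
  have hJdisj : Disjoint ((Algebra.algebraMapSubmonoid B M : Submonoid B) : Set B)
      ((Ideal.span {algebraMap A B π} : Ideal B) : Set B) := by
    refine Set.disjoint_left.mpr ?_
    rintro _ ⟨a, ha, rfl⟩ haJ
    rw [SetLike.mem_coe, ← hkerg, RingHom.mem_ker, hcomm] at haJ
    exact hMf a ha ((map_eq_zero_iff _ (algebraMap K L).injective).mp haJ)
  have hprimeπB : (Ideal.span {algebraMap A' B' (algebraMap A A' π)} : Ideal B').IsPrime := by
    have h1 := IsLocalization.isPrime_of_isPrime_disjoint (Algebra.algebraMapSubmonoid B M) B' _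
      hJprime hJdisj
    rwa [Ideal.map_span, Set.image_singleton, hπB] at h1
  let R := A' ⧸ Ideal.span {algebraMap A A' π}
  let C := B' ⧸ Ideal.span {algebraMap A' B' (algebraMap A A' π)}
  let fq : A' →+* R := Ideal.Quotient.mk _
  let gq : B' →+* C := Ideal.Quotient.mk _
  let φq : R →+* C := Ideal.Quotient.lift (Ideal.span {algebraMap A A' π})
    (gq.comp (algebraMap A' B')) (by
      intro a ha
      obtain ⟨c, rfl⟩ := Ideal.mem_span_singleton.mp ha
      rw [RingHom.comp_apply, map_mul, map_mul]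
      have : gq (algebraMap A' B' (algebraMap A A' π)) = 0 :=
        Ideal.Quotient.eq_zero_iff_mem.mpr (Ideal.mem_span_singleton_self _)
      rw [this, zero_mul])
  letI : Algebra R C := φq.toAlgebra
  have hcommq : ∀ a, gq (algebraMap A' B' a) = algebraMap R C (fq a) := fun a => rfl
  have hfqs : Function.Surjective fq := Ideal.Quotient.mk_surjective
  have hgqs : Function.Surjective gq := Ideal.Quotient.mk_surjective
  have hfqπ : fq (algebraMap A A' π) = 0 :=
    Ideal.Quotient.eq_zero_iff_mem.mpr (Ideal.mem_span_singleton_self _)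
  have hkgq : ∀ x, gq x = 0 → x ∈ Ideal.span {algebraMap A' B' (algebraMap A A' π)} :=
    fun x hx => Ideal.Quotient.eq_zero_iff_mem.mp hx
  haveI : IsDomain R := H11.quot_isDomain (algebraMap A A' π) hprimeπ'
  haveI : IsPrincipalIdealRing R :=
    H11.quot_isPrincipalIdealRing (algebraMap A A' π) (algebraMap A A' s) hm' hprimeπ'
  haveI : IsDomain C := Ideal.Quotient.isDomain _
  have hsq : Prime (fq (algebraMap A A' s)) :=
    H11.quot_prime_mk (algebraMap A A' π) (algebraMap A A' s) hm' hprimeπ' ht'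
  have hπs' : ∀ a : A', algebraMap A A' s ∣ algebraMap A A' π * a → algebraMap A A' s ∣ a :=
    fun a h => (hs'.dvd_or_dvd h).resolve_left hsπ'
  haveI hCic : IsIntegrallyClosed C :=
    H15.h15_principle fq gq hcommq hfqs hgqs (algebraMap A A' π) (algebraMap A A' s) hπ' hfqπ
      hkgq hsq hπs' b hdisc hgen
  obtain ⟨bq, -⟩ := H15.h15_exists_fibreBasis fq gq hcommq hfqs hgqs (algebraMap A A' π) hfqπ
    hkgq b
  haveI : Module.Finite R C := Module.Finite.of_basis bq
  haveI : IsDedekindDomain C := h24_isDedekindDomain_of_finite R C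
  -- the ideal `𝔫 B'`
  have hdisj𝔫 : Disjoint ((Algebra.algebraMapSubmonoid B M : Submonoid B) : Set B) (𝔫 : Set B) := by
    refine Set.disjoint_left.mpr ?_
    rintro _ ⟨a, ha, rfl⟩ ha𝔫
    obtain ⟨y, i, hi, hyi⟩ := h𝔪.exists_inv ha
    refine h𝔫.ne_top ((Ideal.eq_top_iff_one 𝔫).mpr ?_)
    have h1 : (1 : B) = algebraMap A B y * algebraMap A B a + algebraMap A B i := by
      rw [← map_mul, ← map_add, hyi, map_one]
    rw [h1]
    exact 𝔫.add_mem (𝔫.mul_mem_left _ ha𝔫) (hover i (hm ▸ hi))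
  have h𝔫' : (𝔫.map (algebraMap B B')).IsPrime :=
    IsLocalization.isPrime_of_isPrime_disjoint (Algebra.algebraMapSubmonoid B M) B' 𝔫
      h𝔫.isPrime hdisj𝔫
  have hcomap : (𝔫.map (algebraMap B B')).comap (algebraMap B B') = 𝔫 :=
    IsLocalization.under_map_of_isPrime_disjoint (Algebra.algebraMapSubmonoid B M) B'
      h𝔫.isPrime hdisj𝔫
  have hπ𝔫 : algebraMap A B π ∈ 𝔫 := hover π (Ideal.subset_span (by simp))
  have hπ𝔫' : algebraMap A' B' (algebraMap A A' π) ∈ 𝔫.map (algebraMap B B') := by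
    rw [← hπB]
    exact Ideal.mem_map_of_mem _ hπ𝔫
  obtain ⟨t', ht'𝔫, hSM'⟩ := h24_hSM_of_dedekind (algebraMap A' B' (algebraMap A A' π))
    (𝔫.map (algebraMap B B')) h𝔫' hπ𝔫'
  -- clear denominators
  obtain ⟨t₀, at₀, hat, ht1⟩ := exists_mul_eq_algebraMap (B := B) M t'
  have ht₀𝔫 : t₀ ∈ 𝔫 := by
    rw [← hcomap, Ideal.mem_comap, ← ht1]
    exact Ideal.mul_mem_left _ _ ht'𝔫
  refine ⟨t₀, ht₀𝔫, fun y hy => ?_⟩
  obtain ⟨c', hc', u', w', h⟩ := hSM' (algebraMap B B' y) (Ideal.mem_map_of_mem _ hy)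
  obtain ⟨xc, ac, hac, hc1⟩ := exists_mul_eq_algebraMap (B := B) M c'
  obtain ⟨xu, au, hau, hu1⟩ := exists_mul_eq_algebraMap (B := B) M u'
  obtain ⟨xw, aw, haw, hw1⟩ := exists_mul_eq_algebraMap (B := B) M w'
  refine ⟨algebraMap A B (au * aw * at₀) * xc, ?_, algebraMap A B (ac * aw * at₀) * xu,
    algebraMap A B (ac * au) * xw, ?_⟩
  · intro hmem
    have h1 : algebraMap B B' (algebraMap A B (au * aw * at₀) * xc) ∈ 𝔫.map (algebraMap B B') :=
      Ideal.mem_map_of_mem _ hmem
    have h2 : algebraMap B B' (algebraMap A B (au * aw * at₀) * xc)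
        = algebraMap A B' (au * aw * at₀ * ac) * c' := by
      rw [map_mul, ← hc1, ← IsScalarTower.algebraMap_apply A B B',
        map_mul (algebraMap A B') _ ac]
      ring
    rw [h2] at h1
    exact hc' ((Ideal.unit_mul_mem_iff_mem _
      (isUnit_algebraMap_of_mem B M
        (M.mul_mem (M.mul_mem (M.mul_mem hau haw) hat) hac))).mp h1)
  · apply hinjB
    simp only [map_mul, map_add, ← IsScalarTower.algebraMap_apply A B B']
    rw [← hc1, ← hu1, ← hw1, ← ht1]
    rw [← IsScalarTower.algebraMap_apply A A' B'] at h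
    have h3 : algebraMap A B' au * algebraMap A B' aw * algebraMap A B' at₀
          * (algebraMap A B' ac * c') * algebraMap B B' y
        = algebraMap A B' ac * algebraMap A B' au * algebraMap A B' aw * algebraMap A B' at₀
          * (c' * algebraMap B B' y) := by ring
    rw [h3, h]
    ring

end Assembly

section Final

/-- **PRINCIPLE (*), global form** (with the generic-fibre statement `hgen` for the
localisation at `(π, s)` as a hypothesis).  `A` a noetherian integrally closed domain,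
`(π, s)` maximal, `π`, `s` prime; `B` an integrally closed domain finite over `A`. -/
theorem principle_SM_of_hgen {A B : Type*} [CommRing A] [IsDomain A] [IsNoetherianRing A]
    [IsIntegrallyClosed A] [CommRing B] [IsDomain B] [IsIntegrallyClosed B] [Algebra A B]
    [FaithfulSMul A B] [Module.Finite A B]
    (π s : A) (hmax : (Ideal.span {π, s} : Ideal A).IsMaximal) (hπ : Prime π) (hs : Prime s)
    (hsπ : ¬ s ∣ π)
    {K L : Type*} [Field K] [Field L] [Algebra K L] (f : A →+* K) (g : B →+* L)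
    (hcomm : ∀ a, g (algebraMap A B a) = algebraMap K L (f a))
    (hK : ∀ c : K, ∃ a d : A, f d ≠ 0 ∧ c * f d = f a)
    (hfπ : f π = 0) (hf : ∀ a, f a = 0 → π ∣ a)
    (hg : ∀ x : B, g x = 0 → algebraMap A B π ∣ x)
    (hsep : ∀ x : B, IsSeparable K (g x))
    (hchar : ∀ 𝔭 : Ideal A, 𝔭.IsPrime → π ∉ 𝔭 → ∀ n : ℕ, n ≠ 0 → (n : A) ∉ 𝔭)
    (hred : ∀ 𝔭 : Ideal A, 𝔭.IsPrime → π ∉ 𝔭 → s ∉ 𝔭 → 𝔭 ≤ Ideal.span {π, s} →
      ∀ x : B, x * x ∈ 𝔭.map (algebraMap A B) →
        ∃ c : A, c ∉ 𝔭 ∧ algebraMap A B c * x ∈ 𝔭.map (algebraMap A B))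
    (hgenAll :
      haveI : (Ideal.span {π, s} : Ideal A).IsPrime := hmax.isPrime
      ∀ (n : ℕ) (b : Basis (Fin n) (Localization.AtPrime (Ideal.span {π, s}))
          (Localization (Algebra.algebraMapSubmonoid B (Ideal.span {π, s}).primeCompl))),
        Algebra.discr (Localization.AtPrime (Ideal.span {π, s})) b ≠ 0 →
        (∀ 𝔭 : Ideal (Localization.AtPrime (Ideal.span {π, s})), 𝔭.IsPrime →
          algebraMap A (Localization.AtPrime (Ideal.span {π, s})) π ∉ 𝔭 →
          algebraMap A (Localization.AtPrime (Ideal.span {π, s})) s ∉ 𝔭 →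
          Algebra.discr (Localization.AtPrime (Ideal.span {π, s})) b ∉ 𝔭) →
        ∀ φ : Localization (Algebra.algebraMapSubmonoid B (Ideal.span {π, s}).primeCompl)
            →ₗ[Localization.AtPrime (Ideal.span {π, s})]
              Localization.AtPrime (Ideal.span {π, s}),
          ∃ (k N : ℕ)
            (y : Localization (Algebra.algebraMapSubmonoid B (Ideal.span {π, s}).primeCompl)),
            y ^ N ∈ Ideal.span {algebraMap (Localization.AtPrime (Ideal.span {π, s}))
              (Localization (Algebra.algebraMapSubmonoid B (Ideal.span {π, s}).primeCompl))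
              (algebraMap A (Localization.AtPrime (Ideal.span {π, s})) s)} ∧
            ∀ x, algebraMap A (Localization.AtPrime (Ideal.span {π, s})) π ^ k *
              algebraMap A (Localization.AtPrime (Ideal.span {π, s})) s * φ x =
                Algebra.trace (Localization.AtPrime (Ideal.span {π, s}))
                  (Localization (Algebra.algebraMapSubmonoid B (Ideal.span {π, s}).primeCompl))
                  (y * x))
    (𝔫 : Ideal B) (h𝔫 : 𝔫.IsMaximal) (hover : ∀ a ∈ Ideal.span {π, s}, algebraMap A B a ∈ 𝔫) :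
    HSM (algebraMap A B π) 𝔫 := by
  have h𝔪 : (Ideal.span {π, s} : Ideal A).IsMaximal := hmax
  haveI : (Ideal.span {π, s} : Ideal A).IsPrime := hmax.isPrime
  let 𝔪 : Ideal A := Ideal.span {π, s}
  let A' := Localization.AtPrime 𝔪
  let B' := Localization (Algebra.algebraMapSubmonoid B 𝔪.primeCompl)
  have hinjAB : Function.Injective (algebraMap A B) := FaithfulSMul.algebraMap_injective A B
  have e : Algebra.algebraMapSubmonoid B 𝔪.primeCompl ≤ nonZeroDivisors B :=
    Submonoid.map_le_of_le_comap _ <| 𝔪.primeCompl_le_nonZeroDivisors.trans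
      (nonZeroDivisors_le_comap_nonZeroDivisors_of_injective _ hinjAB)
  have : IsDomain A' := IsLocalization.isDomain_of_le_nonZeroDivisors _
    𝔪.primeCompl_le_nonZeroDivisors
  have : IsDomain B' := IsLocalization.isDomain_of_le_nonZeroDivisors _ e
  have : IsNoetherianRing A' := IsLocalization.isNoetherianRing 𝔪.primeCompl A' inferInstance
  have : IsIntegrallyClosed A' :=
    isIntegrallyClosed_of_isLocalization A' 𝔪.primeCompl 𝔪.primeCompl_le_nonZeroDivisors
  have : IsIntegrallyClosed B' := isIntegrallyClosed_of_isLocalization B' _ e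
  have : Module.Finite A' B' := .of_isLocalization A B 𝔪.primeCompl
  have : FaithfulSMul A' B' :=
    (faithfulSMul_iff_algebraMap_injective A' B').mpr
      (localizationAlgebra_injective (Rₘ := A') (Sₘ := B') hinjAB)
  exact principle_SM_aux 𝔪 A' B' π s rfl hπ hs hsπ f g hcomm hK hfπ hf hg hsep hchar hred
    hgenAll 𝔫 h𝔫 hover

end Final

end Fermat.Agent.S18x.IG
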