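import Mathlib
import Fermat.Agent.S18x.IG.H24_Principle
import Fermat.Agent.S18x.IG.H16_Hgen

/-!
# S18 [IG-ASM] (helper24): PRINCIPLE (*) in global form, hypothesis-free

`principle_SM` : `A` a noetherian integrally closed domain, `(π, s)` a maximal ideal of `A`
with `π`, `s` prime; `B` an integrally closed domain, finite and torsion-free over `A`.  From

* (VERT) `π B` is prime with separable residue extension (data `f : A → K`, `g : B → L`),
* (HOR) the fibres of `B` over the primes `𝔭 ≤ (π, s)` of `A` with `π ∉ 𝔭`, `s ∉ 𝔭` are reduced,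
  and the residue characteristic at every prime `𝔭 ∌ π` is zero,

(SM) holds in element form at every maximal ideal `𝔫` of `B` above `(π, s)`.
Nothing is required at the prime `(s)` itself: the ramification there is tame
(`H16.hgen_of_hhor`).
-/

set_option autoImplicit false
set_option linter.style.haveILetI false

namespace Fermat.Agent.S18x.IG

/-- **PRINCIPLE (*), global form.** -/
theorem principle_SM {A B : Type*} [CommRing A] [IsDomain A] [IsNoetherianRing A]
    [IsIntegrallyClosed A] [CommRing B] [IsDomain B] [IsIntegrallyClosed B] [Algebra A B]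
    [FaithfulSMul A B] [Module.Finite A B]
    (π s : A) (hmax : (Ideal.span {π, s} : Ideal A).IsMaximal) (hπ : Prime π) (hs : Prime s)
    (hsπ : ¬ s ∣ π)
    {K' L' : Type*} [Field K'] [Field L'] [Algebra K' L']
    (f : A →+* K') (g : B →+* L') (hcomm : ∀ a, g (algebraMap A B a) = algebraMap K' L' (f a))
    (hK : ∀ c : K', ∃ a d : A, f d ≠ 0 ∧ c * f d = f a)
    (hfπ : f π = 0) (hf : ∀ a, f a = 0 → π ∣ a)
    (hg : ∀ x : B, g x = 0 → algebraMap A B π ∣ x)
    (hsep : ∀ x : B, IsSeparable K' (g x))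
    (hchar : ∀ 𝔭 : Ideal A, 𝔭.IsPrime → π ∉ 𝔭 → ∀ n : ℕ, n ≠ 0 → (n : A) ∉ 𝔭)
    (hred : ∀ 𝔭 : Ideal A, 𝔭.IsPrime → π ∉ 𝔭 → s ∉ 𝔭 → 𝔭 ≤ Ideal.span {π, s} →
      ∀ x : B, x * x ∈ 𝔭.map (algebraMap A B) →
        ∃ c : A, c ∉ 𝔭 ∧ algebraMap A B c * x ∈ 𝔭.map (algebraMap A B))
    (𝔫 : Ideal B) (h𝔫 : 𝔫.IsMaximal) (hover : ∀ a ∈ Ideal.span {π, s}, algebraMap A B a ∈ 𝔫) :
    HSM (algebraMap A B π) 𝔫 := by
  haveI h𝔪p : (Ideal.span {π, s} : Ideal A).IsPrime := hmax.isPrime
  refine principle_SM_of_hgen π s hmax hπ hs hsπ f g hcomm hK hfπ hf hg hsep hchar hred ?_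
    𝔫 h𝔫 hover
  intro n b hd0 hhor φ
  have hinjAB : Function.Injective (algebraMap A B) := FaithfulSMul.algebraMap_injective A B
  have e : Algebra.algebraMapSubmonoid B (Ideal.span {π, s} : Ideal A).primeCompl
      ≤ nonZeroDivisors B :=
    Submonoid.map_le_of_le_comap _ <| (Ideal.span {π, s}).primeCompl_le_nonZeroDivisors.trans
      (nonZeroDivisors_le_comap_nonZeroDivisors_of_injective _ hinjAB)
  haveI : IsDomain (Localization.AtPrime (Ideal.span {π, s} : Ideal A)) :=
    IsLocalization.isDomain_of_le_nonZeroDivisors _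
      (Ideal.span {π, s} : Ideal A).primeCompl_le_nonZeroDivisors
  haveI : IsDomain
      (Localization (Algebra.algebraMapSubmonoid B (Ideal.span {π, s} : Ideal A).primeCompl)) :=
    IsLocalization.isDomain_of_le_nonZeroDivisors _ e
  haveI : IsNoetherianRing (Localization.AtPrime (Ideal.span {π, s} : Ideal A)) :=
    IsLocalization.isNoetherianRing (Ideal.span {π, s} : Ideal A).primeCompl _ inferInstance
  haveI : IsIntegrallyClosed
      (Localization (Algebra.algebraMapSubmonoid B (Ideal.span {π, s} : Ideal A).primeCompl)) :=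
    isIntegrallyClosed_of_isLocalization _ _ e
  have hπ𝔪 : π ∈ (Ideal.span {π, s} : Ideal A) := Ideal.subset_span (by simp)
  have hs𝔪 : s ∈ (Ideal.span {π, s} : Ideal A) := Ideal.subset_span (by simp)
  have hm : IsLocalRing.maximalIdeal (Localization.AtPrime (Ideal.span {π, s} : Ideal A))
      = Ideal.span {algebraMap A (Localization.AtPrime (Ideal.span {π, s} : Ideal A)) π,
          algebraMap A (Localization.AtPrime (Ideal.span {π, s} : Ideal A)) s} := by
    rw [← IsLocalization.AtPrime.map_eq_maximalIdeal (Ideal.span {π, s} : Ideal A)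
      (Localization.AtPrime (Ideal.span {π, s} : Ideal A)), Ideal.map_span, Set.image_pair]
  have hπ' := h24_prime_algebraMap (Ideal.span {π, s} : Ideal A)
    (Localization.AtPrime (Ideal.span {π, s} : Ideal A)) π hπ hπ𝔪
  have hs' := h24_prime_algebraMap (Ideal.span {π, s} : Ideal A)
    (Localization.AtPrime (Ideal.span {π, s} : Ideal A)) s hs hs𝔪
  have hsπ' : ¬ algebraMap A (Localization.AtPrime (Ideal.span {π, s} : Ideal A)) s
      ∣ algebraMap A (Localization.AtPrime (Ideal.span {π, s} : Ideal A)) π := fun h =>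
    hsπ (h24_dvd_of_algebraMap_dvd (Ideal.span {π, s} : Ideal A)
      (Localization.AtPrime (Ideal.span {π, s} : Ideal A)) s hs hs𝔪 π h)
  have hchar' : ∀ k : ℕ, k ≠ 0 →
      ¬ algebraMap A (Localization.AtPrime (Ideal.span {π, s} : Ideal A)) s
        ∣ ((k : ℕ) : Localization.AtPrime (Ideal.span {π, s} : Ideal A)) := by
    intro k hk h
    have h1 : algebraMap A (Localization.AtPrime (Ideal.span {π, s} : Ideal A)) s
        ∣ algebraMap A (Localization.AtPrime (Ideal.span {π, s} : Ideal A)) ((k : ℕ) : A) := by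
      rw [map_natCast]
      exact h
    have h2 : s ∣ ((k : ℕ) : A) := h24_dvd_of_algebraMap_dvd (Ideal.span {π, s} : Ideal A)
      (Localization.AtPrime (Ideal.span {π, s} : Ideal A)) s hs hs𝔪 _ h1
    have hsp : (Ideal.span {s} : Ideal A).IsPrime :=
      (Ideal.span_singleton_prime hs.ne_zero).mpr hs
    have hπs : π ∉ (Ideal.span {s} : Ideal A) := fun hmem =>
      hsπ (Ideal.mem_span_singleton.mp hmem)
    exact hchar _ hsp hπs k hk (Ideal.mem_span_singleton.mpr h2)
  exact H16.hgen_of_hhor _ _ hm hπ' hs' hsπ' hchar' b hd0 hhor φ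

end Fermat.Agent.S18x.IG
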