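import Mathlib
import Fermat.Agent.S18x.IG.Defs
import Fermat.Agent.S18x.Spec.H26_Adapt
import Fermat.Agent.S18x.CA.H16_T1

/-!
# S18 [IG] (helper26): the chart as an `O[X]`-algebra - (LC)

`O` an integrally closed noetherian domain, `F` a field of characteristic zero, `x : F`
transcendental over `O` with `F` finite over the fraction field of `O[x]` (`H26FinOver O x`),
`B := ↥(chart O x).toSubring` with the `O[X]`-algebra structure `chartAlgebra O x` (`X ↦ x`).

* `chartHom_injective` (LC3), `chart_finite` (LC0), `chart_isFractionRing` (LC2),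
  `chart_isIntegrallyClosed` (LC1), `chart_isIntegral` (LC4);
* generic localisation facts `loc_isDomain`, `loc_isIntegrallyClosed`, `loc_faithfulSMul`,
  `loc_free` (LC6): for a prime `𝔪` of `A`, `A₀ := Localization.AtPrime 𝔪` and
  `B₀ := Localization (Algebra.algebraMapSubmonoid B 𝔪.primeCompl)`;
* `chart_loc_free` : the localised chart is free over the localised base.
-/

set_option autoImplicit false
set_option linter.style.haveILetI false

open Polynomial

namespace Fermat.Agent.S18x.IG.H26

open Fermat.Agent.S18x.Spec.H26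

section Chart

variable (O : Type*) {F : Type*} [CommRing O] [Field F] [Algebra O F]

/-- (LC3) the structure map `O[X] → chart O x` is injective for `x` transcendental. -/
theorem chartHom_injective {x : F} (hx : Transcendental O x) :
    Function.Injective (chartHom O x) := by
  intro P Q h
  have h' := congrArg Subtype.val h
  rw [coe_chartHom, coe_chartHom] at h'
  exact (transcendental_iff_injective.mp hx) h'

theorem chartAlgebra_smul_coe (x : F) (P : O[X]) (b : ↥(chart O x).toSubring) :
    letI := chartAlgebra O x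
    ((P • b : ↥(chart O x).toSubring) : F) = aeval x P * (b : F) := by
  letI := chartAlgebra O x
  rw [Algebra.smul_def, chartAlgebra_algebraMap]
  change ((chartHom O x P : ↥(chart O x).toSubring) : F) * (b : F) = _
  rw [coe_chartHom]

variable [IsDomain O] [IsIntegrallyClosed O] [IsNoetherianRing O] [CharZero F]

/-- (LC0) the chart is a finite `O[X]`-module. -/
theorem chart_finite {x : F} (hx : Transcendental O x) (hfin : H26FinOver O x) :
    letI := chartAlgebra O x
    Module.Finite O[X] ↥(chart O x).toSubring := by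
  classical
  letI := chartAlgebra O x
  obtain ⟨bs, hbs, hgen⟩ := h26_hfin_of_finOver O hx hfin
  refine Module.finite_def.mpr
    ⟨bs.attach.image (fun b => (⟨b.1, hbs b.1 b.2⟩ : ↥(chart O x).toSubring)), ?_⟩
  rw [eq_top_iff]
  rintro ⟨b, hb⟩ -
  obtain ⟨c, -, hsum⟩ := Submodule.mem_span_finset.mp (hgen b hb)
  have hP : ∀ w : F, ∃ P : O[X], aeval x P = (c w : F) := fun w => by
    have h2 : (c w : F) ∈ (aeval x : O[X] →ₐ[O] F).range := by
      rw [← Algebra.adjoin_singleton_eq_range_aeval]
      exact (c w).2
    exact h2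
  choose P hP using hP
  have hb' : (⟨b, hb⟩ : ↥(chart O x).toSubring) =
      ∑ w ∈ bs.attach, P w.1 • (⟨w.1, hbs w.1 w.2⟩ : ↥(chart O x).toSubring) := by
    apply Subtype.ext
    have h1 : ((∑ w ∈ bs.attach, P w.1 • (⟨w.1, hbs w.1 w.2⟩ : ↥(chart O x).toSubring) :
        ↥(chart O x).toSubring) : F) =
        ∑ w ∈ bs.attach, ((P w.1 • (⟨w.1, hbs w.1 w.2⟩ : ↥(chart O x).toSubring) :
          ↥(chart O x).toSubring) : F) :=
      map_sum (chart O x).toSubring.subtype _ _
    change b = _
    rw [h1, ← hsum, ← Finset.sum_attach bs (fun w => c w • w)]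
    refine Finset.sum_congr rfl fun w _ => ?_
    rw [chartAlgebra_smul_coe, hP]
    rfl
  rw [hb']
  refine Submodule.sum_mem _ fun w hw => Submodule.smul_mem _ _ (Submodule.subset_span ?_)
  rw [Finset.mem_coe, Finset.mem_image]
  exact ⟨w, hw, rfl⟩

/-- (LC4) the chart is integral over `O[X]`. -/
theorem chart_isIntegral {x : F} (hx : Transcendental O x) (hfin : H26FinOver O x) :
    letI := chartAlgebra O x
    Algebra.IsIntegral O[X] ↥(chart O x).toSubring := by
  letI := chartAlgebra O x
  haveI := chart_finite O hx hfin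
  exact Algebra.IsIntegral.of_finite O[X] ↥(chart O x).toSubring

/-- (LC2) `F` is the fraction field of the chart. -/
theorem chart_isFractionRing {x : F} (hx : Transcendental O x) (hfin : H26FinOver O x) :
    IsFractionRing ↥(chart O x).toSubring F := by
  refine IsFractionRing.of_field _ _ fun z => ?_
  obtain ⟨a, b, hb0, hab⟩ := h26_chart_hfrac O hx hfin z
  refine ⟨a, b, ?_⟩
  have hb0' : (b : F) ≠ 0 := fun h => hb0 (Subtype.ext h)
  change z = (a : F) / (b : F)
  rw [eq_div_iff hb0']
  exact hab

/-- (LC1) the chart is an integrally closed domain. -/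
theorem chart_isIntegrallyClosed {x : F} (hx : Transcendental O x) (hfin : H26FinOver O x) :
    IsIntegrallyClosed ↥(chart O x).toSubring := by
  haveI := chart_isFractionRing O hx hfin
  refine (isIntegrallyClosed_iff F).mpr fun {y} hy => ?_
  exact ⟨⟨y, h26_closure_ic (O := O) {x} (chart O x).toSubring (fun _ => Iff.rfl) y hy⟩, rfl⟩

end Chart

section Loc

variable {A B : Type*} [CommRing A] [CommRing B] [Algebra A B]

/-- The image of the complement of a prime of `A` consists of non-zero-divisors of the domain
`B ⊇ A`. -/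
theorem loc_le_nonZeroDivisors [IsDomain B] (hinj : Function.Injective (algebraMap A B))
    (𝔪 : Ideal A) [𝔪.IsPrime] :
    Algebra.algebraMapSubmonoid B 𝔪.primeCompl ≤ nonZeroDivisors B := by
  rintro _ ⟨s, hs, rfl⟩
  apply mem_nonZeroDivisors_of_ne_zero
  intro h
  have h0 : s = 0 := hinj (by rw [h, map_zero])
  exact hs (h0 ▸ 𝔪.zero_mem)

/-- (LC6a) the localised algebra `B₀` is a domain. -/
theorem loc_isDomain [IsDomain B] (hinj : Function.Injective (algebraMap A B))
    (𝔪 : Ideal A) [𝔪.IsPrime] :
    IsDomain (Localization (Algebra.algebraMapSubmonoid B 𝔪.primeCompl)) :=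
  IsLocalization.isDomain_localization (loc_le_nonZeroDivisors hinj 𝔪)

/-- (LC6b) the localised algebra `B₀` is integrally closed. -/
theorem loc_isIntegrallyClosed [IsDomain B] [IsIntegrallyClosed B]
    (hinj : Function.Injective (algebraMap A B)) (𝔪 : Ideal A) [𝔪.IsPrime] :
    IsIntegrallyClosed (Localization (Algebra.algebraMapSubmonoid B 𝔪.primeCompl)) :=
  isIntegrallyClosed_of_isLocalization _ _ (loc_le_nonZeroDivisors hinj 𝔪)

/-- (LC6c) `A₀ → B₀` is injective. -/
theorem loc_injective (hinj : Function.Injective (algebraMap A B)) (𝔪 : Ideal A) [𝔪.IsPrime] :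
    Function.Injective (algebraMap (Localization.AtPrime 𝔪)
      (Localization (Algebra.algebraMapSubmonoid B 𝔪.primeCompl))) :=
  localizationAlgebra_injective (Localization.AtPrime 𝔪)
    (Localization (Algebra.algebraMapSubmonoid B 𝔪.primeCompl)) hinj

theorem loc_faithfulSMul (hinj : Function.Injective (algebraMap A B)) (𝔪 : Ideal A)
    [𝔪.IsPrime] :
    FaithfulSMul (Localization.AtPrime 𝔪)
      (Localization (Algebra.algebraMapSubmonoid B 𝔪.primeCompl)) :=
  (faithfulSMul_iff_algebraMap_injective _ _).mpr (loc_injective hinj 𝔪)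

/-- The localisation of an integrally closed noetherian domain at a prime is an integrally
closed noetherian local domain. -/
theorem loc_base_isIntegrallyClosed [IsDomain A] [IsIntegrallyClosed A] (𝔪 : Ideal A)
    [𝔪.IsPrime] : IsIntegrallyClosed (Localization.AtPrime 𝔪) :=
  isIntegrallyClosed_of_isLocalization _ 𝔪.primeCompl 𝔪.primeCompl_le_nonZeroDivisors

theorem loc_base_isNoetherianRing [IsNoetherianRing A] (𝔪 : Ideal A) [𝔪.IsPrime] :
    IsNoetherianRing (Localization.AtPrime 𝔪) :=
  IsLocalization.isNoetherianRing 𝔪.primeCompl _ inferInstance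

/-- (LC6) **The localised algebra is free over the localised base** (helper16's (T1)):
`A` an integrally closed noetherian domain, `B ⊇ A` an integrally closed domain, finite over
`A`, `𝔪` a prime of `A` with `𝔪 A₀ = (π, s)`, `π` prime, `s ∉ (π)`. -/
theorem loc_free [IsDomain A] [IsIntegrallyClosed A] [IsNoetherianRing A] [IsDomain B]
    [IsIntegrallyClosed B] [Module.Finite A B] (hinj : Function.Injective (algebraMap A B))
    (𝔪 : Ideal A) [𝔪.IsPrime] (π s : Localization.AtPrime 𝔪)
    (hm : IsLocalRing.maximalIdeal (Localization.AtPrime 𝔪) = Ideal.span {π, s})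
    (hπ : Prime π) (hs : s ∉ Ideal.span {π}) :
    Module.Free (Localization.AtPrime 𝔪)
      (Localization (Algebra.algebraMapSubmonoid B 𝔪.primeCompl)) := by
  haveI := loc_isDomain hinj 𝔪
  haveI := loc_isIntegrallyClosed hinj 𝔪
  haveI := loc_faithfulSMul hinj 𝔪
  haveI := loc_base_isIntegrallyClosed 𝔪
  haveI := loc_base_isNoetherianRing 𝔪
  exact CA.H16.free_of_normal_of_finite π s hm hπ hs

end Loc

section ChartLoc

variable (O : Type*) {F : Type*} [CommRing O] [IsDomain O] [IsIntegrallyClosed O]
  [IsNoetherianRing O] [Field F] [CharZero F] [Algebra O F]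

/-- (LC6) **The localised chart is free over the localised base `O[X]_𝔪`.** -/
theorem chart_loc_free {x : F} (hx : Transcendental O x) (hfin : H26FinOver O x)
    (𝔪 : Ideal O[X]) [𝔪.IsPrime] (π s : Localization.AtPrime 𝔪)
    (hm : IsLocalRing.maximalIdeal (Localization.AtPrime 𝔪) = Ideal.span {π, s})
    (hπ : Prime π) (hs : s ∉ Ideal.span {π}) :
    letI := chartAlgebra O x
    Module.Free (Localization.AtPrime 𝔪)
      (Localization (Algebra.algebraMapSubmonoid ↥(chart O x).toSubring 𝔪.primeCompl)) := by
  letI := chartAlgebra O x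
  haveI := chart_finite O hx hfin
  haveI := chart_isIntegrallyClosed O hx hfin
  exact loc_free (chartHom_injective O hx) 𝔪 π s hm hπ hs

end ChartLoc

end Fermat.Agent.S18x.IG.H26
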