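import Mathlib
import Fermat.Agent.S18x.IG.Defs
import Fermat.Agent.S18x.IG.H11_BaseBranch
import Fermat.Agent.S18x.IG.H24_PrincipleFinal
import Fermat.Agent.S18x.IG.H26_ChartAlg

/-!
# S18 [IG-ASM] (helper24): (SM) for a chart from the leaves

`O` a discrete valuation ring with uniformiser `π₀`, `F` a field of characteristic zero over
`O`, `x : F` transcendental over `O` with `F` finite over `Frac O[x]`.  `B := chart O x` is the
integral closure of `O[x]` in `F`, an algebra over `O[X]` through `X ↦ x`.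

`ig_hSMChart` : from the vertical data `(f, g)` (reduction of the base and of the chart,
separable residue extension), and the horizontal data `hred` (the fibres of `B` over the
horizontal primes of `O[X]` which do not pass through a branch value `c ∈ Z` are reduced),
the branch values being pairwise distinct modulo `π₀`, every maximal ideal `𝔫 ∋ π₀` of `B`
is generated by `π₀` and one more element after localisation: `HSMChart O x π₀`.
-/

set_option autoImplicit false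
set_option linter.style.haveILetI false

open Polynomial

namespace Fermat.Agent.S18x.IG

open Fermat.Agent.S18x.Spec.H26 Fermat.Agent.S18x.IG.H11

section Top

variable {O F : Type*} [CommRing O] [IsDomain O] [IsDiscreteValuationRing O]
  [Field F] [Algebra O F]

/-- The uniformiser generates a maximal ideal. -/
theorem h24_isMaximal_span (π₀ : O) (hπ₀ : Irreducible π₀) : (Ideal.span {π₀}).IsMaximal := by
  rw [← hπ₀.maximalIdeal_eq]
  exact IsLocalRing.maximalIdeal.isMaximal O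

/-- A constant of a proper ideal containing `C π₀` is divisible by `π₀`. -/
theorem h24_dvd_of_C_mem (π₀ : O) (hπ₀ : Irreducible π₀) (M : Ideal O[X]) (hM : M ≠ ⊤)
    (a : O) (ha : C a ∈ M) : π₀ ∣ a := by
  by_contra hdvd
  have hu : IsUnit a := by
    by_contra hnu
    have h1 : a ∈ IsLocalRing.maximalIdeal O := (IsLocalRing.mem_maximalIdeal a).mpr hnu
    rw [hπ₀.maximalIdeal_eq, Ideal.mem_span_singleton] at h1
    exact hdvd h1
  exact hM (Ideal.eq_top_of_isUnit_mem M ha (hu.map (C : O →+* O[X])))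

/-- Residue characteristic zero at the horizontal primes. -/
theorem h24_natCast_not_mem [CharZero O] (π₀ : O) (hπ₀ : Irreducible π₀) (𝔭 : Ideal O[X])
    (h𝔭 : 𝔭.IsPrime) (hπ𝔭 : C π₀ ∉ 𝔭) (n : ℕ) (hn : n ≠ 0) : ((n : ℕ) : O[X]) ∉ 𝔭 := by
  intro hmem
  have hn0 : ((n : ℕ) : O) ≠ 0 := Nat.cast_ne_zero.mpr hn
  obtain ⟨k, u, hu⟩ := IsDiscreteValuationRing.eq_unit_mul_pow_irreducible hn0 hπ₀
  have h1 : ((n : ℕ) : O[X]) = C (u : O) * C π₀ ^ k := by
    rw [← C_pow, ← C_mul, ← hu]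
    simp
  rw [h1] at hmem
  rcases h𝔭.mem_or_mem hmem with h2 | h2
  · exact h𝔭.ne_top (Ideal.eq_top_of_isUnit_mem 𝔭 h2 (u.isUnit.map (C : O →+* O[X])))
  · exact hπ𝔭 (h𝔭.mem_of_pow_mem k h2)

/-- **The choice of the second generator** at a closed point `M ∋ π₀` of the `x`-line:
`s := X - c` if the branch value `c ∈ Z` passes through `M`, a monic lift of the generator of
`M` modulo `π₀` otherwise.  No horizontal prime `𝔭 ≤ M` other than those containing `s`
contains a branch section `X - c`, `c ∈ Z`. -/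
theorem h24_exists_gen (π₀ : O) (hπ₀ : Irreducible π₀) (Z : Set O)
    (hZ : ∀ c ∈ Z, ∀ c' ∈ Z, π₀ ∣ c - c' → c = c') (M : Ideal O[X]) (hM : M.IsMaximal)
    (hπM : C π₀ ∈ M) :
    ∃ s : O[X], M = Ideal.span {C π₀, s} ∧ Prime s ∧ ¬ s ∣ C π₀ ∧
      ∀ 𝔭 : Ideal O[X], 𝔭 ≤ M → s ∉ 𝔭 → ∀ c ∈ Z, X - C c ∉ 𝔭 := by
  haveI := h24_isMaximal_span π₀ hπ₀
  have hnt : Nontrivial (O ⧸ Ideal.span {π₀}) :=
    Ideal.Quotient.nontrivial_iff.mpr (h24_isMaximal_span π₀ hπ₀).ne_top
  by_cases h : ∃ c ∈ Z, X - C c ∈ M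
  · obtain ⟨c, hcZ, hcM⟩ := h
    have hMs := eq_span_X_sub_C_of_mem π₀ hM hπM c hcM
    refine ⟨X - C c, hMs, Polynomial.prime_X_sub_C c, ?_, ?_⟩
    · exact not_monic_dvd_C (X - C c) (monic_X_sub_C c) (by rw [natDegree_X_sub_C]; exact one_pos)
        π₀ hπ₀.ne_zero
    · intro 𝔭 h𝔭 hs𝔭 c' hc'Z hc'𝔭
      have h1 : X - C c' ∈ Ideal.span {C π₀, X - C c} := hMs ▸ h𝔭 hc'𝔭
      rw [X_sub_C_mem_span_pair_iff] at h1
      have h2 := hZ c hcZ c' hc'Z h1
      exact hs𝔭 (h2 ▸ hc'𝔭)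
  · obtain ⟨g, hgm, hg, hMg⟩ := exists_monic_of_isMaximal π₀ hM hπM
    refine ⟨g, hMg, prime_of_monic_of_irreducible_map π₀ g hgm hg, ?_, ?_⟩
    · exact not_monic_dvd_C g hgm (natDegree_pos_of_irreducible_map π₀ g hgm hg) π₀ hπ₀.ne_zero
    · intro 𝔭 h𝔭 _ c hcZ hc𝔭
      exact h ⟨c, hcZ, h𝔭 hc𝔭⟩

/-- **[IG-ASM], chart form.** (SM) at every maximal ideal of the chart `chart O x` containing
the uniformiser, from the vertical data `(f, g)`, the horizontal data `hred` away from the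
branch values `Z`, and the distinctness of the branch values modulo `π₀`. -/
theorem ig_hSMChart [CharZero O] (π₀ : O) (hπ₀ : Irreducible π₀) (x : F)
    (hx : Transcendental O x) (hfin : H26FinOver O x)
    (Z : Set O) (hZ : ∀ c ∈ Z, ∀ c' ∈ Z, π₀ ∣ c - c' → c = c')
    {K' L' : Type*} [Field K'] [Field L'] [Algebra K' L'] (f : O[X] →+* K')
    (g : ↥(chart O x).toSubring →+* L')
    (hcomm : ∀ P : O[X], g (chartHom O x P) = algebraMap K' L' (f P))
    (hK : ∀ c : K', ∃ a d : O[X], f d ≠ 0 ∧ c * f d = f a) (hfπ : f (C π₀) = 0)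
    (hf : ∀ a, f a = 0 → C π₀ ∣ a) (hg : ∀ y, g y = 0 → chartPi O x π₀ ∣ y)
    (hsep : ∀ y, IsSeparable K' (g y))
    (hred : ∀ 𝔭 : Ideal O[X], 𝔭.IsPrime → C π₀ ∉ 𝔭 → (∀ c ∈ Z, X - C c ∉ 𝔭) →
      ∀ y : ↥(chart O x).toSubring, y * y ∈ 𝔭.map (chartHom O x) →
        ∃ a : O[X], a ∉ 𝔭 ∧ chartHom O x a * y ∈ 𝔭.map (chartHom O x)) :
    HSMChart O x π₀ := by
  intro 𝔫 h𝔫 hπ𝔫
  have hinjO : Function.Injective (algebraMap O F) := by
    intro a b hab
    have h1 : Polynomial.aeval x (C a) = Polynomial.aeval x (C b) := by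
      rw [aeval_C, aeval_C, hab]
    exact C_injective ((transcendental_iff_injective.mp hx) h1)
  haveI : CharZero F := charZero_of_injective_algebraMap hinjO
  letI := chartAlgebra O x
  haveI : Module.Finite O[X] ↥(chart O x).toSubring := H26.chart_finite O hx hfin
  haveI : IsIntegrallyClosed ↥(chart O x).toSubring := H26.chart_isIntegrallyClosed O hx hfin
  have hinjX : Function.Injective (chartHom O x) := by
    intro P Q hPQ
    have h1 : Polynomial.aeval x P = Polynomial.aeval x Q := by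
      rw [← coe_chartHom, ← coe_chartHom, hPQ]
    exact (transcendental_iff_injective.mp hx) h1
  haveI : FaithfulSMul O[X] ↥(chart O x).toSubring :=
    (faithfulSMul_iff_algebraMap_injective _ _).mpr hinjX
  haveI : Algebra.IsIntegral O[X] ↥(chart O x).toSubring := inferInstance
  haveI := h24_isMaximal_span π₀ hπ₀
  have hM : (𝔫.comap (algebraMap O[X] ↥(chart O x).toSubring)).IsMaximal :=
    Ideal.isMaximal_comap_of_isIntegral_of_isMaximal 𝔫
  have hπM : C π₀ ∈ 𝔫.comap (algebraMap O[X] ↥(chart O x).toSubring) := by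
    rw [Ideal.mem_comap]
    change chartHom O x (C π₀) ∈ 𝔫
    rw [chartHom_C_pi]
    exact hπ𝔫
  obtain ⟨s, hMs, hsP, hsπ, hsZ⟩ := h24_exists_gen π₀ hπ₀ Z hZ _ hM hπM
  have hmax : (Ideal.span {C π₀, s}).IsMaximal := hMs ▸ hM
  have hg' : ∀ y : ↥(chart O x).toSubring, g y = 0 →
      algebraMap O[X] ↥(chart O x).toSubring (C π₀) ∣ y := by
    intro y hy
    change chartHom O x (C π₀) ∣ y
    rw [chartHom_C_pi]
    exact hg y hy
  have key := principle_SM (A := O[X]) (B := ↥(chart O x).toSubring) (C π₀) s hmax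
    (prime_C_pi π₀ hπ₀.ne_zero) hsP hsπ f g hcomm hK hfπ hf hg' hsep
    (fun 𝔭 h𝔭 hπ𝔭 n hn => h24_natCast_not_mem π₀ hπ₀ 𝔭 h𝔭 hπ𝔭 n hn)
    (fun 𝔭 h𝔭 hπ𝔭 hs𝔭 hle y hy => hred 𝔭 h𝔭 hπ𝔭 (hsZ 𝔭 (hMs ▸ hle) hs𝔭) y hy)
    𝔫 h𝔫 (fun a ha => by
      have : a ∈ 𝔫.comap (algebraMap O[X] ↥(chart O x).toSubring) := hMs ▸ ha
      exact this)
  have e : algebraMap O[X] ↥(chart O x).toSubring (C π₀) = chartPi O x π₀ := by
    change chartHom O x (C π₀) = _
    exact chartHom_C_pi O x π₀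
  rw [e] at key
  exact key

end Top

end Fermat.Agent.S18x.IG
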