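import Mathlib
import Fermat.Agent.S18x.IG.H24_AsmTop
import Fermat.Agent.S18x.IG.H10_VertInstM
import Fermat.Agent.S18x.IG.H21_ZInst
import Fermat.Agent.S18x.IG.H28_HmInst
import Fermat.Agent.S18x.Dict.H23_Dvr

/-!
# S18 [IG] (HSM-INST) (helper24): (SM) on the two charts of the Hauptmodul

`K` a field of characteristic zero, `O : ValuationSubring K` a discrete valuation ring with
perfect residue field of characteristic `p`, `F := modularFunctionFieldFullC K M`,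
`x := coordM K M x₀ hmem` a base coordinate (`x₀ ∈ ℤ((q))` of order `-1`, leading coefficient
`1`).

* `h24_hSMChart_coord`, `h24_hSMChart_coord_inv` : `HSMChart O x π₀`, `HSMChart O x⁻¹ π₀` from
  the saturation of the chart (`hsat`, in the spelling of the conjuncts of `H7IG`) and the
  horizontal reducedness `hred` away from the branch values `Z` (in the spelling of
  `ig_hSMChart`); the vertical part is helper10's (VERT-INST).
* `h24_hSM_two`, `h24_hSM_three` : both charts for the Hauptmoduln of level `2` and `3` over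
  `O = A ∩ K`, `K` a number field inside `ℚ̄`, `A` a valuation subring of `ℚ̄` over `ℓ ≠ 2`
  (resp. `ℓ ≠ 3`), with `Z = {0, -64}`, `{0, -1/64}` (resp. `{0, -27}`, `{0, -1/27}`).
-/

set_option autoImplicit false
set_option linter.style.haveILetI false
set_option linter.unusedSectionVars false

open Polynomial ModularCurve

namespace Fermat.Agent.S18x.IG

open Fermat.Agent.S18x.Spec.H26 Fermat.Agent.S18x.Dict.H20 Fermat.Agent.S18x.IG.H29

/-- a valuation subring of a field of characteristic zero has characteristic zero -/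
theorem h24_charZero_valuationSubring {K : Type*} [Field K] [CharZero K]
    (O : ValuationSubring K) : CharZero O :=
  (RingHom.charZero_iff (IsFractionRing.injective O K)).mpr inferInstance

section Generic

variable {K : Type} [Field K] [CharZero K] (O : ValuationSubring K) [IsDiscreteValuationRing O]
  (M : ℕ) [NeZero M]
  [Algebra O ↥(modularFunctionFieldFullC K M)]
  [IsScalarTower O K ↥(modularFunctionFieldFullC K M)]
  (x₀ : LaurentSeries ℤ) (hord : x₀.order = -1) (hlead : x₀.coeff (-1) = 1)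
  (hmem : coeffMap (Int.castRingHom K) x₀ ∈ modularFunctionFieldFullC K M)

include hord hlead in
/-- **(HSM-INST), chart of `x`.** -/
theorem h24_hSMChart_coord (π₀ : O) (hπ₀ : Irreducible π₀)
    (p : ℕ) [Fact p.Prime] [CharP (IsLocalRing.ResidueField O) p]
    [PerfectRing (IsLocalRing.ResidueField O) p]
    (Z : Set O) (hZ : ∀ c ∈ Z, ∀ c' ∈ Z, π₀ ∣ c - c' → c = c')
    (hsat : ∀ v ∈ gaussValM O M,
      algebraMap O ↥(modularFunctionFieldFullC K M) π₀ * v ∈ chart O (coordM K M x₀ hmem) →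
        v ∈ chart O (coordM K M x₀ hmem))
    (hred : ∀ 𝔭 : Ideal O[X], 𝔭.IsPrime → C π₀ ∉ 𝔭 → (∀ c ∈ Z, X - C c ∉ 𝔭) →
      ∀ y : ↥(chart O (coordM K M x₀ hmem)).toSubring,
        y * y ∈ 𝔭.map (chartHom O (coordM K M x₀ hmem)) →
        ∃ a : O[X], a ∉ 𝔭 ∧
          chartHom O (coordM K M x₀ hmem) a * y ∈ 𝔭.map (chartHom O (coordM K M x₀ hmem))) :
    HSMChart O (coordM K M x₀ hmem) π₀ := by
  haveI : CharZero O := h24_charZero_valuationSubring O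
  obtain ⟨f, g, hcomm, hK, hfπ, hf, hg, hsep⟩ :=
    H10.h10_vi_bundle_coord O M x₀ hord hlead hmem π₀ hπ₀ p (fun v hv h => hsat v hv h)
  exact ig_hSMChart π₀ hπ₀ (coordM K M x₀ hmem)
    (transcendental_coordM_O O M x₀ hord hlead hmem) (finOver_coordM O M x₀ hord hlead hmem)
    Z hZ f g hcomm hK hfπ hf hg hsep hred

include hord hlead in
/-- **(HSM-INST), chart at infinity (coordinate `x⁻¹`).** -/
theorem h24_hSMChart_coord_inv (π₀ : O) (hπ₀ : Irreducible π₀)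
    (p : ℕ) [Fact p.Prime] [CharP (IsLocalRing.ResidueField O) p]
    [PerfectRing (IsLocalRing.ResidueField O) p]
    (Z : Set O) (hZ : ∀ c ∈ Z, ∀ c' ∈ Z, π₀ ∣ c - c' → c = c')
    (hsat : ∀ v ∈ gaussValM O M,
      algebraMap O ↥(modularFunctionFieldFullC K M) π₀ * v ∈ chart O (coordM K M x₀ hmem)⁻¹ →
        v ∈ chart O (coordM K M x₀ hmem)⁻¹)
    (hred : ∀ 𝔭 : Ideal O[X], 𝔭.IsPrime → C π₀ ∉ 𝔭 → (∀ c ∈ Z, X - C c ∉ 𝔭) →
      ∀ y : ↥(chart O (coordM K M x₀ hmem)⁻¹).toSubring,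
        y * y ∈ 𝔭.map (chartHom O (coordM K M x₀ hmem)⁻¹) →
        ∃ a : O[X], a ∉ 𝔭 ∧
          chartHom O (coordM K M x₀ hmem)⁻¹ a * y
            ∈ 𝔭.map (chartHom O (coordM K M x₀ hmem)⁻¹)) :
    HSMChart O (coordM K M x₀ hmem)⁻¹ π₀ := by
  haveI : CharZero O := h24_charZero_valuationSubring O
  obtain ⟨f, g, hcomm, hK, hfπ, hf, hg, hsep⟩ :=
    H10.h10_vi_bundle_coord_inv O M x₀ hord hlead hmem π₀ hπ₀ p (fun v hv h => hsat v hv h)
  exact ig_hSMChart π₀ hπ₀ (coordM K M x₀ hmem)⁻¹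
    (transcendental_coordM_inv_O O M x₀ hord hlead hmem)
    (finOver_coordM_inv O M x₀ hord hlead hmem)
    Z hZ f g hcomm hK hfπ hf hg hsep hred

end Generic

section Levels

local notation "Lbar" => AlgebraicClosure ℚ

variable (A : ValuationSubring Lbar) {ℓ : ℕ} (hℓ : ℓ.Prime) (hA : A.LiesOverPrime ℓ)
  (M : ℕ) [NeZero M] (K : IntermediateField ℚ Lbar) [FiniteDimensional ℚ K]
  [IsDiscreteValuationRing (A.comap (algebraMap ↥K Lbar))]

include hℓ hA in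
/-- The residue field of `A ∩ K` is perfect (it is finite). -/
theorem h24_perfect_residueField :
    PerfectRing (IsLocalRing.ResidueField (A.comap (algebraMap ↥K Lbar))) ℓ := by
  haveI := Fermat.Agent.S18x.Dict.H23.h23_numberField K
  haveI : Fact ℓ.Prime := ⟨hℓ⟩
  haveI := Fermat.Agent.S18x.Dict.H23.h23_finite_residueField (K := ↥K) A hA
  haveI := Fermat.Agent.S18x.Dict.H23.h23_charP_residueField (K := ↥K) A hℓ hA
  exact PerfectRing.ofFiniteOfIsReduced ℓ _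

include hℓ hA in
/-- **(HSM-INST), level 2**: (SM) on both charts of the Hauptmodul `h₂`, `ℓ ≠ 2`. -/
theorem h24_hSM_two (hM : 2 ∣ M) (hℓ2 : ℓ ≠ 2)
    (π₀ : A.comap (algebraMap ↥K Lbar)) (hπ₀ : Irreducible π₀)
    (hsat₁ : ∀ v ∈ gaussValM (A.comap (algebraMap ↥K Lbar)) M,
      algebraMap (A.comap (algebraMap ↥K Lbar)) ↥(modularFunctionFieldFullC ↥K M) π₀ * v ∈
        chart (A.comap (algebraMap ↥K Lbar)) (H28.coord2 ↥K M hM) →
        v ∈ chart (A.comap (algebraMap ↥K Lbar)) (H28.coord2 ↥K M hM))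
    (hsat₂ : ∀ v ∈ gaussValM (A.comap (algebraMap ↥K Lbar)) M,
      algebraMap (A.comap (algebraMap ↥K Lbar)) ↥(modularFunctionFieldFullC ↥K M) π₀ * v ∈
        chart (A.comap (algebraMap ↥K Lbar)) (H28.coord2 ↥K M hM)⁻¹ →
        v ∈ chart (A.comap (algebraMap ↥K Lbar)) (H28.coord2 ↥K M hM)⁻¹)
    (hred₁ : ∀ 𝔭 : Ideal (A.comap (algebraMap ↥K Lbar))[X], 𝔭.IsPrime → C π₀ ∉ 𝔭 →
      (∀ c ∈ ({0, -64} : Set (A.comap (algebraMap ↥K Lbar))), X - C c ∉ 𝔭) →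
      ∀ y : ↥(chart (A.comap (algebraMap ↥K Lbar)) (H28.coord2 ↥K M hM)).toSubring,
        y * y ∈ 𝔭.map (chartHom (A.comap (algebraMap ↥K Lbar)) (H28.coord2 ↥K M hM)) →
        ∃ a : (A.comap (algebraMap ↥K Lbar))[X], a ∉ 𝔭 ∧
          chartHom (A.comap (algebraMap ↥K Lbar)) (H28.coord2 ↥K M hM) a * y
            ∈ 𝔭.map (chartHom (A.comap (algebraMap ↥K Lbar)) (H28.coord2 ↥K M hM)))
    (hred₂ : ∀ 𝔭 : Ideal (A.comap (algebraMap ↥K Lbar))[X], 𝔭.IsPrime → C π₀ ∉ 𝔭 →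
      (∀ c ∈ ({0, -H21.h21_inv 64 (H21.h21_isUnit_64 (H21.h21_isUnit_two (K := ↥K) A hℓ hA hℓ2))}
          : Set (A.comap (algebraMap ↥K Lbar))), X - C c ∉ 𝔭) →
      ∀ y : ↥(chart (A.comap (algebraMap ↥K Lbar)) (H28.coord2 ↥K M hM)⁻¹).toSubring,
        y * y ∈ 𝔭.map (chartHom (A.comap (algebraMap ↥K Lbar)) (H28.coord2 ↥K M hM)⁻¹) →
        ∃ a : (A.comap (algebraMap ↥K Lbar))[X], a ∉ 𝔭 ∧
          chartHom (A.comap (algebraMap ↥K Lbar)) (H28.coord2 ↥K M hM)⁻¹ a * y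
            ∈ 𝔭.map (chartHom (A.comap (algebraMap ↥K Lbar)) (H28.coord2 ↥K M hM)⁻¹)) :
    HSMChart (A.comap (algebraMap ↥K Lbar)) (H28.coord2 ↥K M hM) π₀ ∧
      HSMChart (A.comap (algebraMap ↥K Lbar)) (H28.coord2 ↥K M hM)⁻¹ π₀ := by
  haveI : IsScalarTower (A.comap (algebraMap ↥K Lbar)) ↥K ↥(modularFunctionFieldFullC ↥K M) :=
    IsScalarTower.of_algebraMap_eq (fun c => rfl)
  haveI : Fact ℓ.Prime := ⟨hℓ⟩
  haveI := Fermat.Agent.S18x.Dict.H23.h23_charP_residueField (K := ↥K) A hℓ hA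
  haveI := h24_perfect_residueField A hℓ hA K
  have h2u := H21.h21_isUnit_two (K := ↥K) A hℓ hA hℓ2
  exact ⟨h24_hSMChart_coord _ M H28.h2 H28.order_h2 H28.coeff_h2_neg_one
      (H28.h2_mem_full ↥K M hM) π₀ hπ₀ ℓ _ (H21.h21_hZ_two π₀ hπ₀.not_isUnit h2u) hsat₁ hred₁,
    h24_hSMChart_coord_inv _ M H28.h2 H28.order_h2 H28.coeff_h2_neg_one
      (H28.h2_mem_full ↥K M hM) π₀ hπ₀ ℓ _ (H21.h21_hZ_two_inv π₀ hπ₀.not_isUnit h2u)
      hsat₂ hred₂⟩

include hℓ hA in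
/-- **(HSM-INST), level 3**: (SM) on both charts of the Hauptmodul `h₃`, `ℓ ≠ 3`. -/
theorem h24_hSM_three (hM : 3 ∣ M) (hℓ3 : ℓ ≠ 3)
    (π₀ : A.comap (algebraMap ↥K Lbar)) (hπ₀ : Irreducible π₀)
    (hsat₁ : ∀ v ∈ gaussValM (A.comap (algebraMap ↥K Lbar)) M,
      algebraMap (A.comap (algebraMap ↥K Lbar)) ↥(modularFunctionFieldFullC ↥K M) π₀ * v ∈
        chart (A.comap (algebraMap ↥K Lbar)) (H28.coord3 ↥K M hM) →
        v ∈ chart (A.comap (algebraMap ↥K Lbar)) (H28.coord3 ↥K M hM))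
    (hsat₂ : ∀ v ∈ gaussValM (A.comap (algebraMap ↥K Lbar)) M,
      algebraMap (A.comap (algebraMap ↥K Lbar)) ↥(modularFunctionFieldFullC ↥K M) π₀ * v ∈
        chart (A.comap (algebraMap ↥K Lbar)) (H28.coord3 ↥K M hM)⁻¹ →
        v ∈ chart (A.comap (algebraMap ↥K Lbar)) (H28.coord3 ↥K M hM)⁻¹)
    (hred₁ : ∀ 𝔭 : Ideal (A.comap (algebraMap ↥K Lbar))[X], 𝔭.IsPrime → C π₀ ∉ 𝔭 →
      (∀ c ∈ ({0, -27} : Set (A.comap (algebraMap ↥K Lbar))), X - C c ∉ 𝔭) →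
      ∀ y : ↥(chart (A.comap (algebraMap ↥K Lbar)) (H28.coord3 ↥K M hM)).toSubring,
        y * y ∈ 𝔭.map (chartHom (A.comap (algebraMap ↥K Lbar)) (H28.coord3 ↥K M hM)) →
        ∃ a : (A.comap (algebraMap ↥K Lbar))[X], a ∉ 𝔭 ∧
          chartHom (A.comap (algebraMap ↥K Lbar)) (H28.coord3 ↥K M hM) a * y
            ∈ 𝔭.map (chartHom (A.comap (algebraMap ↥K Lbar)) (H28.coord3 ↥K M hM)))
    (hred₂ : ∀ 𝔭 : Ideal (A.comap (algebraMap ↥K Lbar))[X], 𝔭.IsPrime → C π₀ ∉ 𝔭 →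
      (∀ c ∈ ({0, -H21.h21_inv 27
          (H21.h21_isUnit_27 (H21.h21_isUnit_three (K := ↥K) A hℓ hA hℓ3))}
          : Set (A.comap (algebraMap ↥K Lbar))), X - C c ∉ 𝔭) →
      ∀ y : ↥(chart (A.comap (algebraMap ↥K Lbar)) (H28.coord3 ↥K M hM)⁻¹).toSubring,
        y * y ∈ 𝔭.map (chartHom (A.comap (algebraMap ↥K Lbar)) (H28.coord3 ↥K M hM)⁻¹) →
        ∃ a : (A.comap (algebraMap ↥K Lbar))[X], a ∉ 𝔭 ∧
          chartHom (A.comap (algebraMap ↥K Lbar)) (H28.coord3 ↥K M hM)⁻¹ a * y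
            ∈ 𝔭.map (chartHom (A.comap (algebraMap ↥K Lbar)) (H28.coord3 ↥K M hM)⁻¹)) :
    HSMChart (A.comap (algebraMap ↥K Lbar)) (H28.coord3 ↥K M hM) π₀ ∧
      HSMChart (A.comap (algebraMap ↥K Lbar)) (H28.coord3 ↥K M hM)⁻¹ π₀ := by
  haveI : IsScalarTower (A.comap (algebraMap ↥K Lbar)) ↥K ↥(modularFunctionFieldFullC ↥K M) :=
    IsScalarTower.of_algebraMap_eq (fun c => rfl)
  haveI : Fact ℓ.Prime := ⟨hℓ⟩
  haveI := Fermat.Agent.S18x.Dict.H23.h23_charP_residueField (K := ↥K) A hℓ hA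
  haveI := h24_perfect_residueField A hℓ hA K
  have h3u := H21.h21_isUnit_three (K := ↥K) A hℓ hA hℓ3
  exact ⟨h24_hSMChart_coord _ M H28.h3 H28.order_h3 H28.coeff_h3_neg_one
      (H28.h3_mem_full ↥K M hM) π₀ hπ₀ ℓ _ (H21.h21_hZ_three π₀ hπ₀.not_isUnit h3u) hsat₁ hred₁,
    h24_hSMChart_coord_inv _ M H28.h3 H28.order_h3 H28.coeff_h3_neg_one
      (H28.h3_mem_full ↥K M hM) π₀ hπ₀ ℓ _ (H21.h21_hZ_three_inv π₀ hπ₀.not_isUnit h3u)
      hsat₂ hred₂⟩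

end Levels

end Fermat.Agent.S18x.IG
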