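import Mathlib
import Fermat.Agent.S24.H6_Formal

/-!
# S18 [IG] (HM-LOW), part 1 (helper28): the formal side of the Hauptmodul identities

Congruences modulo `X ^ 6` in `ℤ⟦X⟧` for the prelude series `eisenstein4`, `deltaZ = X * η^24`
and their expansions `q ↦ q ^ 2`, `q ↦ q ^ 3`, and the resulting vanishing modulo `X ^ 6` of

* `(E - E₂) (16 E₂ - E)² - 54000 Δ`, `(E - E₂)² (16 E₂ - E) - 864000 Δ₂` (level 2),
* `(E - E₃) (81 E₃ - E)³ - 12288000 Δ (E + 9 E₃)`,
  `(E - E₃)³ (81 E₃ - E) - 110592000 Δ₃ (E + 9 E₃)` (level 3).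

These are the coefficient checks needed for the Sturm bound (part 2).
-/

set_option autoImplicit false
set_option maxRecDepth 4000

noncomputable section

namespace Fermat.Agent.S18x.IG.H28



/-- Congruence of integral power series modulo `X ^ n`. -/
def CongX (n : ℕ) (f g : PowerSeries ℤ) : Prop := (PowerSeries.X : PowerSeries ℤ) ^ n ∣ f - g

theorem CongX.rfl' (n : ℕ) (f : PowerSeries ℤ) : CongX n f f := by
  unfold CongX; rw [sub_self]; exact dvd_zero _

theorem CongX.add {n : ℕ} {f g f' g' : PowerSeries ℤ} (h : CongX n f g) (h' : CongX n f' g') :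
    CongX n (f + f') (g + g') := by
  unfold CongX at *
  have e : f + f' - (g + g') = (f - g) + (f' - g') := by ring
  rw [e]; exact dvd_add h h'

theorem CongX.sub {n : ℕ} {f g f' g' : PowerSeries ℤ} (h : CongX n f g) (h' : CongX n f' g') :
    CongX n (f - f') (g - g') := by
  unfold CongX at *
  have e : f - f' - (g - g') = (f - g) - (f' - g') := by ring
  rw [e]; exact dvd_sub h h'

theorem CongX.mul {n : ℕ} {f g f' g' : PowerSeries ℤ} (h : CongX n f g) (h' : CongX n f' g') :
    CongX n (f * f') (g * g') := by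
  unfold CongX at *
  have e : f * f' - g * g' = f * (f' - g') + (f - g) * g' := by ring
  rw [e]; exact dvd_add (Dvd.dvd.mul_left h' f) (Dvd.dvd.mul_right h g')

theorem CongX.pow {n : ℕ} {f g : PowerSeries ℤ} (h : CongX n f g) (k : ℕ) :
    CongX n (f ^ k) (g ^ k) := by
  induction k with
  | zero => simpa using CongX.rfl' n 1
  | succ k ih => rw [pow_succ, pow_succ]; exact ih.mul h

theorem CongX.trans {n : ℕ} {f g h : PowerSeries ℤ} (h₁ : CongX n f g) (h₂ : CongX n g h) :
    CongX n f h := by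
  unfold CongX at *
  have e : f - h = (f - g) + (g - h) := by ring
  rw [e]; exact dvd_add h₁ h₂

theorem CongX.X_mul {n : ℕ} {f g : PowerSeries ℤ} (h : CongX n f g) :
    CongX (n + 1) (PowerSeries.X * f) (PowerSeries.X * g) := by
  unfold CongX at *
  rw [← mul_sub, pow_succ']
  exact mul_dvd_mul_left _ h

theorem congX_iff {n : ℕ} {f g : PowerSeries ℤ} :
    CongX n f g ↔ ∀ m < n, PowerSeries.coeff m f = PowerSeries.coeff m g := by
  unfold CongX
  rw [PowerSeries.X_pow_dvd_iff]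
  simp only [map_sub, sub_eq_zero]

/-- The coercion of integral polynomials to power series. -/
abbrev phi : Polynomial ℤ →+* PowerSeries ℤ := Polynomial.coeToPowerSeries.ringHom

theorem coeff_phi (p : Polynomial ℤ) (m : ℕ) : PowerSeries.coeff m (phi p) = p.coeff m :=
  Polynomial.coeff_coe p m

theorem phi_X : phi Polynomial.X = PowerSeries.X := Polynomial.coe_X

theorem congX_phi_of_coeff {n : ℕ} {f : PowerSeries ℤ} {p : Polynomial ℤ}
    (h : ∀ m < n, PowerSeries.coeff m f = p.coeff m) : CongX n f (phi p) :=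
  congX_iff.mpr fun m hm => by rw [coeff_phi, h m hm]

theorem CongX.padd {n : ℕ} {f f' : PowerSeries ℤ} {p p' : Polynomial ℤ}
    (h : CongX n f (phi p)) (h' : CongX n f' (phi p')) : CongX n (f + f') (phi (p + p')) := by
  rw [map_add]; exact h.add h'

theorem CongX.psub {n : ℕ} {f f' : PowerSeries ℤ} {p p' : Polynomial ℤ}
    (h : CongX n f (phi p)) (h' : CongX n f' (phi p')) : CongX n (f - f') (phi (p - p')) := by
  rw [map_sub]; exact h.sub h'

theorem CongX.pmul {n : ℕ} {f f' : PowerSeries ℤ} {p p' : Polynomial ℤ}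
    (h : CongX n f (phi p)) (h' : CongX n f' (phi p')) : CongX n (f * f') (phi (p * p')) := by
  rw [map_mul]; exact h.mul h'

theorem CongX.ppow {n : ℕ} {f : PowerSeries ℤ} {p : Polynomial ℤ}
    (h : CongX n f (phi p)) (k : ℕ) : CongX n (f ^ k) (phi (p ^ k)) := by
  rw [map_pow]; exact h.pow k

theorem congX_int (n : ℕ) (c : ℤ) : CongX n (c : PowerSeries ℤ) (phi (c : Polynomial ℤ)) := by
  rw [map_intCast]; exact CongX.rfl' n _

theorem CongX.eq_zero_of_eq {n : ℕ} {f : PowerSeries ℤ} {p w : Polynomial ℤ}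
    (h : CongX n f (phi p)) (hp : p = Polynomial.X ^ n * w) :
    ∀ m < n, PowerSeries.coeff m f = 0 := by
  intro m hm
  rw [congX_iff.mp h m hm, coeff_phi, hp, Polynomial.coeff_X_pow_mul']
  rw [if_neg (by omega)]

/-! ### The truncations -/

section Polys

open Polynomial

/-- `E₄` modulo `X ^ 6`. -/
def pE : Polynomial ℤ := 1 + 240 * X + 2160 * X ^ 2 + 6720 * X ^ 3 + 17520 * X ^ 4 + 30240 * X ^ 5

/-- `E₄(q²)` modulo `X ^ 6`. -/
def pE2 : Polynomial ℤ := 1 + 240 * X ^ 2 + 2160 * X ^ 4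

/-- `E₄(q³)` modulo `X ^ 6`. -/
def pE3 : Polynomial ℤ := 1 + 240 * X ^ 3

/-- `η^24` modulo `X ^ 5`. -/
def pe24 : Polynomial ℤ := 1 - 24 * X + 252 * X ^ 2 - 1472 * X ^ 3 + 4830 * X ^ 4

/-- `Δ` modulo `X ^ 6`. -/
def pD : Polynomial ℤ := X - 24 * X ^ 2 + 252 * X ^ 3 - 1472 * X ^ 4 + 4830 * X ^ 5

/-- `Δ(q²)` modulo `X ^ 6`. -/
def pD2 : Polynomial ℤ := X ^ 2 - 24 * X ^ 4

/-- `Δ(q³)` modulo `X ^ 6`. -/
def pD3 : Polynomial ℤ := X ^ 3

theorem pow24_eq : ((1 : Polynomial ℤ) - X - X ^ 2) ^ 24 = pe24 + X ^ 5 * (-6072 - 16192 * X + 78936 * X ^ 2 - 82731 * X ^ 3 - 212520 * X ^ 4 + 649704 * X ^ 5 - 73416 * X ^ 6 - 1977862 * X ^ 7 + 2034672 * X ^ 8 + 3487260 * X ^ 9 - 7072408 * X ^ 10 - 3432198 * X ^ 11 + 15343944 * X ^ 12 + 134596 * X ^ 13 - 25077360 * X ^ 14 + 6067446 * X ^ 15 + 33474936 * X ^ 16 - 12286968 * X ^ 17 - 38228232 * X ^ 18 + 14903725 * X ^ 19 + 38228232 * X ^ 20 - 12286968 * X ^ 21 - 33474936 * X ^ 22 + 6067446 * X ^ 23 + 25077360 * X ^ 24 + 134596 *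 X ^ 25 - 15343944 * X ^ 26 - 3432198 * X ^ 27 + 7072408 * X ^ 28 + 3487260 * X ^ 29 - 2034672 * X ^ 30 - 1977862 * X ^ 31 + 73416 * X ^ 32 + 649704 * X ^ 33 + 212520 * X ^ 34 - 82731 * X ^ 35 - 78936 * X ^ 36 - 16192 * X ^ 37 + 6072 * X ^ 38 + 4830 * X ^ 39 + 1472 * X ^ 40 + 252 * X ^ 41 + 24 * X ^ 42 + X ^ 43) := by
  unfold pe24; ring

theorem pD_eq : pD = X * pe24 := by unfold pD pe24; ring

theorem w2a : (pE - pE2) * (16 * pE2 - pE) ^ 2 - 54000 * pD = X ^ 6 * (-338688000 - 874368000 * X + 2626560000 * X ^ 2 + 30153600000 * X ^ 3 - 292854528000 * X ^ 4 + 1380685824000 * X ^ 5 - 4465152000000 * X ^ 6 + 11386303488000 * X ^ 7 - 17118646272000 * X ^ 8 + 27653197824000 * X ^ 9) := by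
  unfold pE pE2 pD; ring

theorem w2b : (pE - pE2) ^ 2 * (16 * pE2 - pE) - 864000 * pD2 = X ^ 6 * (217728000 - 387072000 * X - 1479168000 * X ^ 2 - 39370752000 * X ^ 3 - 279075456000 * X ^ 4 - 1067157504000 * X ^ 5 - 3514890240000 * X ^ 6 - 9740279808000 * X ^ 7 - 12509779968000 * X ^ 8 - 27653197824000 * X ^ 9) := by
  unfold pE pE2 pD2; ring

theorem w3a : (pE - pE3) * (81 * pE3 - pE) ^ 3 - 12288000 * (pD * (pE + 9 * pE3)) =
    X ^ 6 * (-773038080000 - 19212779520000 * X - 221361684480000 * X ^ 2 - 629668823040000 * X ^ 3 - 2457803243520000 * X ^ 4 + 3289794600960000 * X ^ 5 - 5341056122880000 * X ^ 6 - 965833113600000 * X ^ 7 + 45151561728000000 * X ^ 8 - 174317724794880000 * X ^ 9 + 128391575592960000 * X ^ 10 + 633245270999040000 * X ^ 11 - 808105449553920000 * X ^ 12 - 1937936103505920000 * X ^ 13 - 836232702197760000 * X ^ 14) := by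
  unfold pE pE3 pD; ring

theorem w3b : (pE - pE3) ^ 3 * (81 * pE3 - pE) - 110592000 * (pD3 * (pE + 9 * pE3)) =
    X ^ 6 * (-26542080000 - 637009920000 * X - 6539304960000 * X ^ 2 - 29269278720000 * X ^ 3 - 134866944000000 * X ^ 4 - 497076756480000 * X ^ 5 - 2874555924480000 * X ^ 6 - 16203813765120000 * X ^ 7 - 68054576578560000 * X ^ 8 - 231945835806720000 * X ^ 9 - 612237563043840000 * X ^ 10 - 1212408160911360000 * X ^ 11 - 1869988245995520000 * X ^ 12 - 1937936103505920000 * X ^ 13 - 836232702197760000 * X ^ 14) := by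
  unfold pE pE3 pD3; ring

end Polys

/-! ### Congruences for the prelude series -/

theorem congX_E : CongX 6 ModularCurve.eisenstein4 (phi pE) := by
  refine congX_phi_of_coeff fun m hm => ?_
  interval_cases m <;>
    simp [pE, ModularCurve.eisenstein4, PowerSeries.coeff_mk, Polynomial.coeff_X,
      Polynomial.coeff_one, Polynomial.coeff_X_pow] <;> decide

theorem congX_E2 :
    CongX 6 (PowerSeries.expand 2 two_ne_zero ModularCurve.eisenstein4) (phi pE2) := by
  refine congX_phi_of_coeff fun m hm => ?_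
  rw [PowerSeries.coeff_expand]
  interval_cases m <;>
    simp [pE2, ModularCurve.eisenstein4, PowerSeries.coeff_mk, Polynomial.coeff_X,
      Polynomial.coeff_one, Polynomial.coeff_X_pow] <;> decide

theorem congX_E3 :
    CongX 6 (PowerSeries.expand 3 three_ne_zero ModularCurve.eisenstein4) (phi pE3) := by
  refine congX_phi_of_coeff fun m hm => ?_
  rw [PowerSeries.coeff_expand]
  interval_cases m <;>
    simp [pE3, ModularCurve.eisenstein4, PowerSeries.coeff_mk, Polynomial.coeff_X,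
      Polynomial.coeff_one, Polynomial.coeff_X_pow] <;> decide

open Fermat.Agent.S24.Real in
theorem etaPoly_four : etaPoly 4 =
    1 - Polynomial.X - Polynomial.X ^ 2 + 2 * Polynomial.X ^ 5 - Polynomial.X ^ 8
      - Polynomial.X ^ 9 + Polynomial.X ^ 10 := by
  simp only [etaPoly, Finset.prod_range_succ, Finset.prod_range_zero]
  ring

open Fermat.Agent.S24.Real in
theorem congX_eta :
    CongX 5 ModularCurve.etaProd (phi (1 - Polynomial.X - Polynomial.X ^ 2)) := by
  refine congX_phi_of_coeff fun m hm => ?_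
  rw [coeff_etaProd, ← coeff_etaPoly_of_le (show m ≤ 4 by omega), etaPoly_four]
  interval_cases m <;>
    simp [Polynomial.coeff_X, Polynomial.coeff_one, Polynomial.coeff_X_pow]

theorem congX_eta24 : CongX 5 (ModularCurve.etaProd ^ 24) (phi pe24) := by
  have h := congX_eta.ppow 24
  rw [pow24_eq] at h
  refine congX_iff.mpr fun m hm => ?_
  rw [congX_iff.mp h m hm, coeff_phi, coeff_phi, Polynomial.coeff_add,
    Polynomial.coeff_X_pow_mul', if_neg (by omega), add_zero]

open Fermat.Agent.S24.Real in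
theorem congX_D : CongX 6 deltaZ (phi pD) := by
  have h := congX_eta24.X_mul
  rw [pD_eq, map_mul, phi_X]
  exact h

open Fermat.Agent.S24.Real in
theorem congX_D2 : CongX 6 (PowerSeries.expand 2 two_ne_zero deltaZ) (phi pD2) := by
  refine congX_phi_of_coeff fun m hm => ?_
  rw [PowerSeries.coeff_expand]
  have h := fun k (hk : k < 6) => (congX_iff.mp congX_D k hk).trans (coeff_phi pD k)
  interval_cases m <;>
    simp [h, pD, pD2, Polynomial.coeff_X, Polynomial.coeff_one, Polynomial.coeff_X_pow]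

open Fermat.Agent.S24.Real in
theorem congX_D3 : CongX 6 (PowerSeries.expand 3 three_ne_zero deltaZ) (phi pD3) := by
  refine congX_phi_of_coeff fun m hm => ?_
  rw [PowerSeries.coeff_expand]
  have h := fun k (hk : k < 6) => (congX_iff.mp congX_D k hk).trans (coeff_phi pD k)
  interval_cases m <;>
    simp [h, pD, pD3, Polynomial.coeff_X, Polynomial.coeff_one, Polynomial.coeff_X_pow]

theorem congX_ofNat (n : ℕ) (c : ℕ) [c.AtLeastTwo] :
    CongX n (OfNat.ofNat c : PowerSeries ℤ) (phi (OfNat.ofNat c : Polynomial ℤ)) := by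
  rw [map_ofNat]; exact CongX.rfl' n _

/-! ### The four coefficient checks -/

section Checks

open Fermat.Agent.S24.Real

local notation "E" => ModularCurve.eisenstein4
local notation "E₂" => PowerSeries.expand 2 two_ne_zero ModularCurve.eisenstein4
local notation "E₃" => PowerSeries.expand 3 three_ne_zero ModularCurve.eisenstein4
local notation "D" => deltaZ
local notation "D₂" => PowerSeries.expand 2 two_ne_zero deltaZ
local notation "D₃" => PowerSeries.expand 3 three_ne_zero deltaZ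

theorem check2a (m : ℕ) (hm : m < 6) :
    PowerSeries.coeff m ((E - E₂) * (16 * E₂ - E) ^ 2 - 54000 * D) = 0 :=
  CongX.eq_zero_of_eq
    (((congX_E.psub congX_E2).pmul
      ((((congX_ofNat 6 16).pmul congX_E2).psub congX_E).ppow 2)).psub
      ((congX_ofNat 6 54000).pmul congX_D)) w2a m hm

theorem check2b (m : ℕ) (hm : m < 6) :
    PowerSeries.coeff m ((E - E₂) ^ 2 * (16 * E₂ - E) - 864000 * D₂) = 0 :=
  CongX.eq_zero_of_eq
    ((((congX_E.psub congX_E2).ppow 2).pmul
      (((congX_ofNat 6 16).pmul congX_E2).psub congX_E)).psub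
      ((congX_ofNat 6 864000).pmul congX_D2)) w2b m hm

theorem check3a (m : ℕ) (hm : m < 6) :
    PowerSeries.coeff m
      ((E - E₃) * (81 * E₃ - E) ^ 3 - 12288000 * (D * (E + 9 * E₃))) = 0 :=
  CongX.eq_zero_of_eq
    (((congX_E.psub congX_E3).pmul
      ((((congX_ofNat 6 81).pmul congX_E3).psub congX_E).ppow 3)).psub
      ((congX_ofNat 6 12288000).pmul
        (congX_D.pmul (congX_E.padd ((congX_ofNat 6 9).pmul congX_E3))))) w3a m hm

theorem check3b (m : ℕ) (hm : m < 6) :
    PowerSeries.coeff m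
      ((E - E₃) ^ 3 * (81 * E₃ - E) - 110592000 * (D₃ * (E + 9 * E₃))) = 0 :=
  CongX.eq_zero_of_eq
    ((((congX_E.psub congX_E3).ppow 3).pmul
      (((congX_ofNat 6 81).pmul congX_E3).psub congX_E)).psub
      ((congX_ofNat 6 110592000).pmul
        (congX_D3.pmul (congX_E.padd ((congX_ofNat 6 9).pmul congX_E3))))) w3b m hm

end Checks

end Fermat.Agent.S18x.IG.H28
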