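import Mathlib
import Fermat.Agent.S18x.IG.H28_HmPoly
import Fermat.Agent.S23.R5_Scale
import Fermat.Agent.S24.H16_CardX
import Fermat.Prelude.Thm_ModularForm_sturm_bound_Gamma0

/-!
# S18 [IG] (HM-LOW), part 2 (helper28): the Hauptmodul identities of levels 2 and 3

With `E = eisenstein4` (the prelude `E₄`), `D = deltaZ = X * η^24` (the prelude `Δ`) and
`E₂, D₂` (resp. `E₃, D₃`) their expansions `q ↦ q²` (resp. `q ↦ q³`), in `ℤ⟦X⟧`:

* `hm2a : (E - E₂) * (16 * E₂ - E) ^ 2 = 54000 * D`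
* `hm2b : (E - E₂) ^ 2 * (16 * E₂ - E) = 864000 * D₂`
* `hm3a : (E - E₃) * (81 * E₃ - E) ^ 3 = 12288000 * (D * (E + 9 * E₃))`
* `hm3b : (E - E₃) ^ 3 * (81 * E₃ - E) = 110592000 * (D₃ * (E + 9 * E₃))`

Proof: both sides are `q`-expansions of modular forms of weight 12 (resp. 16) on `Γ₀(2)`
(resp. `Γ₀(3)`); the prelude Sturm bound reduces the identity to the coefficients `n ≤ 3`
(resp. `n ≤ 5`), which are checked in part 1.
-/

set_option autoImplicit false
set_option linter.unusedSectionVars false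

noncomputable section

namespace Fermat.Agent.S18x.IG.H28

open UpperHalfPlane CongruenceSubgroup ModularForm EisensteinSeries ModularFormClass
open scoped MatrixGroups ModularForm Manifold
open Fermat.Agent.S23 Fermat.Agent.S24.Real

/-- The discriminant as a modular form of level one. -/
def deltaMF : ModularForm 𝒮ℒ 12 := (CuspForm.discriminant : CuspForm 𝒮ℒ 12)

theorem index_gamma0_two : (Gamma0 2).index = 3 := by
  have h := Fermat.Agent.S24.Comb.card_X 2
  rw [show ModularCurve.dedekindPsi 2 = 3 by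
    simpa using Fermat.Agent.S24.Comb.h16_dedekindPsi_prime_pow (p := 2) (k := 1)
      Nat.prime_two one_pos] at h
  exact h

theorem index_gamma0_three : (Gamma0 3).index = 4 := by
  have h := Fermat.Agent.S24.Comb.card_X 3
  rw [show ModularCurve.dedekindPsi 3 = 4 by
    simpa using Fermat.Agent.S24.Comb.h16_dedekindPsi_prime_pow (p := 3) (k := 1)
      Nat.prime_three one_pos] at h
  exact h

section Level

variable (p : ℕ) [NeZero p]

theorem qExp_scale {k : ℤ} (F : ModularForm 𝒮ℒ k) :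
    qExpansion 1 (scaleMF p F) = PowerSeries.expand p (NeZero.ne p) (qExpansion 1 F) := by
  ext n
  have h := qCoeff_scaleMF p F n
  unfold qCoeff at h
  rw [h, PowerSeries.coeff_expand]

/-- `E₄` on `Γ₀(p)`. -/
def fE : ModularForm (Gamma0 p) 4 := resMF p E₄

/-- `E₄(p z)` on `Γ₀(p)`. -/
def fE' : ModularForm (Gamma0 p) 4 := scaleMF p E₄

/-- `Δ` on `Γ₀(p)`. -/
def fD : ModularForm (Gamma0 p) 12 := resMF p deltaMF

/-- `Δ(p z)` on `Γ₀(p)`. -/
def fD' : ModularForm (Gamma0 p) 12 := scaleMF p deltaMF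

local notation "cast" => PowerSeries.map (Int.castRingHom ℂ)

theorem qExp_fE : qExpansion 1 (fE p) = cast ModularCurve.eisenstein4 := qExpansion_E4

theorem qExp_fE' : qExpansion 1 (fE' p) =
    cast (PowerSeries.expand p (NeZero.ne p) ModularCurve.eisenstein4) := by
  rw [fE', qExp_scale, PowerSeries.map_expand]
  exact congrArg _ qExpansion_E4

theorem qExp_fD : qExpansion 1 (fD p) = cast deltaZ := qExpansion_discriminant

theorem qExp_fD' : qExpansion 1 (fD' p) =
    cast (PowerSeries.expand p (NeZero.ne p) deltaZ) := by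
  rw [fD', qExp_scale, PowerSeries.map_expand]
  exact congrArg _ qExpansion_discriminant

end Level

section Identities

local notation "cast" => PowerSeries.map (Int.castRingHom ℂ)
local notation "E" => ModularCurve.eisenstein4
local notation "E₂" => PowerSeries.expand 2 two_ne_zero ModularCurve.eisenstein4
local notation "E₃" => PowerSeries.expand 3 three_ne_zero ModularCurve.eisenstein4
local notation "D" => deltaZ
local notation "D₂" => PowerSeries.expand 2 two_ne_zero deltaZ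
local notation "D₃" => PowerSeries.expand 3 three_ne_zero deltaZ

theorem cast_injective : Function.Injective (cast : PowerSeries ℤ → PowerSeries ℂ) := by
  intro f g h
  ext n
  have := congrArg (PowerSeries.coeff n) h
  simpa using this

theorem smul_eq_ofNat_mul (c : ℕ) [c.AtLeastTwo] (f : PowerSeries ℂ) :
    (OfNat.ofNat c : ℂ) • f = (OfNat.ofNat c : PowerSeries ℂ) * f := by
  rw [Algebra.smul_def, map_ofNat]

section QE

variable (p : ℕ) {k k' : ℤ}

theorem qe_sub (f g : ModularForm (Gamma0 p) k) :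
    qExpansion 1 ⇑(f - g) = qExpansion 1 ⇑f - qExpansion 1 ⇑g :=
  ModularForm.qExpansion_sub one_pos (one_mem_strictPeriods_Gamma0 p) f g

theorem qe_add (f g : ModularForm (Gamma0 p) k) :
    qExpansion 1 ⇑(f + g) = qExpansion 1 ⇑f + qExpansion 1 ⇑g :=
  ModularForm.qExpansion_add one_pos (one_mem_strictPeriods_Gamma0 p) f g

theorem qe_smul (c : ℂ) (f : ModularForm (Gamma0 p) k) :
    qExpansion 1 ⇑(c • f) = c • qExpansion 1 ⇑f :=
  ModularForm.qExpansion_smul one_pos (one_mem_strictPeriods_Gamma0 p) c f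

theorem qe_mul (f : ModularForm (Gamma0 p) k) (g : ModularForm (Gamma0 p) k') :
    qExpansion 1 ⇑(f.mul g) = qExpansion 1 ⇑f * qExpansion 1 ⇑g :=
  ModularForm.qExpansion_mul one_pos (one_mem_strictPeriods_Gamma0 p) f g

theorem qe_pow (f : ModularForm (Gamma0 p) k) (n : ℕ) :
    qExpansion 1 ⇑(f.pow n) = qExpansion 1 ⇑f ^ n :=
  ModularForm.qExpansion_pow one_pos (one_mem_strictPeriods_Gamma0 p) f n

theorem qe_mcast (h : k = k') (f : ModularForm (Gamma0 p) k) :
    qExpansion 1 ⇑(mcast h f : ModularForm (Gamma0 p) k') = qExpansion 1 ⇑f := by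
  rw [coe_mcast]

end QE

/-- The weight 12 form `(E - E')(16 E' - E)² - 54000 Δ` on `Γ₀(2)`. -/
def G2a : ModularForm (Gamma0 2) 12 :=
  mcast (by norm_num) ((fE 2 - fE' 2).mul (((16 : ℂ) • fE' 2 - fE 2).pow 2)) - (54000 : ℂ) • fD 2

theorem qExp_G2a :
    qExpansion 1 G2a = cast ((E - E₂) * (16 * E₂ - E) ^ 2 - 54000 * D) := by
  simp only [G2a, qe_sub, qe_mcast, qe_mul, qe_pow, qe_smul, qExp_fE, qExp_fE', qExp_fD,
    map_sub, map_mul, map_pow, map_ofNat]
  simp only [Algebra.smul_def, map_ofNat]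

theorem eq_of_form_eq_zero {p : ℕ} {k : ℤ} {G : ModularForm (Gamma0 p) k} (hG : G = 0)
    {a b : PowerSeries ℤ} (h : qExpansion 1 G = cast (a - b)) : a = b := by
  rw [hG, FunLike.coe_zero, qExpansion_zero] at h
  have h' : cast (a - b) = cast 0 := by rw [← h, map_zero]
  exact sub_eq_zero.mp (cast_injective h')

theorem sturm_two {n : ℕ} (hn : n ≤ ((12 : ℤ) * ((Gamma0 2).index : ℤ)).toNat / 12) : n < 6 := by
  rw [index_gamma0_two] at hn
  have : ((12 : ℤ) * ((3 : ℕ) : ℤ)).toNat / 12 = 3 := by decide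
  omega

theorem sturm_three {n : ℕ} (hn : n ≤ ((16 : ℤ) * ((Gamma0 3).index : ℤ)).toNat / 12) :
    n < 6 := by
  rw [index_gamma0_three] at hn
  have : ((16 : ℤ) * ((4 : ℕ) : ℤ)).toNat / 12 = 5 := by decide
  omega

theorem G2a_eq_zero : G2a = 0 := by
  refine ModularForm.sturm_bound_Gamma0 2 G2a fun n hn => ?_
  rw [qExp_G2a, PowerSeries.coeff_map, check2a n (sturm_two hn), map_zero]

/-- **Level 2, first identity**: `(E - E₂)(16 E₂ - E)² = 54000 Δ`. -/
theorem hm2a : (E - E₂) * (16 * E₂ - E) ^ 2 = 54000 * D :=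
  eq_of_form_eq_zero G2a_eq_zero qExp_G2a

/-- The weight 12 form `(E - E')²(16 E' - E) - 864000 Δ(2z)` on `Γ₀(2)`. -/
def G2b : ModularForm (Gamma0 2) 12 :=
  mcast (by norm_num) (((fE 2 - fE' 2).pow 2).mul ((16 : ℂ) • fE' 2 - fE 2)) -
    (864000 : ℂ) • fD' 2

theorem qExp_G2b :
    qExpansion 1 G2b = cast ((E - E₂) ^ 2 * (16 * E₂ - E) - 864000 * D₂) := by
  simp only [G2b, qe_sub, qe_mcast, qe_mul, qe_pow, qe_smul, qExp_fE, qExp_fE', qExp_fD',
    map_sub, map_mul, map_pow, map_ofNat]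
  simp only [Algebra.smul_def, map_ofNat]

theorem G2b_eq_zero : G2b = 0 := by
  refine ModularForm.sturm_bound_Gamma0 2 G2b fun n hn => ?_
  rw [qExp_G2b, PowerSeries.coeff_map, check2b n (sturm_two hn), map_zero]

/-- **Level 2, second identity**: `(E - E₂)²(16 E₂ - E) = 864000 Δ₂`. -/
theorem hm2b : (E - E₂) ^ 2 * (16 * E₂ - E) = 864000 * D₂ :=
  eq_of_form_eq_zero G2b_eq_zero qExp_G2b

/-- The weight 16 form `(E - E')(81 E' - E)³ - 12288000 Δ (E + 9 E')` on `Γ₀(3)`. -/
def G3a : ModularForm (Gamma0 3) 16 :=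
  mcast (by norm_num) ((fE 3 - fE' 3).mul (((81 : ℂ) • fE' 3 - fE 3).pow 3)) -
    (12288000 : ℂ) • mcast (by norm_num) ((fD 3).mul (fE 3 + (9 : ℂ) • fE' 3))

theorem qExp_G3a :
    qExpansion 1 G3a =
      cast ((E - E₃) * (81 * E₃ - E) ^ 3 - 12288000 * (D * (E + 9 * E₃))) := by
  simp only [G3a, qe_sub, qe_add, qe_mcast, qe_mul, qe_pow, qe_smul, qExp_fE, qExp_fE', qExp_fD,
    map_sub, map_add, map_mul, map_pow, map_ofNat]
  simp only [Algebra.smul_def, map_ofNat]

theorem G3a_eq_zero : G3a = 0 := by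
  refine ModularForm.sturm_bound_Gamma0 3 G3a fun n hn => ?_
  rw [qExp_G3a, PowerSeries.coeff_map, check3a n (sturm_three hn), map_zero]

/-- **Level 3, first identity**: `(E - E₃)(81 E₃ - E)³ = 12288000 Δ (E + 9 E₃)`. -/
theorem hm3a : (E - E₃) * (81 * E₃ - E) ^ 3 = 12288000 * (D * (E + 9 * E₃)) :=
  eq_of_form_eq_zero G3a_eq_zero qExp_G3a

/-- The weight 16 form `(E - E')³(81 E' - E) - 110592000 Δ(3z) (E + 9 E')` on `Γ₀(3)`. -/
def G3b : ModularForm (Gamma0 3) 16 :=
  mcast (by norm_num) (((fE 3 - fE' 3).pow 3).mul ((81 : ℂ) • fE' 3 - fE 3)) -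
    (110592000 : ℂ) • mcast (by norm_num) ((fD' 3).mul (fE 3 + (9 : ℂ) • fE' 3))

theorem qExp_G3b :
    qExpansion 1 G3b =
      cast ((E - E₃) ^ 3 * (81 * E₃ - E) - 110592000 * (D₃ * (E + 9 * E₃))) := by
  simp only [G3b, qe_sub, qe_add, qe_mcast, qe_mul, qe_pow, qe_smul, qExp_fE, qExp_fE', qExp_fD',
    map_sub, map_add, map_mul, map_pow, map_ofNat]
  simp only [Algebra.smul_def, map_ofNat]

theorem G3b_eq_zero : G3b = 0 := by
  refine ModularForm.sturm_bound_Gamma0 3 G3b fun n hn => ?_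
  rw [qExp_G3b, PowerSeries.coeff_map, check3b n (sturm_three hn), map_zero]

/-- **Level 3, second identity**: `(E - E₃)³(81 E₃ - E) = 110592000 Δ₃ (E + 9 E₃)`. -/
theorem hm3b : (E - E₃) ^ 3 * (81 * E₃ - E) = 110592000 * (D₃ * (E + 9 * E₃)) :=
  eq_of_form_eq_zero G3b_eq_zero qExp_G3b

end Identities

end Fermat.Agent.S18x.IG.H28
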