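import Mathlib
import Fermat.Agent.S18x.IG.H28_HmSturm
import Fermat.Prelude.Def_ModularCurve_X0ModL
import Fermat.Prelude.Thm_ModularCurve_coeffMap_qExpand

/-!
# S18 [IG] (HM-LOW), part 3 (helper28): the Hauptmoduln `h₂`, `h₃` and their `j`-relations

In `LaurentSeries ℤ` (and, by `coeffMap`, over every commutative ring), with the prelude
`j = jqModC`, `j_p = qExpand p j`:

* level 2: `j * h₂² = (h₂ + 256)³`, `j₂ * h₂ = (h₂ + 16)³`,
  `(j - 1728) * h₂² = (h₂ - 512)² * (h₂ + 64)`;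
* level 3: `j * h₃³ = (h₃ + 243)³ * (h₃ + 27)`, `j₃ * h₃ = (h₃ + 27) * (h₃ + 3)³`,
  `(j - 1728) * h₃³ = (h₃² - 486 h₃ - 19683)²`.

`h_p = single (-1) 1 * ofPowerSeries (a unit with constant term 1)`.
-/

set_option autoImplicit false

noncomputable section

namespace Fermat.Agent.S18x.IG.H28

open ModularCurve Fermat.Agent.S24.Real

/-! ### Power series preliminaries -/

/-- `∑ σ₃(n) qⁿ`. -/
def Sz : PowerSeries ℤ :=
  PowerSeries.mk fun n => if n = 0 then 0 else ∑ d ∈ n.divisors, (d : ℤ) ^ 3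

theorem eisenstein4_eq : eisenstein4 = 1 + 240 * Sz := by
  ext n
  rw [eisenstein4, PowerSeries.coeff_mk, map_add, PowerSeries.coeff_one]
  have h : PowerSeries.coeff n ((240 : PowerSeries ℤ) * Sz) = 240 * PowerSeries.coeff n Sz := by
    have : (240 : PowerSeries ℤ) = PowerSeries.C (240 : ℤ) := by simp
    rw [this, PowerSeries.coeff_C_mul]
  rw [h, Sz, PowerSeries.coeff_mk]
  split_ifs <;> simp

theorem coeff_one_Sz : PowerSeries.coeff 1 Sz = 1 := by
  simp [Sz, PowerSeries.coeff_mk]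

theorem coeff_zero_Sz : PowerSeries.coeff 0 Sz = 0 := by
  simp [Sz, PowerSeries.coeff_mk]

section Level

variable (p : ℕ) [NeZero p]

/-- `S(q^p)`. -/
def Sp : PowerSeries ℤ := PowerSeries.expand p (NeZero.ne p) Sz

theorem expand_eisenstein4 :
    PowerSeries.expand p (NeZero.ne p) eisenstein4 = 1 + 240 * Sp p := by
  rw [eisenstein4_eq, map_add, map_one, map_mul, map_ofNat, Sp]

/-- `a = S(q) - S(q^p) = q + …`. -/
def aP : PowerSeries ℤ := Sz - Sp p

theorem coeff_zero_aP : PowerSeries.coeff 0 (aP p) = 0 := by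
  rw [aP, map_sub, coeff_zero_Sz, Sp, PowerSeries.coeff_expand]
  simp [coeff_zero_Sz]

theorem coeff_one_aP (hp : 2 ≤ p) : PowerSeries.coeff 1 (aP p) = 1 := by
  rw [aP, map_sub, coeff_one_Sz, Sp, PowerSeries.coeff_expand,
    if_neg (by intro h; have := Nat.le_of_dvd one_pos h; omega), sub_zero]

/-- `a / q`. -/
def a1 : PowerSeries ℤ := PowerSeries.mk fun n => PowerSeries.coeff (n + 1) (aP p)

theorem aP_eq : aP p = PowerSeries.X * a1 p := by
  ext n
  rcases n with _ | n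
  · rw [coeff_zero_aP]; simp
  · rw [PowerSeries.coeff_succ_X_mul, a1, PowerSeries.coeff_mk]

theorem constantCoeff_a1 (hp : 2 ≤ p) : PowerSeries.constantCoeff (a1 p) = 1 := by
  rw [← PowerSeries.coeff_zero_eq_constantCoeff_apply, a1, PowerSeries.coeff_mk, zero_add,
    coeff_one_aP p hp]

/-- The inverse of `a / q`. -/
def a1inv : PowerSeries ℤ := (a1 p).invOfUnit 1

theorem a1_mul_a1inv (hp : 2 ≤ p) : a1 p * a1inv p = 1 :=
  PowerSeries.mul_invOfUnit _ _ (by rw [constantCoeff_a1 p hp]; rfl)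

theorem constantCoeff_a1inv (hp : 2 ≤ p) : PowerSeries.constantCoeff (a1inv p) = 1 := by
  have h := congrArg (PowerSeries.constantCoeff (R := ℤ)) (a1_mul_a1inv p hp)
  rwa [map_mul, constantCoeff_a1 p hp, one_mul, map_one] at h

end Level

/-! ### The identities in the form `Δ = a b²` etc. -/

/-- `b = 1 + 16 (16 S(q²) - S(q))`, level 2. -/
def b2 : PowerSeries ℤ := 1 + 16 * (16 * Sp 2 - Sz)

/-- `c = 1 + 3 (81 S(q³) - S(q))`, level 3. -/
def c3 : PowerSeries ℤ := 1 + 3 * (81 * Sp 3 - Sz)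

/-- `d = 1 + 24 (S(q) + 9 S(q³))`, level 3. -/
def d3 : PowerSeries ℤ := 1 + 24 * (Sz + 9 * Sp 3)

theorem e4_eq_two : eisenstein4 = b2 + 256 * aP 2 := by
  rw [eisenstein4_eq, b2, aP]; ring

theorem e4_expand_two : PowerSeries.expand 2 two_ne_zero eisenstein4 = b2 + 16 * aP 2 := by
  rw [show PowerSeries.expand 2 two_ne_zero eisenstein4 = 1 + 240 * Sp 2 from
    expand_eisenstein4 2, b2, aP]
  ring

theorem e4_eq_three : eisenstein4 = c3 + 243 * aP 3 := by
  rw [eisenstein4_eq, c3, aP]; ring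

theorem e4_expand_three : PowerSeries.expand 3 three_ne_zero eisenstein4 = c3 + 3 * aP 3 := by
  rw [show PowerSeries.expand 3 three_ne_zero eisenstein4 = 1 + 240 * Sp 3 from
    expand_eisenstein4 3, c3, aP]
  ring

theorem d3_eq : d3 = c3 + 27 * aP 3 := by
  rw [d3, c3, aP]; ring

theorem ofNat_ne_zero' (n : ℕ) [n.AtLeastTwo] : (OfNat.ofNat n : PowerSeries ℤ) ≠ 0 := by
  intro h
  have h' := congrArg (PowerSeries.constantCoeff (R := ℤ)) h
  rw [map_ofNat, map_zero] at h'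
  exact (OfNat.ofNat_ne_zero n) h'

/-- **Level 2**: `Δ(q) = a b²`. -/
theorem delta_eq_two : deltaZ = aP 2 * b2 ^ 2 := by
  have h := hm2a
  rw [e4_expand_two, e4_eq_two] at h
  have h' : (54000 : PowerSeries ℤ) * (aP 2 * b2 ^ 2) = 54000 * deltaZ := by
    rw [← h]; ring
  exact (mul_left_cancel₀ (ofNat_ne_zero' 54000) h').symm

/-- **Level 2**: `Δ(q²) = a² b`. -/
theorem delta_expand_two : PowerSeries.expand 2 two_ne_zero deltaZ = aP 2 ^ 2 * b2 := by
  have h := hm2b
  rw [e4_expand_two, e4_eq_two] at h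
  have h' : (864000 : PowerSeries ℤ) * (aP 2 ^ 2 * b2) =
      864000 * PowerSeries.expand 2 two_ne_zero deltaZ := by
    rw [← h]; ring
  exact (mul_left_cancel₀ (ofNat_ne_zero' 864000) h').symm

/-- **Level 3**: `Δ(q) d = a c³`. -/
theorem delta_eq_three : deltaZ * d3 = aP 3 * c3 ^ 3 := by
  have h := hm3a
  rw [e4_expand_three, e4_eq_three] at h
  have h' : (122880000 : PowerSeries ℤ) * (aP 3 * c3 ^ 3) = 122880000 * (deltaZ * d3) := by
    rw [d3_eq]
    linear_combination h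
  exact (mul_left_cancel₀ (ofNat_ne_zero' 122880000) h').symm

/-- **Level 3**: `Δ(q³) d = a³ c`. -/
theorem delta_expand_three :
    PowerSeries.expand 3 three_ne_zero deltaZ * d3 = aP 3 ^ 3 * c3 := by
  have h := hm3b
  rw [e4_expand_three, e4_eq_three] at h
  have h' : (1105920000 : PowerSeries ℤ) * (aP 3 ^ 3 * c3) =
      1105920000 * (PowerSeries.expand 3 three_ne_zero deltaZ * d3) := by
    rw [d3_eq]
    linear_combination h
  exact (mul_left_cancel₀ (ofNat_ne_zero' 1105920000) h').symm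

/-! ### Laurent series -/

section Laurent

local notation "ι" => HahnSeries.ofPowerSeries ℤ ℤ

/-- `q⁻¹`. -/
def qinv : LaurentSeries ℤ := HahnSeries.single (-1 : ℤ) (1 : ℤ)

theorem qinv_mul_X : qinv * ι PowerSeries.X = 1 := by
  rw [qinv, HahnSeries.ofPowerSeries_X, HahnSeries.single_mul_single]
  simp

theorem qExpand_ofPowerSeries {R : Type*} [CommRing R] (p : ℕ) [NeZero p] (f : PowerSeries R) :
    qExpand R p (HahnSeries.ofPowerSeries ℤ R f) =
      HahnSeries.ofPowerSeries ℤ R (PowerSeries.expand p (NeZero.ne p) f) := by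
  ext k
  rcases lt_or_ge k 0 with hk | hk
  · rw [ofPowerSeries_coeff_of_neg _ hk]
    by_cases hdk : (p : ℤ) ∣ k
    · obtain ⟨m, rfl⟩ := hdk
      rw [qExpand_coeff_mul]
      have hp : (0 : ℤ) < p := by exact_mod_cast Nat.pos_of_ne_zero (NeZero.ne p)
      have hm : m < 0 := by
        by_contra hm
        push Not at hm
        have := mul_nonneg hp.le hm
        omega
      rw [ofPowerSeries_coeff_of_neg _ hm]
    · rw [qExpand_coeff_of_not_dvd p _ hdk]
  · obtain ⟨n, rfl⟩ := Int.eq_ofNat_of_zero_le hk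
    rw [HahnSeries.ofPowerSeries_apply_coeff, PowerSeries.coeff_expand]
    by_cases hdn : p ∣ n
    · rw [if_pos hdn]
      obtain ⟨m, rfl⟩ := hdn
      rw [Nat.mul_div_cancel_left _ (Nat.pos_of_ne_zero (NeZero.ne p))]
      have : ((p * m : ℕ) : ℤ) = (p : ℤ) * (m : ℤ) := by push_cast; ring
      rw [this, qExpand_coeff_mul, HahnSeries.ofPowerSeries_apply_coeff]
    · rw [if_neg hdn, qExpand_coeff_of_not_dvd p _ (by exact_mod_cast hdn)]

/-- `j Δ = E₄³` in `ℤ((q))`. -/
theorem jq_mul_delta : jqModC ℤ * ι deltaZ = ι (eisenstein4 ^ 3) := by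
  have h1 : (jNum.map (Int.castRingHom ℤ)) = jNum := by
    ext n; simp
  have h2 : jNum * dedekindEtaUnit = eisenstein4 ^ 3 := by
    rw [jNum, mul_assoc, mul_comm dedekindEtaUnitInv, dedekindEtaUnit_mul_inv, mul_one]
  rw [jqModC, h1, deltaZ, map_mul, ← h2, map_mul]
  have h3 := qinv_mul_X
  rw [qinv] at h3
  linear_combination (ι jNum * ι dedekindEtaUnit) * h3

/-- `j(q^p) Δ(q^p) = E₄(q^p)³` in `ℤ((q))`. -/
theorem jqN_mul_delta (p : ℕ) [NeZero p] :
    qExpand ℤ p (jqModC ℤ) * ι (PowerSeries.expand p (NeZero.ne p) deltaZ) =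
      ι (PowerSeries.expand p (NeZero.ne p) eisenstein4 ^ 3) := by
  rw [← qExpand_ofPowerSeries, ← map_mul, jq_mul_delta, qExpand_ofPowerSeries, map_pow]

/-- The inverse of `a` in `ℤ((q))`. -/
def ainv (p : ℕ) [NeZero p] : LaurentSeries ℤ := qinv * ι (a1inv p)

theorem aP_mul_ainv (p : ℕ) [NeZero p] (hp : 2 ≤ p) : ι (aP p) * ainv p = 1 := by
  rw [ainv, aP_eq, map_mul]
  have h1 := qinv_mul_X
  have h2 : ι (a1 p) * ι (a1inv p) = 1 := by rw [← map_mul, a1_mul_a1inv p hp, map_one]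
  linear_combination (ι (a1 p) * ι (a1inv p)) * h1 + h2

/-- The Hauptmodul of level 2: `h₂ = b / a = q⁻¹ - 24 + …`. -/
def h2 : LaurentSeries ℤ := qinv * ι (b2 * a1inv 2)

/-- The Hauptmodul of level 3: `h₃ = c / a = q⁻¹ - 12 + …`. -/
def h3 : LaurentSeries ℤ := qinv * ι (c3 * a1inv 3)

theorem h2_eq : h2 = ι b2 * ainv 2 := by
  rw [h2, ainv, map_mul]; ring

theorem h3_eq : h3 = ι c3 * ainv 3 := by
  rw [h3, ainv, map_mul]; ring

theorem h2_mul_a : h2 * ι (aP 2) = ι b2 := by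
  rw [h2_eq]
  linear_combination (ι b2) * aP_mul_ainv 2 le_rfl

theorem h3_mul_a : h3 * ι (aP 3) = ι c3 := by
  rw [h3_eq]
  linear_combination (ι c3) * aP_mul_ainv 3 (by norm_num)

/-- Cancellation of the unit `a`. -/
theorem eq_of_mul_a_pow (p : ℕ) [NeZero p] (hp : 2 ≤ p) (n : ℕ) {x y : LaurentSeries ℤ}
    (h : ι (aP p) ^ n * x = ι (aP p) ^ n * y) : x = y := by
  have hu : IsUnit (ι (aP p) ^ n) :=
    (IsUnit.of_mul_eq_one _ (aP_mul_ainv p hp)).pow n
  exact hu.mul_left_cancel h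

/-- **Level 2**: `j h² = (h + 256)³`. -/
theorem j_h2 : jqModC ℤ * h2 ^ 2 = (h2 + 256) ^ 3 := by
  apply eq_of_mul_a_pow 2 le_rfl 3
  have h1 := jq_mul_delta
  rw [delta_eq_two, e4_eq_two, map_pow, map_mul, map_pow, map_add, map_mul, map_ofNat,
    ← h2_mul_a] at h1
  linear_combination h1

/-- **Level 2**: `j(q²) h = (h + 16)³`. -/
theorem j2_h2 : qExpand ℤ 2 (jqModC ℤ) * h2 = (h2 + 16) ^ 3 := by
  apply eq_of_mul_a_pow 2 le_rfl 3
  have h1 := jqN_mul_delta 2
  rw [show PowerSeries.expand 2 (NeZero.ne 2) deltaZ = aP 2 ^ 2 * b2 from delta_expand_two,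
    show PowerSeries.expand 2 (NeZero.ne 2) eisenstein4 = b2 + 16 * aP 2 from e4_expand_two,
    map_pow, map_mul, map_pow, map_add, map_mul, map_ofNat, ← h2_mul_a] at h1
  linear_combination h1

/-- **Level 2**: `(j - 1728) h² = (h - 512)² (h + 64)`. -/
theorem j1728_h2 : (jqModC ℤ - 1728) * h2 ^ 2 = (h2 - 512) ^ 2 * (h2 + 64) := by
  linear_combination j_h2

/-- **Level 3**: `j h³ = (h + 243)³ (h + 27)`. -/
theorem j_h3 : jqModC ℤ * h3 ^ 3 = (h3 + 243) ^ 3 * (h3 + 27) := by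
  apply eq_of_mul_a_pow 3 (by norm_num) 4
  have h1 := jq_mul_delta
  have h2 := congrArg ι delta_eq_three
  rw [d3_eq, map_mul, map_mul, map_pow, map_add, map_mul, map_ofNat, ← h3_mul_a] at h2
  rw [e4_eq_three, map_pow, map_add, map_mul, map_ofNat, ← h3_mul_a] at h1
  linear_combination (h3 * ι (aP 3) + 27 * ι (aP 3)) * h1 - (jqModC ℤ) * h2

/-- **Level 3**: `j(q³) h = (h + 27) (h + 3)³`. -/
theorem j3_h3 : qExpand ℤ 3 (jqModC ℤ) * h3 = (h3 + 27) * (h3 + 3) ^ 3 := by
  apply eq_of_mul_a_pow 3 (by norm_num) 4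
  have h1 := jqN_mul_delta 3
  have h2 := congrArg ι delta_expand_three
  rw [d3_eq, map_mul, map_mul, map_pow, map_add, map_mul, map_ofNat, ← h3_mul_a] at h2
  rw [show PowerSeries.expand 3 (NeZero.ne 3) eisenstein4 = c3 + 3 * aP 3 from e4_expand_three,
    map_pow, map_add, map_mul, map_ofNat, ← h3_mul_a] at h1
  linear_combination (h3 * ι (aP 3) + 27 * ι (aP 3)) * h1 - (qExpand ℤ 3 (jqModC ℤ)) * h2

/-- **Level 3**: `(j - 1728) h³ = (h² - 486 h - 19683)²`. -/
theorem j1728_h3 : (jqModC ℤ - 1728) * h3 ^ 3 = (h3 ^ 2 - 486 * h3 - 19683) ^ 2 := by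
  linear_combination j_h3

/-! ### Shape of the Hauptmoduln -/

/-- The unit part of `h₂`. -/
def u2 : PowerSeries ℤ := b2 * a1inv 2

/-- The unit part of `h₃`. -/
def u3 : PowerSeries ℤ := c3 * a1inv 3

theorem constantCoeff_Sp (p : ℕ) [NeZero p] : PowerSeries.constantCoeff (Sp p) = 0 := by
  rw [Sp, PowerSeries.constantCoeff_expand, ← PowerSeries.coeff_zero_eq_constantCoeff_apply,
    coeff_zero_Sz]

theorem constantCoeff_Sz : PowerSeries.constantCoeff Sz = 0 := by
  rw [← PowerSeries.coeff_zero_eq_constantCoeff_apply, coeff_zero_Sz]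

theorem constantCoeff_u2 : PowerSeries.constantCoeff u2 = 1 := by
  rw [u2, map_mul, constantCoeff_a1inv 2 le_rfl, b2]
  simp [constantCoeff_Sp, constantCoeff_Sz]

theorem constantCoeff_u3 : PowerSeries.constantCoeff u3 = 1 := by
  rw [u3, map_mul, constantCoeff_a1inv 3 (by norm_num), c3]
  simp [constantCoeff_Sp, constantCoeff_Sz]

theorem h2_shape : h2 = HahnSeries.single (-1 : ℤ) (1 : ℤ) * ι u2 := rfl

theorem h3_shape : h3 = HahnSeries.single (-1 : ℤ) (1 : ℤ) * ι u3 := rfl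

theorem coeff_single_neg_one_mul (u : PowerSeries ℤ) (k : ℤ) :
    (HahnSeries.single (-1 : ℤ) (1 : ℤ) * ι u).coeff k = (ι u).coeff (k + 1) := by
  rw [HahnSeries.coeff_single_mul, one_mul, sub_neg_eq_add]

theorem coeff_h2_neg_one : h2.coeff (-1) = 1 := by
  rw [h2_shape, coeff_single_neg_one_mul, show (-1 : ℤ) + 1 = ((0 : ℕ) : ℤ) by simp,
    HahnSeries.ofPowerSeries_apply_coeff, PowerSeries.coeff_zero_eq_constantCoeff_apply,
    constantCoeff_u2]

theorem coeff_h3_neg_one : h3.coeff (-1) = 1 := by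
  rw [h3_shape, coeff_single_neg_one_mul, show (-1 : ℤ) + 1 = ((0 : ℕ) : ℤ) by simp,
    HahnSeries.ofPowerSeries_apply_coeff, PowerSeries.coeff_zero_eq_constantCoeff_apply,
    constantCoeff_u3]

theorem coeff_h2_of_lt {k : ℤ} (hk : k < -1) : h2.coeff k = 0 := by
  rw [h2_shape, coeff_single_neg_one_mul, ofPowerSeries_coeff_of_neg _ (by omega)]

theorem coeff_h3_of_lt {k : ℤ} (hk : k < -1) : h3.coeff k = 0 := by
  rw [h3_shape, coeff_single_neg_one_mul, ofPowerSeries_coeff_of_neg _ (by omega)]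

end Laurent

/-! ### The same over every commutative ring -/

section General

variable (R : Type*) [CommRing R]

/-- The Hauptmodul of level 2 with coefficients in `R`. -/
def h2R : LaurentSeries R := coeffMap (Int.castRingHom R) h2

/-- The Hauptmodul of level 3 with coefficients in `R`. -/
def h3R : LaurentSeries R := coeffMap (Int.castRingHom R) h3

theorem coeffMap_h2R {S : Type*} [CommRing S] (f : R →+* S) : coeffMap f (h2R R) = h2R S := by
  rw [h2R, h2R, coeffMap_coeffMap, RingHom.ext_int (f.comp (Int.castRingHom R)) (Int.castRingHom S)]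

theorem coeffMap_h3R {S : Type*} [CommRing S] (f : R →+* S) : coeffMap f (h3R R) = h3R S := by
  rw [h3R, h3R, coeffMap_coeffMap, RingHom.ext_int (f.comp (Int.castRingHom R)) (Int.castRingHom S)]

theorem h2R_shape : h2R R = HahnSeries.single (-1 : ℤ) (1 : R) *
    HahnSeries.ofPowerSeries ℤ R (u2.map (Int.castRingHom R)) := by
  rw [h2R, h2_shape, map_mul, coeffMap_single, coeffMap_ofPowerSeries, map_one]

theorem h3R_shape : h3R R = HahnSeries.single (-1 : ℤ) (1 : R) *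
    HahnSeries.ofPowerSeries ℤ R (u3.map (Int.castRingHom R)) := by
  rw [h3R, h3_shape, map_mul, coeffMap_single, coeffMap_ofPowerSeries, map_one]

theorem coeff_h2R_neg_one : (h2R R).coeff (-1) = 1 := by
  rw [h2R, coeffMap_coeff, coeff_h2_neg_one, map_one]

theorem coeff_h3R_neg_one : (h3R R).coeff (-1) = 1 := by
  rw [h3R, coeffMap_coeff, coeff_h3_neg_one, map_one]

theorem coeff_h2R_of_lt {k : ℤ} (hk : k < -1) : (h2R R).coeff k = 0 := by
  rw [h2R, coeffMap_coeff, coeff_h2_of_lt hk, map_zero]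

theorem coeff_h3R_of_lt {k : ℤ} (hk : k < -1) : (h3R R).coeff k = 0 := by
  rw [h3R, coeffMap_coeff, coeff_h3_of_lt hk, map_zero]

/-- **Level 2**: `j h² = (h + 256)³` over `R`. -/
theorem j_h2R : jqModC R * h2R R ^ 2 = (h2R R + 256) ^ 3 := by
  have h := congrArg (coeffMap (Int.castRingHom R)) j_h2
  rwa [map_mul, map_pow, map_pow, map_add, map_ofNat, coeffMap_jqModC] at h

/-- **Level 2**: `j(q²) h = (h + 16)³` over `R`. -/
theorem j2_h2R : qExpand R 2 (jqModC R) * h2R R = (h2R R + 16) ^ 3 := by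
  have h := congrArg (coeffMap (Int.castRingHom R)) j2_h2
  rwa [map_mul, map_pow, map_add, map_ofNat, coeffMap_qExpand, coeffMap_jqModC] at h

/-- **Level 2**: `(j - 1728) h² = (h - 512)² (h + 64)` over `R`. -/
theorem j1728_h2R : (jqModC R - 1728) * h2R R ^ 2 = (h2R R - 512) ^ 2 * (h2R R + 64) := by
  linear_combination j_h2R R

/-- **Level 3**: `j h³ = (h + 243)³ (h + 27)` over `R`. -/
theorem j_h3R : jqModC R * h3R R ^ 3 = (h3R R + 243) ^ 3 * (h3R R + 27) := by
  have h := congrArg (coeffMap (Int.castRingHom R)) j_h3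
  rwa [map_mul, map_mul, map_pow, map_pow, map_add, map_add, map_ofNat, map_ofNat,
    coeffMap_jqModC] at h

/-- **Level 3**: `j(q³) h = (h + 27) (h + 3)³` over `R`. -/
theorem j3_h3R : qExpand R 3 (jqModC R) * h3R R = (h3R R + 27) * (h3R R + 3) ^ 3 := by
  have h := congrArg (coeffMap (Int.castRingHom R)) j3_h3
  rwa [map_mul, map_mul, map_pow, map_add, map_add, map_ofNat, map_ofNat, coeffMap_qExpand,
    coeffMap_jqModC] at h

/-- **Level 3**: `(j - 1728) h³ = (h² - 486 h - 19683)²` over `R`. -/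
theorem j1728_h3R :
    (jqModC R - 1728) * h3R R ^ 3 = (h3R R ^ 2 - 486 * h3R R - 19683) ^ 2 := by
  linear_combination j_h3R R

end General

end Fermat.Agent.S18x.IG.H28
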