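import Fermat.Agent.S18x.IG.H4_HorCharts
import Fermat.Agent.S18x.IG.H28_HmLaurent
import Fermat.Agent.S18x.IG.H29_Coord
import Fermat.Agent.S18x.Dict.H22_Ext

/-!
# S18 [IG] (I2-HOR), hypothesis-free final forms for the base levels 2 and 3 (helper4)

`L = AlgebraicClosure ℚ`, `F_L = modularFunctionFieldBar M`.  For helper28's Hauptmoduln
`h2`, `h3 : LaurentSeries ℤ` (identities `j_h2`, `j_h3` are theorems) the function field `F_L`
of level `M` is unramified over the `h`-line away from `h ∈ {0, ∞, c_ell}`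
(`c_ell = -64` for level 2, `-27` for level 3):

* `h4_unr_two`, `h4_unr_three`     : `h`-chart,
* `h4_unr_inv_two`, `h4_unr_inv_three` : `h⁻¹`-chart,
* `h4_hE_two`, … : the same for `T = iotaK K M (coordM K M h hmem)` and the roots of a
  polynomial `g` over `K` with `g(0) ≠ 0`, `g(c_ell) ≠ 0` — VERBATIM the hypothesis `hE` of
  helper5's `h5_ord_eq_one`.
-/

set_option autoImplicit false

noncomputable section

namespace Fermat.Agent.S18x.IG.H4

open AlgebraicCurve Polynomial ModularCurve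
open Fermat.Agent.S24 Fermat.Agent.S24.RH Fermat.Agent.S24.Real
open Fermat.Agent.S18x.Dict.H22 Fermat.Agent.S18x.IG.H29

local notation "Lbar" => AlgebraicClosure ℚ

variable (M : ℕ) [NeZero M]

/-! ### level 2 -/

/-- **Level 2, `h`-chart, hypothesis-free.** -/
theorem h4_unr_two (T : ↥(modularFunctionFieldBar M))
    (hT : (T : LaurentSeries Lbar) = coeffMap (Int.castRingHom Lbar) H28.h2)
    (P : Place Lbar ↥(modularFunctionFieldBar M)) (c : Lbar) (hc0 : c ≠ 0) (hc64 : c ≠ -64)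
    (hc : 0 < P.ord (T - algebraMap Lbar ↥(modularFunctionFieldBar M) c)) :
    P.ord (T - algebraMap Lbar ↥(modularFunctionFieldBar M) c) = 1 :=
  h4_chart_level2 embQbar M H28.h2 H28.j_h2 T hT P c hc0 hc64 hc

/-- **Level 2, `h⁻¹`-chart, hypothesis-free.** -/
theorem h4_unr_inv_two (T : ↥(modularFunctionFieldBar M))
    (hT : (T : LaurentSeries Lbar) = coeffMap (Int.castRingHom Lbar) H28.h2)
    (P : Place Lbar ↥(modularFunctionFieldBar M)) (c : Lbar) (hc0 : c ≠ 0)
    (hc64 : 64 * c + 1 ≠ 0)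
    (hc : 0 < P.ord (T⁻¹ - algebraMap Lbar ↥(modularFunctionFieldBar M) c)) :
    P.ord (T⁻¹ - algebraMap Lbar ↥(modularFunctionFieldBar M) c) = 1 :=
  h4_chart_inv_level2 embQbar M H28.h2 H28.j_h2 T hT P c hc0 hc64 hc

/-! ### level 3 -/

/-- **Level 3, `h`-chart, hypothesis-free.** -/
theorem h4_unr_three (T : ↥(modularFunctionFieldBar M))
    (hT : (T : LaurentSeries Lbar) = coeffMap (Int.castRingHom Lbar) H28.h3)
    (P : Place Lbar ↥(modularFunctionFieldBar M)) (c : Lbar) (hc0 : c ≠ 0) (hc27 : c ≠ -27)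
    (hc : 0 < P.ord (T - algebraMap Lbar ↥(modularFunctionFieldBar M) c)) :
    P.ord (T - algebraMap Lbar ↥(modularFunctionFieldBar M) c) = 1 :=
  h4_chart_level3 embQbar M H28.h3 H28.j_h3 T hT P c hc0 hc27 hc

/-- **Level 3, `h⁻¹`-chart, hypothesis-free.** -/
theorem h4_unr_inv_three (T : ↥(modularFunctionFieldBar M))
    (hT : (T : LaurentSeries Lbar) = coeffMap (Int.castRingHom Lbar) H28.h3)
    (P : Place Lbar ↥(modularFunctionFieldBar M)) (c : Lbar) (hc0 : c ≠ 0)
    (hc27 : 27 * c + 1 ≠ 0)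
    (hc : 0 < P.ord (T⁻¹ - algebraMap Lbar ↥(modularFunctionFieldBar M) c)) :
    P.ord (T⁻¹ - algebraMap Lbar ↥(modularFunctionFieldBar M) c) = 1 :=
  h4_chart_inv_level3 embQbar M H28.h3 H28.j_h3 T hT P c hc0 hc27 hc

/-! ### The bridge from a subfield `K` -/

section Bridge

variable (K : Type) [Field K] [Algebra K Lbar] (x₀ : LaurentSeries ℤ)
  (hmem : coeffMap (Int.castRingHom K) x₀ ∈ modularFunctionFieldFullC K M)

/-- The image of the base coordinate under the bridge `F_K → F_L` is the base coordinate. -/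
theorem h4_coe_iotaK_coordM :
    ((iotaK K M (coordM K M x₀ hmem) : ↥(modularFunctionFieldBar M)) : LaurentSeries Lbar) =
      coeffMap (Int.castRingHom Lbar) x₀ := by
  rw [coe_iotaK, coe_coordM, coeffMap_coeffMap,
    RingHom.ext_int ((algebraMap K Lbar).comp (Int.castRingHom K)) (Int.castRingHom Lbar)]

theorem h4_iotaK_inv (g : ↥(modularFunctionFieldFullC K M)) :
    iotaK K M g⁻¹ = (iotaK K M g)⁻¹ := map_inv₀ _ _

/-- **Level 2, `hE` of `h5_ord_eq_one` for the `h`-chart.** -/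
theorem h4_hE_two (hmem : coeffMap (Int.castRingHom K) H28.h2 ∈ modularFunctionFieldFullC K M)
    (g : K[X]) (hg0 : g.eval 0 ≠ 0) (hg64 : g.eval (-64) ≠ 0)
    (P : Place Lbar ↥(modularFunctionFieldBar M)) (c : Lbar)
    (hroot : (g.map (algebraMap K Lbar)).IsRoot c)
    (hc : 0 < P.ord (iotaK K M (coordM K M H28.h2 hmem) -
      algebraMap Lbar ↥(modularFunctionFieldBar M) c)) :
    P.ord (iotaK K M (coordM K M H28.h2 hmem) -
      algebraMap Lbar ↥(modularFunctionFieldBar M) c) = 1 := by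
  refine h4_unr_two M _ (h4_coe_iotaK_coordM M K H28.h2 hmem) P c ?_ ?_ hc
  · have := h4_root_ne g 0 hg0 c hroot
    rwa [map_zero] at this
  · have := h4_root_ne g (-64) hg64 c hroot
    rwa [map_neg, map_ofNat] at this

/-- **Level 2, `hE` of `h5_ord_eq_one` for the `h⁻¹`-chart.** -/
theorem h4_hE_inv_two
    (hmem : coeffMap (Int.castRingHom K) H28.h2 ∈ modularFunctionFieldFullC K M)
    (g : K[X]) (hg0 : g.eval 0 ≠ 0) (hg64 : ∀ a : K, 64 * a + 1 = 0 → g.eval a ≠ 0)
    (P : Place Lbar ↥(modularFunctionFieldBar M)) (c : Lbar)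
    (hroot : (g.map (algebraMap K Lbar)).IsRoot c)
    (hc : 0 < P.ord (iotaK K M (coordM K M H28.h2 hmem)⁻¹ -
      algebraMap Lbar ↥(modularFunctionFieldBar M) c)) :
    P.ord (iotaK K M (coordM K M H28.h2 hmem)⁻¹ -
      algebraMap Lbar ↥(modularFunctionFieldBar M) c) = 1 := by
  rw [h4_iotaK_inv] at hc ⊢
  refine h4_unr_inv_two M _ (h4_coe_iotaK_coordM M K H28.h2 hmem) P c ?_ ?_ hc
  · have := h4_root_ne g 0 hg0 c hroot
    rwa [map_zero] at this
  · intro h0
    have h64 : (64 : K) ≠ 0 := by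
      intro h
      have h1 : algebraMap K Lbar (64 : K) = 0 := by rw [h, map_zero]
      rw [map_ofNat] at h1
      exact (by norm_num : (64 : Lbar) ≠ 0) h1
    have ha : 64 * (-(64 : K)⁻¹) + 1 = 0 := by field_simp; ring
    have := h4_root_ne g _ (hg64 _ ha) c hroot
    apply this
    rw [map_neg, map_inv₀, map_ofNat]
    have h64L : (64 : Lbar) ≠ 0 := by norm_num
    field_simp
    linear_combination h0

/-- **Level 3, `hE` of `h5_ord_eq_one` for the `h`-chart.** -/
theorem h4_hE_three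
    (hmem : coeffMap (Int.castRingHom K) H28.h3 ∈ modularFunctionFieldFullC K M)
    (g : K[X]) (hg0 : g.eval 0 ≠ 0) (hg27 : g.eval (-27) ≠ 0)
    (P : Place Lbar ↥(modularFunctionFieldBar M)) (c : Lbar)
    (hroot : (g.map (algebraMap K Lbar)).IsRoot c)
    (hc : 0 < P.ord (iotaK K M (coordM K M H28.h3 hmem) -
      algebraMap Lbar ↥(modularFunctionFieldBar M) c)) :
    P.ord (iotaK K M (coordM K M H28.h3 hmem) -
      algebraMap Lbar ↥(modularFunctionFieldBar M) c) = 1 := by
  refine h4_unr_three M _ (h4_coe_iotaK_coordM M K H28.h3 hmem) P c ?_ ?_ hc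
  · have := h4_root_ne g 0 hg0 c hroot
    rwa [map_zero] at this
  · have := h4_root_ne g (-27) hg27 c hroot
    rwa [map_neg, map_ofNat] at this

/-- **Level 3, `hE` of `h5_ord_eq_one` for the `h⁻¹`-chart.** -/
theorem h4_hE_inv_three
    (hmem : coeffMap (Int.castRingHom K) H28.h3 ∈ modularFunctionFieldFullC K M)
    (g : K[X]) (hg0 : g.eval 0 ≠ 0) (hg27 : ∀ a : K, 27 * a + 1 = 0 → g.eval a ≠ 0)
    (P : Place Lbar ↥(modularFunctionFieldBar M)) (c : Lbar)
    (hroot : (g.map (algebraMap K Lbar)).IsRoot c)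
    (hc : 0 < P.ord (iotaK K M (coordM K M H28.h3 hmem)⁻¹ -
      algebraMap Lbar ↥(modularFunctionFieldBar M) c)) :
    P.ord (iotaK K M (coordM K M H28.h3 hmem)⁻¹ -
      algebraMap Lbar ↥(modularFunctionFieldBar M) c) = 1 := by
  rw [h4_iotaK_inv] at hc ⊢
  refine h4_unr_inv_three M _ (h4_coe_iotaK_coordM M K H28.h3 hmem) P c ?_ ?_ hc
  · have := h4_root_ne g 0 hg0 c hroot
    rwa [map_zero] at this
  · intro h0
    have h27 : (27 : K) ≠ 0 := by
      intro h
      have h1 : algebraMap K Lbar (27 : K) = 0 := by rw [h, map_zero]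
      rw [map_ofNat] at h1
      exact (by norm_num : (27 : Lbar) ≠ 0) h1
    have ha : 27 * (-(27 : K)⁻¹) + 1 = 0 := by field_simp; ring
    have := h4_root_ne g _ (hg27 _ ha) c hroot
    apply this
    rw [map_neg, map_inv₀, map_ofNat]
    have h27L : (27 : Lbar) ≠ 0 := by norm_num
    field_simp
    linear_combination h0

end Bridge

end Fermat.Agent.S18x.IG.H4
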