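import Mathlib
import Fermat.Prelude.Def_AlgebraicCurve_DivisorClassGroup
import Fermat.Agent.S18x.Dict.H22_ExtAbs

/-!
# S18 [IG] (HOR-ADAPT), part 1 (helper5): descent of unramifiedness along an extension of the
constant field, in `Place` form

`K ⊆ L` fields of characteristic zero, `L` algebraically closed and integral over `K`;
`F / K`, `E / L` function fields, `ι : F →+* E` compatible with `K → L`; `t : F` with `E` finite
over `L(ι t)`.  If every place `P` of `E / L` above a place `v` of `F / K` is unramified over the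
`t`-line at the roots of a separable polynomial `g ∈ K[X]` (`P.ord (ι t - c) ∈ {0, 1}`), then
`v.ord (g(t)) ∈ {0, 1}`.

No statement of the form "constant field extensions are unramified" is needed: if `P` lies above
`v` then `P.ord (ι x) = e * v.ord x` with `e ≥ 1`, and `P.ord (ι (g(t))) = 1` forces
`e = v.ord (g(t)) = 1`.
-/

set_option autoImplicit false

noncomputable section

namespace Fermat.Agent.S18x.IG.H5

open AlgebraicCurve Polynomial

section Basic

variable {K F : Type*} [Field K] [Field F] [Algebra K F] (v : Place K F)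

/-- Constants have order `0`. -/
theorem h5_ord_algebraMap (a : K) : v.ord (algebraMap K F a) = 0 := by
  rcases eq_or_ne a 0 with rfl | ha
  · simp
  · have h0 : algebraMap K F a ≠ 0 := (_root_.map_ne_zero _).mpr ha
    apply Dict.H22.ord_eq_zero_of_mem_of_inv_mem v h0 (v.algebraMap_mem' a)
    rw [← map_inv₀]
    exact v.algebraMap_mem' a⁻¹

/-- `ord (-x) = ord x`. -/
theorem h5_ord_neg (x : F) : v.ord (-x) = v.ord x := by
  rcases eq_or_ne x 0 with rfl | hx
  · simp
  · have h1 : (-1 : F) ≠ 0 := by simp
    have h2 : v.ord (-1 : F) = 0 := by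
      have := h5_ord_algebraMap v (-1 : K)
      simpa using this
    rw [show -x = (-1 : F) * x by ring, v.ord_mul h1 hx, h2, zero_add]

/-- The order of a product of non-zero elements. -/
theorem h5_ord_multiset_prod (s : Multiset F) (hs : ∀ x ∈ s, x ≠ 0) :
    v.ord s.prod = (s.map v.ord).sum := by
  induction s using Multiset.induction_on with
  | empty => simp
  | cons a s ih =>
    have ha : a ≠ 0 := hs a (Multiset.mem_cons_self a s)
    have hs' : ∀ x ∈ s, x ≠ 0 := fun x hx => hs x (Multiset.mem_cons_of_mem hx)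
    have hp : s.prod ≠ 0 := Multiset.prod_ne_zero (fun h => hs' 0 h rfl)
    rw [Multiset.prod_cons, v.ord_mul ha hp, ih hs', Multiset.map_cons, Multiset.sum_cons]

/-- If `g(t)` lies in the valuation ring of a place and `g` is not constant, so does `t`. -/
theorem h5_mem_of_aeval_mem (g : K[X]) (hg : g.natDegree ≠ 0) (t : F)
    (h : aeval t g ∈ v.toValuationSubring) : t ∈ v.toValuationSubring := by
  have hg0 : g ≠ 0 := by
    rintro rfl
    simp at hg
  have hlc : g.leadingCoeff ≠ 0 := leadingCoeff_ne_zero.mpr hg0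
  set φ : K →+* v.toValuationSubring := algebraMap K v.toValuationSubring with hφ
  have hφinj : Function.Injective φ := φ.injective
  set G : (v.toValuationSubring)[X] := g.map φ with hG
  have hGdeg : G.natDegree = g.natDegree := natDegree_map_eq_of_injective hφinj g
  have hGlc : G.leadingCoeff = φ g.leadingCoeff := leadingCoeff_map_of_injective hφinj g
  set y : v.toValuationSubring := ⟨aeval t g, h⟩ with hy
  have hdeg : (C y : (v.toValuationSubring)[X]).degree < G.degree := by
    refine lt_of_le_of_lt degree_C_le ?_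
    rw [← natDegree_pos_iff_degree_pos, hGdeg]
    exact Nat.pos_of_ne_zero hg
  have hint : IsIntegral v.toValuationSubring t := by
    refine ⟨C (φ g.leadingCoeff⁻¹) * (G - C y), ?_, ?_⟩
    · rw [Monic, leadingCoeff_mul, leadingCoeff_C, leadingCoeff_sub_of_degree_lt hdeg, hGlc,
        ← map_mul, inv_mul_cancel₀ hlc, map_one]
    · have h1 : eval₂ (algebraMap v.toValuationSubring F) t G = aeval t g := by
        rw [hG, eval₂_map, aeval_def]
        rfl
      rw [eval₂_mul, eval₂_sub, eval₂_C, eval₂_C, h1]
      have h2 : algebraMap v.toValuationSubring F y = aeval t g := rfl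
      rw [h2, sub_self, mul_zero]
  obtain ⟨z, hz⟩ := IsIntegrallyClosed.isIntegral_iff.mp hint
  rw [← hz]
  exact z.2

end Basic

section Descent

variable {K L F E : Type*} [Field K] [Field L] [Field F] [Field E] [Algebra K F] [Algebra L E]
  [Algebra K L] [Algebra.IsIntegral K L] [CharZero L] [IsAlgClosed L]

omit [Algebra.IsIntegral K L] [CharZero L] [IsAlgClosed L] in
/-- `ι (g(t)) = (g.map (K → L))(ι t)`. -/
theorem h5_map_aeval (ι : F →+* E)
    (hι : ∀ a : K, ι (algebraMap K F a) = algebraMap L E (algebraMap K L a)) (t : F) (g : K[X]) :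
    ι (aeval t g) = aeval (ι t) (g.map (algebraMap K L)) := by
  rw [aeval_def, aeval_def, hom_eval₂, eval₂_map]
  congr 1
  ext a
  exact hι a

/-- **(HA1)** Descent of unramifiedness from `E / L` to `F / K`. -/
theorem h5_ord_eq_one (ι : F →+* E)
    (hι : ∀ a : K, ι (algebraMap K F a) = algebraMap L E (algebraMap K L a))
    (t : F) [FiniteDimensional (IntermediateField.adjoin L {ι t}) E]
    (v : Place K F) (g : K[X]) (hg : g.Separable)
    (hE : ∀ P : Place L E, (∀ x ∈ v.toValuationSubring, ι x ∈ P.toValuationSubring) →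
      ∀ c : L, (g.map (algebraMap K L)).IsRoot c → 0 < P.ord (ι t - algebraMap L E c) →
        P.ord (ι t - algebraMap L E c) = 1)
    (hpos : 0 < v.ord (aeval t g)) : v.ord (aeval t g) = 1 := by
  classical
  have hg0 : g ≠ 0 := hg.ne_zero
  have hnat : g.natDegree ≠ 0 := by
    intro h0
    rw [eq_C_of_natDegree_eq_zero h0, aeval_C, h5_ord_algebraMap] at hpos
    exact lt_irrefl _ hpos
  have hgt : aeval t g ∈ v.toValuationSubring := Fermat.Agent.S24.Alg.mem_of_ord_pos v hpos
  have ht : t ∈ v.toValuationSubring := h5_mem_of_aeval_mem v g hnat t hgt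
  obtain ⟨P, hP1, -, e, he, hord⟩ := Dict.H22.exists_place_ext_ord ι hι v t ht
  set G : L[X] := g.map (algebraMap K L) with hG
  have hGsep : G.Separable := hg.map
  have hGsplit : G.Splits := IsAlgClosed.splits G
  have hG0 : G ≠ 0 := hGsep.ne_zero
  have hnodup : G.roots.Nodup := nodup_roots hGsep
  -- the factorisation of `ι (g(t))`
  have hfac : ι (aeval t g) = algebraMap L E G.leadingCoeff *
      (G.roots.map (fun c => ι t - algebraMap L E c)).prod := by
    rw [h5_map_aeval ι hι t g, ← hG]
    conv_lhs => rw [hGsplit.eq_prod_roots]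
    rw [map_mul, aeval_C, map_multiset_prod, Multiset.map_map]
    congr 2
    refine Multiset.map_congr rfl (fun c _ => ?_)
    simp
  have hιpos : 0 < P.ord (ι (aeval t g)) := by
    rw [hord]
    exact mul_pos (by exact_mod_cast he) hpos
  have hιne : ι (aeval t g) ≠ 0 := by
    intro h0
    rw [h0, Place.ord_zero] at hιpos
    exact lt_irrefl _ hιpos
  have hlcne : algebraMap L E G.leadingCoeff ≠ 0 :=
    (_root_.map_ne_zero _).mpr (leadingCoeff_ne_zero.mpr hG0)
  have hprodne : (G.roots.map (fun c => ι t - algebraMap L E c)).prod ≠ 0 := by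
    intro h0
    rw [hfac, h0, mul_zero] at hιne
    exact hιne rfl
  have hfne : ∀ x ∈ G.roots.map (fun c => ι t - algebraMap L E c), x ≠ 0 := by
    intro x hx h0
    exact hprodne (Multiset.prod_eq_zero (h0 ▸ hx))
  have hsum : P.ord (ι (aeval t g)) =
      (G.roots.map (fun c => P.ord (ι t - algebraMap L E c))).sum := by
    rw [hfac, P.ord_mul hlcne hprodne, h5_ord_algebraMap, zero_add,
      h5_ord_multiset_prod P _ hfne, Multiset.map_map]
    rfl
  have hnonneg : ∀ c ∈ G.roots, 0 ≤ P.ord (ι t - algebraMap L E c) := by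
    intro c hc
    have hne : ι t - algebraMap L E c ≠ 0 := hfne _ (Multiset.mem_map_of_mem _ hc)
    exact (Fermat.Agent.S24.Alg.mem_iff_ord_nonneg P hne).mp
      (sub_mem (hP1 t ht) (P.algebraMap_mem' c))
  -- some root has positive order
  obtain ⟨c₀, hc₀, hc₀pos⟩ : ∃ c ∈ G.roots, 0 < P.ord (ι t - algebraMap L E c) := by
    by_contra hcon
    push Not at hcon
    have hz : (G.roots.map (fun c => P.ord (ι t - algebraMap L E c))).sum = 0 := by
      refine Multiset.sum_eq_zero (fun x hx => ?_)
      obtain ⟨c, hc, rfl⟩ := Multiset.mem_map.mp hx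
      exact le_antisymm (hcon c hc) (hnonneg c hc)
    rw [hsum, hz] at hιpos
    exact lt_irrefl _ hιpos
  have hc₀one : P.ord (ι t - algebraMap L E c₀) = 1 :=
    hE P hP1 c₀ ((mem_roots hG0).mp hc₀) hc₀pos
  -- the other roots have order zero
  have hother : ∀ c ∈ G.roots.erase c₀, P.ord (ι t - algebraMap L E c) = 0 := by
    intro c hc
    obtain ⟨hcne, hcmem⟩ := (hnodup.mem_erase_iff).mp hc
    refine le_antisymm ?_ (hnonneg c hcmem)
    by_contra hlt
    push Not at hlt
    have hx : ι t - algebraMap L E c ≠ 0 := hfne _ (Multiset.mem_map_of_mem _ hcmem)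
    have hy : -(ι t - algebraMap L E c₀) ≠ 0 :=
      neg_ne_zero.mpr (hfne _ (Multiset.mem_map_of_mem _ hc₀))
    have hxy : (ι t - algebraMap L E c) + -(ι t - algebraMap L E c₀) =
        algebraMap L E (c₀ - c) := by
      rw [map_sub]; ring
    have hcc : algebraMap L E (c₀ - c) ≠ 0 :=
      (_root_.map_ne_zero _).mpr (sub_ne_zero.mpr (Ne.symm hcne))
    have hmin := Fermat.Agent.S24.Alg.ord_add_ge P hx hy (by rw [hxy]; exact hcc)
    rw [hxy, h5_ord_algebraMap, h5_ord_neg, hc₀one] at hmin
    have : (1 : ℤ) ≤ min (P.ord (ι t - algebraMap L E c)) 1 := le_min (by omega) le_rfl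
    omega
  have hsum1 : (G.roots.map (fun c => P.ord (ι t - algebraMap L E c))).sum = 1 := by
    rw [← Multiset.cons_erase hc₀, Multiset.map_cons, Multiset.sum_cons, hc₀one]
    have hz : ((G.roots.erase c₀).map (fun c => P.ord (ι t - algebraMap L E c))).sum = 0 := by
      refine Multiset.sum_eq_zero (fun x hx => ?_)
      obtain ⟨c, hc, rfl⟩ := Multiset.mem_map.mp hx
      exact hother c hc
    rw [hz, add_zero]
  -- conclusion
  have hkey : (e : ℤ) * v.ord (aeval t g) = 1 := by
    rw [← hord, hsum, hsum1]
  have he1 : (1 : ℤ) ≤ e := by exact_mod_cast he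
  nlinarith [hkey, he1, hpos]

end Descent

end Fermat.Agent.S18x.IG.H5
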