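import Mathlib
import Fermat.Prelude.Def_AlgebraicCurve_DivisorClassGroup
import Fermat.Agent.S18x.Dict.H22_ExtAbs

/-!
# S18 [IG] (HOR-ADAPT), part 2 (helper5): from unramifiedness in `Place` form to a reduced fibre

`F / K` a function field of one variable (characteristic zero), `A → B → F` rings with `B` the
integral closure of `A` in `F`, `𝔭` a prime of `A` such that `𝔭 A_𝔭` is generated by `g` and
`K ⊆ A_𝔭` (a horizontal height-one prime of the arithmetic surface).  If every place `v` of
`F / K` whose valuation ring contains `A_𝔭` and at which `g` vanishes has `v.ord g = 1`, then the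
fibre of `B` over `𝔭` is reduced, in the element form

`x * x ∈ 𝔭 B → ∃ s ∉ 𝔭, s * x ∈ 𝔭 B`

(= the hypothesis `hred` of `CA.H25F.discr_ne_zero_of_reduced_fibre`).

Proof: `x / g` lies in every valuation ring of `F` containing `A_𝔭` (such a ring is `F` itself or
a place as above, by `Dict.H22.exists_place_of_valuationSubring`), hence it is integral over
`A_𝔭`; clear the denominator.
-/

set_option autoImplicit false

noncomputable section

namespace Fermat.Agent.S18x.IG.H5

open AlgebraicCurve Polynomial

section Hred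

variable {K F A B : Type*} [Field K] [CharZero K] [Field F] [Algebra K F]
  [CommRing A] [CommRing B] [Algebra A B] [Algebra A F] [Algebra B F] [IsScalarTower A B F]

omit [CharZero K] [Algebra K F] [Field K] [CommRing B] [Algebra A B] [Algebra B F]
  [IsScalarTower A B F] in
/-- A valuation ring containing the image of `A` contains every element integral over `A`. -/
theorem h5_mem_of_isIntegral (V : ValuationSubring F) (hA : ∀ a : A, algebraMap A F a ∈ V)
    (z : F) (hz : IsIntegral A z) : z ∈ V := by
  obtain ⟨p, hp, hpz⟩ := hz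
  let φ : A →+* V := (algebraMap A F).codRestrict V.toSubring hA
  have hφ : (algebraMap V F).comp φ = algebraMap A F := rfl
  have hint : IsIntegral V z := by
    refine ⟨p.map φ, hp.map φ, ?_⟩
    rw [eval₂_map, hφ]
    exact hpz
  obtain ⟨y, hy⟩ := IsIntegrallyClosed.isIntegral_iff.mp hint
  rw [← hy]
  exact y.2

/-- **(HA2)** Unramified in `Place` form ⟹ the fibre over `𝔭` is reduced (element form). -/
theorem h5_hred [Algebra.IsIntegral A B]
    (hAinj : Function.Injective (algebraMap A F)) (hBinj : Function.Injective (algebraMap B F))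
    (hBint : ∀ y : F, IsIntegral A y → ∃ b : B, algebraMap B F b = y)
    (τ : A) [FiniteDimensional (IntermediateField.adjoin K {algebraMap A F τ}) F]
    (𝔭 : Ideal A) [h𝔭 : 𝔭.IsPrime] (g : A) (hg : g ∈ 𝔭)
    (hgen : ∀ a ∈ 𝔭, ∃ s : A, s ∉ 𝔭 ∧ ∃ c : A, s * a = g * c)
    (hKA : ∀ c : K, ∃ a s : A, s ∉ 𝔭 ∧ algebraMap K F c * algebraMap A F s = algebraMap A F a)
    (hunr : ∀ v : Place K F, (∀ a : A, algebraMap A F a ∈ v.toValuationSubring) →
      (∀ s : A, s ∉ 𝔭 → (algebraMap A F s)⁻¹ ∈ v.toValuationSubring) →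
      0 < v.ord (algebraMap A F g) → v.ord (algebraMap A F g) = 1)
    (x : B) (hx : x * x ∈ Ideal.map (algebraMap A B) 𝔭) :
    ∃ s : A, s ∉ 𝔭 ∧ algebraMap A B s * x ∈ Ideal.map (algebraMap A B) 𝔭 := by
  classical
  have hAB : ∀ a : A, algebraMap B F (algebraMap A B a) = algebraMap A F a := fun a =>
    (IsScalarTower.algebraMap_apply A B F a).symm
  have hne : ∀ s : A, s ∉ 𝔭 → algebraMap A F s ≠ 0 := by
    intro s hs h0
    have : s = 0 := hAinj (by rw [h0, map_zero])
    exact hs (this ▸ 𝔭.zero_mem)
  by_cases hG0 : algebraMap A F g = 0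
  · -- degenerate case `𝔭 = 0`
    have hg0 : g = 0 := hAinj (by rw [hG0, map_zero])
    have hp0 : ∀ a ∈ 𝔭, a = 0 := by
      intro a ha
      obtain ⟨s, hs, c, hc⟩ := hgen a ha
      rw [hg0, zero_mul] at hc
      have h1 : algebraMap A F s * algebraMap A F a = 0 := by rw [← map_mul, hc, map_zero]
      rcases mul_eq_zero.mp h1 with h | h
      · exact absurd h (hne s hs)
      · exact hAinj (by rw [h, map_zero])
    have hbot : Ideal.map (algebraMap A B) 𝔭 = ⊥ := by
      rw [eq_bot_iff, Ideal.map_le_iff_le_comap]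
      intro a ha
      rw [Ideal.mem_comap, hp0 a ha, map_zero]
      exact Ideal.zero_mem _
    rw [hbot, Ideal.mem_bot] at hx
    have hx0 : x = 0 := by
      have h1 : algebraMap B F x * algebraMap B F x = 0 := by rw [← map_mul, hx, map_zero]
      exact hBinj (by rw [mul_self_eq_zero.mp h1, map_zero])
    exact ⟨1, (Ideal.ne_top_iff_one 𝔭).mp h𝔭.ne_top, by rw [hx0, mul_zero]; exact Ideal.zero_mem _⟩
  -- main case
  set G : F := algebraMap A F g with hG
  set X : F := algebraMap B F x with hX
  -- the localisation `A_𝔭` inside `F`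
  have hunits : ∀ m : 𝔭.primeCompl, IsUnit (algebraMap A F (m : A)) := fun m =>
    IsUnit.mk0 _ (hne m m.2)
  let alg : Algebra (Localization.AtPrime 𝔭) F :=
    (IsLocalization.lift (M := 𝔭.primeCompl) (S := Localization.AtPrime 𝔭) hunits).toAlgebra
  have halg : ∀ a : A, algebraMap (Localization.AtPrime 𝔭) F
      (algebraMap A (Localization.AtPrime 𝔭) a) = algebraMap A F a := fun a =>
    IsLocalization.lift_eq hunits a
  have : IsScalarTower A (Localization.AtPrime 𝔭) F :=
    IsScalarTower.of_algebraMap_eq (fun a => (halg a).symm)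
  -- every element of `𝔭 B` is `G` times an element of any valuation ring containing `A_𝔭`
  have hmapV : ∀ V : ValuationSubring F, (∀ a : A, algebraMap A F a ∈ V) →
      (∀ s : A, s ∉ 𝔭 → (algebraMap A F s)⁻¹ ∈ V) →
      ∀ w ∈ Ideal.map (algebraMap A B) 𝔭, algebraMap B F w * G⁻¹ ∈ V := by
    intro V hVA hVs w hw
    have hBV : ∀ b : B, algebraMap B F b ∈ V := fun b =>
      h5_mem_of_isIntegral V hVA _ ((Algebra.IsIntegral.isIntegral (R := A) b).algebraMap)
    rw [Ideal.map] at hw
    induction hw using Submodule.span_induction with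
    | mem w hw =>
      obtain ⟨a, ha, rfl⟩ := hw
      obtain ⟨s, hs, c, hc⟩ := hgen a ha
      have h1 : algebraMap A F s * algebraMap A F a = G * algebraMap A F c := by
        rw [← map_mul, hc, map_mul]
      have h2 : algebraMap B F (algebraMap A B a) * G⁻¹ =
          algebraMap A F c * (algebraMap A F s)⁻¹ := by
        rw [hAB]
        have hs0 := hne s hs
        field_simp
        linear_combination h1
      rw [h2]
      exact mul_mem (hVA c) (hVs s hs)
    | zero => simp
    | add w₁ w₂ _ _ h₁ h₂ =>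
      rw [map_add, add_mul]
      exact add_mem h₁ h₂
    | smul b w _ h =>
      rw [smul_eq_mul, map_mul, mul_assoc]
      exact mul_mem (hBV b) h
  -- `X / G` is integral over `A_𝔭`
  have hy : IsIntegral (Localization.AtPrime 𝔭) (X * G⁻¹) := by
    by_contra hcon
    have hnot : X * G⁻¹ ∉ (integralClosure (Localization.AtPrime 𝔭) F).toSubring := hcon
    obtain ⟨V, hV, hyV⟩ := Subring.exists_le_valuationSubring_of_isIntegrallyClosedIn hnot
    apply hyV
    have hVR : ∀ r : Localization.AtPrime 𝔭, algebraMap (Localization.AtPrime 𝔭) F r ∈ V :=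
      fun r => hV (isIntegral_algebraMap (R := Localization.AtPrime 𝔭) (A := F) (x := r))
    have hVA : ∀ a : A, algebraMap A F a ∈ V := fun a => by
      rw [← halg a]; exact hVR _
    have hVs : ∀ s : A, s ∉ 𝔭 → (algebraMap A F s)⁻¹ ∈ V := by
      intro s hs
      have h1 : algebraMap (Localization.AtPrime 𝔭) F
          (IsLocalization.mk' (Localization.AtPrime 𝔭) (1 : A) (⟨s, hs⟩ : 𝔭.primeCompl)) *
          algebraMap A F s = 1 := by
        rw [← halg s, ← map_mul, IsLocalization.mk'_spec, map_one, map_one]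
      have h2 : (algebraMap A F s)⁻¹ = algebraMap (Localization.AtPrime 𝔭) F
          (IsLocalization.mk' (Localization.AtPrime 𝔭) (1 : A) (⟨s, hs⟩ : 𝔭.primeCompl)) := by
        have hs0 := hne s hs
        field_simp
        linear_combination -h1
      rw [h2]
      exact hVR _
    have hBV : ∀ b : B, algebraMap B F b ∈ V := fun b =>
      h5_mem_of_isIntegral V hVA _ ((Algebra.IsIntegral.isIntegral (R := A) b).algebraMap)
    have hXX : X * X * G⁻¹ ∈ V := by
      have := hmapV V hVA hVs _ hx
      rwa [map_mul] at this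
    by_cases hGV : G⁻¹ ∈ V
    · exact mul_mem (hBV x) hGV
    -- `V` is a place at which `g` vanishes
    have hVtop : V ≠ ⊤ := by
      intro htop
      exact hGV (htop ▸ ValuationSubring.mem_top _)
    have hKV : ∀ c : K, algebraMap K F c ∈ V := by
      intro c
      obtain ⟨a, s, hs, hc⟩ := hKA c
      have hs0 := hne s hs
      have : algebraMap K F c = algebraMap A F a * (algebraMap A F s)⁻¹ := by
        field_simp
        exact hc
      rw [this]
      exact mul_mem (hVA a) (hVs s hs)
    have hDed := Fermat.Agent.S24.RH.integralClosure_isDedekindDomain (K := K)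
      (algebraMap A F τ)
    have hFr := Fermat.Agent.S24.RH.integralClosure_isFractionRing (K := K)
      (algebraMap A F τ)
    obtain ⟨P, hP⟩ := Dict.H22.exists_place_of_valuationSubring
      (B := integralClosure (Algebra.adjoin K {algebraMap A F τ}) F) K V hVtop
      (Dict.H22.integralClosure_mem_valuationSubring (algebraMap A F τ) V hKV (hVA τ))
    have hGmem : G ∈ P.toValuationSubring := by rw [hP]; exact hVA g
    have hGpos : 0 < P.ord G := by
      have h1 := (Fermat.Agent.S24.Alg.mem_iff_ord_nonneg P hG0).mp hGmem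
      have h2 : ¬ 0 ≤ P.ord G⁻¹ := fun h =>
        hGV (hP ▸ (Fermat.Agent.S24.Alg.mem_iff_ord_nonneg P (inv_ne_zero hG0)).mpr h)
      rw [Place.ord_inv] at h2
      omega
    have hGone : P.ord G = 1 :=
      hunr P (fun a => by rw [hP]; exact hVA a) (fun s hs => by rw [hP]; exact hVs s hs) hGpos
    by_cases hX0 : X = 0
    · rw [hX0, zero_mul]; exact V.zero_mem
    have hXXne : X * X * G⁻¹ ≠ 0 := mul_ne_zero (mul_ne_zero hX0 hX0) (inv_ne_zero hG0)
    have h3 : 0 ≤ P.ord (X * X * G⁻¹) :=
      (Fermat.Agent.S24.Alg.mem_iff_ord_nonneg P hXXne).mp (hP ▸ hXX)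
    rw [P.ord_mul (mul_ne_zero hX0 hX0) (inv_ne_zero hG0), P.ord_mul hX0 hX0, Place.ord_inv,
      hGone] at h3
    have h4 : 0 ≤ P.ord (X * G⁻¹) := by
      rw [P.ord_mul hX0 (inv_ne_zero hG0), Place.ord_inv, hGone]
      omega
    have := (Fermat.Agent.S24.Alg.mem_iff_ord_nonneg P (mul_ne_zero hX0 (inv_ne_zero hG0))).mpr h4
    rwa [hP] at this
  -- clear the denominator
  obtain ⟨m, hm⟩ := IsIntegral.exists_multiple_integral_of_isLocalization 𝔭.primeCompl
    (X * G⁻¹) hy
  obtain ⟨b, hb⟩ := hBint _ hm
  refine ⟨m, m.2, ?_⟩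
  have hmb : algebraMap A B (m : A) * x = algebraMap A B g * b := by
    apply hBinj
    rw [map_mul, map_mul, hAB, hAB, hb, Submonoid.smul_def, Algebra.smul_def, ← hG, ← hX]
    field_simp
  rw [hmb]
  exact Ideal.mul_mem_right _ _ (Ideal.mem_map_of_mem _ hg)

end Hred

end Fermat.Agent.S18x.IG.H5
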