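import Mathlib
import Fermat.Prelude.Def_AlgebraicCurve_DivisorClassGroup
import Fermat.Agent.S18x.CA.H25_Fibre
import Fermat.Agent.S18x.IG.H5_HorDescent
import Fermat.Agent.S18x.IG.H5_HorRed

/-!
# S18 [IG] (HOR-AD), part (HA3) (helper5): the horizontal hypothesis `hhor` of `h15_hgen`

* `h5_discr_notMem` : `B` free over `A` with basis `b`, `𝔭` a prime of `A` of residue
  characteristic zero such that the fibre of `B` over `𝔭` is reduced (element form, the output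
  of `h5_hred`): then `discr A b ∉ 𝔭`.
* `h5_exists_irreducible` : a nonzero prime `𝔭₀` of `O[X]` not containing `π` (with
  `K = O[1 / π]` a field) is cut out by an irreducible polynomial `p` over `K`:
  `a₀ ∈ 𝔭₀ ↔ p ∣ a₀`, and `π ^ n * p ∈ 𝔭₀` for some `n`.
* `h5_hhor` : **the horizontal hypothesis**.  `A` a ring of fractions of `O[X]`, `B` free over
  `A`, equal to the integral closure of `A` in the function field `F / K`; if the branch
  polynomial `Q` lies in no prime `𝔭 ∌ π, s` of `A` and `E / L(t)` (the geometric function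
  field) is unramified over every value `c` of `t` with `Q c ≠ 0`, then
  `∀ 𝔭, 𝔭.IsPrime → π ∉ 𝔭 → s ∉ 𝔭 → discr A b ∉ 𝔭`.
-/

namespace Fermat.Agent.S18x.IG.H5

open Polynomial AlgebraicCurve Module

section Discr

variable {A B : Type*} [CommRing A] [CommRing B] [Algebra A B]
variable {ι : Type*} [Fintype ι] [DecidableEq ι]

/-- **(HA3-i)** Reduced fibre in residue characteristic zero: the discriminant is not in the
prime. -/
theorem h5_discr_notMem (b : Basis ι A B) (𝔭 : Ideal A) [h𝔭 : 𝔭.IsPrime]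
    (hchar : ∀ n : ℕ, n ≠ 0 → (n : A) ∉ 𝔭)
    (hred : ∀ x : B, x * x ∈ Ideal.map (algebraMap A B) 𝔭 →
      ∃ s : A, s ∉ 𝔭 ∧ algebraMap A B s * x ∈ Ideal.map (algebraMap A B) 𝔭) :
    Algebra.discr A b ∉ 𝔭 := by
  let κ := FractionRing (A ⧸ 𝔭)
  let f : A →+* κ := (algebraMap (A ⧸ 𝔭) κ).comp (Ideal.Quotient.mk 𝔭)
  have hf : ∀ a : A, f a = 0 ↔ a ∈ 𝔭 := by
    intro a
    change algebraMap (A ⧸ 𝔭) κ (Ideal.Quotient.mk 𝔭 a) = 0 ↔ _
    rw [map_eq_zero_iff _ (IsFractionRing.injective (A ⧸ 𝔭) κ), Ideal.Quotient.eq_zero_iff_mem]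
  have hker : RingHom.ker f = 𝔭 := by
    ext a
    rw [RingHom.mem_ker, hf]
  have hcz : CharZero κ := by
    apply charZero_of_inj_zero
    intro n hn
    by_contra hn0
    apply hchar n hn0
    rw [← hf, map_natCast]
    exact hn
  have hK : ∀ c : κ, ∃ a s : A, f s ≠ 0 ∧ c * f s = f a := by
    intro c
    obtain ⟨x, y, hy, rfl⟩ := IsFractionRing.div_surjective (A := A ⧸ 𝔭) c
    obtain ⟨a, rfl⟩ := Ideal.Quotient.mk_surjective x
    obtain ⟨s, rfl⟩ := Ideal.Quotient.mk_surjective y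
    have hs : f s ≠ 0 := by
      change algebraMap (A ⧸ 𝔭) κ (Ideal.Quotient.mk 𝔭 s) ≠ 0
      exact IsFractionRing.to_map_ne_zero_of_mem_nonZeroDivisors hy
    refine ⟨a, s, hs, ?_⟩
    change _ / f s * f s = f a
    rw [div_mul_cancel₀ _ hs]
    rfl
  have key := CA.H25F.discr_ne_zero_of_reduced_fibre b f hK (by
    intro x hx
    rw [hker] at hx ⊢
    obtain ⟨s, hs, hsx⟩ := hred x hx
    exact ⟨s, fun h => hs ((hf s).mp h), hsx⟩)
  intro hd
  exact key ((hf _).mpr hd)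

end Discr

section Poly

variable {O K : Type*} [CommRing O] [Field K] [Algebra O K]

/-- `K = O[1 / π]`, as a localisation. -/
theorem h5_isLocalization (hOK : Function.Injective (algebraMap O K)) (π : O) (hπ0 : π ≠ 0)
    (hKO : ∀ c : K, ∃ (a : O) (n : ℕ), c * algebraMap O K π ^ n = algebraMap O K a) :
    IsLocalization (Submonoid.powers π) K := by
  rw [isLocalization_iff]
  refine ⟨?_, ?_, ?_⟩
  · rintro ⟨y, n, rfl⟩
    apply IsUnit.mk0
    rw [map_pow]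
    exact pow_ne_zero _ ((map_ne_zero_iff _ hOK).mpr hπ0)
  · intro c
    obtain ⟨a, n, h⟩ := hKO c
    exact ⟨(a, ⟨π ^ n, n, rfl⟩), by rw [← h, map_pow]⟩
  · intro x y h
    exact ⟨1, by rw [hOK h]⟩

/-- Clearing denominators of a polynomial. -/
theorem h5_exists_clear (π : O)
    (hKO : ∀ c : K, ∃ (a : O) (n : ℕ), c * algebraMap O K π ^ n = algebraMap O K a)
    (q : K[X]) :
    ∃ (n : ℕ) (q₀ : O[X]), C (algebraMap O K π ^ n) * q = q₀.map (algebraMap O K) := by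
  induction q using Polynomial.induction_on' with
  | add q₁ q₂ h₁ h₂ =>
    obtain ⟨n₁, a₁, e₁⟩ := h₁
    obtain ⟨n₂, a₂, e₂⟩ := h₂
    refine ⟨n₁ + n₂, C π ^ n₂ * a₁ + C π ^ n₁ * a₂, ?_⟩
    have e₁' : C (algebraMap O K π) ^ n₁ * q₁ = a₁.map (algebraMap O K) := by
      rw [← C_pow]; exact e₁
    have e₂' : C (algebraMap O K π) ^ n₂ * q₂ = a₂.map (algebraMap O K) := by
      rw [← C_pow]; exact e₂
    simp only [Polynomial.map_add, Polynomial.map_mul, Polynomial.map_pow, map_C]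
    rw [← e₁', ← e₂', C_pow, pow_add]
    ring
  | monomial k c =>
    obtain ⟨a, n, h⟩ := hKO c
    refine ⟨n, monomial k a, ?_⟩
    rw [map_monomial, ← h, C_mul_monomial, mul_comm]

/-- **(HA3-ii)** A nonzero prime of `O[X]` not containing `π` is cut out by an irreducible
polynomial over `K = O[1 / π]`. -/
theorem h5_exists_irreducible (hOK : Function.Injective (algebraMap O K)) (π : O)
    (hKO : ∀ c : K, ∃ (a : O) (n : ℕ), c * algebraMap O K π ^ n = algebraMap O K a)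
    (𝔭₀ : Ideal O[X]) (h𝔭₀ : 𝔭₀.IsPrime) (hπ : C π ∉ 𝔭₀) (h0 : 𝔭₀ ≠ ⊥) :
    ∃ p : K[X], Irreducible p ∧
      (∃ g₀ ∈ 𝔭₀, ∃ n : ℕ, g₀.map (algebraMap O K) = C (algebraMap O K π ^ n) * p) ∧
      ∀ a₀ : O[X], a₀ ∈ 𝔭₀ ↔ p ∣ a₀.map (algebraMap O K) := by
  have hπ0 : π ≠ 0 := by
    rintro rfl
    exact hπ (by simp)
  have hloc : IsLocalization (Submonoid.powers π) K := h5_isLocalization hOK π hπ0 hKO
  let _ : Algebra O[X] K[X] := Polynomial.algebra O K
  have hlocX : IsLocalization ((Submonoid.powers π).map (C : O →+* O[X])) K[X] :=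
    Polynomial.isLocalization (Submonoid.powers π) K
  have hmap : ∀ a : O[X], algebraMap O[X] K[X] a = a.map (algebraMap O K) := fun a => rfl
  have hφinj : Function.Injective (algebraMap O[X] K[X]) := Polynomial.map_injective _ hOK
  have hdisj : Disjoint (((Submonoid.powers π).map (C : O →+* O[X]) : Submonoid O[X]) : Set O[X])
      (𝔭₀ : Set O[X]) := by
    rw [Set.disjoint_left]
    rintro x ⟨y, ⟨n, rfl⟩, rfl⟩ hx
    change C (π ^ n) ∈ 𝔭₀ at hx
    rw [C_pow] at hx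
    exact hπ (h𝔭₀.mem_of_pow_mem _ hx)
  have hprime : (Ideal.map (algebraMap O[X] K[X]) 𝔭₀).IsPrime :=
    IsLocalization.isPrime_of_isPrime_disjoint _ K[X] 𝔭₀ h𝔭₀ hdisj
  have hunder : (Ideal.map (algebraMap O[X] K[X]) 𝔭₀).under O[X] = 𝔭₀ :=
    IsLocalization.under_map_of_isPrime_disjoint _ K[X] h𝔭₀ hdisj
  obtain ⟨p, hp⟩ : ∃ p : K[X], Ideal.map (algebraMap O[X] K[X]) 𝔭₀ = Ideal.span {p} :=
    ⟨_, (Ideal.span_singleton_generator _).symm⟩
  have hp0 : p ≠ 0 := by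
    rintro rfl
    apply h0
    rw [eq_bot_iff]
    intro x hx
    have h1 : algebraMap O[X] K[X] x ∈ Ideal.map (algebraMap O[X] K[X]) 𝔭₀ :=
      Ideal.mem_map_of_mem _ hx
    rw [hp, Ideal.mem_span_singleton, zero_dvd_iff] at h1
    rw [Ideal.mem_bot]
    exact hφinj (by rw [h1, map_zero])
  have hpp : Prime p := by
    rw [← Ideal.span_singleton_prime hp0, ← hp]
    exact hprime
  refine ⟨p, hpp.irreducible, ?_, ?_⟩
  · have hpm : p ∈ Ideal.map (algebraMap O[X] K[X]) 𝔭₀ := by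
      rw [hp]
      exact Ideal.mem_span_singleton_self p
    rw [IsLocalization.mem_map_algebraMap_iff ((Submonoid.powers π).map (C : O →+* O[X]))] at hpm
    obtain ⟨⟨⟨g₀, hg₀⟩, ⟨m, y, ⟨n, rfl⟩, rfl⟩⟩, h⟩ := hpm
    refine ⟨g₀, hg₀, n, ?_⟩
    have h' : p * (C (π ^ n) : O[X]).map (algebraMap O K) = g₀.map (algebraMap O K) := h
    rw [← h', map_C, map_pow]
    ring
  · intro a₀
    constructor
    · intro ha
      have h1 : algebraMap O[X] K[X] a₀ ∈ Ideal.map (algebraMap O[X] K[X]) 𝔭₀ :=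
        Ideal.mem_map_of_mem _ ha
      rw [hp, Ideal.mem_span_singleton] at h1
      exact h1
    · intro ha
      rw [← hunder, Ideal.mem_comap, hp, Ideal.mem_span_singleton]
      exact ha

end Poly

section Main

variable {O K L F E A B : Type*} [CommRing O] [Field K] [Algebra O K] [CharZero K]
  [Field L] [Algebra K L] [Algebra.IsIntegral K L] [CharZero L] [IsAlgClosed L]
  [Field F] [Algebra K F] [Field E] [Algebra L E]
  [CommRing A] [CommRing B] [Algebra A B] [Algebra A F] [Algebra B F] [IsScalarTower A B F]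
  [Algebra.IsIntegral A B]
variable {ι' : Type*} [Fintype ι'] [DecidableEq ι']

/-- **(HA3)** The horizontal hypothesis `hhor` of `h15_hgen`.

`O ⊆ K = O[1 / π]`, `ψ : O[X] → A` a ring of fractions of `O[X]` (every element of `A` is
`ψ a₀ / ψ u` with `ψ u` a unit), `A ⊆ F` with `X ↦ t`, `B` the integral closure of `A` in `F`,
free with basis `b`.  `ι : F → E` the passage to the geometric function field `E / L`.
If `E / L(t)` is unramified over every value `c` of `t` which is not a root of `Q` (`hH3`),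
and `Q` lies in no prime `𝔭 ∌ π, s` of `A` (`hQ`), then the discriminant lies in no such
prime. -/
theorem h5_hhor (hOK : Function.Injective (algebraMap O K)) (π : O)
    (hKO : ∀ c : K, ∃ (a : O) (n : ℕ), c * algebraMap O K π ^ n = algebraMap O K a)
    (ψ : O[X] →+* A) (hψ : ∀ a : A, ∃ a₀ u : O[X], IsUnit (ψ u) ∧ a * ψ u = ψ a₀)
    (t : F) (hcompat : ∀ P : O[X], algebraMap A F (ψ P) = aeval t (P.map (algebraMap O K)))
    (hAinj : Function.Injective (algebraMap A F)) (hBinj : Function.Injective (algebraMap B F))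
    (hBint : ∀ y : F, IsIntegral A y → ∃ b : B, algebraMap B F b = y)
    [FiniteDimensional (IntermediateField.adjoin K {t}) F]
    (ι : F →+* E) (hι : ∀ a : K, ι (algebraMap K F a) = algebraMap L E (algebraMap K L a))
    [FiniteDimensional (IntermediateField.adjoin L {ι t}) E]
    (Q : O[X])
    (hH3 : ∀ (P : Place L E) (c : L), 0 < P.ord (ι t - algebraMap L E c) →
      Polynomial.eval₂ ((algebraMap K L).comp (algebraMap O K)) c Q ≠ 0 →
        P.ord (ι t - algebraMap L E c) = 1)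
    (b : Basis ι' A B) (hd0 : Algebra.discr A b ≠ 0) (s : A)
    (hQ : ∀ 𝔭 : Ideal A, 𝔭.IsPrime → ψ (C π) ∉ 𝔭 → s ∉ 𝔭 → ψ Q ∉ 𝔭) :
    ∀ 𝔭 : Ideal A, 𝔭.IsPrime → ψ (C π) ∉ 𝔭 → s ∉ 𝔭 → Algebra.discr A b ∉ 𝔭 := by
  intro 𝔭 h𝔭 hπ𝔭 hs𝔭
  by_cases hbot : 𝔭 = ⊥
  · subst hbot
    rw [Ideal.mem_bot]
    exact hd0
  have hψC : ∀ x : O, algebraMap A F (ψ (C x)) = algebraMap K F (algebraMap O K x) := by
    intro x
    rw [hcompat, map_C, aeval_C]
  have hKFinj : Function.Injective (algebraMap K F) := (algebraMap K F).injective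
  have hπ0 : π ≠ 0 := by
    rintro rfl
    exact hπ𝔭 (by simp)
  have hπK : algebraMap O K π ≠ 0 := (map_ne_zero_iff _ hOK).mpr hπ0
  -- the prime of `O[X]`
  set 𝔭₀ : Ideal O[X] := 𝔭.comap ψ with h𝔭₀
  have h𝔭₀p : 𝔭₀.IsPrime := Ideal.comap_isPrime ψ 𝔭
  have hπ₀ : C π ∉ 𝔭₀ := hπ𝔭
  have h𝔭₀0 : 𝔭₀ ≠ ⊥ := by
    intro h
    apply hbot
    rw [eq_bot_iff]
    intro a ha
    obtain ⟨a₀, u, hu, hau⟩ := hψ a
    have h1 : a₀ ∈ 𝔭₀ := by
      rw [h𝔭₀, Ideal.mem_comap, ← hau]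
      exact 𝔭.mul_mem_right _ ha
    rw [h, Ideal.mem_bot] at h1
    rw [h1, map_zero] at hau
    rw [Ideal.mem_bot]
    exact (hu.mul_left_eq_zero).mp hau
  obtain ⟨p, hpirr, ⟨g₀, hg₀, n, hg₀p⟩, hmem⟩ :=
    h5_exists_irreducible hOK π hKO 𝔭₀ h𝔭₀p hπ₀ h𝔭₀0
  have hsep : p.Separable := hpirr.separable
  -- `K ⊆ A_𝔭`
  have hKA : ∀ c : K, ∃ a s : A, s ∉ 𝔭 ∧
      algebraMap K F c * algebraMap A F s = algebraMap A F a := by
    intro c
    obtain ⟨a, m, h⟩ := hKO c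
    refine ⟨ψ (C a), ψ (C π) ^ m, fun h' => hπ𝔭 (h𝔭.mem_of_pow_mem _ h'), ?_⟩
    rw [map_pow, hψC, hψC, ← map_pow, ← map_mul, h]
  -- residue characteristic zero
  have hchar : ∀ m : ℕ, m ≠ 0 → (m : A) ∉ 𝔭 := by
    intro m hm hmem'
    obtain ⟨a, s', hs', h⟩ := hKA ((m : K)⁻¹)
    apply hs'
    have hmK : (m : K) ≠ 0 := Nat.cast_ne_zero.mpr hm
    have hmF : algebraMap K F (m : K) ≠ 0 := (map_ne_zero_iff _ hKFinj).mpr hmK
    have h1 : s' = (m : A) * a := by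
      apply hAinj
      rw [map_mul, map_natCast, ← h, map_inv₀, ← map_natCast (algebraMap K F) m, ← mul_assoc,
        mul_inv_cancel₀ hmF, one_mul]
    rw [h1]
    exact 𝔭.mul_mem_right _ hmem'
  -- the generator of `𝔭 A_𝔭`
  have hg : ψ g₀ ∈ 𝔭 := hg₀
  have hgen : ∀ a ∈ 𝔭, ∃ s, s ∉ 𝔭 ∧ ∃ c, s * a = ψ g₀ * c := by
    intro a ha
    obtain ⟨a₀, u, hu, hau⟩ := hψ a
    have ha₀ : a₀ ∈ 𝔭₀ := by
      rw [h𝔭₀, Ideal.mem_comap, ← hau]
      exact 𝔭.mul_mem_right _ ha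
    obtain ⟨q, hq⟩ := (hmem a₀).mp ha₀
    obtain ⟨m, q₀, hq₀⟩ := h5_exists_clear π hKO q
    have heq : C π ^ (n + m) * a₀ = g₀ * q₀ := by
      apply Polynomial.map_injective _ hOK
      simp only [Polynomial.map_mul, Polynomial.map_pow, map_C]
      rw [hq, hg₀p, ← hq₀, C_pow, C_pow, pow_add]
      ring
    refine ⟨ψ (C π) ^ (n + m) * ψ u, ?_, ψ q₀, ?_⟩
    · intro h
      rcases h𝔭.mem_or_mem h with h1 | h1
      · exact hπ𝔭 (h𝔭.mem_of_pow_mem _ h1)
      · exact h𝔭.ne_top (Ideal.eq_top_of_isUnit_mem _ h1 hu)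
    · rw [mul_assoc, mul_comm (ψ u) a, hau, ← map_pow, ← map_mul, heq, map_mul]
  -- unramifiedness at the places over `𝔭`
  have hunr : ∀ v : Place K F, (∀ a, algebraMap A F a ∈ v.toValuationSubring) →
      (∀ s ∉ 𝔭, (algebraMap A F s)⁻¹ ∈ v.toValuationSubring) →
      0 < v.ord (algebraMap A F (ψ g₀)) → v.ord (algebraMap A F (ψ g₀)) = 1 := by
    intro v _ _ hpos
    have hgF : algebraMap A F (ψ g₀) = algebraMap K F (algebraMap O K π ^ n) * aeval t p := by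
      rw [hcompat, hg₀p, map_mul, aeval_C]
    have hp0 : aeval t p ≠ 0 := by
      intro h
      rw [hgF, h, mul_zero, v.ord_zero] at hpos
      exact lt_irrefl _ hpos
    have hc0 : algebraMap K F (algebraMap O K π ^ n) ≠ 0 :=
      (map_ne_zero_iff _ hKFinj).mpr (pow_ne_zero _ hπK)
    have hord : v.ord (algebraMap A F (ψ g₀)) = v.ord (aeval t p) := by
      rw [hgF, v.ord_mul hc0 hp0, h5_ord_algebraMap, zero_add]
    rw [hord] at hpos ⊢
    refine h5_ord_eq_one ι hι t v p hsep ?_ hpos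
    intro P _ c hc hposc
    apply hH3 P c hposc
    intro hQc
    have hcint : IsIntegral K c := Algebra.IsIntegral.isIntegral c
    have h1 : minpoly K c ∣ p := minpoly.dvd K c (by
      rw [aeval_def, ← eval_map]
      exact hc)
    have h2 : p ∣ minpoly K c := (minpoly.irreducible hcint).dvd_symm hpirr h1
    have h3 : minpoly K c ∣ Q.map (algebraMap O K) := minpoly.dvd K c (by
      rw [aeval_def, eval₂_map]
      exact hQc)
    have h4 : Q ∈ 𝔭₀ := (hmem Q).mpr (h2.trans h3)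
    exact hQ 𝔭 h𝔭 hπ𝔭 hs𝔭 h4
  -- reducedness of the fibre and the discriminant
  have hτ : algebraMap A F (ψ X) = t := by
    rw [hcompat, Polynomial.map_X, aeval_X]
  have hfin : FiniteDimensional (IntermediateField.adjoin K {algebraMap A F (ψ X)}) F := by
    rw [hτ]
    infer_instance
  exact h5_discr_notMem b 𝔭 hchar
    (fun x hx => h5_hred hAinj hBinj hBint (ψ X) 𝔭 (ψ g₀) hg hgen hKA hunr x hx)

/-- The hypothesis `hQ` of `h5_hhor` when the branch polynomial is a unit times powers of `π`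
and `s` in `A`. -/
theorem h5_hQ_of_eq (π : O) (ψ : O[X] →+* A) (Q : O[X]) (s u : A) (hu : IsUnit u) (k m : ℕ)
    (h : ψ Q = u * ψ (C π) ^ m * s ^ k) :
    ∀ 𝔭 : Ideal A, 𝔭.IsPrime → ψ (C π) ∉ 𝔭 → s ∉ 𝔭 → ψ Q ∉ 𝔭 := by
  intro 𝔭 h𝔭 hπ𝔭 hs𝔭 hQ
  rw [h] at hQ
  rcases h𝔭.mem_or_mem hQ with h1 | h1
  · rcases h𝔭.mem_or_mem h1 with h2 | h2
    · exact h𝔭.ne_top (Ideal.eq_top_of_isUnit_mem _ h2 hu)
    · exact hπ𝔭 (h𝔭.mem_of_pow_mem _ h2)
  · exact hs𝔭 (h𝔭.mem_of_pow_mem _ h1)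

end Main

end Fermat.Agent.S18x.IG.H5
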