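import Mathlib
import Fermat.Prelude.Def_AlgebraicCurve_DivisorClassGroup
import Fermat.Agent.S18x.IG.Defs
import Fermat.Agent.S18x.IG.H5_HorDiscr

/-!
# S18 [IG] (HOR-INST), generic part (helper5): `hred` of `ig_hSMChart` for a chart

* `h5_hred_frac` : the reducedness of the fibre of `B` over a prime `𝔭 ≠ ⊥` of a ring of
  fractions `A` of `O[X]` with `π ∉ 𝔭` and `Q ∉ 𝔭` (`Q` the branch polynomial), from the
  geometric unramifiedness `hH3` (the core of `h5_hhor`, in element form).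
* `h5_hred_chart` : the same for `A = O[X]`, `B = chart O x`, in the spelling of
  `ig_hSMChart` (`chartHom O x`), including the prime `𝔭 = ⊥`.
* `h5_hred_chart_pair` : the form with a set `Z = {c₁, c₂}` of branch values.
-/

namespace Fermat.Agent.S18x.IG.H5

open Polynomial AlgebraicCurve Module

section Frac

variable {O K L F E A B : Type*} [CommRing O] [Field K] [Algebra O K] [CharZero K]
  [Field L] [Algebra K L] [Algebra.IsIntegral K L] [CharZero L] [IsAlgClosed L]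
  [Field F] [Algebra K F] [Field E] [Algebra L E]
  [CommRing A] [CommRing B] [Algebra A B] [Algebra A F] [Algebra B F] [IsScalarTower A B F]
  [Algebra.IsIntegral A B]

/-- **(HOR), element form at one prime.** -/
theorem h5_hred_frac (hOK : Function.Injective (algebraMap O K)) (π : O)
    (hKO : ∀ c : K, ∃ (a : O) (n : ℕ), c * algebraMap O K π ^ n = algebraMap O K a)
    (ψ : O[X] →+* A) (hψ : ∀ a : A, ∃ a₀ u : O[X], IsUnit (ψ u) ∧ a * ψ u = ψ a₀)
    (t : F) (hcompat : ∀ P : O[X], algebraMap A F (ψ P) = aeval t (P.map (algebraMap O K)))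
    (hAinj : Function.Injective (algebraMap A F)) (hBinj : Function.Injective (algebraMap B F))
    (hBint : ∀ y : F, IsIntegral A y → ∃ b : B, algebraMap B F b = y)
    [FiniteDimensional (IntermediateField.adjoin K {t}) F]
    (ι : F →+* E) (hι : ∀ a : K, ι (algebraMap K F a) = algebraMap L E (algebraMap K L a))
    [FiniteDimensional (IntermediateField.adjoin L {ι t}) E]
    (Q : O[X])
    (hH3 : ∀ (P : Place L E) (c : L), 0 < P.ord (ι t - algebraMap L E c) →
      Polynomial.eval₂ ((algebraMap K L).comp (algebraMap O K)) c Q ≠ 0 →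
        P.ord (ι t - algebraMap L E c) = 1)
    (𝔭 : Ideal A) (h𝔭 : 𝔭.IsPrime) (hπ𝔭 : ψ (C π) ∉ 𝔭) (hQ𝔭 : ψ Q ∉ 𝔭) (hbot : 𝔭 ≠ ⊥)
    (x : B) (hx : x * x ∈ Ideal.map (algebraMap A B) 𝔭) :
    ∃ s : A, s ∉ 𝔭 ∧ algebraMap A B s * x ∈ Ideal.map (algebraMap A B) 𝔭 := by
  have hψC : ∀ x : O, algebraMap A F (ψ (C x)) = algebraMap K F (algebraMap O K x) := by
    intro x
    rw [hcompat, map_C, aeval_C]
  have hKFinj : Function.Injective (algebraMap K F) := (algebraMap K F).injective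
  have hπ0 : π ≠ 0 := by
    rintro rfl
    exact hπ𝔭 (by simp)
  have hπK : algebraMap O K π ≠ 0 := (map_ne_zero_iff _ hOK).mpr hπ0
  -- the prime of `O[X]`
  set 𝔭₀ : Ideal O[X] := 𝔭.comap ψ with h𝔭₀
  have h𝔭₀p : 𝔭₀.IsPrime := Ideal.comap_isPrime ψ 𝔭
  have hπ₀ : C π ∉ 𝔭₀ := hπ𝔭
  have h𝔭₀0 : 𝔭₀ ≠ ⊥ := by
    intro h
    apply hbot
    rw [eq_bot_iff]
    intro a ha
    obtain ⟨a₀, u, hu, hau⟩ := hψ a
    have h1 : a₀ ∈ 𝔭₀ := by
      rw [h𝔭₀, Ideal.mem_comap, ← hau]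
      exact 𝔭.mul_mem_right _ ha
    rw [h, Ideal.mem_bot] at h1
    rw [h1, map_zero] at hau
    rw [Ideal.mem_bot]
    exact (hu.mul_left_eq_zero).mp hau
  obtain ⟨p, hpirr, ⟨g₀, hg₀, n, hg₀p⟩, hmem⟩ :=
    h5_exists_irreducible hOK π hKO 𝔭₀ h𝔭₀p hπ₀ h𝔭₀0
  have hsep : p.Separable := hpirr.separable
  -- `K ⊆ A_𝔭`
  have hKA : ∀ c : K, ∃ a s : A, s ∉ 𝔭 ∧
      algebraMap K F c * algebraMap A F s = algebraMap A F a := by
    intro c
    obtain ⟨a, m, h⟩ := hKO c
    refine ⟨ψ (C a), ψ (C π) ^ m, fun h' => hπ𝔭 (h𝔭.mem_of_pow_mem _ h'), ?_⟩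
    rw [map_pow, hψC, hψC, ← map_pow, ← map_mul, h]
  -- the generator of `𝔭 A_𝔭`
  have hg : ψ g₀ ∈ 𝔭 := hg₀
  have hgen : ∀ a ∈ 𝔭, ∃ s, s ∉ 𝔭 ∧ ∃ c, s * a = ψ g₀ * c := by
    intro a ha
    obtain ⟨a₀, u, hu, hau⟩ := hψ a
    have ha₀ : a₀ ∈ 𝔭₀ := by
      rw [h𝔭₀, Ideal.mem_comap, ← hau]
      exact 𝔭.mul_mem_right _ ha
    obtain ⟨q, hq⟩ := (hmem a₀).mp ha₀
    obtain ⟨m, q₀, hq₀⟩ := h5_exists_clear π hKO q
    have heq : C π ^ (n + m) * a₀ = g₀ * q₀ := by
      apply Polynomial.map_injective _ hOK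
      simp only [Polynomial.map_mul, Polynomial.map_pow, map_C]
      rw [hq, hg₀p, ← hq₀, C_pow, C_pow, pow_add]
      ring
    refine ⟨ψ (C π) ^ (n + m) * ψ u, ?_, ψ q₀, ?_⟩
    · intro h
      rcases h𝔭.mem_or_mem h with h1 | h1
      · exact hπ𝔭 (h𝔭.mem_of_pow_mem _ h1)
      · exact h𝔭.ne_top (Ideal.eq_top_of_isUnit_mem _ h1 hu)
    · rw [mul_assoc, mul_comm (ψ u) a, hau, ← map_pow, ← map_mul, heq, map_mul]
  -- unramifiedness at the places over `𝔭`
  have hunr : ∀ v : Place K F, (∀ a, algebraMap A F a ∈ v.toValuationSubring) →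
      (∀ s ∉ 𝔭, (algebraMap A F s)⁻¹ ∈ v.toValuationSubring) →
      0 < v.ord (algebraMap A F (ψ g₀)) → v.ord (algebraMap A F (ψ g₀)) = 1 := by
    intro v _ _ hpos
    have hgF : algebraMap A F (ψ g₀) = algebraMap K F (algebraMap O K π ^ n) * aeval t p := by
      rw [hcompat, hg₀p, map_mul, aeval_C]
    have hp0 : aeval t p ≠ 0 := by
      intro h
      rw [hgF, h, mul_zero, v.ord_zero] at hpos
      exact lt_irrefl _ hpos
    have hc0 : algebraMap K F (algebraMap O K π ^ n) ≠ 0 :=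
      (map_ne_zero_iff _ hKFinj).mpr (pow_ne_zero _ hπK)
    have hord : v.ord (algebraMap A F (ψ g₀)) = v.ord (aeval t p) := by
      rw [hgF, v.ord_mul hc0 hp0, h5_ord_algebraMap, zero_add]
    rw [hord] at hpos ⊢
    refine h5_ord_eq_one ι hι t v p hsep ?_ hpos
    intro P _ c hc hposc
    apply hH3 P c hposc
    intro hQc
    have hcint : IsIntegral K c := Algebra.IsIntegral.isIntegral c
    have h1 : minpoly K c ∣ p := minpoly.dvd K c (by
      rw [aeval_def, ← eval_map]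
      exact hc)
    have h2 : p ∣ minpoly K c := (minpoly.irreducible hcint).dvd_symm hpirr h1
    have h3 : minpoly K c ∣ Q.map (algebraMap O K) := minpoly.dvd K c (by
      rw [aeval_def, eval₂_map]
      exact hQc)
    have h4 : Q ∈ 𝔭₀ := (hmem Q).mpr (h2.trans h3)
    exact hQ𝔭 h4
  -- reducedness of the fibre
  have hτ : algebraMap A F (ψ X) = t := by
    rw [hcompat, Polynomial.map_X, aeval_X]
  have hfin : FiniteDimensional (IntermediateField.adjoin K {algebraMap A F (ψ X)}) F := by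
    rw [hτ]
    infer_instance
  exact h5_hred hAinj hBinj hBint (ψ X) 𝔭 (ψ g₀) hg hgen hKA hunr x hx

end Frac

section Chart

open Fermat.Agent.S18x.Spec.H26

variable {O K L F E : Type*} [CommRing O] [Field K] [Algebra O K] [CharZero K]
  [Field L] [Algebra K L] [Algebra.IsIntegral K L] [CharZero L] [IsAlgClosed L]
  [Field F] [Algebra O F] [Algebra K F] [IsScalarTower O K F] [Field E] [Algebra L E]

/-- An element of `F` integral over `O[X]` (acting through `X ↦ x`) lies in the chart. -/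
theorem h5_mem_chart_of_isIntegralElem (x y : F)
    (hy : ((aeval x : O[X] →ₐ[O] F) : O[X] →+* F).IsIntegralElem y) : y ∈ chart O x := by
  obtain ⟨p, hp, hpy⟩ := hy
  let φ : O[X] →+* ↥(Algebra.adjoin O {x}) :=
    ((aeval x : O[X] →ₐ[O] F).codRestrict (Algebra.adjoin O {x})
      (fun P => aeval_mem_adjoin_singleton O x) : O[X] →ₐ[O] ↥(Algebra.adjoin O {x}))
  refine ⟨p.map φ, hp.map φ, ?_⟩
  rw [eval₂_map]
  exact hpy

/-- **(HOR-INST), generic chart form**: `hred` of `ig_hSMChart` at one prime `𝔭` of `O[X]`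
with `π₀ ∉ 𝔭` and `Q ∉ 𝔭`. -/
theorem h5_hred_chart (hOK : Function.Injective (algebraMap O K)) (π₀ : O)
    (hKO : ∀ c : K, ∃ (a : O) (n : ℕ), c * algebraMap O K π₀ ^ n = algebraMap O K a)
    (x : F) (hx : Transcendental O x)
    (hint : letI := chartAlgebra O x; Algebra.IsIntegral O[X] ↥(chart O x).toSubring)
    [FiniteDimensional (IntermediateField.adjoin K {x}) F]
    (ι : F →+* E) (hι : ∀ a : K, ι (algebraMap K F a) = algebraMap L E (algebraMap K L a))
    [FiniteDimensional (IntermediateField.adjoin L {ι x}) E]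
    (Q : O[X])
    (hH3 : ∀ (P : Place L E) (c : L), 0 < P.ord (ι x - algebraMap L E c) →
      Polynomial.eval₂ ((algebraMap K L).comp (algebraMap O K)) c Q ≠ 0 →
        P.ord (ι x - algebraMap L E c) = 1)
    (𝔭 : Ideal O[X]) (h𝔭 : 𝔭.IsPrime) (hπ : C π₀ ∉ 𝔭) (hQ : Q ∉ 𝔭)
    (y : ↥(chart O x).toSubring) (hy : y * y ∈ 𝔭.map (chartHom O x)) :
    ∃ a : O[X], a ∉ 𝔭 ∧ chartHom O x a * y ∈ 𝔭.map (chartHom O x) := by
  by_cases hbot : 𝔭 = ⊥
  · subst hbot
    rw [Ideal.map_bot, Ideal.mem_bot] at hy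
    have hy0 : y = 0 := by
      rcases mul_eq_zero.mp hy with h | h <;> exact h
    refine ⟨1, (Ideal.ne_top_iff_one _).mp h𝔭.ne_top, ?_⟩
    rw [hy0, mul_zero]
    exact Ideal.zero_mem _
  let _ : Algebra O[X] ↥(chart O x).toSubring := chartAlgebra O x
  let _ : Algebra O[X] F := ((aeval x : O[X] →ₐ[O] F) : O[X] →+* F).toAlgebra
  have hAF : ∀ P : O[X], algebraMap O[X] F P = aeval x P := fun P => rfl
  have hBF : ∀ b : ↥(chart O x).toSubring, algebraMap ↥(chart O x).toSubring F b = (b : F) :=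
    fun b => rfl
  have htower : IsScalarTower O[X] ↥(chart O x).toSubring F :=
    IsScalarTower.of_algebraMap_eq (fun P => by
      rw [hAF, hBF]
      exact (coe_chartHom O x P).symm)
  have hint' : Algebra.IsIntegral O[X] ↥(chart O x).toSubring := hint
  exact h5_hred_frac (A := O[X]) (B := ↥(chart O x).toSubring) hOK π₀ hKO (RingHom.id O[X])
    (fun a => ⟨a, 1, by simp, by simp⟩) x
    (fun P => by
      rw [RingHom.id_apply, hAF, aeval_map_algebraMap])
    (fun P Q h => (transcendental_iff_injective.mp hx) h)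
    (fun a b h => Subtype.ext h)
    (fun z hz => ⟨⟨z, h5_mem_chart_of_isIntegralElem x z hz⟩, rfl⟩)
    ι hι Q hH3 𝔭 h𝔭 hπ hQ hbot y hy

/-- **(HOR-INST), generic chart form with two branch values** `c₁, c₂ ∈ Z`: the argument
`hred` of `ig_hSMChart`. -/
theorem h5_hred_chart_pair (hOK : Function.Injective (algebraMap O K)) (π₀ : O)
    (hKO : ∀ c : K, ∃ (a : O) (n : ℕ), c * algebraMap O K π₀ ^ n = algebraMap O K a)
    (x : F) (hx : Transcendental O x)
    (hint : letI := chartAlgebra O x; Algebra.IsIntegral O[X] ↥(chart O x).toSubring)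
    [FiniteDimensional (IntermediateField.adjoin K {x}) F]
    (ι : F →+* E) (hι : ∀ a : K, ι (algebraMap K F a) = algebraMap L E (algebraMap K L a))
    [FiniteDimensional (IntermediateField.adjoin L {ι x}) E]
    (Z : Set O) (c₁ c₂ : O) (h₁ : c₁ ∈ Z) (h₂ : c₂ ∈ Z)
    (hH3 : ∀ (P : Place L E) (c : L), 0 < P.ord (ι x - algebraMap L E c) →
      c ≠ algebraMap K L (algebraMap O K c₁) → c ≠ algebraMap K L (algebraMap O K c₂) →
        P.ord (ι x - algebraMap L E c) = 1) :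
    ∀ 𝔭 : Ideal O[X], 𝔭.IsPrime → C π₀ ∉ 𝔭 → (∀ c ∈ Z, X - C c ∉ 𝔭) →
      ∀ y : ↥(chart O x).toSubring, y * y ∈ 𝔭.map (chartHom O x) →
        ∃ a : O[X], a ∉ 𝔭 ∧ chartHom O x a * y ∈ 𝔭.map (chartHom O x) := by
  intro 𝔭 h𝔭 hπ hZ y hy
  refine h5_hred_chart hOK π₀ hKO x hx hint ι hι ((X - C c₁) * (X - C c₂)) ?_ 𝔭 h𝔭 hπ ?_ y hy
  · intro P c hpos hQ
    simp only [eval₂_mul, eval₂_sub, eval₂_X, eval₂_C, RingHom.comp_apply] at hQ
    refine hH3 P c hpos ?_ ?_
    · intro h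
      apply hQ
      rw [h, sub_self, zero_mul]
    · intro h
      apply hQ
      rw [h, sub_self, mul_zero]
  · intro h
    rcases h𝔭.mem_or_mem h with h' | h'
    · exact hZ c₁ h₁ h'
    · exact hZ c₂ h₂ h'

end Chart

section Dvr

variable {O K : Type*} [CommRing O] [IsDomain O] [IsDiscreteValuationRing O] [Field K]
  [Algebra O K] [IsFractionRing O K]

/-- `K = O[1 / π₀]` for a discrete valuation ring `O` with uniformiser `π₀`. -/
theorem h5_hKO_of_dvr (π₀ : O) (hπ₀ : Irreducible π₀) (c : K) :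
    ∃ (a : O) (n : ℕ), c * algebraMap O K π₀ ^ n = algebraMap O K a := by
  obtain ⟨a, b, hb, rfl⟩ := IsFractionRing.div_surjective (A := O) c
  have hb0 : b ≠ 0 := nonZeroDivisors.ne_zero hb
  obtain ⟨n, u, hu⟩ := IsDiscreteValuationRing.eq_unit_mul_pow_irreducible hb0 hπ₀
  refine ⟨a * ((u⁻¹ : Oˣ) : O), n, ?_⟩
  have hbK : algebraMap O K b ≠ 0 :=
    (map_ne_zero_iff _ (IsFractionRing.injective O K)).mpr hb0
  have h1 : algebraMap O K b * algebraMap O K ((u⁻¹ : Oˣ) : O) = algebraMap O K π₀ ^ n := by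
    rw [← map_mul, ← map_pow, hu]
    congr 1
    rw [mul_comm, ← mul_assoc, Units.inv_mul, one_mul]
  rw [← h1, map_mul]
  field_simp

end Dvr

end Fermat.Agent.S18x.IG.H5
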