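import Mathlib
import Fermat.Agent.S18x.IG.H5_HorChart
import Fermat.Agent.S18x.IG.H4_HorFinal
import Fermat.Agent.S18x.IG.H28_HmInst
import Fermat.Agent.S18x.IG.H26_ChartAlg

/-!
# S18 [IG] (HOR-INST) (helper5): the hypothesis `hred` of `ig_hSMChart`, hypothesis-free

`K` a field of characteristic zero inside `Qbar`, `O` a discrete valuation subring of `K`,
`F = modularFunctionFieldFullC K M`, `x` the base coordinate (helper29's `coordM`, helper28's
`coord2` / `coord3`) or its inverse, `B = chart O x`.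

* `h5_hred_coordM`, `h5_hred_coordM_inv` : `hred` for a general coordinate `x₀`, from the
  geometric unramifiedness over `Qbar` away from two branch values;
* `h5_hred_two`, `h5_hred_two_inv`, `h5_hred_three`, `h5_hred_three_inv` : the four
  hypothesis-free instances (levels `2`, `3`; charts `h`, `h⁻¹`).
-/

set_option autoImplicit false

noncomputable section

namespace Fermat.Agent.S18x.IG.H5

open Polynomial AlgebraicCurve ModularCurve
open Fermat.Agent.S18x.Spec.H26 Fermat.Agent.S18x.Dict.H22 Fermat.Agent.S18x.IG.H29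

local notation "Lbar" => AlgebraicClosure ℚ

section Geometric

variable (K : Type) [Field K] [Algebra K Lbar] (M : ℕ) [NeZero M]
  (x₀ : LaurentSeries ℤ) (hord : x₀.order = -1) (hlead : x₀.coeff (-1) = 1)
  (hmem : coeffMap (Int.castRingHom K) x₀ ∈ modularFunctionFieldFullC K M)

include hord hlead in
/-- The base coordinate is transcendental over `Qbar`. -/
theorem h5_transcendental_iota :
    Transcendental Lbar (iotaK K M (coordM K M x₀ hmem)) := by
  intro halg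
  have h1 : IsAlgebraic Lbar ((iotaK K M (coordM K M x₀ hmem) : ↥(modularFunctionFieldBar M)) :
      LaurentSeries Lbar) := halg.algebraMap (A := LaurentSeries Lbar)
  refine transcendental_of_order_ne_zero _ ?_ h1
  rw [H4.h4_coe_iotaK_coordM M K x₀ hmem, order_coeffMap (Int.castRingHom Lbar) x₀ hord hlead]
  decide

include hord hlead in
/-- `F_L` is finite over `Qbar(x)`. -/
theorem h5_finiteDimensional_iota :
    FiniteDimensional (IntermediateField.adjoin Lbar {iotaK K M (coordM K M x₀ hmem)})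
      ↥(modularFunctionFieldBar M) := by
  have := Fermat.Agent.S24.Final.finiteDimensional_jF embQbar M
  exact Fermat.Agent.S24.Alg.finiteDimensional_adjoin_of_transcendental
    (Fermat.Agent.S24.Final.transcendental_jF Lbar M)
    (h5_transcendental_iota K M x₀ hord hlead hmem)

include hord hlead in
/-- `F_L` is finite over `Qbar(x⁻¹)`. -/
theorem h5_finiteDimensional_iota_inv :
    FiniteDimensional (IntermediateField.adjoin Lbar {iotaK K M (coordM K M x₀ hmem)⁻¹})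
      ↥(modularFunctionFieldBar M) := by
  rw [map_inv₀, Fermat.Agent.S24.RH.adjoin_inv_eq]
  exact h5_finiteDimensional_iota K M x₀ hord hlead hmem

end Geometric

section Coord

variable {K : Type} [Field K] [CharZero K] [Algebra K Lbar] [Algebra.IsIntegral K Lbar]
  (O : ValuationSubring K) [IsDiscreteValuationRing O] (M : ℕ) [NeZero M]
  [Algebra O ↥(modularFunctionFieldFullC K M)]
  [IsScalarTower O K ↥(modularFunctionFieldFullC K M)]
  (x₀ : LaurentSeries ℤ) (hord : x₀.order = -1) (hlead : x₀.coeff (-1) = 1)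
  (hmem : coeffMap (Int.castRingHom K) x₀ ∈ modularFunctionFieldFullC K M)

include hord hlead in
/-- **(HOR-INST), chart `x`**, for a general base coordinate, from the unramifiedness over
`Qbar` away from the two branch values `c₁, c₂`. -/
theorem h5_hred_coordM (π₀ : O) (hπ₀ : Irreducible π₀) (Z : Set O) (c₁ c₂ : O)
    (h₁ : c₁ ∈ Z) (h₂ : c₂ ∈ Z)
    (hH3 : ∀ (P : Place Lbar ↥(modularFunctionFieldBar M)) (c : Lbar),
      0 < P.ord (iotaK K M (coordM K M x₀ hmem) -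
        algebraMap Lbar ↥(modularFunctionFieldBar M) c) →
      c ≠ algebraMap K Lbar (c₁ : K) → c ≠ algebraMap K Lbar (c₂ : K) →
        P.ord (iotaK K M (coordM K M x₀ hmem) -
          algebraMap Lbar ↥(modularFunctionFieldBar M) c) = 1) :
    ∀ 𝔭 : Ideal O[X], 𝔭.IsPrime → C π₀ ∉ 𝔭 → (∀ c ∈ Z, X - C c ∉ 𝔭) →
      ∀ y : ↥(chart O (coordM K M x₀ hmem)).toSubring,
        y * y ∈ 𝔭.map (chartHom O (coordM K M x₀ hmem)) →
        ∃ a : O[X], a ∉ 𝔭 ∧
          chartHom O (coordM K M x₀ hmem) a * y ∈ 𝔭.map (chartHom O (coordM K M x₀ hmem)) := by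
  have hcz : CharZero ↥(modularFunctionFieldFullC K M) :=
    charZero_of_injective_algebraMap (algebraMap K ↥(modularFunctionFieldFullC K M)).injective
  have hx := transcendental_coordM_O O M x₀ hord hlead hmem
  have hfin := finOver_coordM O M x₀ hord hlead hmem
  have hfd := finiteDimensional_coordM K M x₀ hord hlead hmem
  have hfdL := h5_finiteDimensional_iota K M x₀ hord hlead hmem
  exact h5_hred_chart_pair (IsFractionRing.injective O K) π₀ (h5_hKO_of_dvr π₀ hπ₀)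
    (coordM K M x₀ hmem) hx (H26.chart_isIntegral O hx hfin) (iotaK K M) (iotaK_algebraMap K M)
    Z c₁ c₂ h₁ h₂ hH3

include hord hlead in
/-- **(HOR-INST), chart `x⁻¹`**. -/
theorem h5_hred_coordM_inv (π₀ : O) (hπ₀ : Irreducible π₀) (Z : Set O) (c₁ c₂ : O)
    (h₁ : c₁ ∈ Z) (h₂ : c₂ ∈ Z)
    (hH3 : ∀ (P : Place Lbar ↥(modularFunctionFieldBar M)) (c : Lbar),
      0 < P.ord (iotaK K M (coordM K M x₀ hmem)⁻¹ -
        algebraMap Lbar ↥(modularFunctionFieldBar M) c) →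
      c ≠ algebraMap K Lbar (c₁ : K) → c ≠ algebraMap K Lbar (c₂ : K) →
        P.ord (iotaK K M (coordM K M x₀ hmem)⁻¹ -
          algebraMap Lbar ↥(modularFunctionFieldBar M) c) = 1) :
    ∀ 𝔭 : Ideal O[X], 𝔭.IsPrime → C π₀ ∉ 𝔭 → (∀ c ∈ Z, X - C c ∉ 𝔭) →
      ∀ y : ↥(chart O (coordM K M x₀ hmem)⁻¹).toSubring,
        y * y ∈ 𝔭.map (chartHom O (coordM K M x₀ hmem)⁻¹) →
        ∃ a : O[X], a ∉ 𝔭 ∧
          chartHom O (coordM K M x₀ hmem)⁻¹ a * y ∈
            𝔭.map (chartHom O (coordM K M x₀ hmem)⁻¹) := by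
  have hcz : CharZero ↥(modularFunctionFieldFullC K M) :=
    charZero_of_injective_algebraMap (algebraMap K ↥(modularFunctionFieldFullC K M)).injective
  have hx := transcendental_coordM_inv_O O M x₀ hord hlead hmem
  have hfin := finOver_coordM_inv O M x₀ hord hlead hmem
  have hfd : FiniteDimensional (IntermediateField.adjoin K {(coordM K M x₀ hmem)⁻¹})
      ↥(modularFunctionFieldFullC K M) := by
    rw [Fermat.Agent.S24.RH.adjoin_inv_eq]
    exact finiteDimensional_coordM K M x₀ hord hlead hmem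
  have hfdL := h5_finiteDimensional_iota_inv K M x₀ hord hlead hmem
  exact h5_hred_chart_pair (IsFractionRing.injective O K) π₀ (h5_hKO_of_dvr π₀ hπ₀)
    (coordM K M x₀ hmem)⁻¹ hx (H26.chart_isIntegral O hx hfin) (iotaK K M)
    (iotaK_algebraMap K M) Z c₁ c₂ h₁ h₂ hH3

end Coord

section Levels

variable {K : Type} [Field K] [CharZero K] [Algebra K Lbar] [Algebra.IsIntegral K Lbar]
  (O : ValuationSubring K) [IsDiscreteValuationRing O] (M : ℕ) [NeZero M]
  [Algebra O ↥(modularFunctionFieldFullC K M)]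
  [IsScalarTower O K ↥(modularFunctionFieldFullC K M)]

omit [Algebra.IsIntegral K Lbar] [IsDiscreteValuationRing O] in
/-- The image in `Qbar` of an element of `O` killed by `n * X + 1`. -/
theorem h5_ne_of_mul_add_one (n : ℕ) (hn : n ≠ 0) (c₂ : O) (hc₂ : (n : O) * c₂ + 1 = 0)
    (c : Lbar) (hc : c ≠ algebraMap K Lbar (c₂ : K)) : (n : Lbar) * c + 1 ≠ 0 := by
  intro h
  apply hc
  have h1 : (n : Lbar) * algebraMap K Lbar (c₂ : K) + 1 = 0 := by
    have h2 : algebraMap K Lbar ((n : K) * (c₂ : K) + 1) = 0 := by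
      have h3 : (((n : O) * c₂ + 1 : O) : K) = 0 := by rw [hc₂]; rfl
      have h4 : (((n : O) * c₂ + 1 : O) : K) = (n : K) * (c₂ : K) + 1 := rfl
      rw [← h4, h3, map_zero]
    rwa [map_add, map_mul, map_natCast, map_one] at h2
  have hn0 : (n : Lbar) ≠ 0 := Nat.cast_ne_zero.mpr hn
  apply mul_left_cancel₀ hn0
  linear_combination h - h1

/-- **(HOR-INST), level 2, chart `h`**: `hred` of `ig_hSMChart` for `Z ∋ 0, -64`. -/
theorem h5_hred_two (hM : 2 ∣ M) (π₀ : O) (hπ₀ : Irreducible π₀) (Z : Set O)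
    (h0 : (0 : O) ∈ Z) (h64 : (-64 : O) ∈ Z) :
    ∀ 𝔭 : Ideal O[X], 𝔭.IsPrime → C π₀ ∉ 𝔭 → (∀ c ∈ Z, X - C c ∉ 𝔭) →
      ∀ y : ↥(chart O (H28.coord2 K M hM)).toSubring,
        y * y ∈ 𝔭.map (chartHom O (H28.coord2 K M hM)) →
        ∃ a : O[X], a ∉ 𝔭 ∧
          chartHom O (H28.coord2 K M hM) a * y ∈ 𝔭.map (chartHom O (H28.coord2 K M hM)) := by
  refine h5_hred_coordM O M H28.h2 H28.order_h2 H28.coeff_h2_neg_one (H28.h2_mem_full K M hM)
    π₀ hπ₀ Z 0 (-64) h0 h64 ?_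
  intro P c hpos hc0 hc64
  refine H4.h4_unr_two M _ (H4.h4_coe_iotaK_coordM M K H28.h2 _) P c ?_ ?_ hpos
  · simpa using hc0
  · intro h
    apply hc64
    rw [h]
    change (-64 : Lbar) = algebraMap K Lbar (-64 : K)
    rw [map_neg, map_ofNat]

/-- **(HOR-INST), level 2, chart `h⁻¹`**: `hred` of `ig_hSMChart` for `Z ∋ 0, c₂` with
`64 * c₂ + 1 = 0`. -/
theorem h5_hred_two_inv (hM : 2 ∣ M) (π₀ : O) (hπ₀ : Irreducible π₀) (Z : Set O)
    (h0 : (0 : O) ∈ Z) (c₂ : O) (hc₂ : 64 * c₂ + 1 = 0) (h₂ : c₂ ∈ Z) :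
    ∀ 𝔭 : Ideal O[X], 𝔭.IsPrime → C π₀ ∉ 𝔭 → (∀ c ∈ Z, X - C c ∉ 𝔭) →
      ∀ y : ↥(chart O (H28.coord2 K M hM)⁻¹).toSubring,
        y * y ∈ 𝔭.map (chartHom O (H28.coord2 K M hM)⁻¹) →
        ∃ a : O[X], a ∉ 𝔭 ∧
          chartHom O (H28.coord2 K M hM)⁻¹ a * y ∈
            𝔭.map (chartHom O (H28.coord2 K M hM)⁻¹) := by
  refine h5_hred_coordM_inv O M H28.h2 H28.order_h2 H28.coeff_h2_neg_one
    (H28.h2_mem_full K M hM) π₀ hπ₀ Z 0 c₂ h0 h₂ ?_
  intro P c hpos hc0 hcc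
  rw [H4.h4_iotaK_inv] at hpos ⊢
  refine H4.h4_unr_inv_two M _ (H4.h4_coe_iotaK_coordM M K H28.h2 _) P c ?_ ?_ hpos
  · simpa using hc0
  · have := h5_ne_of_mul_add_one O 64 (by norm_num) c₂ (by exact_mod_cast hc₂) c hcc
    exact_mod_cast this

/-- **(HOR-INST), level 3, chart `h`**: `hred` of `ig_hSMChart` for `Z ∋ 0, -27`. -/
theorem h5_hred_three (hM : 3 ∣ M) (π₀ : O) (hπ₀ : Irreducible π₀) (Z : Set O)
    (h0 : (0 : O) ∈ Z) (h27 : (-27 : O) ∈ Z) :
    ∀ 𝔭 : Ideal O[X], 𝔭.IsPrime → C π₀ ∉ 𝔭 → (∀ c ∈ Z, X - C c ∉ 𝔭) →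
      ∀ y : ↥(chart O (H28.coord3 K M hM)).toSubring,
        y * y ∈ 𝔭.map (chartHom O (H28.coord3 K M hM)) →
        ∃ a : O[X], a ∉ 𝔭 ∧
          chartHom O (H28.coord3 K M hM) a * y ∈ 𝔭.map (chartHom O (H28.coord3 K M hM)) := by
  refine h5_hred_coordM O M H28.h3 H28.order_h3 H28.coeff_h3_neg_one (H28.h3_mem_full K M hM)
    π₀ hπ₀ Z 0 (-27) h0 h27 ?_
  intro P c hpos hc0 hc27
  refine H4.h4_unr_three M _ (H4.h4_coe_iotaK_coordM M K H28.h3 _) P c ?_ ?_ hpos
  · simpa using hc0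
  · intro h
    apply hc27
    rw [h]
    change (-27 : Lbar) = algebraMap K Lbar (-27 : K)
    rw [map_neg, map_ofNat]

/-- **(HOR-INST), level 3, chart `h⁻¹`**: `hred` of `ig_hSMChart` for `Z ∋ 0, c₂` with
`27 * c₂ + 1 = 0`. -/
theorem h5_hred_three_inv (hM : 3 ∣ M) (π₀ : O) (hπ₀ : Irreducible π₀) (Z : Set O)
    (h0 : (0 : O) ∈ Z) (c₂ : O) (hc₂ : 27 * c₂ + 1 = 0) (h₂ : c₂ ∈ Z) :
    ∀ 𝔭 : Ideal O[X], 𝔭.IsPrime → C π₀ ∉ 𝔭 → (∀ c ∈ Z, X - C c ∉ 𝔭) →
      ∀ y : ↥(chart O (H28.coord3 K M hM)⁻¹).toSubring,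
        y * y ∈ 𝔭.map (chartHom O (H28.coord3 K M hM)⁻¹) →
        ∃ a : O[X], a ∉ 𝔭 ∧
          chartHom O (H28.coord3 K M hM)⁻¹ a * y ∈
            𝔭.map (chartHom O (H28.coord3 K M hM)⁻¹) := by
  refine h5_hred_coordM_inv O M H28.h3 H28.order_h3 H28.coeff_h3_neg_one
    (H28.h3_mem_full K M hM) π₀ hπ₀ Z 0 c₂ h0 h₂ ?_
  intro P c hpos hc0 hcc
  rw [H4.h4_iotaK_inv] at hpos ⊢
  refine H4.h4_unr_inv_three M _ (H4.h4_coe_iotaK_coordM M K H28.h3 _) P c ?_ ?_ hpos
  · simpa using hc0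
  · have := h5_ne_of_mul_add_one O 27 (by norm_num) c₂ (by exact_mod_cast hc₂) c hcc
    exact_mod_cast this

end Levels

end Fermat.Agent.S18x.IG.H5
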