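import Mathlib

/-!
# S18 [IG] (HM-F), generic core (helper21): a degree criterion for `K(h) ≤ F`

Mathlib only.  `E ≤ F ≤ K(h)` intermediate fields of `L / K`; if `h` is a root of a monic
polynomial over `E` of degree `≤ [F : E]`, then `K(h) = F`, in particular `h ∈ F`.
-/

set_option autoImplicit false

namespace Fermat.Agent.S18x.IG.H21

open IntermediateField Polynomial

/-- **Degree criterion.** `E ≤ F ≤ K(h)`, `h` a root of a monic `f ∈ E[X]` with
`deg f ≤ [F : E]`: then `K(h) ≤ F`. -/
theorem h21_adjoin_le_of_degree {K L : Type*} [Field K] [Field L] [Algebra K L]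
    (E F : IntermediateField K L) (h : L)
    (hEF : E ≤ F) (hFG : F ≤ IntermediateField.adjoin K {h})
    (f : Polynomial E) (hf : f.Monic) (hroot : Polynomial.aeval h f = 0)
    (hdeg : f.natDegree ≤ IntermediateField.relfinrank E F) :
    IntermediateField.adjoin K {h} ≤ F := by
  have hEG : E ≤ IntermediateField.adjoin K {h} := hEF.trans hFG
  have hint : IsIntegral E h := ⟨f, hf, hroot⟩
  have h1 : IntermediateField.relfinrank E (IntermediateField.adjoin K {h})
      = (minpoly E h).natDegree := by
    rw [IntermediateField.relfinrank_eq_finrank_of_le hEG,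
      IntermediateField.extendScalars_adjoin hEG]
    exact IntermediateField.adjoin.finrank hint
  have h2 : (minpoly E h).natDegree ≤ f.natDegree :=
    Polynomial.natDegree_le_of_dvd (minpoly.dvd E h hroot) hf.ne_zero
  have h3 : 0 < (minpoly E h).natDegree := minpoly.natDegree_pos hint
  have h4 := IntermediateField.relfinrank_mul_relfinrank hEF hFG
  rw [h1] at h4
  set a := IntermediateField.relfinrank E F with ha
  set b := IntermediateField.relfinrank F (IntermediateField.adjoin K {h}) with hb
  have hab : a * b ≤ a := by
    rw [h4]; exact h2.trans hdeg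
  have hab0 : 0 < a * b := by rw [h4]; exact h3
  have ha0 : 0 < a := by
    rcases Nat.eq_zero_or_pos a with h0 | h0
    · rw [h0, zero_mul] at hab0; exact absurd hab0 (lt_irrefl _)
    · exact h0
  have hb1 : b = 1 := by
    rcases Nat.eq_zero_or_pos b with h0 | h0
    · rw [h0, mul_zero] at hab0; exact absurd hab0 (lt_irrefl _)
    · have h5 : a * b ≤ a * 1 := by rw [mul_one]; exact hab
      have h6 := Nat.le_of_mul_le_mul_left h5 ha0
      omega
  exact IntermediateField.relfinrank_eq_one_iff.mp hb1

/-- The same with the conclusion `h ∈ F`. -/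
theorem h21_mem_of_degree {K L : Type*} [Field K] [Field L] [Algebra K L]
    (E F : IntermediateField K L) (h : L)
    (hEF : E ≤ F) (hFG : F ≤ IntermediateField.adjoin K {h})
    (f : Polynomial E) (hf : f.Monic) (hroot : Polynomial.aeval h f = 0)
    (hdeg : f.natDegree ≤ IntermediateField.relfinrank E F) :
    h ∈ F :=
  h21_adjoin_le_of_degree E F h hEF hFG f hf hroot hdeg
    (IntermediateField.mem_adjoin_simple_self K h)

/-- The monic polynomial `N - j D` over a field `E ∋ j` (`N` monic, `deg D < deg N`). -/
theorem h21_monic_sub {K L : Type*} [Field K] [Field L] [Algebra K L]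
    (E : IntermediateField K L) (j : E) (N D : Polynomial K) (hN : N.Monic)
    (hdeg : D.natDegree < N.natDegree) :
    (N.map (algebraMap K E) - Polynomial.C j * D.map (algebraMap K E)).Monic ∧
      (N.map (algebraMap K E) - Polynomial.C j * D.map (algebraMap K E)).natDegree
        = N.natDegree := by
  have hNm : (N.map (algebraMap K E)).Monic := hN.map _
  have hNd : (N.map (algebraMap K E)).natDegree = N.natDegree :=
    Polynomial.natDegree_map_eq_of_injective (algebraMap K E).injective N
  have hDd : (Polynomial.C j * D.map (algebraMap K E)).natDegree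
      < (N.map (algebraMap K E)).natDegree := by
    rw [hNd]
    refine lt_of_le_of_lt (Polynomial.natDegree_C_mul_le _ _) ?_
    exact lt_of_le_of_lt (Polynomial.natDegree_map_le) hdeg
  have hDdeg : (Polynomial.C j * D.map (algebraMap K E)).degree
      < (N.map (algebraMap K E)).degree := by
    rcases eq_or_ne (Polynomial.C j * D.map (algebraMap K E)) 0 with h0 | h0
    · rw [h0, Polynomial.degree_zero]
      exact bot_lt_iff_ne_bot.mpr (fun hb => hNm.ne_zero (Polynomial.degree_eq_bot.mp hb))
    · rw [Polynomial.degree_eq_natDegree h0, Polynomial.degree_eq_natDegree hNm.ne_zero]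
      exact_mod_cast hDd
  refine ⟨hNm.sub_of_left hDdeg, ?_⟩
  rw [Polynomial.natDegree_sub_eq_left_of_natDegree_lt hDd, hNd]

/-- **(HM-F), abstract form.** `E = K(j) ≤ F ≤ K(h)` with `j D(h) = N(h)`, `N` monic,
`deg D < deg N ≤ [F : K(j)]`: then `K(h) = F`. -/
theorem h21_adjoin_eq_of_identity {K L : Type*} [Field K] [Field L] [Algebra K L]
    (F : IntermediateField K L) (j h : L) (hjF : j ∈ F)
    (hFG : F ≤ IntermediateField.adjoin K {h})
    (N D : Polynomial K) (hN : N.Monic) (hdeg : D.natDegree < N.natDegree)
    (hid : j * Polynomial.aeval h D = Polynomial.aeval h N)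
    (hrank : N.natDegree ≤ IntermediateField.relfinrank (IntermediateField.adjoin K {j}) F) :
    IntermediateField.adjoin K {h} = F := by
  refine le_antisymm ?_ hFG
  have hEF : IntermediateField.adjoin K {j} ≤ F := by
    rw [IntermediateField.adjoin_le_iff]
    rintro x rfl
    exact hjF
  set E := IntermediateField.adjoin K {j} with hE
  let jE : E := ⟨j, IntermediateField.mem_adjoin_simple_self K j⟩
  obtain ⟨hm, hd⟩ := h21_monic_sub E jE N D hN hdeg
  refine h21_adjoin_le_of_degree E F h hEF hFG _ hm ?_ (hd.le.trans hrank)
  rw [map_sub, map_mul, Polynomial.aeval_C, Polynomial.aeval_map_algebraMap,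
    Polynomial.aeval_map_algebraMap, sub_eq_zero]
  exact hid.symm

end Fermat.Agent.S18x.IG.H21
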