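import Mathlib
import Fermat.Agent.S18x.IG.H21_HmFCore
import Fermat.Agent.S18x.Qepo.H1_Basis
import Fermat.Agent.S28.Deg.H8_Psi
import Fermat.Agent.S28.Deg.H8_T1

/-!
# S18 [IG] (HM-F) (helper21): the Hauptmodul is an element of the modular function field

`K` a field of characteristic `0`, `h : K((q))`.  From the Hauptmodul identities
(hypotheses, exactly helper28's shape)

* level 2: `j h² = (h + 256)³`, `j(q²) h = (h + 16)³`,
* level 3: `j h³ = (h + 243)³ (h + 27)`, `j(q³) h = (h + 27) (h + 3)³`,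

we get `K(h) = K(j, j(q^p))`, hence `h ∈ modularFunctionFieldFullC K M` for `p ∣ M`.
The proof is the degree count `[K(h) : K(j)] ≤ p + 1 = ψ(p) = [K(j, j_p) : K(j)]`.
-/

set_option autoImplicit false

namespace Fermat.Agent.S18x.IG.H21

open ModularCurve IntermediateField Polynomial

/-- `[K(j_d : d ∣ M) : K(j)] = ψ(M)` in characteristic `0`, as a relative degree in `K((q))`. -/
theorem h21_relfinrank_full (K : Type) [Field K] [CharZero K] (M : ℕ) [NeZero M] :
    IntermediateField.relfinrank (IntermediateField.adjoin K {jqModC K})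
      (modularFunctionFieldFullC K M) = Fermat.Agent.S28.Asm.psi M := by
  rw [← (Fermat.Agent.S18x.Qepo.degC_char_zero K M).2,
    Fermat.Agent.S28.Deg.H8.degC_eq_relfinrank]
  rfl

/-- **(HM-F), generic form.** If `j D(h) = N(h)` with `N` monic, `deg D < deg N ≤ ψ(M₀)`, and
all `j(q^d)`, `d ∣ M₀`, lie in `K(h)`, then `K(h) = K(j_d : d ∣ M₀)`. -/
theorem h21_hmF_gen (K : Type) [Field K] [CharZero K] (M₀ : ℕ) [NeZero M₀]
    (h : LaurentSeries K) (N D : Polynomial K) (hN : N.Monic)
    (hdeg : D.natDegree < N.natDegree) (hNdeg : N.natDegree ≤ Fermat.Agent.S28.Asm.psi M₀)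
    (hid : jqModC K * Polynomial.aeval h D = Polynomial.aeval h N)
    (hgen : ∀ (d : ℕ) [NeZero d], d ∣ M₀ →
      qExpand K d (jqModC K) ∈ IntermediateField.adjoin K {h}) :
    IntermediateField.adjoin K {h} = modularFunctionFieldFullC K M₀ := by
  refine h21_adjoin_eq_of_identity (modularFunctionFieldFullC K M₀) (jqModC K) h
    (jqModC_mem_full K M₀) ?_ N D hN hdeg hid ?_
  · rw [modularFunctionFieldFullC, IntermediateField.adjoin_le_iff]
    rintro x ⟨d, hd, hdvd, rfl⟩
    have := hd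
    exact hgen d hdvd
  · rw [h21_relfinrank_full]
    exact hNdeg

/-- membership form of `h21_hmF_gen`, at every level `M` divisible by `M₀` -/
theorem h21_hmF_mem (K : Type) [Field K] [CharZero K] (M₀ : ℕ) [NeZero M₀]
    (h : LaurentSeries K) (N D : Polynomial K) (hN : N.Monic)
    (hdeg : D.natDegree < N.natDegree) (hNdeg : N.natDegree ≤ Fermat.Agent.S28.Asm.psi M₀)
    (hid : jqModC K * Polynomial.aeval h D = Polynomial.aeval h N)
    (hgen : ∀ (d : ℕ) [NeZero d], d ∣ M₀ →
      qExpand K d (jqModC K) ∈ IntermediateField.adjoin K {h})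
    (M : ℕ) [NeZero M] (hM : M₀ ∣ M) :
    h ∈ modularFunctionFieldFullC K M := by
  apply full_degeneracyC_le K hM
  rw [← h21_hmF_gen K M₀ h N D hN hdeg hNdeg hid hgen]
  exact IntermediateField.mem_adjoin_simple_self K h

/-! ### auxiliary: quotients in `K(h)` -/

theorem h21_ofNat_mem {K L : Type*} [Field K] [Field L] [Algebra K L]
    (F : IntermediateField K L) (n : ℕ) [n.AtLeastTwo] : (ofNat(n) : L) ∈ F := by
  have : (ofNat(n) : L) = algebraMap K L (ofNat(n)) := by rw [map_ofNat]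
  rw [this]
  exact F.algebraMap_mem _

theorem h21_ofNat_ne_zero {K L : Type*} [Field K] [CharZero K] [Field L] [Algebra K L]
    (n : ℕ) [n.AtLeastTwo] : (ofNat(n) : L) ≠ 0 := by
  have : (ofNat(n) : L) = algebraMap K L (ofNat(n)) := by rw [map_ofNat]
  rw [this]
  intro h0
  have h1 := (algebraMap K L).injective (h0.trans (map_zero _).symm)
  exact (OfNat.ofNat_ne_zero n) h1

/-- `x * b = a`, `b ≠ 0`, `a, b ∈ F` ⟹ `x ∈ F` -/
theorem h21_mem_of_mul_eq {K L : Type*} [Field K] [Field L] [Algebra K L]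
    (F : IntermediateField K L) (x a b : L) (hb : b ≠ 0) (hbF : b ∈ F) (haF : a ∈ F)
    (h : x * b = a) : x ∈ F := by
  have : x = a * b⁻¹ := by
    rw [← h, mul_assoc, mul_inv_cancel₀ hb, mul_one]
  rw [this]
  exact F.mul_mem haF (F.inv_mem hbF)

/-! ### level 2 -/

section Two

variable (K : Type) [Field K] [CharZero K] (h : LaurentSeries K)

theorem h21_two_ne_zero (h1 : jqModC K * h ^ 2 = (h + 256) ^ 3) : h ≠ 0 := by
  rintro rfl
  rw [zero_add, zero_pow (by norm_num), mul_zero] at h1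
  exact pow_ne_zero 3 (h21_ofNat_ne_zero (K := K) (L := LaurentSeries K) 256) h1.symm

/-- **(HM-F), level 2**: `K(h) = K(j, j(q²))`. -/
theorem h21_hmF_two_eq (h1 : jqModC K * h ^ 2 = (h + 256) ^ 3)
    (h2 : qExpand K 2 (jqModC K) * h = (h + 16) ^ 3) :
    IntermediateField.adjoin K {h} = modularFunctionFieldFullC K 2 := by
  have hne : h ≠ 0 := h21_two_ne_zero K h h1
  have hh : h ∈ IntermediateField.adjoin K {h} := IntermediateField.mem_adjoin_simple_self K h
  have e1 : ((Polynomial.X + Polynomial.C (256 : K)) ^ 3).natDegree = 3 := by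
    rw [Polynomial.natDegree_pow, Polynomial.natDegree_X_add_C]
  refine h21_hmF_gen K 2 h ((Polynomial.X + Polynomial.C 256) ^ 3) (Polynomial.X ^ 2)
    ((Polynomial.monic_X_add_C _).pow 3) ?_ ?_ ?_ ?_
  · rw [e1, Polynomial.natDegree_X_pow]
    norm_num
  · rw [e1, Fermat.Agent.S28.Deg.H8.psi_prime 2 Nat.prime_two]
  · simp only [map_pow, map_add, Polynomial.aeval_X, map_ofNat]
    exact h1
  · intro d hd hdvd
    rcases (Nat.dvd_prime Nat.prime_two).mp hdvd with rfl | rfl
    · rw [qExpand_one_apply]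
      exact h21_mem_of_mul_eq _ _ _ _ (pow_ne_zero 2 hne) (pow_mem hh 2)
        (pow_mem (add_mem hh (h21_ofNat_mem _ 256)) 3) h1
    · exact h21_mem_of_mul_eq _ _ _ _ hne hh
        (pow_mem (add_mem hh (h21_ofNat_mem _ 16)) 3) h2

/-- **(HM-F), level 2**: `h ∈ K(j_d : d ∣ M)` for every even `M`. -/
theorem h21_hmF_two (h1 : jqModC K * h ^ 2 = (h + 256) ^ 3)
    (h2 : qExpand K 2 (jqModC K) * h = (h + 16) ^ 3) (M : ℕ) [NeZero M] (hM : 2 ∣ M) :
    h ∈ modularFunctionFieldFullC K M := by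
  apply full_degeneracyC_le K hM
  rw [← h21_hmF_two_eq K h h1 h2]
  exact IntermediateField.mem_adjoin_simple_self K h

end Two

/-! ### level 3 -/

section Three

variable (K : Type) [Field K] [CharZero K] (h : LaurentSeries K)

theorem h21_three_ne_zero (h1 : jqModC K * h ^ 3 = (h + 243) ^ 3 * (h + 27)) : h ≠ 0 := by
  rintro rfl
  rw [zero_add, zero_add, zero_pow (by norm_num), mul_zero] at h1
  exact mul_ne_zero (pow_ne_zero 3 (h21_ofNat_ne_zero (K := K) (L := LaurentSeries K) 243))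
    (h21_ofNat_ne_zero (K := K) (L := LaurentSeries K) 27) h1.symm

/-- **(HM-F), level 3**: `K(h) = K(j, j(q³))`. -/
theorem h21_hmF_three_eq (h1 : jqModC K * h ^ 3 = (h + 243) ^ 3 * (h + 27))
    (h2 : qExpand K 3 (jqModC K) * h = (h + 27) * (h + 3) ^ 3) :
    IntermediateField.adjoin K {h} = modularFunctionFieldFullC K 3 := by
  have hne : h ≠ 0 := h21_three_ne_zero K h h1
  have hh : h ∈ IntermediateField.adjoin K {h} := IntermediateField.mem_adjoin_simple_self K h
  have e1 : ((Polynomial.X + Polynomial.C (243 : K)) ^ 3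
      * (Polynomial.X + Polynomial.C (27 : K))).natDegree = 4 := by
    rw [Polynomial.Monic.natDegree_mul ((Polynomial.monic_X_add_C _).pow 3)
      (Polynomial.monic_X_add_C _), Polynomial.natDegree_pow, Polynomial.natDegree_X_add_C,
      Polynomial.natDegree_X_add_C]
  refine h21_hmF_gen K 3 h
    ((Polynomial.X + Polynomial.C 243) ^ 3 * (Polynomial.X + Polynomial.C 27))
    (Polynomial.X ^ 3)
    (((Polynomial.monic_X_add_C _).pow 3).mul (Polynomial.monic_X_add_C _)) ?_ ?_ ?_ ?_
  · rw [e1, Polynomial.natDegree_X_pow]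
    norm_num
  · rw [e1, Fermat.Agent.S28.Deg.H8.psi_prime 3 Nat.prime_three]
  · simp only [map_pow, map_add, map_mul, Polynomial.aeval_X, map_ofNat]
    exact h1
  · intro d hd hdvd
    rcases (Nat.dvd_prime Nat.prime_three).mp hdvd with rfl | rfl
    · rw [qExpand_one_apply]
      exact h21_mem_of_mul_eq _ _ _ _ (pow_ne_zero 3 hne) (pow_mem hh 3)
        (mul_mem (pow_mem (add_mem hh (h21_ofNat_mem _ 243)) 3)
          (add_mem hh (h21_ofNat_mem _ 27))) h1
    · exact h21_mem_of_mul_eq _ _ _ _ hne hh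
        (mul_mem (add_mem hh (h21_ofNat_mem _ 27))
          (pow_mem (add_mem hh (h21_ofNat_mem _ 3)) 3)) h2

/-- **(HM-F), level 3**: `h ∈ K(j_d : d ∣ M)` for every `M` divisible by `3`. -/
theorem h21_hmF_three (h1 : jqModC K * h ^ 3 = (h + 243) ^ 3 * (h + 27))
    (h2 : qExpand K 3 (jqModC K) * h = (h + 27) * (h + 3) ^ 3) (M : ℕ) [NeZero M]
    (hM : 3 ∣ M) :
    h ∈ modularFunctionFieldFullC K M := by
  apply full_degeneracyC_le K hM
  rw [← h21_hmF_three_eq K h h1 h2]
  exact IntermediateField.mem_adjoin_simple_self K h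

end Three

end Fermat.Agent.S18x.IG.H21
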