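import Fermat.Agent.S18x.IG.H6_Hmb
import Fermat.Agent.S18x.E.H29_LaurentAlg
import Fermat.Agent.S28.Asm.Defs

/-!
# S18 [IG] (HM-b), prelude instance (helper6)

For a field `K`, a level `m` and `t : K((q))` with `j(q^d) * D_d(t) = N_d(t)` for all `d ∣ m`
(`N_1` monic, `deg D_1 < deg N_1 ≤ degC K m`): `t ∈ K(j_d : d ∣ m)`, `K(j_d : d ∣ m) = K(t)` and
`degC K m = deg N_1`.  Integral form: the identities are given once in `ℤ((q))` and transported to
every field by `coeffMap`.
-/

set_option autoImplicit false
set_option linter.unusedSectionVars false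
set_option linter.style.haveILetI false
set_option synthInstance.maxHeartbeats 400000
set_option maxHeartbeats 1000000

open ModularCurve IntermediateField Polynomial

noncomputable section

namespace Fermat.Agent.S18x.IG.H6

open Fermat.Agent.S28.Asm

theorem h6_aeval_mem_adjoin_simple (K : Type*) [Field K] {E : Type*} [Field E] [Algebra K E]
    (t : E) (P : K[X]) : aeval t P ∈ K⟮t⟯ :=
  IntermediateField.algebra_adjoin_le_adjoin K {t} (Polynomial.aeval_mem_adjoin_singleton K t)

theorem h6_algebraMap_eq_single {R : Type*} [CommRing R] (c : R) :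
    algebraMap R (LaurentSeries R) c = HahnSeries.single 0 c := by
  have h1 : algebraMap R (PowerSeries R) c = PowerSeries.C c := by simp
  rw [HahnSeries.algebraMap_apply', h1, HahnSeries.ofPowerSeries_C]
  rfl

/-- **(HM-b) over a field.** -/
theorem h6_hauptmodul_full (K : Type) [Field K] (m : ℕ) [NeZero m] (t : LaurentSeries K)
    (N D : ℕ → K[X]) (hN : (N 1).Monic) (hdeg : (D 1).natDegree < (N 1).natDegree)
    (hD : ∀ d, d ∣ m → aeval t (D d) ≠ 0)
    (hrel : ∀ (d : ℕ) [NeZero d], d ∣ m →
      qExpand K d (jqModC K) * aeval t (D d) = aeval t (N d))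
    (hpsi : (N 1).natDegree ≤ degC K m) :
    t ∈ modularFunctionFieldFullC K m ∧ modularFunctionFieldFullC K m = K⟮t⟯ ∧
      degC K m = (N 1).natDegree := by
  have hle : modularFunctionFieldFullC K m ≤ K⟮t⟯ := by
    rw [modularFunctionFieldFullC, adjoin_le_iff]
    rintro y ⟨d, hd, hdm, rfl⟩
    haveI := hd
    have h1 := hrel d hdm
    have h2 : qExpand K d (jqModC K) = aeval t (N d) / aeval t (D d) := by
      rw [eq_div_iff (hD d hdm), h1]
    rw [SetLike.mem_coe, h2]
    exact div_mem (h6_aeval_mem_adjoin_simple K t (N d))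
      (h6_aeval_mem_adjoin_simple K t (D d))
  have h1 := hrel 1 (one_dvd m)
  rw [qExpand_one_apply] at h1
  exact h6_hauptmodul (modularFunctionFieldFullC K m) (jbFull K m) t (N 1) (D 1) hN hdeg h1 hle
    hpsi

/-- A Laurent series with a nonzero coefficient in degree `-1` is transcendental. -/
theorem h6_transcendental_of_coeff (K : Type*) [Field K] (t : LaurentSeries K)
    (ht : t.coeff (-1) ≠ 0) : Transcendental K t := by
  intro halg
  obtain ⟨c, hc⟩ := Fermat.Agent.S18x.E.H29.laurent_mem_range_of_isAlgebraic t halg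
  apply ht
  rw [← hc, h6_algebraMap_eq_single, HahnSeries.coeff_single_of_ne (by decide)]

/-- Transport of a polynomial expression along `coeffMap`. -/
theorem h6_coeffMap_aeval {R S : Type*} [CommRing R] [CommRing S] (φ : R →+* S)
    (t : LaurentSeries R) (P : R[X]) :
    coeffMap φ (aeval t P) = aeval (coeffMap φ t) (P.map φ) := by
  induction P using Polynomial.induction_on' with
  | add p q hp hq => rw [map_add, map_add, Polynomial.map_add, map_add, hp, hq]
  | monomial n a =>
    rw [Polynomial.map_monomial, aeval_monomial, aeval_monomial, map_mul, map_pow]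
    congr 1
    rw [h6_algebraMap_eq_single, h6_algebraMap_eq_single, coeffMap_single]

/-- **(HM-b), integral form.** Identities in `ℤ((q))`, conclusion over every field `K` with
`deg N_1 ≤ degC K m`. -/
theorem h6_hauptmodul_int (m : ℕ) [NeZero m] (t₀ : LaurentSeries ℤ) (ht₀ : t₀.coeff (-1) = 1)
    (N D : ℕ → ℤ[X]) (hN : (N 1).Monic) (hDm : ∀ d, d ∣ m → (D d).Monic)
    (hdeg : (D 1).natDegree < (N 1).natDegree)
    (hrel : ∀ (d : ℕ) [NeZero d], d ∣ m →
      qExpand ℤ d (jqModC ℤ) * aeval t₀ (D d) = aeval t₀ (N d))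
    (K : Type) [Field K] (hpsi : (N 1).natDegree ≤ degC K m) :
    coeffMap (Int.castRingHom K) t₀ ∈ modularFunctionFieldFullC K m ∧
      modularFunctionFieldFullC K m = K⟮coeffMap (Int.castRingHom K) t₀⟯ ∧
      degC K m = (N 1).natDegree ∧ Transcendental K (coeffMap (Int.castRingHom K) t₀) := by
  set t := coeffMap (Int.castRingHom K) t₀ with ht
  have htr : Transcendental K t := by
    apply h6_transcendental_of_coeff
    rw [ht, coeffMap_coeff, ht₀, map_one]
    exact one_ne_zero
  have key := h6_hauptmodul_full K m t (fun d => (N d).map (Int.castRingHom K))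
    (fun d => (D d).map (Int.castRingHom K)) (hN.map _)
    (by
      show ((D 1).map (Int.castRingHom K)).natDegree < ((N 1).map (Int.castRingHom K)).natDegree
      rw [(hDm 1 (one_dvd m)).natDegree_map, hN.natDegree_map]
      exact hdeg)
    (by
      intro d hd h0
      exact htr ⟨(D d).map (Int.castRingHom K), ((hDm d hd).map _).ne_zero, h0⟩)
    (by
      intro d _ hd
      have h1 := congrArg (coeffMap (Int.castRingHom K)) (hrel d hd)
      rw [map_mul, coeffMap_qExpand, coeffMap_jqModC, h6_coeffMap_aeval, h6_coeffMap_aeval] at h1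
      exact h1)
    (by
      show ((N 1).map (Int.castRingHom K)).natDegree ≤ degC K m
      rw [hN.natDegree_map]
      exact hpsi)
  refine ⟨key.1, key.2.1, ?_, htr⟩
  rw [key.2.2]
  exact hN.natDegree_map _

end Fermat.Agent.S18x.IG.H6
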