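import Mathlib
import Fermat.Agent.S18x.IG.H10_Sep
import Fermat.Agent.S28.Asm.Defs

/-!
# [IG] (I2-SEP), adapter to the modular function fields in characteristic `p`

`Fb_M = k(j_d : d ∣ M) ⊆ k((q))` (`ModularCurve.modularFunctionFieldFullC k M`) is a separable
extension of `k(j)` as soon as it is algebraic (e.g. finite) over it, for every perfect field `k`
of characteristic `p` (no hypothesis relating `p` and `M`): `j` has `q`-order `-1`.
-/

set_option autoImplicit false

namespace Fermat.Agent.S18x.IG.H10

open ModularCurve Fermat.Agent.S28.Asm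

/-- The `q`-order of `j` is `-1` over any nontrivial commutative ring. -/
theorem h10_order_jqModC (K : Type*) [CommRing K] [Nontrivial K] : (jqModC K).order = -1 := by
  have h1 : (jqModC K).coeff (-1) ≠ 0 := by
    rw [coeff_jqModC_neg_one]
    exact one_ne_zero
  have hne : jqModC K ≠ 0 := HahnSeries.ne_zero_of_coeff_ne_zero h1
  refine le_antisymm (HahnSeries.order_le_of_coeff_ne_zero h1) ?_
  by_contra hlt
  rw [not_le] at hlt
  have h2 := coeff_jqModC_pow_of_lt K (b := 1) (m := (jqModC K).order) (by simpa using hlt)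
  rw [pow_one] at h2
  exact hne (HahnSeries.coeff_order_eq_zero.1 h2)

/-- `p` does not divide the `q`-order of `j`. -/
theorem h10_not_dvd_order_jqModC (K : Type*) [CommRing K] [Nontrivial K] (p : ℕ)
    [hp : Fact p.Prime] : ¬ (p : ℤ) ∣ (jqModC K).order := by
  rw [h10_order_jqModC, Int.dvd_neg]
  intro h
  have h1 : (p : ℤ) ∣ ((1 : ℕ) : ℤ) := by simpa using h
  exact hp.out.one_lt.ne' (Nat.dvd_one.1 (Int.natCast_dvd_natCast.1 h1))

set_option synthInstance.maxHeartbeats 400000 in
set_option maxHeartbeats 1600000 in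
/-- **(I2-SEP) for `Fb_M / k(j)`**, `k` perfect of characteristic `p`, finite-dimensionality as a
hypothesis (it is the first component of `StDEGU` when `k = ZMod ℓ`). -/
theorem h10_isSeparable_full (k : Type) [Field k] (p : ℕ) [Fact p.Prime] [CharP k p]
    [PerfectRing k p] (M : ℕ) [NeZero M]
    (hfin : FiniteDimensional (IntermediateField.adjoin k {jbFull k M})
      ↥(modularFunctionFieldFullC k M)) :
    Algebra.IsSeparable (IntermediateField.adjoin k {jbFull k M})
      ↥(modularFunctionFieldFullC k M) :=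
  h10_isSeparable_adjoin_of_finite p (modularFunctionFieldFullC k M) (jbFull k M)
    (h10_not_dvd_order_jqModC k p) hfin

set_option synthInstance.maxHeartbeats 400000 in
set_option maxHeartbeats 1600000 in
/-- **(I2-SEP) for `Fb_M / 𝔽_ℓ(j)`** from `StDEGU M ℓ` (landed for all `M`, `ℓ` in `S28`). -/
theorem h10_isSeparable_full_zmod (M : ℕ) [NeZero M] (ℓ : ℕ) [Fact ℓ.Prime]
    (h : StDEGU M ℓ) :
    Algebra.IsSeparable (IntermediateField.adjoin (ZMod ℓ) {jbFull (ZMod ℓ) M})
      ↥(modularFunctionFieldFullC (ZMod ℓ) M) :=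
  h10_isSeparable_full (ZMod ℓ) ℓ M h.1

end Fermat.Agent.S18x.IG.H10
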