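import Mathlib
import Fermat.Agent.S18x.IG.H10_Vert
import Fermat.Agent.S18x.CA.H25_Fibre

/-!
# [IG] (IG4) = `(h_pi)`: the discriminant is prime to `π`

`res : O → κ` surjective with kernel `(π)`, `κ` perfect of characteristic `p`; `A'` a
localisation of `O[X]` at a submonoid disjoint from `(C π)` (e.g. `O[X]` itself,
`Localization.AtPrime (π, g)`, `O[X][1/D]`); `B'` a free `A'`-algebra with basis `b` and a
ring homomorphism `g : B' → κ((q))` (the reduction) such that

* `g P(X) = P̄(t)` for a series `t` with `p ∤ ord_q t` (`hcomm`),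
* `ker g = π B'` (`hg`, the `q`-expansion principle).

Then `π ∤ discr (B'/A')`  (`h10_vert_discr`).  This is `(h_pi)` of PRINCIPLE (*) and the
vertical input of the purity assembly; proof = helper25's `discr_ne_zero_of_separable_fibre`
+ (I2-SEP).
-/

set_option autoImplicit false

namespace Fermat.Agent.S18x.IG.H10

open Polynomial Module

variable {O κ : Type*} [CommRing O] [Field κ] (res : O →+* κ)

/-- **`(h_pi)`, localised form.** -/
theorem h10_vert_discr (hres : Function.Surjective res) (π : O)
    (hker : RingHom.ker res = Ideal.span {π})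
    (p : ℕ) [Fact p.Prime] [CharP κ p] [PerfectRing κ p]
    (t : LaurentSeries κ) (ht : ¬ (p : ℤ) ∣ t.order)
    (S : Submonoid O[X]) (hS : ∀ s ∈ S, ¬ C π ∣ s)
    {A' : Type*} [CommRing A'] [Algebra O[X] A'] [IsLocalization S A']
    {B' : Type*} [CommRing B'] [Algebra A' B']
    {ι : Type*} [Fintype ι] [DecidableEq ι] (b : Basis ι A' B')
    (g : B' →+* LaurentSeries κ)
    (hcomm : ∀ P : O[X], g (algebraMap A' B' (algebraMap O[X] A' P)) = aeval t (P.map res))
    (hg : ∀ x : B', g x = 0 → ∃ y : B', x = algebraMap A' B' (algebraMap O[X] A' (C π)) * y) :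
    ¬ algebraMap O[X] A' (C π) ∣ Algebra.discr A' b := by
  have ht' : Transcendental κ t := h10_transcendental_of_not_dvd_order p t ht
  have htg := h10_transcendental_gen t ht'
  have hπ : res π = 0 := by
    have : π ∈ RingHom.ker res := by
      rw [hker]
      exact Ideal.mem_span_singleton_self π
    exact this
  have hS' : ∀ s ∈ S, h10_vertMap res (IntermediateField.AdjoinSimple.gen κ t) s ≠ 0 :=
    fun s hs h => hS s hs (h10_vertMap_eq_zero res _ π hker htg s h)
  set f' : A' →+* ↥(IntermediateField.adjoin κ {t}) :=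
    h10_vertMapLoc res (IntermediateField.AdjoinSimple.gen κ t) S A' hS' with hf'
  have hfalg : ∀ P : O[X], f' (algebraMap O[X] A' P) = h10_vertRed res t P := fun P =>
    h10_vertMapLoc_algebraMap res _ S A' hS' P
  have hcomm' : ∀ a : A', g (algebraMap A' B' a)
      = algebraMap (↥(IntermediateField.adjoin κ {t})) (LaurentSeries κ) (f' a) := by
    have h1 : g.comp (algebraMap A' B')
        = (algebraMap (↥(IntermediateField.adjoin κ {t})) (LaurentSeries κ)).comp f' := by
      refine IsLocalization.ringHom_ext S (RingHom.ext fun P => ?_)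
      rw [RingHom.comp_apply, RingHom.comp_apply, RingHom.comp_apply, RingHom.comp_apply,
        hcomm P, hfalg P]
      exact (h10_vertRed_coe res t P).symm
    intro a
    exact congrArg (fun φ : A' →+* LaurentSeries κ => φ a) h1
  have hfin : Module.Finite A' B' := Module.Finite.of_basis b
  have hint : Algebra.IsIntegral A' B' := Algebra.IsIntegral.of_finite A' B'
  have hK' := h10_vertMapLoc_hK res _ S A' hS' hres (h10_hgen_adjoin t)
  have hfπ : f' (algebraMap O[X] A' (C π)) = 0 :=
    h10_vertMapLoc_C_unif res _ S A' hS' π hπ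
  have hg' : ∀ x : B', g x = 0 → x ∈ Ideal.map (algebraMap A' B') (RingHom.ker f') := by
    intro x hx
    obtain ⟨y, rfl⟩ := hg x hx
    exact Ideal.mul_mem_right _ _ (Ideal.mem_map_of_mem _ hfπ)
  have hsep : ∀ x : B', IsSeparable (↥(IntermediateField.adjoin κ {t})) (g x) :=
    h10_hsep_adjoin p t ht f' g hcomm'
  have hne := Fermat.Agent.S18x.CA.H25F.discr_ne_zero_of_separable_fibre b f' g hcomm' hK'
    hg' hsep
  rintro ⟨z, hz⟩
  apply hne
  rw [hz, map_mul, hfπ, zero_mul]

/-- **`(h_pi)`, global form** (`A = O[X]`). -/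
theorem h10_vert_discr_poly (hres : Function.Surjective res) (π : O)
    (hker : RingHom.ker res = Ideal.span {π})
    (p : ℕ) [Fact p.Prime] [CharP κ p] [PerfectRing κ p]
    (t : LaurentSeries κ) (ht : ¬ (p : ℤ) ∣ t.order)
    {B : Type*} [CommRing B] [Algebra O[X] B]
    {ι : Type*} [Fintype ι] [DecidableEq ι] (b : Basis ι O[X] B)
    (g : B →+* LaurentSeries κ)
    (hcomm : ∀ P : O[X], g (algebraMap O[X] B P) = aeval t (P.map res))
    (hg : ∀ x : B, g x = 0 → ∃ y : B, x = algebraMap O[X] B (C π) * y) :
    ¬ C π ∣ Algebra.discr O[X] b := by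
  have ht' : Transcendental κ t := h10_transcendental_of_not_dvd_order p t ht
  have hπ : res π = 0 := by
    have : π ∈ RingHom.ker res := by
      rw [hker]
      exact Ideal.mem_span_singleton_self π
    exact this
  have hcomm' : ∀ a : O[X], g (algebraMap O[X] B a)
      = algebraMap (↥(IntermediateField.adjoin κ {t})) (LaurentSeries κ)
          (h10_vertRed res t a) := by
    intro a
    rw [hcomm a]
    exact (h10_vertRed_coe res t a).symm
  have hfin : Module.Finite O[X] B := Module.Finite.of_basis b
  have hint : Algebra.IsIntegral O[X] B := Algebra.IsIntegral.of_finite O[X] B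
  have hfπ : h10_vertRed res t (C π) = 0 := h10_vertRed_C_unif res t π hπ
  have hg' : ∀ x : B, g x = 0 →
      x ∈ Ideal.map (algebraMap O[X] B) (RingHom.ker (h10_vertRed res t)) := by
    intro x hx
    obtain ⟨y, rfl⟩ := hg x hx
    exact Ideal.mul_mem_right _ _ (Ideal.mem_map_of_mem _ hfπ)
  have hsep : ∀ x : B, IsSeparable (↥(IntermediateField.adjoin κ {t})) (g x) :=
    h10_hsep_adjoin p t ht (h10_vertRed res t) g hcomm'
  have hne := Fermat.Agent.S18x.CA.H25F.discr_ne_zero_of_separable_fibre b
    (h10_vertRed res t) g hcomm' (h10_vertRed_hK res t hres) hg' hsep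
  rintro ⟨z, hz⟩
  apply hne
  rw [hz, map_mul, hfπ, zero_mul]

end Fermat.Agent.S18x.IG.H10
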