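import Mathlib

/-!
# S18 [IG] (IG2c) = [BASE-MAX] (helper11): the closed points of the `x`-line over a DVR

Generic, Mathlib only.  `O` a commutative ring, `π : O` with `span {π}` maximal (e.g. a
uniformiser of a DVR), `κ := O ⧸ span {π}`.

* `redPoly π : O[X] →+* κ[X]`, `ker_redPoly`, `redPoly_eq_zero_iff`;
* (B1) `exists_monic_of_isMaximal`: a maximal ideal of `O[X]` containing `π` is `span {C π, g}`
  with `g` monic and irreducible mod `π`; `isMaximal_span_pair`: the converse;
* (B2) `prime_C_pi`, `not_mem_span_C_pi`, `dvd_of_monic_dvd_C_mul`, `C_pi_dvd_of_dvd_mul`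
  (the regular sequences `π, g` and `g, π`);
* (B3) the local ring `Localization.AtPrime (span {C π, g})`: noetherian local integrally closed
  domain with maximal ideal `span {π, g}`, `π` prime, `g ∉ span {π}`.
-/

set_option autoImplicit false

open Polynomial

namespace Fermat.Agent.S18x.IG.H11

section Poly

variable {O : Type*} [CommRing O] (π : O)

/-- The reduction map `O[X] → (O/π)[X]`. -/
noncomputable abbrev redPoly : O[X] →+* (O ⧸ Ideal.span {π})[X] :=
  Polynomial.mapRingHom (Ideal.Quotient.mk (Ideal.span {π}))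

theorem redPoly_surjective : Function.Surjective (redPoly π) :=
  Polynomial.map_surjective _ Ideal.Quotient.mk_surjective

theorem ker_redPoly : RingHom.ker (redPoly π) = Ideal.span {C π} := by
  rw [Polynomial.ker_mapRingHom, Ideal.mk_ker, Ideal.map_span, Set.image_singleton]

theorem redPoly_eq_zero_iff (a : O[X]) : redPoly π a = 0 ↔ C π ∣ a := by
  rw [← RingHom.mem_ker, ker_redPoly, Ideal.mem_span_singleton]

theorem redPoly_C_pi : redPoly π (C π) = 0 :=
  (redPoly_eq_zero_iff π _).mpr dvd_rfl

theorem comap_map_redPoly (M : Ideal O[X]) (hπM : C π ∈ M) :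
    Ideal.comap (redPoly π) (Ideal.map (redPoly π) M) = M := by
  rw [Ideal.comap_map_of_surjective _ (redPoly_surjective π), ← RingHom.ker_eq_comap_bot,
    ker_redPoly]
  exact sup_eq_left.mpr ((Ideal.span_singleton_le_iff_mem _).mpr hπM)

theorem comap_span_redPoly (g : O[X]) :
    Ideal.comap (redPoly π) (Ideal.span {redPoly π g}) = Ideal.span {C π, g} := by
  have h1 : Ideal.span {redPoly π g} = Ideal.map (redPoly π) (Ideal.span {g}) := by
    rw [Ideal.map_span, Set.image_singleton]
  rw [h1, Ideal.comap_map_of_surjective _ (redPoly_surjective π), ← RingHom.ker_eq_comap_bot,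
    ker_redPoly, ← Ideal.span_union, Set.union_comm]
  rfl

variable [hmax : (Ideal.span {π}).IsMaximal]

/-- **(B1)** A maximal ideal of `O[X]` containing `π` is generated by `π` and a monic polynomial
which is irreducible modulo `π`. -/
theorem exists_monic_of_isMaximal {M : Ideal O[X]} (hM : M.IsMaximal) (hπM : C π ∈ M) :
    ∃ g : O[X], g.Monic ∧ Irreducible (g.map (Ideal.Quotient.mk (Ideal.span {π}))) ∧
      M = Ideal.span {C π, g} := by
  let _ : Field (O ⧸ Ideal.span {π}) := Ideal.Quotient.field _
  -- the image of `M` is a maximal ideal of `κ[X]`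
  have hMbar : (Ideal.map (redPoly π) M).IsMaximal := by
    rcases Ideal.map_eq_top_or_isMaximal_of_surjective (redPoly π) (redPoly_surjective π) hM with
      h | h
    · exfalso
      have h2 := comap_map_redPoly π M hπM
      rw [h, Ideal.comap_top] at h2
      exact hM.ne_top h2.symm
    · exact h
  -- it is principal
  obtain ⟨g₀, hg₀⟩ : ∃ g₀, Ideal.map (redPoly π) M = Ideal.span {g₀} :=
    ⟨_, (Ideal.span_singleton_generator _).symm⟩
  have hg₀0 : g₀ ≠ 0 := by
    rintro rfl
    rw [Ideal.span_singleton_zero] at hg₀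
    rw [hg₀] at hMbar
    exact Polynomial.not_isField _ (Ring.isField_iff_maximal_bot.mpr hMbar)
  have hprime : Prime g₀ := by
    rw [← Ideal.span_singleton_prime hg₀0, ← hg₀]
    exact hMbar.isPrime
  -- normalise
  set g₁ : (O ⧸ Ideal.span {π})[X] := g₀ * C g₀.leadingCoeff⁻¹ with hg₁
  have hmonic : g₁.Monic := Polynomial.monic_mul_leadingCoeff_inv hg₀0
  have hunit : IsUnit (C g₀.leadingCoeff⁻¹ : (O ⧸ Ideal.span {π})[X]) := by
    rw [Polynomial.isUnit_C]
    exact IsUnit.mk0 _ (inv_ne_zero (leadingCoeff_ne_zero.mpr hg₀0))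
  have hassoc : Associated g₀ g₁ := ⟨hunit.unit, rfl⟩
  have hirr : Irreducible g₁ := (hassoc.irreducible_iff).mp hprime.irreducible
  have hspan : Ideal.span {g₀} = Ideal.span {g₁} := Ideal.span_singleton_eq_span_singleton.mpr hassoc
  -- lift
  obtain ⟨g, hg, -, hgm⟩ := Polynomial.lifts_and_natDegree_eq_and_monic
    ((Polynomial.mem_lifts _).mpr (redPoly_surjective π g₁)) hmonic
  refine ⟨g, hgm, by rw [hg]; exact hirr, ?_⟩
  have h3 : redPoly π g = g₁ := hg
  rw [← comap_span_redPoly, h3, ← hspan, ← hg₀, comap_map_redPoly π M hπM]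

/-- **(B1), converse.** -/
theorem isMaximal_span_pair (g : O[X])
    (hg : Irreducible (g.map (Ideal.Quotient.mk (Ideal.span {π})))) :
    (Ideal.span {C π, g}).IsMaximal := by
  let _ : Field (O ⧸ Ideal.span {π}) := Ideal.Quotient.field _
  rw [← comap_span_redPoly]
  have : (Ideal.span {redPoly π g}).IsMaximal := PrincipalIdealRing.isMaximal_of_irreducible hg
  exact Ideal.comap_isMaximal_of_surjective _ (redPoly_surjective π)

omit hmax in
/-- Membership in `span {C π, g}`, element form. -/
theorem mem_span_pair_iff (g a : O[X]) :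
    a ∈ Ideal.span {C π, g} ↔ ∃ u v : O[X], a = C π * u + g * v := by
  rw [Ideal.mem_span_pair]
  constructor
  · rintro ⟨u, v, h⟩
    exact ⟨u, v, by rw [← h]; ring⟩
  · rintro ⟨u, v, h⟩
    exact ⟨u, v, by rw [h]; ring⟩

omit hmax in
theorem mem_span_pair_iff_redPoly (g a : O[X]) :
    a ∈ Ideal.span {C π, g} ↔ redPoly π g ∣ redPoly π a := by
  rw [← comap_span_redPoly, Ideal.mem_comap, Ideal.mem_span_singleton]

/-- **(B2)** `π` is a prime element of `O[X]`. -/
theorem prime_C_pi (hπ0 : π ≠ 0) : Prime (C π : O[X]) := by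
  rw [Polynomial.prime_C_iff, ← Ideal.span_singleton_prime hπ0]
  exact hmax.isPrime

omit hmax in
/-- **(B2)** `g ∉ (π)` as soon as `g` is non-zero modulo `π`. -/
theorem not_dvd_of_redPoly_ne_zero (g : O[X]) (hg : redPoly π g ≠ 0) : ¬ C π ∣ g :=
  fun h => hg ((redPoly_eq_zero_iff π g).mpr h)

omit hmax in
theorem not_mem_span_C_pi (g : O[X]) (hg : Irreducible (g.map (Ideal.Quotient.mk (Ideal.span {π})))) :
    g ∉ Ideal.span {(C π : O[X])} := by
  rw [Ideal.mem_span_singleton]
  exact not_dvd_of_redPoly_ne_zero π g hg.ne_zero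

/-- **(B2)** `g` is regular modulo `π`. -/
theorem C_pi_dvd_of_dvd_mul (hπ0 : π ≠ 0) (g a : O[X]) (hg : redPoly π g ≠ 0)
    (h : C π ∣ g * a) : C π ∣ a :=
  ((prime_C_pi π hπ0).dvd_or_dvd h).resolve_left (not_dvd_of_redPoly_ne_zero π g hg)

omit hmax in
/-- **(B2)** `π` is regular modulo a monic `g` (over a domain). -/
theorem dvd_of_monic_dvd_C_mul [IsDomain O] (hπ0 : π ≠ 0) (g a : O[X]) (hg : g.Monic)
    (h : g ∣ C π * a) : g ∣ a := by
  rw [← Polynomial.modByMonic_eq_zero_iff_dvd hg] at h ⊢
  have h1 : (C π * a) %ₘ g = C π * (a %ₘ g) := by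
    rw [← smul_eq_C_mul, ← smul_eq_C_mul, Polynomial.smul_modByMonic]
  rw [h1] at h
  rcases mul_eq_zero.mp h with h2 | h2
  · exact absurd (Polynomial.C_eq_zero.mp h2) hπ0
  · exact h2

end Poly

section Local

variable {O : Type*} [CommRing O]

/-- The maximal ideal `(π, g)` is prime. -/
theorem isPrime_span_pair (π : O) [hmax : (Ideal.span {π}).IsMaximal] (g : O[X])
    (hg : Irreducible (g.map (Ideal.Quotient.mk (Ideal.span {π})))) :
    (Ideal.span {C π, g}).IsPrime :=
  (isMaximal_span_pair π g hg).isPrime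

/-- **(B3)** The maximal ideal of the local ring of the `x`-line at `(π, g)`. -/
theorem maximalIdeal_localization (π : O) (g : O[X])
    [hP : (Ideal.span {C π, g}).IsPrime] :
    IsLocalRing.maximalIdeal (Localization.AtPrime (Ideal.span {C π, g})) =
      Ideal.span {algebraMap O[X] (Localization.AtPrime (Ideal.span {C π, g})) (C π),
        algebraMap O[X] (Localization.AtPrime (Ideal.span {C π, g})) g} := by
  rw [← Localization.AtPrime.map_eq_maximalIdeal, Ideal.map_span, Set.image_pair]

variable [IsDomain O] (π : O) [hmax : (Ideal.span {π}).IsMaximal]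
  (g : O[X]) (hg : Irreducible (g.map (Ideal.Quotient.mk (Ideal.span {π}))))

/-- **(B3)** `π` is a prime element of the local ring at `(π, g)`. -/
theorem prime_pi_localization (hπ0 : π ≠ 0) [hP : (Ideal.span {C π, g}).IsPrime] :
    Prime (algebraMap O[X] (Localization.AtPrime (Ideal.span {C π, g})) (C π)) := by
  have hp : (Ideal.span {(C π : O[X])}).IsPrime :=
    (Ideal.span_singleton_prime (by simpa using hπ0)).mpr (prime_C_pi π hπ0)
  have hd : Disjoint ((Ideal.span {C π, g}).primeCompl : Set O[X])
      (Ideal.span {(C π : O[X])} : Set O[X]) := by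
    rw [Set.disjoint_left]
    intro a ha ha'
    apply ha
    exact Ideal.span_mono (by simp) ha'
  have h1 := IsLocalization.isPrime_of_isPrime_disjoint (Ideal.span {C π, g}).primeCompl
    (Localization.AtPrime (Ideal.span {C π, g})) (Ideal.span {(C π : O[X])}) hp hd
  rw [Ideal.map_span, Set.image_singleton] at h1
  have hne : algebraMap O[X] (Localization.AtPrime (Ideal.span {C π, g})) (C π) ≠ 0 := by
    intro h
    have := (IsLocalization.injective (Localization.AtPrime (Ideal.span {C π, g}))
      (Ideal.primeCompl_le_nonZeroDivisors (Ideal.span {C π, g}))) (h.trans (map_zero _).symm)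
    exact hπ0 (by simpa using this)
  exact (Ideal.span_singleton_prime hne).mp h1

include hg in
/-- **(B3)** `g ∉ (π)` in the local ring at `(π, g)`. -/
theorem not_mem_span_pi_localization (hπ0 : π ≠ 0) [hP : (Ideal.span {C π, g}).IsPrime] :
    algebraMap O[X] (Localization.AtPrime (Ideal.span {C π, g})) g ∉
      Ideal.span {algebraMap O[X] (Localization.AtPrime (Ideal.span {C π, g})) (C π)} := by
  rw [Ideal.mem_span_singleton]
  rintro ⟨y, hy⟩
  obtain ⟨a, s, rfl⟩ := IsLocalization.exists_mk'_eq (Ideal.span {C π, g}).primeCompl y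
  have h1 : algebraMap O[X] (Localization.AtPrime (Ideal.span {C π, g})) (g * s) =
      algebraMap O[X] (Localization.AtPrime (Ideal.span {C π, g})) (C π * a) := by
    rw [map_mul, map_mul, hy, mul_assoc, IsLocalization.mk'_spec]
  have h2 := (IsLocalization.injective (Localization.AtPrime (Ideal.span {C π, g}))
      (Ideal.primeCompl_le_nonZeroDivisors (Ideal.span {C π, g}))) h1
  have h3 : C π ∣ g * s := ⟨a, h2⟩
  rcases (prime_C_pi π hπ0).dvd_or_dvd h3 with h4 | h4
  · exact not_dvd_of_redPoly_ne_zero π g hg.ne_zero h4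
  · apply s.2
    exact Ideal.span_mono (by simp) (Ideal.mem_span_singleton.mpr h4)

omit hmax in
/-- **(B3)** The local ring at `(π, g)` is integrally closed. -/
theorem isIntegrallyClosed_localization [IsIntegrallyClosed O]
    [hP : (Ideal.span {C π, g}).IsPrime] :
    IsIntegrallyClosed (Localization.AtPrime (Ideal.span {C π, g})) :=
  isIntegrallyClosed_of_isLocalization _ (Ideal.span {C π, g}).primeCompl
    (Ideal.primeCompl_le_nonZeroDivisors (Ideal.span {C π, g}))

end Local

end Fermat.Agent.S18x.IG.H11
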