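import Fermat.Agent.S18x.IG.H11_BaseBranch

/-!
# S18 [IG] [BASE-MAX], part 4 (helper11): the horizontal primes of the `x`-line over a DVR

`O` a discrete valuation ring with uniformiser `π`, `K = Frac O`.

* `C_not_mem_of_pi_not_mem` : a prime of `O[X]` not containing `π` contains no non-zero
  constant;
* `natCast_not_mem_of_pi_not_mem` : ... hence no non-zero integer (`hchar` of `principle_SM` /
  `purity_SM` for `A = O[X]`, characteristic zero);
* `exists_prime_generator` : a non-zero prime of `O[X]` not containing `π` is PRINCIPAL,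
  generated by a primitive polynomial of positive degree which is irreducible over `K`
  (so it is a horizontal prime of height one: no dimension theory needed);
* `eq_span_of_mem_of_irreducible` : ... and it is generated by ANY of its elements which is
  primitive and irreducible over `K`.
-/

set_option autoImplicit false

open Polynomial

namespace Fermat.Agent.S18x.IG.H11

section Hor

variable {O : Type*} [CommRing O] [IsDomain O] [IsDiscreteValuationRing O]
  (π : O) (hπ : Irreducible π)

include hπ in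
/-- A prime of `O[X]` which does not contain `π` contains no non-zero constant. -/
theorem C_not_mem_of_pi_not_mem (𝔭 : Ideal O[X]) [h𝔭 : 𝔭.IsPrime] (hπ𝔭 : C π ∉ 𝔭) (c : O)
    (hc : c ≠ 0) : C c ∉ 𝔭 := by
  obtain ⟨n, u, rfl⟩ := IsDiscreteValuationRing.eq_unit_mul_pow_irreducible hc hπ
  intro h
  rw [C_mul, C_pow] at h
  rcases h𝔭.mem_or_mem h with h1 | h1
  · exact h𝔭.ne_top (Ideal.eq_top_of_isUnit_mem _ h1 (Polynomial.isUnit_C.mpr u.isUnit))
  · exact hπ𝔭 (h𝔭.mem_of_pow_mem n h1)

include hπ in
/-- `hchar`: a prime of `O[X]` which does not contain `π` contains no non-zero integer. -/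
theorem natCast_not_mem_of_pi_not_mem [CharZero O] (𝔭 : Ideal O[X]) [h𝔭 : 𝔭.IsPrime]
    (hπ𝔭 : C π ∉ 𝔭) (n : ℕ) (hn : n ≠ 0) : (n : O[X]) ∉ 𝔭 := by
  rw [← Polynomial.C_eq_natCast]
  exact C_not_mem_of_pi_not_mem π hπ 𝔭 hπ𝔭 (n : O) (by exact_mod_cast hn)

include hπ in
/-- An element of a prime `𝔭 ∌ π` is divisible by every primitive element of `𝔭` which is
irreducible over the fraction field. -/
theorem dvd_of_mem_of_irreducible (𝔭 : Ideal O[X]) [h𝔭 : 𝔭.IsPrime] (hπ𝔭 : C π ∉ 𝔭)
    (p : O[X]) (hp𝔭 : p ∈ 𝔭) (hprim : p.IsPrimitive)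
    (hirr : Irreducible (p.map (algebraMap O (FractionRing O)))) (a : O[X]) (ha : a ∈ 𝔭) :
    p ∣ a := by
  classical
  rcases hirr.isCoprime_or_dvd (a.map (algebraMap O (FractionRing O))) with hco | hdvd
  · exfalso
    obtain ⟨u, v, huv⟩ := hco
    obtain ⟨bu, hbu, hu⟩ := IsLocalization.integerNormalization_spec (nonZeroDivisors O) u
    obtain ⟨bv, hbv, hv⟩ := IsLocalization.integerNormalization_spec (nonZeroDivisors O) v
    set U := IsLocalization.integerNormalization (nonZeroDivisors O) u
    set V := IsLocalization.integerNormalization (nonZeroDivisors O) v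
    have hinj : Function.Injective (Polynomial.map (algebraMap O (FractionRing O))) :=
      Polynomial.map_injective _ (IsFractionRing.injective O (FractionRing O))
    have key : C bv * U * p + C bu * V * a = C (bu * bv) := by
      apply hinj
      simp only [Polynomial.map_add, Polynomial.map_mul, Polynomial.map_C, hu, hv]
      rw [Algebra.smul_def, Algebra.smul_def]
      simp only [Polynomial.algebraMap_apply]
      have : C (algebraMap O (FractionRing O) bu) * C (algebraMap O (FractionRing O) bv) =
          C (algebraMap O (FractionRing O) bu) * C (algebraMap O (FractionRing O) bv) *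
            (u * Polynomial.map (algebraMap O (FractionRing O)) p +
              v * Polynomial.map (algebraMap O (FractionRing O)) a) := by
        rw [huv, mul_one]
      rw [map_mul, C_mul, this]
      ring
    have hmem : C (bu * bv) ∈ 𝔭 := by
      rw [← key]
      exact 𝔭.add_mem (𝔭.mul_mem_left _ hp𝔭) (𝔭.mul_mem_left _ ha)
    exact C_not_mem_of_pi_not_mem π hπ 𝔭 hπ𝔭 (bu * bv)
      (mul_ne_zero (nonZeroDivisors.ne_zero hbu) (nonZeroDivisors.ne_zero hbv)) hmem
  · exact hprim.dvd_of_fraction_map_dvd_fraction_map hdvd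

include hπ in
/-- A prime `𝔭 ∌ π` is generated by any of its primitive elements which is irreducible over the
fraction field. -/
theorem eq_span_of_mem_of_irreducible (𝔭 : Ideal O[X]) [h𝔭 : 𝔭.IsPrime] (hπ𝔭 : C π ∉ 𝔭)
    (p : O[X]) (hp𝔭 : p ∈ 𝔭) (hprim : p.IsPrimitive)
    (hirr : Irreducible (p.map (algebraMap O (FractionRing O)))) :
    𝔭 = Ideal.span {p} := by
  apply le_antisymm
  · intro a ha
    exact Ideal.mem_span_singleton.mpr (dvd_of_mem_of_irreducible π hπ 𝔭 hπ𝔭 p hp𝔭 hprim hirr a ha)
  · exact (Ideal.span_singleton_le_iff_mem 𝔭).mpr hp𝔭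

include hπ in
/-- **The horizontal primes are principal**: a non-zero prime of `O[X]` which does not contain
`π` is generated by a prime element `p`, primitive, of positive degree, irreducible over the
fraction field. -/
theorem exists_prime_generator (𝔭 : Ideal O[X]) [h𝔭 : 𝔭.IsPrime] (hπ𝔭 : C π ∉ 𝔭)
    (h0 : 𝔭 ≠ ⊥) :
    ∃ p : O[X], Prime p ∧ p.IsPrimitive ∧ 0 < p.natDegree ∧
      Irreducible (p.map (algebraMap O (FractionRing O))) ∧ 𝔭 = Ideal.span {p} := by
  obtain ⟨p, hp𝔭, hp⟩ := h𝔭.exists_mem_prime_of_ne_bot h0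
  have hdeg : p.natDegree ≠ 0 := by
    intro h
    have h1 := Polynomial.eq_C_of_natDegree_eq_zero h
    have hc : p.coeff 0 ≠ 0 := by
      intro h2
      rw [h2, C_0] at h1
      exact hp.ne_zero h1
    rw [h1] at hp𝔭
    exact C_not_mem_of_pi_not_mem π hπ 𝔭 hπ𝔭 _ hc hp𝔭
  have hprim : p.IsPrimitive := hp.irreducible.isPrimitive hdeg
  have hirr : Irreducible (p.map (algebraMap O (FractionRing O))) :=
    (hprim.irreducible_iff_irreducible_map_fraction_map).mp hp.irreducible
  exact ⟨p, hp, hprim, Nat.pos_of_ne_zero hdeg, hirr,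
    eq_span_of_mem_of_irreducible π hπ 𝔭 hπ𝔭 p hp𝔭 hprim hirr⟩

end Hor

end Fermat.Agent.S18x.IG.H11
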