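import Mathlib
import Fermat.Agent.S20.H16_TameDifferent

/-!
# S18 [IG] — PRINCIPLE (*): the tame codifferent over a DVR of residue characteristic zero
(helper15)

`A` a discrete valuation ring with uniformiser `s` and residue field of characteristic zero,
`B` a Dedekind domain, finite and torsion-free over `A`, `K ⊆ L` the fraction fields.
If `x ∈ L` lies in the codifferent (`tr (x b) ∈ A` for all `b ∈ B`), then `s x ∈ B` and `s x`
is nilpotent modulo `s B`:   `s • codifferent ⊆ rad (s B)`.

This is the exactness `𝔇 = ∏ P ^ (e_P - 1)` of the tame different (S20/H16_TameDifferent) in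
element form.
-/

namespace Fermat.Agent.S18x.IG.H15

open Module nonZeroDivisors UniqueFactorizationMonoid

attribute [local instance] FractionRing.liftAlgebra FractionRing.isScalarTower_liftAlgebra

theorem h15_mul_mul_inv {G : Type*} [CommGroupWithZero G] (a p q : G) (ha : a ≠ 0) :
    a * p * q * a⁻¹ = p * q := by
  rw [mul_assoc a p q, mul_comm a (p * q), mul_assoc, mul_inv_cancel₀ ha, mul_one]

section TameDedekind

variable (A K L B : Type*) [CommRing A] [Field K] [CommRing B] [Field L]
  [Algebra A K] [Algebra B L] [Algebra A B] [Algebra K L] [Algebra A L]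
  [IsScalarTower A K L] [IsScalarTower A B L]
  [IsDedekindDomain A] [IsLocalRing A] [IsFractionRing A K]
  [FiniteDimensional K L] [Algebra.IsSeparable K L] [IsIntegralClosure B A L]
  [IsFractionRing B L] [IsDedekindDomain B] [Module.IsTorsionFree A B] [Module.Finite A B]
  [CharZero (A ⧸ IsLocalRing.maximalIdeal A)]

omit [Field K] [Algebra A K] [Algebra K L] [IsScalarTower A K L] [IsFractionRing A K]
  [FiniteDimensional K L] [Algebra.IsSeparable K L] [IsFractionRing B L]
  [Module.IsTorsionFree A B] [Module.Finite A B]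
  [CharZero (A ⧸ IsLocalRing.maximalIdeal A)] in
include L in
/-- Every nonzero prime of `B` lies over the maximal ideal of the local ring `A`. -/
theorem h15_liesOver_maximalIdeal (P : Ideal B) [hP : P.IsPrime] (hP0 : P ≠ ⊥) :
    P.LiesOver (IsLocalRing.maximalIdeal A) := by
  have : Algebra.IsIntegral A B := IsIntegralClosure.isIntegral_algebra A L
  have h1 : P.under A ≠ ⊥ := Ideal.under_ne_bot A hP0
  have h2 : (P.under A).IsPrime := inferInstance
  have h3 : (P.under A).IsMaximal := Ideal.IsPrime.isMaximal h2 h1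
  exact ⟨(IsLocalRing.eq_maximalIdeal h3).symm⟩

omit [FiniteDimensional K L] in
include K L in
/-- `𝔇 * P ∣ s B` for every nonzero prime `P` of `B` (tameness). -/
theorem h15_different_mul_prime_dvd (s : A) (hs : IsLocalRing.maximalIdeal A = Ideal.span {s})
    (hs0 : s ≠ 0) (P : Ideal B) [hP : P.IsPrime] (hP0 : P ≠ ⊥) :
    differentIdeal A B * P ∣ Ideal.span {algebraMap A B s} := by
  classical
  have hsep : Algebra.IsSeparable (FractionRing A) (FractionRing B) :=
    S20.Tame.h16_isSeparable_fractionRing A K L B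
  have hp : IsLocalRing.maximalIdeal A ≠ ⊥ := by
    rw [hs, Ne, Ideal.span_singleton_eq_bot]; exact hs0
  have hD : differentIdeal A B ≠ ⊥ := differentIdeal_ne_bot
  have hImap : Ideal.span {algebraMap A B s} =
      (IsLocalRing.maximalIdeal A).map (algebraMap A B) := by
    rw [hs, Ideal.map_span, Set.image_singleton]
  have hI0 : Ideal.span {algebraMap A B s} ≠ ⊥ := by
    rw [hImap]; exact Ideal.map_ne_bot_of_ne_bot hp
  have hPprime : Prime P := Ideal.prime_of_isPrime hP0 hP
  rw [dvd_iff_normalizedFactors_le_normalizedFactors (mul_ne_zero hD hP0) hI0,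
    normalizedFactors_mul hD hP0, normalizedFactors_irreducible hPprime.irreducible,
    normalize_eq, Multiset.le_iff_count]
  intro Q
  rw [Multiset.count_add, Multiset.count_singleton]
  by_cases hQ : Q ∈ normalizedFactors (differentIdeal A B) ∨ Q = P
  · have hQprime : Prime Q := by
      rcases hQ with hQ | hQ
      · exact prime_of_normalized_factor Q hQ
      · rw [hQ]; exact hPprime
    have hQP : Q.IsPrime := Ideal.isPrime_of_prime hQprime
    have hQ0 : Q ≠ ⊥ := hQprime.ne_zero
    have : Q.LiesOver (IsLocalRing.maximalIdeal A) := h15_liesOver_maximalIdeal A L B Q hQ0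
    have h1 := S20.Tame.h16_count_differentIdeal A hp Q
    have h2 := S20.Tame.h16_count_map_ne_zero A hp Q
    rw [← hImap] at h1 h2
    rw [h1]
    split_ifs <;> omega
  · rw [not_or] at hQ
    rw [Multiset.count_eq_zero_of_notMem hQ.1, if_neg hQ.2]
    exact Nat.zero_le _

/-- **Tame codifferent, element form.** If `tr (x b) ∈ A` for all `b ∈ B` then `s x ∈ B`
and `s x` is nilpotent modulo `s B`. -/
theorem h15_tame_dedekind (s : A) (hs : IsLocalRing.maximalIdeal A = Ideal.span {s})
    (hs0 : s ≠ 0) (x : L)
    (hx : ∀ b : B, Algebra.trace K L (x * algebraMap B L b) ∈ (algebraMap A K).range) :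
    ∃ y : B, algebraMap B L y = algebraMap A L s * x ∧
      ∃ N : ℕ, y ^ N ∈ Ideal.span {algebraMap A B s} := by
  classical
  have hsep : Algebra.IsSeparable (FractionRing A) (FractionRing B) :=
    S20.Tame.h16_isSeparable_fractionRing A K L B
  have hD : differentIdeal A B ≠ ⊥ := differentIdeal_ne_bot
  have hD' : ((differentIdeal A B : Ideal B) : FractionalIdeal B⁰ L) ≠ 0 :=
    FractionalIdeal.coeIdeal_ne_zero.mpr hD
  -- `x` lies in the inverse different
  have hxd : x ∈ (((differentIdeal A B : Ideal B) : FractionalIdeal B⁰ L))⁻¹ := by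
    rw [coeIdeal_differentIdeal A K L B, inv_inv,
      FractionalIdeal.mem_dual (I := (1 : FractionalIdeal B⁰ L)) one_ne_zero]
    intro a ha
    obtain ⟨b, rfl⟩ := (FractionalIdeal.mem_one_iff _).mp ha
    exact hx b
  have hsI : algebraMap B L (algebraMap A B s) ∈
      ((Ideal.span {algebraMap A B s} : Ideal B) : FractionalIdeal B⁰ L) :=
    (FractionalIdeal.mem_coeIdeal _).mpr ⟨_, Ideal.mem_span_singleton_self _, rfl⟩
  -- membership in every nonzero prime
  have hmem : ∀ P : Ideal B, P.IsPrime → P ≠ ⊥ →
      algebraMap A L s * x ∈ ((P : Ideal B) : FractionalIdeal B⁰ L) := by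
    intro P hP hP0
    obtain ⟨Q, hQ⟩ := h15_different_mul_prime_dvd A K L B s hs hs0 P hP0
    have h1 : algebraMap B L (algebraMap A B s) * x ∈
        ((Ideal.span {algebraMap A B s} : Ideal B) : FractionalIdeal B⁰ L) *
          (((differentIdeal A B : Ideal B) : FractionalIdeal B⁰ L))⁻¹ :=
      FractionalIdeal.mul_mem_mul hsI hxd
    have h2 : ((Ideal.span {algebraMap A B s} : Ideal B) : FractionalIdeal B⁰ L) *
          (((differentIdeal A B : Ideal B) : FractionalIdeal B⁰ L))⁻¹ =
        ((P : Ideal B) : FractionalIdeal B⁰ L) * ((Q : Ideal B) : FractionalIdeal B⁰ L) := by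
      rw [hQ, FractionalIdeal.coeIdeal_mul, FractionalIdeal.coeIdeal_mul]
      exact h15_mul_mul_inv _ _ _ hD'
    rw [h2, ← FractionalIdeal.coeIdeal_mul] at h1
    obtain ⟨z, hz, hzx⟩ := (FractionalIdeal.mem_coeIdeal _).mp h1
    rw [IsScalarTower.algebraMap_apply A B L]
    exact (FractionalIdeal.mem_coeIdeal _).mpr ⟨z, Ideal.mul_le_left hz, hzx⟩
  -- a maximal ideal exists, giving `y`
  have hinj : Function.Injective (algebraMap A B) := FaithfulSMul.algebraMap_injective A B
  have hs0B : algebraMap A B s ≠ 0 := fun h => hs0 (hinj (by rw [h, map_zero]))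
  have hint : Algebra.IsIntegral A B := IsIntegralClosure.isIntegral_algebra A L
  obtain ⟨M, hM, hMover⟩ := Ideal.exists_ideal_over_maximal_of_isIntegral (S := B)
    (IsLocalRing.maximalIdeal A) (by
      rw [(RingHom.injective_iff_ker_eq_bot _).mp hinj]; exact bot_le)
  have hsM : algebraMap A B s ∈ M := by
    have : s ∈ M.comap (algebraMap A B) := by
      rw [hMover, hs]; exact Ideal.mem_span_singleton_self s
    exact this
  have hM0 : M ≠ ⊥ := by
    intro h
    rw [h] at hsM
    exact hs0B (by simpa using hsM)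
  obtain ⟨y, -, hy⟩ := (FractionalIdeal.mem_coeIdeal _).mp (hmem M hM.isPrime hM0)
  refine ⟨y, hy, ?_⟩
  rw [← Ideal.mem_radical_iff, Ideal.radical_eq_sInf, Ideal.mem_sInf]
  rintro P ⟨hsP, hP⟩
  have hP0 : P ≠ ⊥ := by
    intro h
    rw [h] at hsP
    exact hs0B (by simpa using hsP (Ideal.mem_span_singleton_self _))
  obtain ⟨y', hy'P, hy'⟩ := (FractionalIdeal.mem_coeIdeal _).mp (hmem P hP hP0)
  have : y' = y := IsFractionRing.injective B L (by rw [hy', hy])
  rw [← this]
  exact hy'P

end TameDedekind

end Fermat.Agent.S18x.IG.H15
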