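import Mathlib
import Fermat.Agent.S18x.CA.H25_Disc
import Fermat.Agent.S18x.IG.H15_DualGlue
import Fermat.Agent.S18x.IG.H15_TameDed

/-!
# S18 [IG] — PRINCIPLE (*): the generic-fibre hypothesis from tameness (helper15)

* `h15_tame` : `A` a noetherian domain, `s` a prime element with residue characteristic zero,
  `B` a normal domain with a finite `A`-basis. For every functional `φ : B → A` there are
  `g ∉ (s)` and `y ∈ B`, nilpotent modulo `s B`, with `g * s * φ = tr (y ·)`.
  (Localise at `(s)`: a DVR of residue characteristic zero; the different is tame.)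
-/

namespace Fermat.Agent.S18x.IG.H15

open Module nonZeroDivisors

attribute [local instance] FractionRing.liftAlgebra FractionRing.isScalarTower_liftAlgebra

section Tame

variable {A B : Type*} [CommRing A] [IsDomain A] [IsNoetherianRing A]
  [CommRing B] [IsDomain B] [IsIntegrallyClosed B] [Algebra A B]
variable {ι : Type*} [Fintype ι] [DecidableEq ι]

/-- The localisation of a noetherian domain at a principal prime is a Dedekind domain. -/
theorem h15_isDedekindDomain_atPrime (s : A)
    [hp : (Ideal.span {s} : Ideal A).IsPrime] :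
    IsDedekindDomain (Localization.AtPrime (Ideal.span {s} : Ideal A)) := by
  have h := (tfae_of_isNoetherianRing_of_isLocalRing_of_isDomain
    (Localization.AtPrime (Ideal.span {s} : Ideal A))).out 2 4
  rw [h]
  refine ⟨algebraMap A _ s, ?_⟩
  rw [← Localization.AtPrime.map_eq_maximalIdeal, Ideal.map_span, Set.image_singleton]

/-- **Tameness at the prime `(s)`.** -/
theorem h15_tame (s : A) (hs : Prime s) (hchar : ∀ n : ℕ, n ≠ 0 → ¬ s ∣ (n : A))
    (b : Basis ι A B) (hd0 : Algebra.discr A b ≠ 0) (φ : B →ₗ[A] A) :
    ∃ (g : A) (N : ℕ) (y : B), ¬ s ∣ g ∧ y ^ N ∈ Ideal.span {algebraMap A B s} ∧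
      ∀ x, g * s * φ x = Algebra.trace A B (y * x) := by
  classical
  have : Module.Finite A B := Module.Finite.of_basis b
  have : Module.Free A B := Module.Free.of_basis b
  have : FaithfulSMul A B := inferInstance
  have : CharZero A := charZero_of_inj_zero (fun n hn => by
    by_contra h
    exact hchar n h (by rw [hn]; exact dvd_zero s))
  have : CharZero (FractionRing A) :=
    charZero_of_injective_algebraMap (IsFractionRing.injective A (FractionRing A))
  have : FiniteDimensional (FractionRing A) (FractionRing B) :=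
    Module.Finite.of_isLocalization A B A⁰
  have : Algebra.IsSeparable (FractionRing A) (FractionRing B) :=
    Algebra.IsAlgebraic.isSeparable_of_perfectField
  have hsp : (Ideal.span {s} : Ideal A).IsPrime :=
    (Ideal.span_singleton_prime hs.ne_zero).mpr hs
  -- the DVR `A'` and its action on `L`
  let algA'L : Algebra (Localization.AtPrime (Ideal.span {s} : Ideal A)) (FractionRing B) :=
    ((algebraMap (FractionRing A) (FractionRing B)).comp
      (algebraMap (Localization.AtPrime (Ideal.span {s} : Ideal A)) (FractionRing A))).toAlgebra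
  have : IsScalarTower (Localization.AtPrime (Ideal.span {s} : Ideal A)) (FractionRing A)
      (FractionRing B) := IsScalarTower.of_algebraMap_eq' rfl
  have : IsScalarTower A (Localization.AtPrime (Ideal.span {s} : Ideal A)) (FractionRing B) :=
    IsScalarTower.of_algebraMap_eq' (by
      rw [IsScalarTower.algebraMap_eq A (FractionRing A) (FractionRing B),
        IsScalarTower.algebraMap_eq A (Localization.AtPrime (Ideal.span {s} : Ideal A))
          (FractionRing A)]
      rfl)
  have hded : IsDedekindDomain (Localization.AtPrime (Ideal.span {s} : Ideal A)) :=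
    h15_isDedekindDomain_atPrime s
  have hmax : IsLocalRing.maximalIdeal (Localization.AtPrime (Ideal.span {s} : Ideal A)) =
      Ideal.span {algebraMap A (Localization.AtPrime (Ideal.span {s} : Ideal A)) s} := by
    rw [← Localization.AtPrime.map_eq_maximalIdeal, Ideal.map_span, Set.image_singleton]
  have hs0' : algebraMap A (Localization.AtPrime (Ideal.span {s} : Ideal A)) s ≠ 0 := by
    intro h
    apply hs.ne_zero
    apply IsLocalization.injective (Localization.AtPrime (Ideal.span {s} : Ideal A))
      (Ideal.span {s} : Ideal A).primeCompl_le_nonZeroDivisors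
    rw [h, map_zero]
  have hchar0 : CharZero (Localization.AtPrime (Ideal.span {s} : Ideal A) ⧸
      IsLocalRing.maximalIdeal (Localization.AtPrime (Ideal.span {s} : Ideal A))) := by
    refine charZero_of_inj_zero (fun n hn => ?_)
    by_contra h
    apply hchar n h
    have h1 : ((n : ℕ) : Localization.AtPrime (Ideal.span {s} : Ideal A)) ∈
        IsLocalRing.maximalIdeal (Localization.AtPrime (Ideal.span {s} : Ideal A)) := by
      rw [← Ideal.Quotient.eq_zero_iff_mem, map_natCast]; exact hn
    rw [← map_natCast (algebraMap A (Localization.AtPrime (Ideal.span {s} : Ideal A))) n,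
      IsLocalization.AtPrime.to_map_mem_maximal_iff _ (Ideal.span {s} : Ideal A)] at h1
    exact Ideal.mem_span_singleton.mp h1
  -- the Dedekind domain `B'`
  have hfrB' : IsFractionRing (integralClosure (Localization.AtPrime (Ideal.span {s} : Ideal A))
      (FractionRing B)) (FractionRing B) :=
    integralClosure.isFractionRing_of_finite_extension (FractionRing A) (FractionRing B)
  have hdedB' : IsDedekindDomain (integralClosure
      (Localization.AtPrime (Ideal.span {s} : Ideal A)) (FractionRing B)) :=
    integralClosure.isDedekindDomain _ (FractionRing A) (FractionRing B)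
  have hfinB' : Module.Finite (Localization.AtPrime (Ideal.span {s} : Ideal A))
      (integralClosure (Localization.AtPrime (Ideal.span {s} : Ideal A)) (FractionRing B)) :=
    IsIntegralClosure.finite _ (FractionRing A) (FractionRing B) _
  have htfB' : Module.IsTorsionFree (Localization.AtPrime (Ideal.span {s} : Ideal A))
      (integralClosure (Localization.AtPrime (Ideal.span {s} : Ideal A)) (FractionRing B)) := by
    rw [Module.isTorsionFree_iff_algebraMap_injective]
    intro u v huv
    have h1 : algebraMap (Localization.AtPrime (Ideal.span {s} : Ideal A)) (FractionRing B) u =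
        algebraMap (Localization.AtPrime (Ideal.span {s} : Ideal A)) (FractionRing B) v :=
      congrArg Subtype.val huv
    rw [IsScalarTower.algebraMap_apply (Localization.AtPrime (Ideal.span {s} : Ideal A))
      (FractionRing A) (FractionRing B), IsScalarTower.algebraMap_apply
      (Localization.AtPrime (Ideal.span {s} : Ideal A)) (FractionRing A) (FractionRing B)] at h1
    exact IsFractionRing.injective _ (FractionRing A)
      ((algebraMap (FractionRing A) (FractionRing B)).injective h1)
  -- Cramer: `x = y₁ / d`
  obtain ⟨y₁, hy₁⟩ := h15_exists_trace_repr b φ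
  have hdK : algebraMap A (FractionRing A) (Algebra.discr A b) ≠ 0 := fun h =>
    hd0 (IsFractionRing.injective A (FractionRing A) (by rw [h, map_zero]))
  set x : FractionRing B := (algebraMap A (FractionRing A) (Algebra.discr A b))⁻¹ •
    algebraMap B (FractionRing B) y₁ with hxdef
  have htrB : ∀ β : B, Algebra.trace (FractionRing A) (FractionRing B)
      (algebraMap B (FractionRing B) β) = algebraMap A (FractionRing A) (Algebra.trace A B β) :=
    fun β => Algebra.trace_localization A A⁰ (Rₘ := FractionRing A) (Sₘ := FractionRing B) β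
  have hF : ∀ β : B, Algebra.trace (FractionRing A) (FractionRing B)
      (x * algebraMap B (FractionRing B) β) = algebraMap A (FractionRing A) (φ β) := by
    intro β
    rw [hxdef, smul_mul_assoc, LinearMap.map_smul, ← map_mul, htrB, ← hy₁, map_mul, smul_eq_mul,
      ← mul_assoc, inv_mul_cancel₀ hdK, one_mul]
  -- clearing denominators
  have hclear : ∀ z : FractionRing B,
      IsIntegral (Localization.AtPrime (Ideal.span {s} : Ideal A)) z →
      ∃ m : A, m ∉ (Ideal.span {s} : Ideal A) ∧ ∃ β : B,
        algebraMap B (FractionRing B) β = algebraMap A (FractionRing B) m * z := by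
    intro z hz
    obtain ⟨m, hm⟩ := IsIntegral.exists_multiple_integral_of_isLocalization
      (Ideal.span {s} : Ideal A).primeCompl z hz
    have hm' : IsIntegral B ((m : A) • z) := IsIntegral.tower_top hm
    obtain ⟨β, hβ⟩ := IsIntegrallyClosed.isIntegral_iff.mp hm'
    exact ⟨m, m.2, β, by rw [hβ, Algebra.smul_def]⟩
  -- `x` lies in the codifferent of `B'`
  have hx : ∀ b' : integralClosure (Localization.AtPrime (Ideal.span {s} : Ideal A))
      (FractionRing B), Algebra.trace (FractionRing A) (FractionRing B)
        (x * algebraMap _ (FractionRing B) b') ∈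
      (algebraMap (Localization.AtPrime (Ideal.span {s} : Ideal A)) (FractionRing A)).range := by
    intro b'
    obtain ⟨m, hm, β, hβ⟩ := hclear (b' : FractionRing B) b'.2
    have h1 := hF β
    have hb'coe : algebraMap (integralClosure (Localization.AtPrime (Ideal.span {s} : Ideal A))
      (FractionRing B)) (FractionRing B) b' = (b' : FractionRing B) := rfl
    rw [hβ, IsScalarTower.algebraMap_apply A (FractionRing A) (FractionRing B),
      ← Algebra.smul_def, mul_smul_comm, LinearMap.map_smul, smul_eq_mul] at h1
    refine ⟨IsLocalization.mk' _ (φ β) (⟨m, hm⟩ : (Ideal.span {s} : Ideal A).primeCompl), ?_⟩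
    have hmK : algebraMap A (FractionRing A) m ≠ 0 := by
      intro h
      apply hm
      have : m = 0 := IsFractionRing.injective A (FractionRing A) (by rw [h, map_zero])
      rw [this]; exact Ideal.zero_mem _
    apply mul_left_cancel₀ hmK
    rw [hb'coe, h1, mul_comm,
      IsScalarTower.algebraMap_apply A (Localization.AtPrime (Ideal.span {s} : Ideal A))
        (FractionRing A) m, ← map_mul]
    rw [show IsLocalization.mk' (Localization.AtPrime (Ideal.span {s} : Ideal A)) (φ β)
        (⟨m, hm⟩ : (Ideal.span {s} : Ideal A).primeCompl) *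
        algebraMap A (Localization.AtPrime (Ideal.span {s} : Ideal A)) m =
        algebraMap A (Localization.AtPrime (Ideal.span {s} : Ideal A)) (φ β) from
      IsLocalization.mk'_spec _ (φ β) (⟨m, hm⟩ : (Ideal.span {s} : Ideal A).primeCompl),
      ← IsScalarTower.algebraMap_apply]
  obtain ⟨y', hy', N, hy'N⟩ := h15_tame_dedekind
    (Localization.AtPrime (Ideal.span {s} : Ideal A)) (FractionRing A) (FractionRing B)
    (integralClosure (Localization.AtPrime (Ideal.span {s} : Ideal A)) (FractionRing B))
    (algebraMap A _ s) hmax hs0' x hx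
  obtain ⟨c', hc'⟩ := Ideal.mem_span_singleton'.mp hy'N
  have hy'L : (y' : FractionRing B) = algebraMap A (FractionRing B) s * x := by
    have e1 : algebraMap (Localization.AtPrime (Ideal.span {s} : Ideal A)) (FractionRing B)
        (algebraMap A (Localization.AtPrime (Ideal.span {s} : Ideal A)) s) =
        algebraMap A (FractionRing B) s := by
      rw [← IsScalarTower.algebraMap_apply]
    rw [← e1]; exact hy'
  have hc'L : (y' : FractionRing B) ^ N = algebraMap A (FractionRing B) s * (c' : FractionRing B)
      := by
    have h := congrArg (fun w : integralClosure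
      (Localization.AtPrime (Ideal.span {s} : Ideal A)) (FractionRing B) =>
        (w : FractionRing B)) hc'
    simp only [Subalgebra.coe_mul, Subalgebra.coe_pow, Subalgebra.coe_algebraMap] at h
    rw [← h, mul_comm, ← IsScalarTower.algebraMap_apply]
  obtain ⟨m₁, hm₁, y₀, hy₀⟩ := hclear (y' : FractionRing B) y'.2
  obtain ⟨m₂, hm₂, c₀, hc₀⟩ := hclear (c' : FractionRing B) c'.2
  have hinjBL : Function.Injective (algebraMap B (FractionRing B)) :=
    IsFractionRing.injective B (FractionRing B)
  have hgm : m₁ * m₂ ∉ (Ideal.span {s} : Ideal A) := fun h =>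
    (hsp.mem_or_mem h).elim hm₁ hm₂
  have hyL : algebraMap B (FractionRing B) (algebraMap A B m₂ * y₀) =
      algebraMap A (FractionRing B) (m₁ * m₂ * s) * x := by
    rw [map_mul, hy₀, hy'L, ← IsScalarTower.algebraMap_apply, map_mul, map_mul]
    ring
  refine ⟨m₁ * m₂, N + 1, algebraMap A B m₂ * y₀,
    fun h => hgm (Ideal.mem_span_singleton.mpr h), ?_, fun β => ?_⟩
  · rw [Ideal.mem_span_singleton']
    refine ⟨algebraMap A B ((m₁ * m₂) ^ N) * y₀ * c₀, ?_⟩
    apply hinjBL
    have e2 : algebraMap B (FractionRing B) (algebraMap A B m₂ * y₀) =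
        algebraMap A (FractionRing B) (m₁ * m₂) * (y' : FractionRing B) := by
      rw [hyL, hy'L, map_mul, map_mul]; ring
    have e3 : (algebraMap A (FractionRing B) (m₁ * m₂) * (y' : FractionRing B)) ^ (N + 1) =
        (algebraMap A (FractionRing B) (m₁ * m₂)) ^ (N + 1) *
          (algebraMap A (FractionRing B) s * (c' : FractionRing B) * (y' : FractionRing B)) := by
      rw [mul_pow, pow_succ (y' : FractionRing B), hc'L]
    rw [map_pow (algebraMap B (FractionRing B)) (algebraMap A B m₂ * y₀), e2, e3, map_mul, map_mul,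
      map_mul, hy₀, hc₀, ← IsScalarTower.algebraMap_apply, ← IsScalarTower.algebraMap_apply]
    simp only [map_mul, map_pow]
    ring
  · apply IsFractionRing.injective A (FractionRing A)
    rw [← htrB, map_mul (algebraMap B (FractionRing B)), hyL,
      IsScalarTower.algebraMap_apply A (FractionRing A) (FractionRing B), ← Algebra.smul_def,
      smul_mul_assoc, LinearMap.map_smul, hF, smul_eq_mul, ← map_mul]

omit [IsDomain A] [IsNoetherianRing A] in
/-- A product of primes each associated to `π` or to `s` is associated to `π ^ a * s ^ c`. -/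
theorem h15_prod_assoc (π s : A) (f : Multiset A)
    (hf : ∀ g ∈ f, Associated g π ∨ Associated g s) :
    ∃ a c : ℕ, Associated f.prod (π ^ a * s ^ c) := by
  induction f using Multiset.induction with
  | empty => exact ⟨0, 0, by simp⟩
  | cons g f ih =>
    obtain ⟨a, c, hac⟩ := ih (fun g' hg' => hf g' (Multiset.mem_cons_of_mem hg'))
    rw [Multiset.prod_cons]
    rcases hf g (Multiset.mem_cons_self g f) with h | h
    · refine ⟨a + 1, c, ?_⟩
      have := h.mul_mul hac
      rwa [← mul_assoc, ← pow_succ'] at this
    · refine ⟨a, c + 1, ?_⟩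
      have := h.mul_mul hac
      rwa [mul_left_comm, ← pow_succ'] at this

/-- **(h_gen) from the horizontal primes.** `A` a noetherian UFD (e.g. regular local of
dimension two: helper7's `h7_ufm`), `π`, `s` primes, residue characteristic zero at `(s)`,
`B` a normal domain with a finite `A`-basis `b`, `discr ≠ 0`. If the discriminant lies in no
prime ideal avoiding `π` and `s` (the generic fibre is unramified at every horizontal prime
other than `(s)`), then the generic-fibre hypothesis of `h15_principle` holds. -/
theorem h15_hgen [UniqueFactorizationMonoid A] (π s : A) (hπ : Prime π) (hs : Prime s)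
    (hchar : ∀ n : ℕ, n ≠ 0 → ¬ s ∣ (n : A)) (b : Basis ι A B)
    (hd0 : Algebra.discr A b ≠ 0)
    (hhor : ∀ 𝔭 : Ideal A, 𝔭.IsPrime → π ∉ 𝔭 → s ∉ 𝔭 → Algebra.discr A b ∉ 𝔭)
    (φ : B →ₗ[A] A) :
    ∃ (n N : ℕ) (y : B), y ^ N ∈ Ideal.span {algebraMap A B s} ∧
      ∀ x, π ^ n * s * φ x = Algebra.trace A B (y * x) := by
  classical
  -- factor the discriminant
  obtain ⟨f, hfprime, hfprod⟩ := UniqueFactorizationMonoid.exists_prime_factors _ hd0
  have hf : ∀ g ∈ f, Associated g π ∨ Associated g s := by
    intro g hg
    have hgp : Prime g := hfprime g hg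
    have hgd : g ∣ Algebra.discr A b :=
      (Multiset.dvd_prod hg).trans hfprod.dvd
    have hgI : (Ideal.span {g} : Ideal A).IsPrime :=
      (Ideal.span_singleton_prime hgp.ne_zero).mpr hgp
    by_contra hcon
    rw [not_or] at hcon
    refine hhor _ hgI (fun h => hcon.1 ?_) (fun h => hcon.2 ?_)
      (Ideal.mem_span_singleton.mpr hgd)
    · exact hgp.associated_of_dvd hπ (Ideal.mem_span_singleton.mp h)
    · exact hgp.associated_of_dvd hs (Ideal.mem_span_singleton.mp h)
  obtain ⟨a, c, hac⟩ := h15_prod_assoc π s f hf
  obtain ⟨u, hu⟩ := (hac.symm.trans hfprod)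
  -- `hu : π ^ a * s ^ c * u = discr`
  obtain ⟨y₁, hy₁⟩ := h15_exists_trace_repr b φ
  obtain ⟨g, N, y₂, hg, hy₂N, hy₂⟩ := h15_tame s hs hchar b hd0 φ
  have hg0 : g ≠ 0 := fun h => hg (by rw [h]; exact dvd_zero s)
  -- `d y₂ = g s y₁`
  have e : Algebra.discr A b • y₂ = (g * s) • y₁ := by
    rw [← sub_eq_zero]
    refine h15_eq_zero_of_trace b hd0 _ (fun x => ?_)
    rw [sub_mul, map_sub, smul_mul_assoc, smul_mul_assoc, map_smul, map_smul, ← hy₁, ← hy₂,
      smul_eq_mul, smul_eq_mul]
    ring
  -- coordinates: `g ∣ π ^ a * (y₂)ᵢ`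
  have hcoord : ∀ i, ∃ t : A, π ^ a * b.repr y₂ i = g * t := by
    intro i
    have h1 : π ^ a * s ^ c * (u : A) * b.repr y₂ i = g * s * b.repr y₁ i := by
      have := congrArg (fun w => b.repr w i) e
      simp only [map_smul, Finsupp.smul_apply, smul_eq_mul] at this
      rw [hu]; exact this
    rcases Nat.eq_zero_or_pos c with hc | hc
    · subst hc
      refine ⟨((u⁻¹ : Aˣ) : A) * s * b.repr y₁ i, ?_⟩
      have h2 : π ^ a * b.repr y₂ i = ((u⁻¹ : Aˣ) : A) * (g * s * b.repr y₁ i) := by
        rw [← h1, pow_zero, mul_one]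
        have : ((u⁻¹ : Aˣ) : A) * (π ^ a * (u : A) * b.repr y₂ i) =
            ((u⁻¹ : Aˣ) : A) * (u : A) * (π ^ a * b.repr y₂ i) := by ring
        rw [this, Units.inv_mul, one_mul]
      rw [h2]; ring
    · obtain ⟨k, rfl⟩ : ∃ k, c = k + 1 := ⟨c - 1, by omega⟩
      have h3 : s * (π ^ a * s ^ k * (u : A) * b.repr y₂ i) = s * (g * b.repr y₁ i) := by
        rw [← mul_assoc s g, mul_comm s g, ← h1, pow_succ]; ring
      have h4 := mul_left_cancel₀ hs.ne_zero h3
      have h5 : s ^ k ∣ b.repr y₁ i := by
        refine Prime.pow_dvd_of_dvd_mul_left hs k hg ?_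
        rw [← h4]
        exact ⟨π ^ a * (u : A) * b.repr y₂ i, by ring⟩
      obtain ⟨t, ht⟩ := h5
      refine ⟨((u⁻¹ : Aˣ) : A) * t, ?_⟩
      have h6 : s ^ k * (π ^ a * (u : A) * b.repr y₂ i) = s ^ k * (g * t) := by
        rw [ht] at h4
        rw [← mul_left_comm g, ← h4]; ring
      have h7 := mul_left_cancel₀ (pow_ne_zero k hs.ne_zero) h6
      have : ((u⁻¹ : Aˣ) : A) * (π ^ a * (u : A) * b.repr y₂ i) =
          ((u⁻¹ : Aˣ) : A) * (u : A) * (π ^ a * b.repr y₂ i) := by ring
      rw [h7, Units.inv_mul, one_mul] at this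
      rw [← this]; ring
  choose t ht using hcoord
  set y : B := ∑ i, t i • b i with hy
  have hgy : g • y = π ^ a • y₂ := by
    conv_rhs => rw [← b.sum_repr y₂]
    rw [hy, Finset.smul_sum, Finset.smul_sum]
    refine Finset.sum_congr rfl (fun i _ => ?_)
    rw [← mul_smul, ← mul_smul, ht i]
  refine ⟨a, N, y, ?_, fun x => ?_⟩
  · rw [h15_dvd_iff_repr b]
    intro i
    have h2 := (h15_dvd_iff_repr b s (y₂ ^ N)).mp hy₂N i
    have h3 : g ^ N • y ^ N = (π ^ a) ^ N • y₂ ^ N := by
      rw [← smul_pow, ← smul_pow, hgy]
    have h4 : g ^ N * b.repr (y ^ N) i = (π ^ a) ^ N * b.repr (y₂ ^ N) i := by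
      have := congrArg (fun w => b.repr w i) h3
      simpa only [map_smul, Finsupp.smul_apply, smul_eq_mul] using this
    have h5 : s ∣ g ^ N * b.repr (y ^ N) i := by
      rw [h4]; exact Dvd.dvd.mul_left h2 _
    exact (hs.dvd_or_dvd h5).resolve_left (fun h => hg (hs.dvd_of_dvd_pow h))
  · apply mul_left_cancel₀ hg0
    have h1 : g * Algebra.trace A B (y * x) = Algebra.trace A B ((π ^ a • y₂) * x) := by
      rw [← hgy, smul_mul_assoc, map_smul, smul_eq_mul]
    rw [h1, smul_mul_assoc, map_smul, smul_eq_mul, ← hy₂]
    ring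

end Tame

section Smooth

variable {A B R C : Type*} [CommRing A] [IsDomain A] [IsNoetherianRing A]
  [UniqueFactorizationMonoid A] [CommRing B] [IsDomain B] [IsIntegrallyClosed B] [Algebra A B]
  [CommRing R] [IsDomain R] [IsPrincipalIdealRing R] [CommRing C] [IsDomain C] [Algebra R C]
variable {ι : Type*} [Fintype ι] [DecidableEq ι]

/-- **PRINCIPLE (*), final form: (SM) from the inputs of purity, minus the prime `(s)`.**

`A` a noetherian UFD (regular local of dimension two with maximal ideal `(π, s)`), `B` a normal
domain with a finite `A`-basis `b` ((T1)); `f : A → R`, `g : B → C` compatible surjections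
with `f π = 0`, `ker g = π B`, `R` a PID, `C` a domain, `f s` prime in `R`; `s` prime in `A`,
`s ∤ π`, residue characteristic zero at `(s)`. Assume

* `hdisc` : `π ∤ discr` (vertical prime: special fibre generically étale);
* `hhor` : `discr ∉ 𝔭` for every prime `𝔭` of `A` with `π ∉ 𝔭` and `s ∉ 𝔭` (the generic fibre is
  unramified at every horizontal prime through the closed point, EXCEPT possibly `(s)`).

Then the special fibre `C` is integrally closed. No hypothesis at `(s)`: ramification along
`s = 0` is tame because the residue characteristic of `(s)` is zero. -/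
theorem h15_smooth (f : A →+* R) (g : B →+* C)
    (hcomm : ∀ a, g (algebraMap A B a) = algebraMap R C (f a))
    (hf : Function.Surjective f) (hg : Function.Surjective g) (π s : A) (hπ : Prime π)
    (hs : Prime s) (hsπ : ¬ s ∣ π) (hchar : ∀ n : ℕ, n ≠ 0 → ¬ s ∣ (n : A))
    (hfπ : f π = 0) (hkg : ∀ x, g x = 0 → x ∈ Ideal.span {algebraMap A B π})
    (hfs : Prime (f s)) (b : Basis ι A B) (hdisc : ¬ π ∣ Algebra.discr A b)
    (hhor : ∀ 𝔭 : Ideal A, 𝔭.IsPrime → π ∉ 𝔭 → s ∉ 𝔭 → Algebra.discr A b ∉ 𝔭) :
    IsIntegrallyClosed C := by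
  have hd0 : Algebra.discr A b ≠ 0 := fun h => hdisc (by rw [h]; exact dvd_zero _)
  refine h15_principle f g hcomm hf hg π s hπ hfπ hkg hfs
    (fun a h => (hs.dvd_or_dvd h).resolve_left hsπ) b hdisc
    (fun φ => h15_hgen π s hπ hs hchar b hd0 hhor φ)

end Smooth

end Fermat.Agent.S18x.IG.H15
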