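import Mathlib
import Fermat.Agent.S16x.Swd.H8_Ram
import Fermat.Agent.S24.H6_Formal

/-!
# S18 [IG] (I1-HM), part 0 (helper8): formal tools for the Hauptmodul identities

* `thD` : the derivation `θ = X · d/dX` of `ℚ⟦X⟧`, `thD_expand` (`θ (f(q^d)) = d · (θ f)(q^d)`);
* Ramanujan's system for the expanded series `Pd d = P(q^d)`, `Qd d`, `Rd d` over `ℚ`;
* `Q_cube_sub_R_sq` : `Q³ - R² = 1728 · X · E²⁴` (formal, from Mathlib's analytic identity);
* `thD_Eq` : `24 · θ E = (P - 1) · E` for the Euler product `E = ∏ (1 - qⁿ)`.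
-/

set_option autoImplicit false

namespace Fermat.Agent.S18x.IG.H8

open PowerSeries
open Fermat.Agent.S16x.Swd.H8

/-- `θ = X · d/dX` as a derivation of `ℚ⟦X⟧`. -/
noncomputable def thD : Derivation ℚ ℚ⟦X⟧ ℚ⟦X⟧ :=
  (PowerSeries.X : ℚ⟦X⟧) • PowerSeries.derivative ℚ

theorem thD_apply (f : ℚ⟦X⟧) : thD f = theta f := by
  simp [thD, theta]

theorem coeff_thD (f : ℚ⟦X⟧) (n : ℕ) : (thD f).coeff n = (n : ℚ) * f.coeff n := by
  rw [thD_apply, coeff_theta]

theorem thD_X : thD (PowerSeries.X : ℚ⟦X⟧) = PowerSeries.X := by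
  ext n
  rw [coeff_thD, PowerSeries.coeff_X]
  split_ifs with h
  · subst h; simp
  · simp

theorem thD_expand (d : ℕ) (hd : d ≠ 0) (f : ℚ⟦X⟧) :
    thD (PowerSeries.expand d hd f) = (d : ℚ⟦X⟧) * PowerSeries.expand d hd (thD f) := by
  ext n
  have e : ((d : ℚ⟦X⟧)) = PowerSeries.C (d : ℚ) := by simp
  rw [coeff_thD, e, PowerSeries.coeff_C_mul, PowerSeries.coeff_expand, PowerSeries.coeff_expand]
  split_ifs with h
  · obtain ⟨m, rfl⟩ := h
    rw [coeff_thD, Nat.mul_div_cancel_left _ (Nat.pos_of_ne_zero hd)]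
    push_cast
    ring
  · simp

/-! ### the basic series over `ℚ` -/

/-- `P(q^d)` -/
noncomputable def Pd (d : ℕ) (hd : d ≠ 0) : ℚ⟦X⟧ := PowerSeries.expand d hd (Pser ℚ)
/-- `Q(q^d)` -/
noncomputable def Qd (d : ℕ) (hd : d ≠ 0) : ℚ⟦X⟧ := PowerSeries.expand d hd (Qser ℚ)
/-- `R(q^d)` -/
noncomputable def Rd (d : ℕ) (hd : d ≠ 0) : ℚ⟦X⟧ := PowerSeries.expand d hd (Rser ℚ)

theorem ram_Pd (d : ℕ) (hd : d ≠ 0) :
    12 * thD (Pd d hd) = (d : ℚ⟦X⟧) * (Pd d hd ^ 2 - Qd d hd) := by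
  have h := congrArg (PowerSeries.expand d hd) (ramanujan_P ℚ)
  rw [map_mul, map_sub, map_pow, map_ofNat] at h
  rw [Pd, Qd, thD_expand, thD_apply, ← h]
  ring

theorem ram_Qd (d : ℕ) (hd : d ≠ 0) :
    3 * thD (Qd d hd) = (d : ℚ⟦X⟧) * (Pd d hd * Qd d hd - Rd d hd) := by
  have h := congrArg (PowerSeries.expand d hd) (ramanujan_Q ℚ)
  rw [map_mul, map_sub, map_mul, map_ofNat] at h
  rw [Pd, Qd, Rd, thD_expand, thD_apply, ← h]
  ring

theorem ram_Rd (d : ℕ) (hd : d ≠ 0) :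
    2 * thD (Rd d hd) = (d : ℚ⟦X⟧) * (Pd d hd * Rd d hd - Qd d hd ^ 2) := by
  have h := congrArg (PowerSeries.expand d hd) (ramanujan_R ℚ)
  rw [map_mul, map_sub, map_mul, map_pow, map_ofNat] at h
  rw [Pd, Qd, Rd, thD_expand, thD_apply, ← h]
  ring


/-! ### `Q³ - R² = 1728 · X · E²⁴` and the logarithmic derivative of the Euler product -/

open UpperHalfPlane ModularForm EisensteinSeries in
theorem Qz_cube_sub_Rz_sq :
    Qz ^ 3 - Rz ^ 2 = 1728 * (PowerSeries.X * ModularCurve.etaProd ^ 24) := by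
  apply map_intCast_injective
  have hΔ : Fermat.Agent.S23.R5.NiceAtInf (ModularForm.discriminant : ℍ → ℂ) :=
    Fermat.Agent.S23.R5.NiceAtInf.of_modularForm CuspForm.discriminant one_mem_strictPeriods_SL
  have hfun : ((1728 : ℂ) • (ModularForm.discriminant : ℍ → ℂ)) =
      (E₄ : ℍ → ℂ) * ((E₄ : ℍ → ℂ) * (E₄ : ℍ → ℂ)) - (E₆ : ℍ → ℂ) * (E₆ : ℍ → ℂ) := by
    ext z
    simp only [Pi.smul_apply, Pi.sub_apply, Pi.mul_apply, smul_eq_mul]
    rw [ModularForm.discriminant_eq_E₄_cube_sub_E₆_sq z]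
    ring
  have h := congrArg (qExpansion 1) hfun
  rw [qExpansion_smul hΔ.analyticAt,
    qExpansion_sub (niceAtInf_E4.mul (niceAtInf_E4.mul niceAtInf_E4)).analyticAt
      (niceAtInf_E6.mul niceAtInf_E6).analyticAt,
    qExpansion_mul niceAtInf_E4.analyticAt (niceAtInf_E4.mul niceAtInf_E4).analyticAt,
    qExpansion_mul niceAtInf_E4.analyticAt niceAtInf_E4.analyticAt,
    qExpansion_mul niceAtInf_E6.analyticAt niceAtInf_E6.analyticAt,
    Fermat.Agent.S24.Real.qExpansion_discriminant, qExpansion_E4_eq_map,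
    qExpansion_E6_eq_map] at h
  simp only [map_sub, map_pow, map_mul, map_ofNat]
  have e : (1728 : ℂ⟦X⟧) = PowerSeries.C (1728 : ℂ) := by rw [map_ofNat]
  rw [e, ← PowerSeries.smul_eq_C_mul]
  have h2 : PowerSeries.map (Int.castRingHom ℂ) Fermat.Agent.S24.Real.deltaZ =
      PowerSeries.map (Int.castRingHom ℂ) PowerSeries.X *
        PowerSeries.map (Int.castRingHom ℂ) ModularCurve.etaProd ^ 24 := by
    rw [Fermat.Agent.S24.Real.deltaZ, ModularCurve.dedekindEtaUnit, map_mul, map_pow]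
  rw [← h2, h]
  ring

/-- the Euler product `∏ (1 - qⁿ)` over `ℚ` -/
noncomputable def Eu : ℚ⟦X⟧ := PowerSeries.map (Int.castRingHom ℚ) ModularCurve.etaProd

theorem constantCoeff_Eq : PowerSeries.constantCoeff Eu = 1 := by
  rw [Eu, ← PowerSeries.coeff_zero_eq_constantCoeff_apply, PowerSeries.coeff_map,
    PowerSeries.coeff_zero_eq_constantCoeff_apply, ModularCurve.constantCoeff_etaProd]
  simp

theorem Q_cube_sub_R_sq :
    Qser ℚ ^ 3 - Rser ℚ ^ 2 = 1728 * (PowerSeries.X * Eu ^ 24) := by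
  have h := congrArg (PowerSeries.map (Int.castRingHom ℚ)) Qz_cube_sub_Rz_sq
  simpa only [map_sub, map_pow, map_mul, map_ofNat, PowerSeries.map_X, Qser, Rser, Eu] using h

theorem Eq_ne_zero : Eu ≠ 0 := by
  intro h
  have := constantCoeff_Eq
  rw [h] at this
  simp at this

theorem thD_Eq : 24 * thD Eu = (Pser ℚ - 1) * Eu := by
  -- `θ (Q³ - R²) = P (Q³ - R²)` and `Q³ - R² = 1728 X E²⁴`
  have hP := ramanujan_P ℚ
  have hQ := ramanujan_Q ℚ
  have hR := ramanujan_R ℚ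
  rw [← thD_apply] at hP hQ hR
  have h1 : thD (Qser ℚ ^ 3 - Rser ℚ ^ 2) = Pser ℚ * (Qser ℚ ^ 3 - Rser ℚ ^ 2) := by
    rw [map_sub, Derivation.leibniz_pow, Derivation.leibniz_pow]
    simp only [smul_eq_mul, nsmul_eq_mul]
    push_cast
    linear_combination (Qser ℚ ^ 2) * hQ - (Rser ℚ) * hR
  rw [Q_cube_sub_R_sq] at h1
  have h2 : thD (1728 * (PowerSeries.X * Eu ^ 24)) =
      1728 * (PowerSeries.X * Eu ^ 24 + PowerSeries.X * (24 * Eu ^ 23 * thD Eu)) := by
    have e : (1728 : ℚ⟦X⟧) = PowerSeries.C (1728 : ℚ) := by rw [map_ofNat]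
    rw [e, ← PowerSeries.smul_eq_C_mul, Derivation.map_smul, Derivation.leibniz,
      Derivation.leibniz_pow, thD_X]
    simp only [smul_eq_mul, nsmul_eq_mul, PowerSeries.smul_eq_C_mul]
    push_cast
    ring
  rw [h2] at h1
  have hne : (1728 : ℚ⟦X⟧) * (PowerSeries.X * Eu ^ 23) ≠ 0 := by
    refine mul_ne_zero ?_ (mul_ne_zero PowerSeries.X_ne_zero (pow_ne_zero _ Eq_ne_zero))
    intro h
    have h' := congrArg (PowerSeries.constantCoeff (R := ℚ)) h
    rw [map_ofNat, map_zero] at h'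
    norm_num at h'
  apply mul_left_cancel₀ hne
  linear_combination h1


/-! ### derivation helpers -/

theorem thD_ofNat (n : ℕ) [n.AtLeastTwo] : thD (ofNat(n) : ℚ⟦X⟧) = 0 := by
  have : (ofNat(n) : ℚ⟦X⟧) = algebraMap ℚ ℚ⟦X⟧ (ofNat(n)) := by
    rw [map_ofNat]
  rw [this, Derivation.map_algebraMap]

/-! ### uniqueness for linear systems `c · D · θ G = M G` -/

theorem coeff_mul_of_lt_zero (f g : ℚ⟦X⟧) (n : ℕ) (hg : ∀ m < n, g.coeff m = 0) :
    (f * g).coeff n = f.coeff 0 * g.coeff n := by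
  rw [PowerSeries.coeff_mul, Finset.sum_eq_single (0, n)]
  · rintro ⟨a, b⟩ hab hne
    have hab' : a + b = n := by simpa using hab
    have hb : b < n := by
      rcases Nat.eq_zero_or_pos a with ha | ha
      · subst ha
        exfalso
        apply hne
        simp only [zero_add] at hab'
        rw [hab']
      · omega
    simp only
    rw [hg b hb, mul_zero]
  · intro h
    exfalso
    apply h
    simp

/-- **ODE uniqueness.** If `c · D · θ G_i = ∑ M_ij G_j` with `D(0) = 1`, the `G_i` vanish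
modulo `X^N`, and `c n - M(0)` is injective for all `n ≥ N`, then all `G_i` vanish. -/
theorem ode_unique {ι : Type*} [Fintype ι] (G : ι → ℚ⟦X⟧) (c : ℚ) (Dm : ℚ⟦X⟧)
    (hD : Dm.coeff 0 = 1) (M : ι → ι → ℚ⟦X⟧) (N : ℕ)
    (hode : ∀ i, PowerSeries.C c * (Dm * thD (G i)) = ∑ j, M i j * G j)
    (h0 : ∀ i, ∀ n < N, (G i).coeff n = 0)
    (hinj : ∀ n : ℕ, N ≤ n → ∀ x : ι → ℚ,
      (∀ i, c * n * x i = ∑ j, (M i j).coeff 0 * x j) → ∀ i, x i = 0) :
    ∀ i, G i = 0 := by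
  have key : ∀ n : ℕ, ∀ i, (G i).coeff n = 0 := by
    intro n
    induction n using Nat.strong_induction_on with
    | _ n ih =>
      rcases lt_or_ge n N with hn | hn
      · exact fun i => h0 i n hn
      · refine hinj n hn (fun i => (G i).coeff n) (fun i => ?_)
        have h := congrArg (PowerSeries.coeff n) (hode i)
        rw [PowerSeries.coeff_C_mul, map_sum] at h
        have hth : ∀ m < n, (thD (G i)).coeff m = 0 := by
          intro m hm
          rw [coeff_thD, ih m hm i, mul_zero]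
        rw [coeff_mul_of_lt_zero Dm (thD (G i)) n hth, hD, one_mul, coeff_thD] at h
        rw [← mul_assoc] at h
        rw [h]
        refine Finset.sum_congr rfl (fun j _ => ?_)
        exact coeff_mul_of_lt_zero (M i j) (G j) n (fun m hm => ih m hm j)
  intro i
  ext n
  rw [key n i, map_zero]

/-! ### truncations -/

/-- the ideal `(X^n)` -/
noncomputable def trI (n : ℕ) : Ideal ℚ⟦X⟧ := Ideal.span {(PowerSeries.X : ℚ⟦X⟧) ^ n}

/-- reduction modulo `X^n` -/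
noncomputable def trQ (n : ℕ) : ℚ⟦X⟧ →+* (ℚ⟦X⟧ ⧸ trI n) := Ideal.Quotient.mk (trI n)

theorem trQ_X_pow (n : ℕ) : trQ n PowerSeries.X ^ n = 0 := by
  rw [← map_pow, trQ, Ideal.Quotient.eq_zero_iff_mem, trI]
  exact Ideal.subset_span rfl

theorem trQ_eq_zero_iff (n : ℕ) (f : ℚ⟦X⟧) : trQ n f = 0 ↔ ∀ m < n, f.coeff m = 0 := by
  rw [trQ, Ideal.Quotient.eq_zero_iff_mem, trI, Ideal.mem_span_singleton,
    PowerSeries.X_pow_dvd_iff]

theorem trQ_eq_iff (n : ℕ) (f g : ℚ⟦X⟧) : trQ n f = trQ n g ↔ ∀ m < n, f.coeff m = g.coeff m := by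
  rw [← sub_eq_zero, ← map_sub, trQ_eq_zero_iff]
  simp only [map_sub, sub_eq_zero]

/-- a power series is congruent modulo `X^n` to its truncation -/
theorem trQ_eq_sum (n : ℕ) (f : ℚ⟦X⟧) :
    trQ n f = ∑ i ∈ Finset.range n, trQ n (PowerSeries.C (f.coeff i)) * trQ n PowerSeries.X ^ i := by
  have : (∑ i ∈ Finset.range n, trQ n (PowerSeries.C (f.coeff i)) * trQ n PowerSeries.X ^ i) =
      trQ n (∑ i ∈ Finset.range n, PowerSeries.C (f.coeff i) * PowerSeries.X ^ i) := by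
    rw [map_sum]
    refine Finset.sum_congr rfl (fun i _ => ?_)
    rw [map_mul, map_pow]
  rw [this, trQ_eq_iff]
  intro m hm
  rw [map_sum, Finset.sum_eq_single m]
  · rw [PowerSeries.coeff_C_mul, PowerSeries.coeff_X_pow, if_pos rfl, mul_one]
  · intro b _ hb
    rw [PowerSeries.coeff_C_mul, PowerSeries.coeff_X_pow, if_neg (Ne.symm hb), mul_zero]
  · intro h
    exact absurd (Finset.mem_range.mpr hm) h

theorem trQ_C_ofNat (n : ℕ) (k : ℕ) [k.AtLeastTwo] :
    trQ n (PowerSeries.C (ofNat(k) : ℚ)) = (ofNat(k) : ℚ⟦X⟧ ⧸ trI n) := by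
  rw [map_ofNat, map_ofNat]

/-- the Euler product modulo `X^(n+1)` is the finite product -/
theorem trQ_Eq (n : ℕ) :
    trQ (n + 1) Eu = ∏ m ∈ Finset.range n, (1 - trQ (n + 1) PowerSeries.X ^ (m + 1)) := by
  have h : (∏ m ∈ Finset.range n, (1 - trQ (n + 1) PowerSeries.X ^ (m + 1))) =
      trQ (n + 1) (PowerSeries.map (Int.castRingHom ℚ)
        ((Fermat.Agent.S24.Real.etaPoly n : Polynomial ℤ) : PowerSeries ℤ)) := by
    rw [Fermat.Agent.S24.Real.coe_etaPoly, map_prod, map_prod]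
    refine Finset.prod_congr rfl (fun m _ => ?_)
    simp only [map_sub, map_one, map_pow, PowerSeries.map_X]
  rw [h, trQ_eq_iff]
  intro m hm
  rw [Eu, PowerSeries.coeff_map, PowerSeries.coeff_map, Fermat.Agent.S24.Real.coeff_etaProd,
    Polynomial.coeff_coe, Fermat.Agent.S24.Real.coeff_etaPoly_of_le (Nat.lt_succ_iff.mp hm)]

end Fermat.Agent.S18x.IG.H8
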