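import Mathlib
import Fermat.Agent.S18x.IG.H8_HmBase

/-!
# S18 [IG] (I1-HM), level 9 (helper21): definitions and first facts

Everything lives in `ℚ⟦X⟧`.  With `E = ∏ (1 - qⁿ)`:

* `h21s = q E(q⁹)³ / E(q)³` (the inverse of the Hauptmodul of `X₀(9)`),
* `h21D = 1 + 9 s + 27 s²`, `h21U = (9 P(q⁹) - P(q)) / 8`, `h21V = (3 P(q³) - P(q)) / 2`,
  `h21Y = U / D`,
* `h21G : Fin 7 → ℚ⟦X⟧`, the seven defects
  `V - (1 + 9 s)² Y`, `Q(q^d) - A_d(s) Y²`, `R(q^d) - C_d(s) Y³` (`d = 1, 3, 9`).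

The theorem that all defects vanish is in `H21_Hm9Ode`.
-/

set_option autoImplicit false

namespace Fermat.Agent.S18x.IG.H21

open PowerSeries
open Fermat.Agent.S16x.Swd.H8 Fermat.Agent.S18x.IG.H8

theorem h21_three_ne : (3 : ℕ) ≠ 0 := by norm_num
theorem h21_nine_ne : (9 : ℕ) ≠ 0 := by norm_num

/-- `E(q⁹)` -/
noncomputable def h21E9 : ℚ⟦X⟧ := PowerSeries.expand 9 h21_nine_ne Eu

/-- `s = q E(q⁹)³ / E(q)³` -/
noncomputable def h21s : ℚ⟦X⟧ := PowerSeries.X * h21E9 ^ 3 * (Eu ^ 3)⁻¹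

/-- `D = 1 + 9 s + 27 s²` -/
noncomputable def h21D : ℚ⟦X⟧ := 1 + 9 * h21s + 27 * h21s ^ 2

/-- `P(q³)`, `P(q⁹)`, `Q(q^d)`, `R(q^d)` -/
noncomputable def h21P3 : ℚ⟦X⟧ := Pd 3 h21_three_ne
noncomputable def h21P9 : ℚ⟦X⟧ := Pd 9 h21_nine_ne
noncomputable def h21Q3 : ℚ⟦X⟧ := Qd 3 h21_three_ne
noncomputable def h21Q9 : ℚ⟦X⟧ := Qd 9 h21_nine_ne
noncomputable def h21R3 : ℚ⟦X⟧ := Rd 3 h21_three_ne
noncomputable def h21R9 : ℚ⟦X⟧ := Rd 9 h21_nine_ne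

/-- `U = (9 P(q⁹) - P(q)) / 8` -/
noncomputable def h21U : ℚ⟦X⟧ := PowerSeries.C (1 / 8 : ℚ) * (9 * h21P9 - Pser ℚ)

/-- `V = (3 P(q³) - P(q)) / 2` -/
noncomputable def h21V : ℚ⟦X⟧ := PowerSeries.C (1 / 2 : ℚ) * (3 * h21P3 - Pser ℚ)

/-- `Y = U / D` -/
noncomputable def h21Y : ℚ⟦X⟧ := h21U * h21D⁻¹

/-- `A₁(s) = (1 + 9s)(1 + 243 s + 2187 s² + 6561 s³)` -/
noncomputable def h21A1 : ℚ⟦X⟧ :=
  (1 + 9 * h21s) * (1 + 243 * h21s + 2187 * h21s ^ 2 + 6561 * h21s ^ 3)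
/-- `A₃(s) = (1 + 3s)(1 + 9 s + 27 s² + 243 s³)` -/
noncomputable def h21A3 : ℚ⟦X⟧ :=
  (1 + 3 * h21s) * (1 + 9 * h21s + 27 * h21s ^ 2 + 243 * h21s ^ 3)
/-- `A₉(s) = (1 + 3s)(1 + 9 s + 27 s² + 3 s³)` -/
noncomputable def h21A9 : ℚ⟦X⟧ :=
  (1 + 3 * h21s) * (1 + 9 * h21s + 27 * h21s ^ 2 + 3 * h21s ^ 3)
/-- `C₁(s)` -/
noncomputable def h21C1 : ℚ⟦X⟧ :=
  1 - 486 * h21s - 24057 * h21s ^ 2 - 367416 * h21s ^ 3 - 2657205 * h21s ^ 4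
    - 9565938 * h21s ^ 5 - 14348907 * h21s ^ 6
/-- `C₃(s)` -/
noncomputable def h21C3 : ℚ⟦X⟧ :=
  1 + 18 * h21s + 135 * h21s ^ 2 - 3645 * h21s ^ 4 - 13122 * h21s ^ 5 - 19683 * h21s ^ 6
/-- `C₉(s)` -/
noncomputable def h21C9 : ℚ⟦X⟧ :=
  1 + 18 * h21s + 135 * h21s ^ 2 + 504 * h21s ^ 3 + 891 * h21s ^ 4 + 486 * h21s ^ 5
    - 27 * h21s ^ 6

/-- the polynomial identities `A_d³ - C_d² = 1728 s^e D^f` -/
theorem h21_A1_C1 : h21A1 ^ 3 - h21C1 ^ 2 = 1728 * h21s * h21D := by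
  simp only [h21A1, h21C1, h21D]; ring
theorem h21_A3_C3 : h21A3 ^ 3 - h21C3 ^ 2 = 1728 * h21s ^ 3 * h21D ^ 3 := by
  simp only [h21A3, h21C3, h21D]; ring
theorem h21_A9_C9 : h21A9 ^ 3 - h21C9 ^ 2 = 1728 * h21s ^ 9 * h21D := by
  simp only [h21A9, h21C9, h21D]; ring

/-- the seven defects -/
noncomputable def h21G : Fin 7 → ℚ⟦X⟧ :=
  ![h21V - (1 + 9 * h21s) ^ 2 * h21Y,
    Qser ℚ - h21A1 * h21Y ^ 2,
    h21Q3 - h21A3 * h21Y ^ 2,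
    h21Q9 - h21A9 * h21Y ^ 2,
    Rser ℚ - h21C1 * h21Y ^ 3,
    h21R3 - h21C3 * h21Y ^ 3,
    h21R9 - h21C9 * h21Y ^ 3]

/-! ### defining relations -/

theorem h21_constantCoeff_Eu_pow : PowerSeries.constantCoeff (Eu ^ 3) ≠ 0 := by
  rw [map_pow, constantCoeff_Eq]; norm_num

/-- `s · E³ = X · E(q⁹)³` -/
theorem h21s_mul : h21s * Eu ^ 3 = PowerSeries.X * h21E9 ^ 3 := by
  rw [h21s, mul_assoc, PowerSeries.inv_mul_cancel _ h21_constantCoeff_Eu_pow, mul_one]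

theorem h21_constantCoeff_s : PowerSeries.constantCoeff h21s = 0 := by
  rw [h21s, mul_assoc, map_mul, PowerSeries.constantCoeff_X, zero_mul]

theorem h21_constantCoeff_D : PowerSeries.constantCoeff h21D = 1 := by
  rw [h21D]
  simp [h21_constantCoeff_s]

theorem h21_coeff_zero_D : h21D.coeff 0 = 1 := by
  rw [PowerSeries.coeff_zero_eq_constantCoeff_apply, h21_constantCoeff_D]

theorem h21_constantCoeff_D_ne : PowerSeries.constantCoeff h21D ≠ 0 := by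
  rw [h21_constantCoeff_D]; exact one_ne_zero

/-- `D · Y = U` -/
theorem h21D_mul_Y : h21D * h21Y = h21U := by
  rw [h21Y, mul_comm h21U, ← mul_assoc, PowerSeries.mul_inv_cancel _ h21_constantCoeff_D_ne,
    one_mul]

/-- `8 U = 9 P(q⁹) - P` -/
theorem h21_eight_U : 8 * h21U = 9 * h21P9 - Pser ℚ := by
  rw [h21U, ← mul_assoc]
  have : (8 : ℚ⟦X⟧) * PowerSeries.C (1 / 8 : ℚ) = 1 := by
    rw [show (8 : ℚ⟦X⟧) = PowerSeries.C (8 : ℚ) by rw [map_ofNat], ← map_mul]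
    norm_num
  rw [this, one_mul]

/-- `2 V = 3 P(q³) - P` -/
theorem h21_two_V : 2 * h21V = 3 * h21P3 - Pser ℚ := by
  rw [h21V, ← mul_assoc]
  have : (2 : ℚ⟦X⟧) * PowerSeries.C (1 / 2 : ℚ) = 1 := by
    rw [show (2 : ℚ⟦X⟧) = PowerSeries.C (2 : ℚ) by rw [map_ofNat], ← map_mul]
    norm_num
  rw [this, one_mul]

end Fermat.Agent.S18x.IG.H21
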