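import Mathlib
import Fermat.Agent.S18x.IG.H24_HsmInst
import Fermat.Agent.S18x.IG.H5_HorInst
import Fermat.Agent.S18x.Dict.H7_IGParts

/-!
# S18 [IG-FINAL] (helper24): (SM) on the two charts of the Hauptmodul, hypothesis-free

`A` a valuation subring of `ℚ̄` over the prime `ℓ`, `M` a level prime to `ℓ` and divisible by
`p₀ = 2` (`ℓ ≠ 2`) resp. `p₀ = 3` (`ℓ ≠ 3`), `K` a number field inside `ℚ̄`, `O = A ∩ K`.

* `h24_hSM_all_two`, `h24_hSM_all_three` : `HSMChart O h π₀ ∧ HSMChart O h⁻¹ π₀` for the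
  Hauptmodul `h` of level `p₀` as an element of `F_M(K)` — the hypothesis `hSM` of
  `Dict.H7.h7_stKumVPrime_two` / `_three` VERBATIM;
* `h24_stKumVPrime_two`, `h24_stKumVPrime_three` : `Kum.StKumVPrime A M ℓ`;
* `h24_stKumVPrime` : `Kum.StKumVPrime A M ℓ` for `p₀ ∣ M`, `p₀ ∈ {2, 3}`, `ℓ ≠ p₀`, `ℓ ∤ M`.

Inputs (all on main): (VERT-INST) helper10, (HOR-INST) helper5 + helper4, (SAT) helper1 +
helper2, coordinates helper29 + helper28 + helper21, PRINCIPLE (*) helper15 + helper16 +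
helper25 + helper27, (LC) helper26, base helper11, [DICT] helper7 + helper22 + helper23 +
helper20.
-/

set_option autoImplicit false
set_option linter.style.haveILetI false
set_option linter.unusedSectionVars false
set_option synthInstance.maxHeartbeats 400000
set_option maxHeartbeats 1000000

open Polynomial ModularCurve

namespace Fermat.Agent.S18x.IG

open Fermat.Agent.S18x.Spec.H26 Fermat.Agent.S18x.Dict.H20 Fermat.Agent.S18x.IG.H29
  Fermat.Agent.S18x.Dict.H23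

local notation "Lbar" => AlgebraicClosure ℚ

section Sat

variable (A : ValuationSubring Lbar) {ℓ : ℕ} (hℓ : ℓ.Prime) (hA : A.LiesOverPrime ℓ)
  (M : ℕ) [NeZero M]

include hℓ hA in
/-- The saturation of the charts of `x` and `x⁻¹` from an identity `j * D(x₀) = N(x₀)`
(helper1's `sat_chart` + helper2's `h2sat_of_identity`, as in `Dict.H7.h7IG_of_identity`). -/
theorem h24_hsat_of_identity (hℓM : ¬ ℓ ∣ M) (K : IntermediateField ℚ Lbar)
    [IsDiscreteValuationRing (A.comap (algebraMap ↥K Lbar))]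
    (x₀ : LaurentSeries ℤ) (hord : x₀.order = -1) (hlead : x₀.coeff (-1) = 1)
    (hmem : coeffMap (Int.castRingHom ↥K) x₀ ∈ modularFunctionFieldFullC ↥K M)
    (N D : ℤ[X]) (hN : N.Monic) (hD : D.Monic) (hdeg : D.natDegree < N.natDegree)
    (hD0 : D.coeff 0 = 0) (n₀ : ℕ) (hn₀ : N.coeff 0 = (n₀ : ℤ)) (hℓn₀ : ¬ ℓ ∣ n₀)
    (hid : jqModC ℤ * aeval x₀ D = aeval x₀ N)
    (π₀ : A.comap (algebraMap ↥K Lbar)) (hπ₀ : Irreducible π₀) :
    (∀ v ∈ gaussValM (A.comap (algebraMap ↥K Lbar)) M,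
      algebraMap (A.comap (algebraMap ↥K Lbar)) ↥(modularFunctionFieldFullC ↥K M) π₀ * v ∈
        chart (A.comap (algebraMap ↥K Lbar)) (coordM ↥K M x₀ hmem) →
        v ∈ chart (A.comap (algebraMap ↥K Lbar)) (coordM ↥K M x₀ hmem)) ∧
    (∀ v ∈ gaussValM (A.comap (algebraMap ↥K Lbar)) M,
      algebraMap (A.comap (algebraMap ↥K Lbar)) ↥(modularFunctionFieldFullC ↥K M) π₀ * v ∈
        chart (A.comap (algebraMap ↥K Lbar)) (coordM ↥K M x₀ hmem)⁻¹ →
        v ∈ chart (A.comap (algebraMap ↥K Lbar)) (coordM ↥K M x₀ hmem)⁻¹) := by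
  haveI : IsScalarTower (A.comap (algebraMap ↥K Lbar)) ↥K ↥(modularFunctionFieldFullC ↥K M) :=
    IsScalarTower.of_algebraMap_eq (fun c => rfl)
  haveI : Fact ℓ.Prime := ⟨hℓ⟩
  haveI : CharP (IsLocalRing.ResidueField (A.comap (algebraMap ↥K Lbar))) ℓ :=
    h23_charP_residueField (K := ↥K) A hℓ hA
  obtain ⟨h1, h2, h3, h4, h5⟩ := Fermat.Agent.S18x.IG.H29.coord_inputs
    (A.comap (algebraMap ↥K Lbar)) M x₀ hmem hord hlead
  obtain ⟨u, hu⟩ := h23_isUnit_natCast (K := ↥K) A hℓ hA n₀ hℓn₀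
  have hμ : ((u⁻¹ : (A.comap (algebraMap ↥K Lbar))ˣ) : A.comap (algebraMap ↥K Lbar)) *
      (N.map (Int.castRingHom (A.comap (algebraMap ↥K Lbar)))).coeff 0 = 1 := by
    rw [Polynomial.coeff_map, hn₀]
    have : (Int.castRingHom (A.comap (algebraMap ↥K Lbar))) ((n₀ : ℕ) : ℤ) =
        ((n₀ : ℕ) : A.comap (algebraMap ↥K Lbar)) := by simp
    rw [this, ← hu]
    exact Units.inv_mul u
  have hD0' : (D.map (Int.castRingHom (A.comap (algebraMap ↥K Lbar)))).coeff 0 = 0 := by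
    rw [Polynomial.coeff_map, hD0, map_zero]
  have hdeg' : (D.map (Int.castRingHom (A.comap (algebraMap ↥K Lbar)))).natDegree <
      (N.map (Int.castRingHom (A.comap (algebraMap ↥K Lbar)))).natDegree := by
    rw [hD.natDegree_map, hN.natDegree_map]
    exact hdeg
  obtain ⟨s1, s2, -⟩ := Fermat.Agent.S18x.Qepo.H2.h2sat_of_identity
    (O := A.comap (algebraMap ↥K Lbar)) (F := ↥(modularFunctionFieldFullC ↥K M))
    (Fermat.Agent.S28.Asm.jbFull ↥K M) (Fermat.Agent.S18x.IG.H29.coordM ↥K M x₀ hmem)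
    (N.map (Int.castRingHom (A.comap (algebraMap ↥K Lbar))))
    (D.map (Int.castRingHom (A.comap (algebraMap ↥K Lbar))))
    (gaussValM (A.comap (algebraMap ↥K Lbar)) M).toSubring h2 π₀ hπ₀.prime
    (hN.map _) (hD.map _) hdeg'
    (Fermat.Agent.S18x.Dict.H7.h7_identity_FM (A.comap (algebraMap ↥K Lbar)) M x₀ hmem N D hid)
    hD0' _ hμ h4
    (Fermat.Agent.S18x.Qepo.sat_chart (A.comap (algebraMap ↥K Lbar)) π₀ hπ₀ M ℓ hℓM)
  exact ⟨fun v hv h => s1 v hv h, fun v hv h => s2 v hv h⟩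

end Sat

section Final

variable (A : ValuationSubring Lbar) {ℓ : ℕ} (hℓ : ℓ.Prime) (hA : A.LiesOverPrime ℓ)
  (M : ℕ) [NeZero M]

open Fermat.Agent.S18x.IG.H28

include hℓ hA in
/-- **[IG-FINAL], level 2, `ℓ ≠ 2`**: (SM) on both charts of the Hauptmodul `h₂`, over every
number field. -/
theorem h24_hSM_all_two (hℓ2 : ℓ ≠ 2) (h2M : 2 ∣ M) (hℓM : ¬ ℓ ∣ M) :
    ∀ K : IntermediateField ℚ Lbar, FiniteDimensional ℚ K →
      ∀ _ : IsDiscreteValuationRing (A.comap (algebraMap ↥K Lbar)),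
      ∃ π₀ : A.comap (algebraMap ↥K Lbar), Irreducible π₀ ∧
        HSMChart (A.comap (algebraMap ↥K Lbar)) (Fermat.Agent.S18x.Dict.H7.h7x2 M ↥K h2M) π₀ ∧
        HSMChart (A.comap (algebraMap ↥K Lbar)) (Fermat.Agent.S18x.Dict.H7.h7x2 M ↥K h2M)⁻¹ π₀ := by
  intro K hK hdvr
  haveI := hK
  haveI := hdvr
  haveI : IsScalarTower (A.comap (algebraMap ↥K Lbar)) ↥K ↥(modularFunctionFieldFullC ↥K M) :=
    IsScalarTower.of_algebraMap_eq (fun c => rfl)
  haveI := Fermat.Agent.S18x.Dict.H22.isIntegral_intermediate K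
  obtain ⟨π₀, hπ₀⟩ := IsDiscreteValuationRing.exists_irreducible (A.comap (algebraMap ↥K Lbar))
  have h2u := H21.h21_isUnit_two (K := ↥K) A hℓ hA hℓ2
  obtain ⟨hs1, hs2⟩ := h24_hsat_of_identity A hℓ hA M hℓM K h2 order_h2 coeff_h2_neg_one
    (h2_mem_full ↥K M h2M) ((X + C 256) ^ 3) (X ^ 2) ((monic_X_add_C 256).pow 3)
    (monic_X_pow 2)
    (by rw [natDegree_X_pow, natDegree_pow, natDegree_X_add_C]; norm_num)
    (by rw [coeff_X_pow]; norm_num) (256 ^ 3)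
    (by rw [coeff_zero_eq_eval_zero, eval_pow, eval_add, eval_X, eval_C]; norm_num)
    (by
      intro h
      have h1 : ℓ ∣ 2 := by
        have h2 : (256 : ℕ) ^ 3 = 2 ^ 24 := by norm_num
        rw [h2] at h
        exact hℓ.dvd_of_dvd_pow h
      exact hℓ2 ((Nat.prime_dvd_prime_iff_eq hℓ Nat.prime_two).mp h1))
    (by
      rw [map_pow, map_pow, map_add, aeval_X, aeval_C]
      have e : algebraMap ℤ (LaurentSeries ℤ) 256 = 256 := map_ofNat _ 256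
      rw [e]
      exact j_h2)
    π₀ hπ₀
  have key := h24_hSM_two A hℓ hA M K h2M hℓ2 π₀ hπ₀ hs1 hs2
    (H5.h5_hred_two (A.comap (algebraMap ↥K Lbar)) M h2M π₀ hπ₀ _ (by simp) (by simp))
    (H5.h5_hred_two_inv (A.comap (algebraMap ↥K Lbar)) M h2M π₀ hπ₀ _ (by simp)
      (-H21.h21_inv 64 (H21.h21_isUnit_64 h2u))
      (by
        have := H21.h21_mul_inv (64 : A.comap (algebraMap ↥K Lbar)) (H21.h21_isUnit_64 h2u)
        linear_combination -this)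
      (by simp))
  exact ⟨π₀, hπ₀, key.1, key.2⟩

include hℓ hA in
/-- **[IG-FINAL], level 3, `ℓ ≠ 3`**: (SM) on both charts of the Hauptmodul `h₃`, over every
number field. -/
theorem h24_hSM_all_three (hℓ3 : ℓ ≠ 3) (h3M : 3 ∣ M) (hℓM : ¬ ℓ ∣ M) :
    ∀ K : IntermediateField ℚ Lbar, FiniteDimensional ℚ K →
      ∀ _ : IsDiscreteValuationRing (A.comap (algebraMap ↥K Lbar)),
      ∃ π₀ : A.comap (algebraMap ↥K Lbar), Irreducible π₀ ∧
        HSMChart (A.comap (algebraMap ↥K Lbar)) (Fermat.Agent.S18x.Dict.H7.h7x3 M ↥K h3M) π₀ ∧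
        HSMChart (A.comap (algebraMap ↥K Lbar)) (Fermat.Agent.S18x.Dict.H7.h7x3 M ↥K h3M)⁻¹ π₀ := by
  intro K hK hdvr
  haveI := hK
  haveI := hdvr
  haveI : IsScalarTower (A.comap (algebraMap ↥K Lbar)) ↥K ↥(modularFunctionFieldFullC ↥K M) :=
    IsScalarTower.of_algebraMap_eq (fun c => rfl)
  haveI := Fermat.Agent.S18x.Dict.H22.isIntegral_intermediate K
  obtain ⟨π₀, hπ₀⟩ := IsDiscreteValuationRing.exists_irreducible (A.comap (algebraMap ↥K Lbar))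
  have h3u := H21.h21_isUnit_three (K := ↥K) A hℓ hA hℓ3
  obtain ⟨hs1, hs2⟩ := h24_hsat_of_identity A hℓ hA M hℓM K h3 order_h3 coeff_h3_neg_one
    (h3_mem_full ↥K M h3M) ((X + C 243) ^ 3 * (X + C 27)) (X ^ 3)
    (((monic_X_add_C 243).pow 3).mul (monic_X_add_C 27)) (monic_X_pow 3)
    (by
      rw [natDegree_X_pow,
        (((monic_X_add_C (243 : ℤ)).pow 3).natDegree_mul (monic_X_add_C 27)),
        natDegree_pow, natDegree_X_add_C, natDegree_X_add_C]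
      norm_num)
    (by rw [coeff_X_pow]; norm_num) (243 ^ 3 * 27)
    (by
      rw [coeff_zero_eq_eval_zero, eval_mul, eval_pow, eval_add, eval_add, eval_X, eval_C,
        eval_C]
      norm_num)
    (by
      intro h
      have h1 : ℓ ∣ 3 := by
        have h2 : (243 : ℕ) ^ 3 * 27 = 3 ^ 18 := by norm_num
        rw [h2] at h
        exact hℓ.dvd_of_dvd_pow h
      exact hℓ3 ((Nat.prime_dvd_prime_iff_eq hℓ Nat.prime_three).mp h1))
    (by
      rw [map_pow, map_mul, map_pow, map_add, map_add, aeval_X, aeval_C, aeval_C]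
      have e : algebraMap ℤ (LaurentSeries ℤ) 243 = 243 := map_ofNat _ 243
      have e' : algebraMap ℤ (LaurentSeries ℤ) 27 = 27 := map_ofNat _ 27
      rw [e, e']
      exact j_h3)
    π₀ hπ₀
  have key := h24_hSM_three A hℓ hA M K h3M hℓ3 π₀ hπ₀ hs1 hs2
    (H5.h5_hred_three (A.comap (algebraMap ↥K Lbar)) M h3M π₀ hπ₀ _ (by simp) (by simp))
    (H5.h5_hred_three_inv (A.comap (algebraMap ↥K Lbar)) M h3M π₀ hπ₀ _ (by simp)
      (-H21.h21_inv 27 (H21.h21_isUnit_27 h3u))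
      (by
        have := H21.h21_mul_inv (27 : A.comap (algebraMap ↥K Lbar)) (H21.h21_isUnit_27 h3u)
        linear_combination -this)
      (by simp))
  exact ⟨π₀, hπ₀, key.1, key.2⟩

include hℓ hA in
/-- **`Kum.StKumVPrime A M ℓ`, `2 ∣ M`, `ℓ ≠ 2`, `ℓ ∤ M`** — hypothesis-free. -/
theorem h24_stKumVPrime_two (hℓ2 : ℓ ≠ 2) (h2M : 2 ∣ M) (hℓM : ¬ ℓ ∣ M) :
    Fermat.Agent.S18x.Kum.StKumVPrime A M ℓ :=
  Fermat.Agent.S18x.Dict.H7.h7_stKumVPrime_two A hℓ hA M hℓ2 h2M hℓM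
    (h24_hSM_all_two A hℓ hA M hℓ2 h2M hℓM)

include hℓ hA in
/-- **`Kum.StKumVPrime A M ℓ`, `3 ∣ M`, `ℓ ≠ 3`, `ℓ ∤ M`** — hypothesis-free. -/
theorem h24_stKumVPrime_three (hℓ3 : ℓ ≠ 3) (h3M : 3 ∣ M) (hℓM : ¬ ℓ ∣ M) :
    Fermat.Agent.S18x.Kum.StKumVPrime A M ℓ :=
  Fermat.Agent.S18x.Dict.H7.h7_stKumVPrime_three A hℓ hA M hℓ3 h3M hℓM
    (h24_hSM_all_three A hℓ hA M hℓ3 h3M hℓM)

include hℓ hA in
/-- **`Kum.StKumVPrime A M ℓ`** at every level `M` prime to `ℓ` and divisible by a base prime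
`p₀ ∈ {2, 3}`, `p₀ ≠ ℓ`. -/
theorem h24_stKumVPrime (p₀ : ℕ) (hp₀ : p₀ = 2 ∨ p₀ = 3) (hp₀M : p₀ ∣ M) (hℓp₀ : ℓ ≠ p₀)
    (hℓM : ¬ ℓ ∣ M) : Fermat.Agent.S18x.Kum.StKumVPrime A M ℓ := by
  rcases hp₀ with rfl | rfl
  · exact h24_stKumVPrime_two A hℓ hA M hℓp₀ hp₀M hℓM
  · exact h24_stKumVPrime_three A hℓ hA M hℓp₀ hp₀M hℓM

end Final

end Fermat.Agent.S18x.IG
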