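import Mathlib
import Fermat.Agent.S18x.IG.Defs

/-!
# S18 / package IG (helper27): (W-b) from "the fibre is integrally closed" to `HSM`

`HSM π 𝔫` (`IG/Defs.lean`) is the element form of "the local ring of `B` at `𝔫` has maximal
ideal `(π, t)`":  `∃ t ∈ 𝔫, ∀ y ∈ 𝔫, ∃ s ∉ 𝔫, ∃ u w, s * y = π * u + t * w`.

* `exists_local_generator` : in a Dedekind domain every prime ideal is locally principal,
  in element form, with a uniform multiplier `s`.
* `wb_of_fibre` : (W-b) `g : B₀ → C` surjective with kernel `π B₀`, `C` a noetherian integrally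
  closed domain of dimension `≤ 1` (the conclusion of PRINCIPLE (*)): `HSM π 𝔫` at every prime
  `𝔫 ∋ π` of `B₀`.
* `wb_of_finite` : the same with `C` a domain, finite over a principal ideal domain and
  integrally closed.
* `wb`, `wb_dedekind` : the same for `C := B ⧸ span {π}`.
* `hSM_of_localization` : `HSM` descends from a localisation `B₀ = S⁻¹ B` to `B`, for primes
  disjoint from `S`.
* `hSM_of_localization_fibre`, `hSM_of_localization_quotient` : the two combined.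
-/

set_option autoImplicit false

namespace Fermat.Agent.S18x.IG.H27

section Dedekind

variable {C : Type*} [CommRing C] [IsDedekindDomain C]

/-- In a Dedekind domain a prime ideal is locally principal, in element form. -/
theorem exists_local_generator (𝔪 : Ideal C) (h𝔪 : 𝔪.IsPrime) :
    ∃ t ∈ 𝔪, ∃ s, s ∉ 𝔪 ∧ ∀ x ∈ 𝔪, ∃ v, s * x = t * v := by
  by_cases h0 : 𝔪 = ⊥
  · refine ⟨0, 𝔪.zero_mem, 1, ?_, fun x hx => ⟨0, ?_⟩⟩
    · exact fun h => h𝔪.ne_top ((Ideal.eq_top_iff_one _).mpr h)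
    · rw [h0, Ideal.mem_bot] at hx
      rw [hx, mul_zero, mul_zero]
  · obtain ⟨t, ht1, ht2⟩ := Ideal.exists_mem_pow_notMem_pow_succ 𝔪 h0 h𝔪.ne_top 1
    rw [pow_one] at ht1
    have hle : Ideal.span {t} ≤ 𝔪 := (Ideal.span_singleton_le_iff_mem _).mpr ht1
    obtain ⟨𝔞, h𝔞⟩ := Ideal.dvd_iff_le.mpr hle
    have hnot : ¬ 𝔞 ≤ 𝔪 := by
      intro hle'
      apply ht2
      have : Ideal.span {t} ≤ 𝔪 ^ (1 + 1) := by
        rw [h𝔞, pow_succ, pow_one]
        exact Ideal.mul_mono_right hle'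
      exact this (Ideal.mem_span_singleton_self t)
    obtain ⟨s, hs𝔞, hs𝔪⟩ := Set.not_subset.mp hnot
    refine ⟨t, ht1, s, hs𝔪, fun x hx => ?_⟩
    have hmem : x * s ∈ Ideal.span {t} := by
      rw [h𝔞]
      exact Ideal.mul_mem_mul hx hs𝔞
    obtain ⟨v, hv⟩ := Ideal.mem_span_singleton'.mp hmem
    exact ⟨v, by rw [mul_comm s x, ← hv, mul_comm]⟩

end Dedekind

section Fibre

/-- **(W-b)**: if the fibre `C = B₀ / π B₀` is a noetherian integrally closed domain of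
dimension `≤ 1`, then at every prime `𝔫 ∋ π` of `B₀` the local ring has maximal ideal
`(π, t)`, in element form. -/
theorem wb_of_fibre {B₀ C : Type*} [CommRing B₀] [CommRing C] [IsDomain C]
    [IsNoetherianRing C] [IsIntegrallyClosed C] [Ring.DimensionLEOne C]
    (g : B₀ →+* C) (hg : Function.Surjective g) (π : B₀)
    (hker : ∀ x, g x = 0 → ∃ y, x = π * y) (𝔫 : Ideal B₀) (h𝔫 : 𝔫.IsPrime) (hπ : π ∈ 𝔫) :
    HSM π 𝔫 := by
  have : IsDedekindDomain C := { }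
  have hkerle : RingHom.ker g ≤ 𝔫 := by
    intro x hx
    obtain ⟨y, rfl⟩ := hker x hx
    exact 𝔫.mul_mem_right _ hπ
  have hprime : (𝔫.map g).IsPrime := Ideal.map_isPrime_of_surjective hg hkerle
  obtain ⟨t', ht', s', hs', hgen⟩ := exists_local_generator (𝔫.map g) hprime
  obtain ⟨t, rfl⟩ := hg t'
  obtain ⟨s, rfl⟩ := hg s'
  have ht : t ∈ 𝔫 := by
    obtain ⟨t₁, ht₁, ht₁'⟩ := (Ideal.mem_map_iff_of_surjective g hg).mp ht'
    have h0 : t - t₁ ∈ 𝔫 := hkerle (by rw [RingHom.mem_ker, map_sub, ht₁', sub_self])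
    have := 𝔫.add_mem h0 ht₁
    rwa [sub_add_cancel] at this
  refine ⟨t, ht, fun x hx => ⟨s, ?_, ?_⟩⟩
  · intro hs
    exact hs' (Ideal.mem_map_of_mem g hs)
  · obtain ⟨v', hv'⟩ := hgen (g x) (Ideal.mem_map_of_mem g hx)
    obtain ⟨v, rfl⟩ := hg v'
    have h0 : g (s * x - t * v) = 0 := by
      rw [map_sub, map_mul, map_mul, hv', sub_self]
    obtain ⟨u, hu⟩ := hker _ h0
    exact ⟨u, v, by rw [← hu]; ring⟩

/-- (W-b) in the shape of the conclusion of PRINCIPLE (*): `C` is a domain, finite over a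
principal ideal domain `R`, and integrally closed. -/
theorem wb_of_finite {B₀ R C : Type*} [CommRing B₀] [CommRing R] [IsDomain R]
    [IsPrincipalIdealRing R] [CommRing C] [IsDomain C] [Algebra R C] [Module.Finite R C]
    [IsIntegrallyClosed C] (g : B₀ →+* C) (hg : Function.Surjective g) (π : B₀)
    (hker : ∀ x, g x = 0 → ∃ y, x = π * y) (𝔫 : Ideal B₀) (h𝔫 : 𝔫.IsPrime) (hπ : π ∈ 𝔫) :
    HSM π 𝔫 := by
  have : IsNoetherianRing C := IsNoetherianRing.of_finite R C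
  have : Algebra.IsIntegral R C := inferInstance
  have : Ring.DimensionLEOne C := Ring.DimensionLEOne.of_isIntegral R C
  exact wb_of_fibre g hg π hker 𝔫 h𝔫 hπ

/-- (W-b) for the quotient `C := B ⧸ span {π}` itself, unbundled hypotheses. -/
theorem wb {B : Type*} [CommRing B] (π : B) [IsDomain (B ⧸ Ideal.span {π})]
    [IsNoetherianRing (B ⧸ Ideal.span {π})] [IsIntegrallyClosed (B ⧸ Ideal.span {π})]
    [Ring.DimensionLEOne (B ⧸ Ideal.span {π})] (𝔫 : Ideal B) (h𝔫 : 𝔫.IsPrime) (hπ𝔫 : π ∈ 𝔫) :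
    HSM π 𝔫 := by
  refine wb_of_fibre (Ideal.Quotient.mk (Ideal.span {π})) Ideal.Quotient.mk_surjective π
    (fun x hx => ?_) 𝔫 h𝔫 hπ𝔫
  rw [Ideal.Quotient.eq_zero_iff_mem, Ideal.mem_span_singleton] at hx
  exact hx

/-- (W-b) for the quotient `C := B ⧸ span {π}`, a Dedekind domain. -/
theorem wb_dedekind {B : Type*} [CommRing B] (π : B) [IsDedekindDomain (B ⧸ Ideal.span {π})]
    (𝔫 : Ideal B) (h𝔫 : 𝔫.IsPrime) (hπ𝔫 : π ∈ 𝔫) : HSM π 𝔫 :=
  wb π 𝔫 h𝔫 hπ𝔫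

/-- (W-b) for the quotient `C := B ⧸ span {π}`, a domain finite over a principal ideal
domain `R` and integrally closed (the conclusion of PRINCIPLE (*)). -/
theorem wb_quotient_of_finite {B R : Type*} [CommRing B] (π : B) [CommRing R] [IsDomain R]
    [IsPrincipalIdealRing R] [IsDomain (B ⧸ Ideal.span {π})] [Algebra R (B ⧸ Ideal.span {π})]
    [Module.Finite R (B ⧸ Ideal.span {π})] [IsIntegrallyClosed (B ⧸ Ideal.span {π})]
    (𝔫 : Ideal B) (h𝔫 : 𝔫.IsPrime) (hπ𝔫 : π ∈ 𝔫) : HSM π 𝔫 := by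
  refine wb_of_finite (R := R) (Ideal.Quotient.mk (Ideal.span {π}))
    Ideal.Quotient.mk_surjective π (fun x hx => ?_) 𝔫 h𝔫 hπ𝔫
  rw [Ideal.Quotient.eq_zero_iff_mem, Ideal.mem_span_singleton] at hx
  exact hx

end Fibre

section Localization

variable {B B₀ : Type*} [CommRing B] [CommRing B₀] [Algebra B B₀]

/-- `HSM` descends from a localisation `B₀ = S⁻¹ B` to `B`, at primes disjoint from `S`. -/
theorem hSM_of_localization (S : Submonoid B) [IsLocalization S B₀] (𝔫 : Ideal B)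
    (h𝔫 : 𝔫.IsPrime) (hS : ∀ σ ∈ S, σ ∉ 𝔫) (π : B)
    (h : HSM (algebraMap B B₀ π) (𝔫.map (algebraMap B B₀))) : HSM π 𝔫 := by
  obtain ⟨t₀, ht₀𝔫, h⟩ := h
  have hdisj : Disjoint (S : Set B) (𝔫 : Set B) :=
    Set.disjoint_left.mpr fun σ hσ hσ𝔫 => hS σ hσ hσ𝔫
  have hcomap : (𝔫.map (algebraMap B B₀)).comap (algebraMap B B₀) = 𝔫 :=
    IsLocalization.under_map_of_isPrime_disjoint S B₀ h𝔫 hdisj
  obtain ⟨⟨t, σ₀⟩, ht⟩ := IsLocalization.surj S t₀
  have ht𝔫 : t ∈ 𝔫 := by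
    rw [← hcomap, Ideal.mem_comap]
    simp only at ht
    rw [← ht]
    exact Ideal.mul_mem_right _ _ ht₀𝔫
  refine ⟨t, ht𝔫, fun x hx => ?_⟩
  obtain ⟨s', hs', u', v', hE⟩ := h _ (Ideal.mem_map_of_mem _ hx)
  obtain ⟨⟨a, σ₁⟩, ha⟩ := IsLocalization.surj S s'
  obtain ⟨⟨b, σ₂⟩, hb⟩ := IsLocalization.surj S u'
  obtain ⟨⟨c, σ₃⟩, hc⟩ := IsLocalization.surj S v'
  simp only at ht ha hb hc
  have hEq : algebraMap B B₀ (a * σ₀ * σ₂ * σ₃ * x) =
      algebraMap B B₀ (π * (b * σ₀ * σ₁ * σ₃) + t * (c * σ₁ * σ₂)) := by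
    simp only [map_mul, map_add]
    rw [← ha, ← hb, ← hc, ← ht]
    linear_combination (algebraMap B B₀ σ₀ * algebraMap B B₀ σ₁ * algebraMap B B₀ σ₂ *
      algebraMap B B₀ σ₃) * hE
  obtain ⟨σ₄, hσ₄⟩ := (IsLocalization.eq_iff_exists S B₀).mp hEq
  have ha𝔫 : a ∉ 𝔫 := by
    intro ha𝔫
    apply hs'
    have hunit : IsUnit (algebraMap B B₀ σ₁) := IsLocalization.map_units B₀ σ₁
    obtain ⟨w, hw⟩ := hunit
    have : s' = algebraMap B B₀ a * ((w⁻¹ : B₀ˣ) : B₀) := by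
      rw [← ha, ← hw, mul_assoc, Units.mul_inv, mul_one]
    rw [this]
    exact Ideal.mul_mem_right _ _ (Ideal.mem_map_of_mem _ ha𝔫)
  refine ⟨σ₄ * (a * σ₀ * σ₂ * σ₃), ?_, σ₄ * (b * σ₀ * σ₁ * σ₃), σ₄ * (c * σ₁ * σ₂), ?_⟩
  · intro hmem
    rcases h𝔫.mem_or_mem hmem with h1 | h1
    · exact hS _ σ₄.2 h1
    · rcases h𝔫.mem_or_mem h1 with h2 | h2
      · rcases h𝔫.mem_or_mem h2 with h3 | h3
        · rcases h𝔫.mem_or_mem h3 with h4 | h4
          · exact ha𝔫 h4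
          · exact hS _ σ₀.2 h4
        · exact hS _ σ₂.2 h3
      · exact hS _ σ₃.2 h2
  · linear_combination hσ₄

/-- **(W-b), global form.**  `B₀ = S⁻¹ B`, `g : B₀ → C` surjective with kernel `π B₀`, `C` a
domain, finite over a principal ideal domain and integrally closed.  Then at every prime
`𝔫 ∋ π` of `B` disjoint from `S` the local ring of `B` has maximal ideal `(π, t)`. -/
theorem hSM_of_localization_fibre {R C : Type*} [CommRing R] [IsDomain R]
    [IsPrincipalIdealRing R] [CommRing C] [IsDomain C] [Algebra R C] [Module.Finite R C]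
    [IsIntegrallyClosed C] (S : Submonoid B) [IsLocalization S B₀]
    (g : B₀ →+* C) (hg : Function.Surjective g) (π : B)
    (hker : ∀ x, g x = 0 → ∃ y, x = algebraMap B B₀ π * y) (𝔫 : Ideal B) (h𝔫 : 𝔫.IsPrime)
    (hπ : π ∈ 𝔫) (hS : ∀ σ ∈ S, σ ∉ 𝔫) : HSM π 𝔫 := by
  have hdisj : Disjoint (S : Set B) (𝔫 : Set B) :=
    Set.disjoint_left.mpr fun σ hσ hσ𝔫 => hS σ hσ hσ𝔫
  have hprime : (𝔫.map (algebraMap B B₀)).IsPrime :=
    IsLocalization.isPrime_of_isPrime_disjoint S B₀ 𝔫 h𝔫 hdisj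
  exact hSM_of_localization S 𝔫 h𝔫 hS π
    (wb_of_finite (R := R) g hg (algebraMap B B₀ π) hker
      (𝔫.map (algebraMap B B₀)) hprime (Ideal.mem_map_of_mem _ hπ))

/-- **(W-b), global form, quotient spelling.**  `B₀ = S⁻¹ B`, `π' := algebraMap B B₀ π`,
`C := B₀ ⧸ span {π'}` a domain, finite over a principal ideal domain and integrally closed. -/
theorem hSM_of_localization_quotient {R : Type*} [CommRing R] [IsDomain R]
    [IsPrincipalIdealRing R] (S : Submonoid B) [IsLocalization S B₀] (π : B)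
    [IsDomain (B₀ ⧸ Ideal.span {algebraMap B B₀ π})]
    [Algebra R (B₀ ⧸ Ideal.span {algebraMap B B₀ π})]
    [Module.Finite R (B₀ ⧸ Ideal.span {algebraMap B B₀ π})]
    [IsIntegrallyClosed (B₀ ⧸ Ideal.span {algebraMap B B₀ π})]
    (𝔫 : Ideal B) (h𝔫 : 𝔫.IsPrime) (hπ : π ∈ 𝔫) (hS : ∀ σ ∈ S, σ ∉ 𝔫) : HSM π 𝔫 := by
  refine hSM_of_localization_fibre (R := R) S
    (Ideal.Quotient.mk (Ideal.span {algebraMap B B₀ π})) Ideal.Quotient.mk_surjective π
    (fun x hx => ?_) 𝔫 h𝔫 hπ hS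
  rw [Ideal.Quotient.eq_zero_iff_mem, Ideal.mem_span_singleton] at hx
  exact hx

/-- The hypothesis `hS` of `hSM_of_localization*` for
`S := Algebra.algebraMapSubmonoid B 𝔪.primeCompl`, `𝔫` over `𝔪`. -/
theorem not_mem_of_mem_algebraMapSubmonoid {A : Type*} [CommRing A] [Algebra A B]
    (𝔪 : Ideal A) [𝔪.IsPrime] (𝔫 : Ideal B) (hover : 𝔫.comap (algebraMap A B) ≤ 𝔪) :
    ∀ σ ∈ Algebra.algebraMapSubmonoid B 𝔪.primeCompl, σ ∉ 𝔫 := by
  rintro σ ⟨a, ha, rfl⟩ hmem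
  exact ha (hover (Ideal.mem_comap.mpr hmem))

end Localization

end Fermat.Agent.S18x.IG.H27
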