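import Mathlib
import Fermat.Agent.S18x.CA.H25_Purity
import Fermat.Agent.S18x.IG.Defs
import Fermat.Agent.S18x.IG.H15_DualGlue
import Fermat.Agent.S18x.IG.H27_Dvr
import Fermat.Agent.S18x.IG.H11_BaseLocal
import Fermat.Agent.S18x.IG.H16_Hgen

/-
# S18 [IG] (ASM-1): `principle_SM`

The purity principle in the form used at the branch points of the Hauptmodul chart:
`A` a noetherian normal domain (`O[X]`), `B` a normal domain finite over `A` (the chart),
`m = (pi, s)` a maximal ideal of `A` generated by two prime elements.  If the vertical fibre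
`B / pi B` embeds in a separable extension of `Frac (A / pi)` and the fibres over the
horizontal primes other than `(s)` are generically reduced of characteristic zero, then
`(SM)` holds at every maximal ideal `n` of `B` over `m`.

Route: localise at `m` (`A'`, `B'`), `B'` is free over `A'` (helper16 (T1)), the discriminant
is prime to `pi` (vertical fibre, `H25P.discr_not_mem_map_ker_of_separable`) and lies in no
horizontal prime other than `(s)` (`H25P.discr_not_mem_map_ker_of_reduced`), tameness at `(s)`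
is automatic (`H16.hgen_of_hhor`), hence `B' / pi B'` is integrally closed
(`H15.h15_principle`), so a Dedekind domain, and (W-b) + descent give `(SM)` in `B`
(`H27.hSM_of_localization_fibre`).
-/

namespace Fermat.Agent.S18x.IG.H25

open Module Fermat.Agent.S18x.CA.H25 Fermat.Agent.S18x.CA.H25F Fermat.Agent.S18x.CA.H25P

section Abstract

variable {A : Type*} [CommRing A] (𝔪 : Ideal A) [𝔪.IsPrime]
  (A' : Type*) [CommRing A'] [Algebra A A'] [IsLocalization.AtPrime A' 𝔪]

/-- Divisibility by a prime element of `𝔪` can be tested in the localisation at `𝔪`. -/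
theorem dvd_of_map_dvd (p a : A) (hp : Prime p) (hp𝔪 : p ∈ 𝔪)
    (h : algebraMap A A' p ∣ algebraMap A A' a) : p ∣ a := by
  have hprime : (Ideal.span {p} : Ideal A).IsPrime :=
    (Ideal.span_singleton_prime hp.ne_zero).mpr hp
  have hle : (Ideal.span {p} : Ideal A) ≤ 𝔪 := (Ideal.span_singleton_le_iff_mem 𝔪).mpr hp𝔪
  have hdisj : Disjoint (𝔪.primeCompl : Set A) ((Ideal.span {p} : Ideal A) : Set A) :=
    Set.disjoint_left.mpr (fun a ha hap => ha (hle hap))
  have h1 : algebraMap A A' a ∈ Ideal.map (algebraMap A A') (Ideal.span {p}) := by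
    rw [Ideal.map_span, Set.image_singleton, Ideal.mem_span_singleton]
    exact h
  have h2 : a ∈ (Ideal.map (algebraMap A A') (Ideal.span {p})).under A := h1
  rw [IsLocalization.under_map_of_isPrime_disjoint 𝔪.primeCompl A' hprime hdisj] at h2
  exact Ideal.mem_span_singleton.mp h2

/-- A prime element of `A` lying in `𝔪` stays prime in the localisation at `𝔪`. -/
theorem prime_map [IsDomain A] (p : A) (hp : Prime p) (hp𝔪 : p ∈ 𝔪) :
    Prime (algebraMap A A' p) := by
  have hprime : (Ideal.span {p} : Ideal A).IsPrime :=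
    (Ideal.span_singleton_prime hp.ne_zero).mpr hp
  have hle : (Ideal.span {p} : Ideal A) ≤ 𝔪 := (Ideal.span_singleton_le_iff_mem 𝔪).mpr hp𝔪
  have hdisj : Disjoint (𝔪.primeCompl : Set A) ((Ideal.span {p} : Ideal A) : Set A) :=
    Set.disjoint_left.mpr (fun a ha hap => ha (hle hap))
  have hinj : Function.Injective (algebraMap A A') :=
    IsLocalization.injective A' 𝔪.primeCompl_le_nonZeroDivisors
  have hp0 : algebraMap A A' p ≠ 0 := fun h => hp.ne_zero (hinj (by rw [h, map_zero]))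
  rw [← Ideal.span_singleton_prime hp0, ← Set.image_singleton, ← Ideal.map_span]
  exact IsLocalization.isPrime_of_isPrime_disjoint 𝔪.primeCompl A' _ hprime hdisj

end Abstract

section Assembly

/-- **(ASM-1), abstract localisation form**: `A'`, `B'` any localisations of `A` at `𝔪` and of
`B` at the image of the complement of `𝔪`. -/
theorem principle_SM_aux {A B : Type*} [CommRing A] [IsDomain A] [CommRing B] [IsDomain B]
    [Algebra A B] [FaithfulSMul A B] (𝔪 : Ideal A) [h𝔪 : 𝔪.IsMaximal]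
    (A' B' : Type*) [CommRing A'] [CommRing B'] [Algebra A A'] [Algebra B B']
    [Algebra A' B'] [Algebra A B'] [IsScalarTower A A' B'] [IsScalarTower A B B']
    [IsLocalization.AtPrime A' 𝔪] [IsLocalization (Algebra.algebraMapSubmonoid B 𝔪.primeCompl) B']
    [IsDomain A'] [IsLocalRing A'] [IsNoetherianRing A'] [IsIntegrallyClosed A']
    [IsDomain B'] [IsIntegrallyClosed B'] [FaithfulSMul A' B'] [Module.Finite A' B']
    (π s : A) (hm : 𝔪 = Ideal.span {π, s}) (hπ : Prime π) (hs : Prime s) (hsπ : ¬ s ∣ π)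
    {K' L' : Type*} [Field K'] [Field L'] [Algebra K' L'] (f : A →+* K') (g : B →+* L')
    (hcomm : ∀ a, g (algebraMap A B a) = algebraMap K' L' (f a))
    (hK : ∀ c : K', ∃ a d : A, f d ≠ 0 ∧ c * f d = f a)
    (hfπ : f π = 0) (hf : ∀ a, f a = 0 → π ∣ a)
    (hg : ∀ x : B, g x = 0 → algebraMap A B π ∣ x)
    (hsep : ∀ x : B, IsSeparable K' (g x))
    (hchar : ∀ 𝔭 : Ideal A, 𝔭.IsPrime → π ∉ 𝔭 → ∀ n : ℕ, n ≠ 0 → (n : A) ∉ 𝔭)
    (hred : ∀ 𝔭 : Ideal A, 𝔭.IsPrime → π ∉ 𝔭 → s ∉ 𝔭 → 𝔭 ≤ Ideal.span {π, s} →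
      ∀ x : B, x * x ∈ 𝔭.map (algebraMap A B) →
        ∃ c : A, c ∉ 𝔭 ∧ algebraMap A B c * x ∈ 𝔭.map (algebraMap A B))
    (𝔫 : Ideal B) (h𝔫 : 𝔫.IsMaximal) (hover : ∀ a ∈ Ideal.span {π, s}, algebraMap A B a ∈ 𝔫) :
    HSM (algebraMap A B π) 𝔫 := by
  classical
  set M : Submonoid A := 𝔪.primeCompl with hMdef
  have hπ𝔪 : π ∈ 𝔪 := by rw [hm]; exact Ideal.subset_span (by simp)
  have hs𝔪 : s ∈ 𝔪 := by rw [hm]; exact Ideal.subset_span (by simp)
  have hMnz : M ≤ nonZeroDivisors A := Ideal.primeCompl_le_nonZeroDivisors 𝔪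
  have hinjA : Function.Injective (algebraMap A A') := IsLocalization.injective A' hMnz
  -- `s ∉ (π)`
  have hsπ' : s ∉ Ideal.span {π} := by
    intro h
    obtain ⟨c, hc⟩ := Ideal.mem_span_singleton.mp h
    rcases hs.dvd_or_dvd (dvd_of_eq hc) with h1 | h1
    · exact hsπ h1
    · obtain ⟨d, rfl⟩ := h1
      have h2 : s * 1 = s * (π * d) := by rw [mul_one]; nth_rewrite 1 [hc]; ring
      have h3 : 1 = π * d := mul_left_cancel₀ hs.ne_zero h2
      exact hπ.not_isUnit (IsUnit.of_mul_eq_one d h3.symm)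
  -- generators in `A'`
  set π' : A' := algebraMap A A' π with hπ'def
  set s' : A' := algebraMap A A' s with hs'def
  have hm' : IsLocalRing.maximalIdeal A' = Ideal.span {π', s'} := by
    rw [← IsLocalization.AtPrime.map_eq_maximalIdeal 𝔪 A', hm, Ideal.map_span, Set.image_pair]
  have hπ' : Prime π' := prime_map 𝔪 A' π hπ hπ𝔪
  have hs' : Prime s' := prime_map 𝔪 A' s hs hs𝔪
  have hs'π' : ¬ s' ∣ π' := fun h => hsπ (dvd_of_map_dvd 𝔪 A' s π hs hs𝔪 h)
  have ht' : s' ∉ Ideal.span {π'} := fun h =>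
    hsπ' (Ideal.mem_span_singleton.mpr
      (dvd_of_map_dvd 𝔪 A' π s hπ hπ𝔪 (Ideal.mem_span_singleton.mp h)))
  obtain ⟨n, ⟨b⟩⟩ := Fermat.Agent.S18x.CA.H16.exists_basis_of_normal_of_finite (B := B')
    π' s' hm' hπ' ht'
  -- vertical prime
  have hker : RingHom.ker f = Ideal.span {π} := by
    ext a
    rw [RingHom.mem_ker, Ideal.mem_span_singleton]
    exact ⟨hf a, fun ⟨c, hc⟩ => by rw [hc, map_mul, hfπ, zero_mul]⟩
  have hMf : ∀ a ∈ M, f a ≠ 0 := by
    intro a ha h0
    obtain ⟨c, rfl⟩ := hf a h0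
    exact ha (𝔪.mul_mem_right c hπ𝔪)
  have hg' : ∀ x : B, g x = 0 → x ∈ Ideal.map (algebraMap A B) (RingHom.ker f) := by
    intro x hx0
    rw [hker, Ideal.map_span, Set.image_singleton, Ideal.mem_span_singleton]
    exact hg x hx0
  have hdisc : ¬ π' ∣ Algebra.discr A' b := by
    have := discr_not_mem_map_ker_of_separable M b f g hcomm hK hg' hsep hMf
    rwa [hker, Ideal.map_span, Set.image_singleton, Ideal.mem_span_singleton] at this
  have hd0 : Algebra.discr A' b ≠ 0 := fun h => hdisc (h ▸ dvd_zero _)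
  -- horizontal primes
  have hhor' : ∀ 𝔭' : Ideal A', 𝔭'.IsPrime → π' ∉ 𝔭' → s' ∉ 𝔭' →
      Algebra.discr A' b ∉ 𝔭' := by
    intro 𝔭' h𝔭' hπ𝔭' hs𝔭'
    set 𝔭 : Ideal A := 𝔭'.comap (algebraMap A A') with h𝔭def
    have h𝔭 : 𝔭.IsPrime := Ideal.comap_isPrime _ _
    have hmap : 𝔭.map (algebraMap A A') = 𝔭' := IsLocalization.map_under M A' 𝔭'
    have hπ𝔭 : π ∉ 𝔭 := fun h => hπ𝔭' h
    have hs𝔭 : s ∉ 𝔭 := fun h => hs𝔭' h
    have h𝔭le : 𝔭 ≤ 𝔪 := by
      intro a ha
      by_contra ha'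
      have hu : IsUnit (algebraMap A A' a) := IsLocalization.map_units A' (⟨a, ha'⟩ : M)
      exact h𝔭'.ne_top (Ideal.eq_top_of_isUnit_mem _ ha hu)
    have hchar𝔭 := hchar 𝔭 h𝔭 hπ𝔭
    have hred𝔭 := hred 𝔭 h𝔭 hπ𝔭 hs𝔭 (hm ▸ h𝔭le)
    let κ := FractionRing (A ⧸ 𝔭)
    let f₀ : A →+* κ := (algebraMap (A ⧸ 𝔭) κ).comp (Ideal.Quotient.mk 𝔭)
    have hinjκ : Function.Injective (algebraMap (A ⧸ 𝔭) κ) := IsFractionRing.injective _ _
    have hf₀ : ∀ a, f₀ a = 0 ↔ a ∈ 𝔭 := by
      intro a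
      change algebraMap (A ⧸ 𝔭) κ (Ideal.Quotient.mk 𝔭 a) = 0 ↔ _
      rw [map_eq_zero_iff _ hinjκ, Ideal.Quotient.eq_zero_iff_mem]
    have hker₀ : RingHom.ker f₀ = 𝔭 := by
      ext a; rw [RingHom.mem_ker, hf₀]
    have hcz : CharZero κ := by
      refine charZero_of_inj_zero (fun k hk => ?_)
      by_contra hk0
      have h1 : f₀ (k : A) = 0 := by rw [map_natCast]; exact hk
      exact hchar𝔭 k hk0 ((hf₀ _).mp h1)
    have hK₀ : ∀ c : κ, ∃ a d : A, f₀ d ≠ 0 ∧ c * f₀ d = f₀ a := by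
      intro c
      obtain ⟨⟨a', ⟨d', hd'⟩⟩, h⟩ := IsLocalization.surj (nonZeroDivisors (A ⧸ 𝔭)) c
      obtain ⟨a, rfl⟩ := Ideal.Quotient.mk_surjective a'
      obtain ⟨d, rfl⟩ := Ideal.Quotient.mk_surjective d'
      refine ⟨a, d, ?_, h⟩
      intro h0
      have : Ideal.Quotient.mk 𝔭 d = 0 := (map_eq_zero_iff _ hinjκ).mp h0
      exact nonZeroDivisors.ne_zero hd' this
    have hred₀ : ∀ x : B, x * x ∈ Ideal.map (algebraMap A B) (RingHom.ker f₀) →
        ∃ c : A, f₀ c ≠ 0 ∧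
          algebraMap A B c * x ∈ Ideal.map (algebraMap A B) (RingHom.ker f₀) := by
      intro x hx2
      rw [hker₀] at hx2 ⊢
      obtain ⟨c, hc, hcx⟩ := hred𝔭 x hx2
      exact ⟨c, fun h => hc ((hf₀ c).mp h), hcx⟩
    have hM₀ : ∀ a ∈ M, f₀ a ≠ 0 := fun a ha h => ha (h𝔭le ((hf₀ a).mp h))
    have := discr_not_mem_map_ker_of_reduced M b f₀ hK₀ hred₀ hM₀
    rwa [hker₀, hmap] at this
  -- residue characteristic zero at `(s)`
  have hπs0 : π ∉ Ideal.span {s} := fun h => hsπ (Ideal.mem_span_singleton.mp h)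
  have hprime_s : (Ideal.span {s} : Ideal A).IsPrime :=
    (Ideal.span_singleton_prime hs.ne_zero).mpr hs
  have hchar' : ∀ k : ℕ, k ≠ 0 → ¬ s' ∣ ((k : ℕ) : A') := by
    intro k hk hdvd
    have h1 : s' ∣ algebraMap A A' ((k : ℕ) : A) := by rwa [map_natCast]
    have h2 : s ∣ ((k : ℕ) : A) := dvd_of_map_dvd 𝔪 A' s _ hs hs𝔪 h1
    exact hchar _ hprime_s hπs0 k hk (Ideal.mem_span_singleton.mpr h2)
  have hgen := H16.hgen_of_hhor π' s' hm' hπ' hs' hs'π' hchar' b hd0 hhor'
  -- the special fibres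
  have hprimeπ' : (Ideal.span {π'} : Ideal A').IsPrime :=
    (Ideal.span_singleton_prime hπ'.ne_zero).mpr hπ'
  have hRdom : IsDomain (A' ⧸ Ideal.span {π'}) := Ideal.Quotient.isDomain _
  have hRpid : IsPrincipalIdealRing (A' ⧸ Ideal.span {π'}) :=
    H11.quot_isPrincipalIdealRing π' s' hm' hprimeπ'
  have hfs : Prime (Ideal.Quotient.mk (Ideal.span {π'}) s') :=
    H11.quot_prime_mk π' s' hm' hprimeπ' ht'
  -- `π B` is prime in `B`, hence `π B'` is prime in `B'`
  have hkerg : RingHom.ker g = Ideal.span {algebraMap A B π} := by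
    ext x
    rw [RingHom.mem_ker, Ideal.mem_span_singleton]
    refine ⟨hg x, fun ⟨c, hc⟩ => ?_⟩
    rw [hc, map_mul, hcomm, hfπ, map_zero, zero_mul]
  have hprimeB : (Ideal.span {algebraMap A B π} : Ideal B).IsPrime := by
    rw [← hkerg]; exact RingHom.ker_isPrime g
  have hdisjB : Disjoint ((Algebra.algebraMapSubmonoid B M : Submonoid B) : Set B)
      ((Ideal.span {algebraMap A B π} : Ideal B) : Set B) := by
    refine Set.disjoint_left.mpr ?_
    rintro _ ⟨a, ha, rfl⟩ hmem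
    rw [SetLike.mem_coe, ← hkerg, RingHom.mem_ker, hcomm] at hmem
    exact hMf a ha ((map_eq_zero_iff _ (algebraMap K' L').injective).mp hmem)
  have hmapB : Ideal.map (algebraMap A' B') (Ideal.span {π'})
      = Ideal.map (algebraMap B B') (Ideal.span {algebraMap A B π}) := by
    rw [Ideal.map_span, Ideal.map_span, Set.image_singleton, Set.image_singleton, hπ'def,
      ← IsScalarTower.algebraMap_apply A A' B', ← IsScalarTower.algebraMap_apply A B B']
  have hprimeB' : (Ideal.map (algebraMap A' B') (Ideal.span {π'})).IsPrime := by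
    rw [hmapB]
    exact IsLocalization.isPrime_of_isPrime_disjoint (Algebra.algebraMapSubmonoid B M) B' _
      hprimeB hdisjB
  have hCdom : IsDomain (B' ⧸ Ideal.map (algebraMap A' B') (Ideal.span {π'})) :=
    Ideal.Quotient.isDomain _
  have hπs' : ∀ a : A', s' ∣ π' * a → s' ∣ a := fun a h =>
    (hs'.dvd_or_dvd h).resolve_left hs'π'
  have hIC : IsIntegrallyClosed (B' ⧸ Ideal.map (algebraMap A' B') (Ideal.span {π'})) := by
    refine H15.h15_principle (Ideal.Quotient.mk (Ideal.span {π'}))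
      (Ideal.Quotient.mk (Ideal.map (algebraMap A' B') (Ideal.span {π'})))
      (fun a => rfl) Ideal.Quotient.mk_surjective Ideal.Quotient.mk_surjective π' s' hπ'
      (Ideal.Quotient.eq_zero_iff_mem.mpr (Ideal.mem_span_singleton_self π'))
      (fun x hx => ?_) hfs hπs' b hdisc hgen
    rw [Ideal.Quotient.eq_zero_iff_mem, Ideal.map_span, Set.image_singleton] at hx
    exact hx
  have hfinC : Module.Finite (A' ⧸ Ideal.span {π'})
      (B' ⧸ Ideal.map (algebraMap A' B') (Ideal.span {π'})) := by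
    have : Module.Finite A' (B' ⧸ Ideal.map (algebraMap A' B') (Ideal.span {π'})) :=
      Module.Finite.of_surjective (Ideal.Quotient.mkₐ A' _).toLinearMap
        (Ideal.Quotient.mkₐ_surjective A' _)
    exact Module.Finite.of_restrictScalars_finite A' _ _
  -- back to `B`
  have hπ𝔫 : algebraMap A B π ∈ 𝔫 := hover π (Ideal.subset_span (by simp))
  have hS : ∀ σ ∈ Algebra.algebraMapSubmonoid B M, σ ∉ 𝔫 := by
    rintro _ ⟨a, ha, rfl⟩ ha𝔫
    obtain ⟨y, i, hi, hyi⟩ := h𝔪.exists_inv ha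
    refine h𝔫.ne_top ((Ideal.eq_top_iff_one 𝔫).mpr ?_)
    have h1 : (1 : B) = algebraMap A B y * algebraMap A B a + algebraMap A B i := by
      rw [← map_mul, ← map_add, hyi, map_one]
    rw [h1]
    exact 𝔫.add_mem (𝔫.mul_mem_left _ ha𝔫) (hover i (hm ▸ hi))
  refine H27.hSM_of_localization_fibre (B₀ := B') (R := A' ⧸ Ideal.span {π'})
    (Algebra.algebraMapSubmonoid B M)
    (Ideal.Quotient.mk (Ideal.map (algebraMap A' B') (Ideal.span {π'})))
    Ideal.Quotient.mk_surjective (algebraMap A B π) (fun x hx => ?_) 𝔫 h𝔫.isPrime hπ𝔫 hS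
  rw [Ideal.Quotient.eq_zero_iff_mem, hmapB, Ideal.map_span, Set.image_singleton,
    Ideal.mem_span_singleton] at hx
  exact hx

end Assembly

section Final

/-- **(ASM-1) `principle_SM`.**  `A` a noetherian normal domain, `B` a normal domain finite
over `A`, `𝔪 = (π, s)` a maximal ideal of `A` generated by two prime elements, the fibre of `B`
over `(π)` a field extension which is separable over the fraction field of `A/(π)`
(`f`, `g`, `hK`, `hsep`), the fibres of `B` over the other primes `𝔭 ≠ (s)` inside `𝔪` generically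
reduced of characteristic zero (`hchar`, `hred`).  Then `B` satisfies `(SM)` with respect to
`π` at every maximal ideal `𝔫` over `𝔪`: `𝔫 B_𝔫 = (π, t)` for some `t`. -/
theorem principle_SM {A B : Type*} [CommRing A] [IsDomain A] [IsNoetherianRing A]
    [IsIntegrallyClosed A] [CommRing B] [IsDomain B] [IsIntegrallyClosed B] [Algebra A B]
    [FaithfulSMul A B] [Module.Finite A B]
    (π s : A) (hmax : (Ideal.span {π, s} : Ideal A).IsMaximal) (hπ : Prime π) (hs : Prime s)
    (hsπ : ¬ s ∣ π)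
    {K' L' : Type*} [Field K'] [Field L'] [Algebra K' L'] (f : A →+* K') (g : B →+* L')
    (hcomm : ∀ a, g (algebraMap A B a) = algebraMap K' L' (f a))
    (hK : ∀ c : K', ∃ a d : A, f d ≠ 0 ∧ c * f d = f a)
    (hfπ : f π = 0) (hf : ∀ a, f a = 0 → π ∣ a)
    (hg : ∀ x : B, g x = 0 → algebraMap A B π ∣ x)
    (hsep : ∀ x : B, IsSeparable K' (g x))
    (hchar : ∀ 𝔭 : Ideal A, 𝔭.IsPrime → π ∉ 𝔭 → ∀ n : ℕ, n ≠ 0 → (n : A) ∉ 𝔭)
    (hred : ∀ 𝔭 : Ideal A, 𝔭.IsPrime → π ∉ 𝔭 → s ∉ 𝔭 → 𝔭 ≤ Ideal.span {π, s} →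
      ∀ x : B, x * x ∈ 𝔭.map (algebraMap A B) →
        ∃ c : A, c ∉ 𝔭 ∧ algebraMap A B c * x ∈ 𝔭.map (algebraMap A B))
    (𝔫 : Ideal B) (h𝔫 : 𝔫.IsMaximal) (hover : ∀ a ∈ Ideal.span {π, s}, algebraMap A B a ∈ 𝔫) :
    Fermat.Agent.S18x.IG.HSM (algebraMap A B π) 𝔫 := by
  have h𝔪 : (Ideal.span {π, s} : Ideal A).IsMaximal := hmax
  let 𝔪 : Ideal A := Ideal.span {π, s}
  let A' := Localization.AtPrime 𝔪
  let B' := Localization (Algebra.algebraMapSubmonoid B 𝔪.primeCompl)
  have hinjAB : Function.Injective (algebraMap A B) := FaithfulSMul.algebraMap_injective A B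
  have e : Algebra.algebraMapSubmonoid B 𝔪.primeCompl ≤ nonZeroDivisors B :=
    Submonoid.map_le_of_le_comap _ <| 𝔪.primeCompl_le_nonZeroDivisors.trans
      (nonZeroDivisors_le_comap_nonZeroDivisors_of_injective _ hinjAB)
  have : IsDomain A' := IsLocalization.isDomain_of_le_nonZeroDivisors _
    𝔪.primeCompl_le_nonZeroDivisors
  have : IsDomain B' := IsLocalization.isDomain_of_le_nonZeroDivisors _ e
  have : IsNoetherianRing A' := IsLocalization.isNoetherianRing 𝔪.primeCompl A' inferInstance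
  have : IsIntegrallyClosed A' :=
    isIntegrallyClosed_of_isLocalization A' 𝔪.primeCompl 𝔪.primeCompl_le_nonZeroDivisors
  have : IsIntegrallyClosed B' := isIntegrallyClosed_of_isLocalization B' _ e
  have : Module.Finite A' B' := .of_isLocalization A B 𝔪.primeCompl
  have : FaithfulSMul A' B' :=
    (faithfulSMul_iff_algebraMap_injective A' B').mpr
      (localizationAlgebra_injective (Rₘ := A') (Sₘ := B') hinjAB)
  exact principle_SM_aux 𝔪 A' B' π s rfl hπ hs hsπ f g hcomm hK hfπ hf hg hsep hchar hred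
    𝔫 h𝔫 hover

end Final

end Fermat.Agent.S18x.IG.H25
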