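import Mathlib
import Fermat.Agent.S18x.Spec.H26_Charts

/-!
# S18 / package IG (helper27): wiring between the `t`-line model and the `y`-charts

`O` a ring, `F` a field, `y t σ δ : F` with

* `σ ∈ chart O y`, `σ * t ∈ chart O y`   (so `chart O t ⊆ (chart O y)[1/σ]`),
* `δ ∈ O[t]`, `δ * y ∈ O[t]`             (so `chart O y ⊆ (chart O t)[1/δ]`),
* `σ * δ = 1`.

For a prime `𝔫` of `chart O y` with `σ ∉ 𝔫` the local rings of `chart O y` at `𝔫` and of
`chart O t` at the contracted prime `contr 𝔫` coincide inside `F`; in element form: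
the property `HSMsub` ("the maximal ideal of the local ring is generated by `π` and one more
element") transfers from `(chart O t, contr 𝔫)` to `(chart O y, 𝔫)`.
-/

set_option autoImplicit false

open Polynomial

namespace Fermat.Agent.S18x.IG.H27

open Fermat.Agent.S18x.Spec.H26

section Basic

variable (O : Type*) {F : Type*} [CommRing O] [Field F] [Algebra O F]

/-- Element form of "the local ring of `B` at `𝔫` has maximal ideal `(π, t)`". -/
def HSMsub (B : Subalgebra O F) (𝔫 : Ideal B) (π : O) (t : B) : Prop :=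
  ∀ x ∈ 𝔫, ∃ s : B, s ∉ 𝔫 ∧ ∃ u v : B, s * x = algebraMap O B π * u + t * v

variable {O}

/-- The chart is integrally closed in `F`. -/
theorem mem_chart_of_isIntegral {y z : F} (hz : IsIntegral (chart O y) z) : z ∈ chart O y := by
  rw [h26_isIntegral_iff] at hz
  obtain ⟨p, hp, hcoeff, hpz⟩ := hz
  rw [mem_chart]
  have hint : IsIntegral (integralClosure (Algebra.adjoin O {y}) F) z := by
    have hl : p ∈ lifts (algebraMap (integralClosure (Algebra.adjoin O {y}) F) F) := by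
      rw [lifts_iff_coeff_lifts]
      intro n
      exact ⟨⟨p.coeff n, hcoeff n⟩, rfl⟩
    obtain ⟨q, hq, -, hqm⟩ := lifts_and_natDegree_eq_and_monic hl hp
    refine ⟨q, hqm, ?_⟩
    rw [← eval_map, hq]
    exact hpz
  exact isIntegral_trans z hint

/-- `O[t] ⊆ chart O t`. -/
theorem adjoin_le_chart (t : F) : Algebra.adjoin O {t} ≤ chart O t := fun _ hz =>
  h26_isIntegral_of_mem hz

/-- Scaling `chart O t` into `chart O y` by powers of `σ`. -/
theorem exists_pow_mul_mem_chart {y t σ : F} (hσB : σ ∈ chart O y) (hσt : σ * t ∈ chart O y)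
    {c : F} (hc : c ∈ chart O t) : ∃ k : ℕ, σ ^ k * c ∈ chart O y := by
  have h : ∀ a ∈ Algebra.adjoin O {t}, ∃ k : ℕ, σ ^ k * a ∈ chart O y := by
    refine h26_exists_pow_mul_mem (chart O y) σ hσB {t} ?_
    rintro g rfl
    exact ⟨1, by rw [pow_one]; exact hσt⟩
  obtain ⟨n, hn⟩ := h26_isIntegral_pow_mul (chart O y) (Algebra.adjoin O {t}) σ hσB h c hc
  exact ⟨n, mem_chart_of_isIntegral hn⟩

/-- Scaling `chart O y` into `chart O t` by powers of `δ ∈ O[t]` with `δ * y ∈ O[t]`. -/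
theorem exists_pow_mul_mem_chart' {y t δ : F} (hδ : δ ∈ Algebra.adjoin O {t})
    (hδy : δ * y ∈ Algebra.adjoin O {t}) {b : F} (hb : b ∈ chart O y) :
    ∃ k : ℕ, δ ^ k * b ∈ chart O t := by
  have h : ∀ a ∈ Algebra.adjoin O {y}, ∃ k : ℕ, δ ^ k * a ∈ Algebra.adjoin O {t} := by
    refine h26_exists_pow_mul_mem (Algebra.adjoin O {t}) δ hδ {y} ?_
    rintro g rfl
    exact ⟨1, by rw [pow_one]; exact hδy⟩
  exact h26_isIntegral_pow_mul (Algebra.adjoin O {t}) (Algebra.adjoin O {y}) δ hδ h b hb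

/-- Monotonicity of the scaling exponent. -/
theorem pow_mul_mem_of_le {B : Subalgebra O F} {σ c : F} (hσ : σ ∈ B) {k l : ℕ} (hkl : k ≤ l)
    (h : σ ^ k * c ∈ B) : σ ^ l * c ∈ B := by
  obtain ⟨m, rfl⟩ := Nat.exists_eq_add_of_le hkl
  rw [pow_add, mul_comm (σ ^ k), mul_assoc]
  exact B.mul_mem (B.pow_mem hσ m) h

end Basic

section Contr

variable {O : Type*} {F : Type*} [CommRing O] [Field F] [Algebra O F]
variable {y t σ : F} (hσB : σ ∈ chart O y) (hσt : σ * t ∈ chart O y)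

/-- The contraction to `chart O t` of an ideal `𝔫` of `chart O y`, through the common
localisation `(chart O y)[1/σ] ⊇ chart O t`. -/
def contr (𝔫 : Ideal (chart O y)) : Ideal (chart O t) where
  carrier := {c | ∃ k : ℕ, ∃ b : chart O y, b ∈ 𝔫 ∧ (b : F) = σ ^ k * (c : F)}
  zero_mem' := ⟨0, 0, 𝔫.zero_mem, by simp⟩
  add_mem' := by
    rintro c c' ⟨k, b, hb, hbc⟩ ⟨k', b', hb', hbc'⟩
    refine ⟨k + k', (⟨σ, hσB⟩ : chart O y) ^ k' * b + (⟨σ, hσB⟩ : chart O y) ^ k * b',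
      𝔫.add_mem (𝔫.mul_mem_left _ hb) (𝔫.mul_mem_left _ hb'), ?_⟩
    push_cast
    rw [hbc, hbc']
    ring
  smul_mem' := by
    rintro a c ⟨k, b, hb, hbc⟩
    obtain ⟨l, hl⟩ := exists_pow_mul_mem_chart hσB hσt a.2
    refine ⟨l + k, (⟨σ ^ l * a, hl⟩ : chart O y) * b, 𝔫.mul_mem_left _ hb, ?_⟩
    push_cast
    rw [hbc, smul_eq_mul]
    push_cast
    ring

theorem mem_contr_iff {𝔫 : Ideal (chart O y)} {c : chart O t} :
    c ∈ contr hσB hσt 𝔫 ↔ ∃ k : ℕ, ∃ b : chart O y, b ∈ 𝔫 ∧ (b : F) = σ ^ k * (c : F) :=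
  Iff.rfl

/-- Elements of `chart O t` which scale into `𝔫` lie in the contraction. -/
theorem mem_contr_of_pow_mul_mem {𝔫 : Ideal (chart O y)} {c : chart O t} (k : ℕ)
    (h : σ ^ k * (c : F) ∈ chart O y) (h' : (⟨σ ^ k * (c : F), h⟩ : chart O y) ∈ 𝔫) :
    c ∈ contr hσB hσt 𝔫 :=
  ⟨k, _, h', rfl⟩

/-- Elements of `chart O t` outside the contraction scale to elements outside `𝔫`. -/
theorem not_mem_of_not_mem_contr {𝔫 : Ideal (chart O y)} {c : chart O t}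
    (hc : c ∉ contr hσB hσt 𝔫) (k : ℕ) (h : σ ^ k * (c : F) ∈ chart O y) :
    (⟨σ ^ k * (c : F), h⟩ : chart O y) ∉ 𝔫 := fun h' =>
  hc (mem_contr_of_pow_mul_mem hσB hσt k h h')

theorem algebraMap_mem_contr {𝔫 : Ideal (chart O y)} (π : O)
    (hπ : algebraMap O (chart O y) π ∈ 𝔫) : algebraMap O (chart O t) π ∈ contr hσB hσt 𝔫 :=
  ⟨0, _, hπ, by simp⟩

/-- The contraction of a prime not containing `σ` is prime. -/
theorem contr_isPrime {𝔫 : Ideal (chart O y)} (h𝔫 : 𝔫.IsPrime)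
    (hσ𝔫 : (⟨σ, hσB⟩ : chart O y) ∉ 𝔫) : (contr hσB hσt 𝔫).IsPrime := by
  have hpow : ∀ k : ℕ, (⟨σ, hσB⟩ : chart O y) ^ k ∉ 𝔫 := fun k hk =>
    hσ𝔫 (h𝔫.mem_of_pow_mem k hk)
  refine ⟨?_, ?_⟩
  · intro htop
    have h1 : (1 : chart O t) ∈ contr hσB hσt 𝔫 := by rw [htop]; trivial
    obtain ⟨k, b, hb, hbc⟩ := h1
    apply hpow k
    have : b = (⟨σ, hσB⟩ : chart O y) ^ k := by
      apply Subtype.ext
      rw [hbc]
      push_cast
      ring
    rw [← this]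
    exact hb
  · intro a c hac
    obtain ⟨k, b, hb, hbc⟩ := hac
    obtain ⟨l, hl⟩ := exists_pow_mul_mem_chart hσB hσt a.2
    obtain ⟨l', hl'⟩ := exists_pow_mul_mem_chart hσB hσt c.2
    have hprod : (⟨σ ^ l * a, hl⟩ : chart O y) * ⟨σ ^ l' * c, hl'⟩ * ⟨σ, hσB⟩ ^ k ∈ 𝔫 := by
      have : (⟨σ ^ l * a, hl⟩ : chart O y) * ⟨σ ^ l' * c, hl'⟩ * ⟨σ, hσB⟩ ^ k =
          (⟨σ, hσB⟩ : chart O y) ^ (l + l') * b := by
        apply Subtype.ext
        push_cast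
        rw [hbc]
        push_cast
        ring
      rw [this]
      exact 𝔫.mul_mem_left _ hb
    rcases h𝔫.mem_or_mem hprod with h | h
    · rcases h𝔫.mem_or_mem h with h | h
      · exact Or.inl ⟨l, _, h, rfl⟩
      · exact Or.inr ⟨l', _, h, rfl⟩
    · exact absurd h (hpow k)

/-- **Transfer.**  If the local ring of `chart O t` at the contracted prime has maximal ideal
`(π, τ)`, then the local ring of `chart O y` at `𝔫` has maximal ideal `(π, t₂)`. -/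
theorem hSM_of_contr {𝔫 : Ideal (chart O y)} (h𝔫 : 𝔫.IsPrime)
    (hσ𝔫 : (⟨σ, hσB⟩ : chart O y) ∉ 𝔫) {δ : F} (hδ : δ ∈ Algebra.adjoin O {t})
    (hδy : δ * y ∈ Algebra.adjoin O {t}) (hσδ : σ * δ = 1) (π : O) (τ : chart O t)
    (h : HSMsub O (chart O t) (contr hσB hσt 𝔫) π τ) :
    ∃ t₂ : chart O y, HSMsub O (chart O y) 𝔫 π t₂ := by
  have hpow : ∀ k : ℕ, (⟨σ, hσB⟩ : chart O y) ^ k ∉ 𝔫 := fun k hk =>
    hσ𝔫 (h𝔫.mem_of_pow_mem k hk)
  obtain ⟨k₀, hk₀⟩ := exists_pow_mul_mem_chart hσB hσt τ.2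
  refine ⟨⟨σ ^ k₀ * τ, hk₀⟩, fun x hx => ?_⟩
  obtain ⟨m, hm⟩ := exists_pow_mul_mem_chart' hδ hδy x.2
  have hσδm : σ ^ m * δ ^ m = 1 := by rw [← mul_pow, hσδ, one_pow]
  have hc : (⟨δ ^ m * x, hm⟩ : chart O t) ∈ contr hσB hσt 𝔫 := by
    refine ⟨m, x, hx, ?_⟩
    change (x : F) = σ ^ m * (δ ^ m * (x : F))
    rw [← mul_assoc, hσδm, one_mul]
  obtain ⟨s', hs', u', v', hE⟩ := h _ hc
  obtain ⟨K₁, hK₁⟩ := exists_pow_mul_mem_chart hσB hσt s'.2
  obtain ⟨K₂, hK₂⟩ := exists_pow_mul_mem_chart hσB hσt u'.2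
  obtain ⟨K₃, hK₃⟩ := exists_pow_mul_mem_chart hσB hσt v'.2
  have hE' : (s' : F) * (δ ^ m * (x : F)) = algebraMap O F π * (u' : F) + (τ : F) * (v' : F) := by
    have := congrArg (fun z : chart O t => (z : F)) hE
    simpa using this
  have hx' : (s' : F) * (x : F) = σ ^ m * (algebraMap O F π * (u' : F) + (τ : F) * (v' : F)) := by
    rw [← hE']
    calc (s' : F) * (x : F) = (σ ^ m * δ ^ m) * ((s' : F) * (x : F)) := by rw [hσδm, one_mul]
      _ = σ ^ m * ((s' : F) * (δ ^ m * (x : F))) := by ring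
  refine ⟨(⟨σ ^ K₁ * s', hK₁⟩ : chart O y) * ⟨σ, hσB⟩ ^ (k₀ + K₂ + K₃), ?_,
    (⟨σ, hσB⟩ : chart O y) ^ (K₁ + k₀ + K₃ + m) * ⟨σ ^ K₂ * u', hK₂⟩,
    (⟨σ, hσB⟩ : chart O y) ^ (K₁ + K₂ + m) * ⟨σ ^ K₃ * v', hK₃⟩, ?_⟩
  · intro hmem
    rcases h𝔫.mem_or_mem hmem with h1 | h1
    · exact not_mem_of_not_mem_contr hσB hσt hs' K₁ hK₁ h1
    · exact hpow _ h1
  · apply Subtype.ext
    push_cast
    linear_combination (σ ^ (K₁ + k₀ + K₂ + K₃)) * hx'

end Contr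

end Fermat.Agent.S18x.IG.H27
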