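import Mathlib
import Fermat.Agent.S18x.IG.Defs
import Fermat.Agent.S18x.IG.H11_Base
import Fermat.Agent.S18x.IG.H27_Wire

/-!
# S18 / S37 (helper27): (SM) for a Moebius-transformed coordinate

`HSMChart O h π₀` and `HSMChart O h⁻¹ π₀` imply `HSMChart O (h - a)⁻¹ π₀` for every `a : O`
(`hSMChart_moebius`).  The proof transfers (SM) between charts through a common localisation
(`H27_Wire`); the new input is that the contracted prime is again maximal
(`contr_isMaximal`), which is proved by exhibiting a polynomial relation modulo `π₀`.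
-/

set_option autoImplicit false
set_option linter.style.haveILetI false

open Polynomial

namespace Fermat.Agent.S18x.IG.H27

open Fermat.Agent.S18x.Spec.H26 Fermat.Agent.S18x.IG

section Poly

variable {O : Type*} [CommRing O]

/-- A prime of `O[X]` containing `π₀` and a polynomial which is nonzero modulo `π₀` is
maximal. -/
theorem isMaximal_of_mem_of_redPoly_ne_zero (π₀ : O) [hmax : (Ideal.span {π₀}).IsMaximal]
    (𝔐 : Ideal O[X]) (h𝔐 : 𝔐.IsPrime) (hπ : C π₀ ∈ 𝔐) (P : O[X]) (hP : P ∈ 𝔐)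
    (hP0 : H11.redPoly π₀ P ≠ 0) : 𝔐.IsMaximal := by
  let _ : Field (O ⧸ Ideal.span {π₀}) := Ideal.Quotient.field _
  have hker : RingHom.ker (H11.redPoly π₀) ≤ 𝔐 := by
    rw [H11.ker_redPoly]
    exact (Ideal.span_singleton_le_iff_mem _).mpr hπ
  have hprime : (𝔐.map (H11.redPoly π₀)).IsPrime :=
    Ideal.map_isPrime_of_surjective (H11.redPoly_surjective π₀) hker
  have hne : 𝔐.map (H11.redPoly π₀) ≠ ⊥ := by
    intro h
    have h1 : H11.redPoly π₀ P ∈ 𝔐.map (H11.redPoly π₀) := Ideal.mem_map_of_mem _ hP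
    rw [h, Ideal.mem_bot] at h1
    exact hP0 h1
  have hmax' : (𝔐.map (H11.redPoly π₀)).IsMaximal := hprime.isMaximal hne
  rw [← H11.comap_map_redPoly π₀ 𝔐 hπ]
  exact Ideal.comap_isMaximal_of_surjective _ (H11.redPoly_surjective π₀)

/-- The homogenisation `∑ qᵢ D ^ (n - i) E ^ i` of `Q` (`n = deg Q`). -/
noncomputable def homog (Q D E : O[X]) : O[X] :=
  ∑ i ∈ Finset.range (Q.natDegree + 1), C (Q.coeff i) * D ^ (Q.natDegree - i) * E ^ i

theorem aeval_homog {F : Type*} [Field F] [Algebra O F] (Q D E : O[X]) (t y : F)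
    (hE : aeval t E = aeval t D * y) :
    aeval t (homog Q D E) = aeval t D ^ Q.natDegree * aeval y Q := by
  have hQ : aeval y Q = ∑ i ∈ Finset.range (Q.natDegree + 1), Q.coeff i • y ^ i :=
    aeval_eq_sum_range y
  rw [homog, map_sum, hQ, Finset.mul_sum]
  refine Finset.sum_congr rfl (fun i hi => ?_)
  have hi' : i ≤ Q.natDegree := Nat.lt_succ_iff.mp (Finset.mem_range.mp hi)
  rw [map_mul, map_mul, map_pow, map_pow, aeval_C, hE, Algebra.smul_def, mul_pow]
  have : aeval t D ^ Q.natDegree = aeval t D ^ (Q.natDegree - i) * aeval t D ^ i := by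
    rw [← pow_add, Nat.sub_add_cancel hi']
  rw [this]
  ring

/-- Evaluation of the homogenisation at a point where `D` vanishes modulo `π₀`. -/
theorem eval_homog_mem (π₀ : O) (Q D E : O[X]) (hQ : Q.Monic) (e : O)
    (hD : D.eval e ∈ Ideal.span {π₀}) :
    (homog Q D E).eval e - E.eval e ^ Q.natDegree ∈ Ideal.span {π₀} := by
  rw [homog, Finset.sum_range_succ, eval_add, eval_finsetSum]
  have hlast : (C (Q.coeff Q.natDegree) * D ^ (Q.natDegree - Q.natDegree) * E ^ Q.natDegree).eval e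
      = E.eval e ^ Q.natDegree := by
    rw [Nat.sub_self, pow_zero, mul_one, eval_mul, eval_C, eval_pow]
    have : Q.coeff Q.natDegree = 1 := hQ.coeff_natDegree
    rw [this, one_mul]
  rw [hlast, add_sub_cancel_right]
  refine Ideal.sum_mem _ (fun i hi => ?_)
  have hi' : i < Q.natDegree := Finset.mem_range.mp hi
  rw [eval_mul, eval_mul, eval_pow, eval_pow, eval_C]
  have hpos : Q.natDegree - i ≠ 0 := Nat.sub_ne_zero_of_lt hi'
  exact Ideal.mul_mem_right _ _ (Ideal.mul_mem_left _ _ (Ideal.pow_mem_of_mem _ hD _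
    (Nat.pos_of_ne_zero hpos)))

/-- A polynomial with a value outside `(π₀)` is nonzero modulo `π₀`. -/
theorem redPoly_ne_zero_of_eval (π₀ : O) (P : O[X]) (e : O)
    (he : P.eval e ∉ Ideal.span {π₀}) : H11.redPoly π₀ P ≠ 0 := by
  intro h
  obtain ⟨R, rfl⟩ := (H11.redPoly_eq_zero_iff π₀ P).mp h
  apply he
  rw [eval_mul, eval_C]
  exact Ideal.mul_mem_right _ _ (Ideal.mem_span_singleton_self _)

end Poly

section Chart

variable {O : Type*} {F : Type*} [CommRing O] [Field F] [Algebra O F]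

/-- The chart is integral over `O[X]` (for the algebra structure `chartAlgebra O x`). -/
theorem chart_isIntegral_poly (x : F) :
    @Algebra.IsIntegral O[X] ↥(chart O x).toSubring _ _ (chartAlgebra O x) := by
  let _ := chartAlgebra O x
  refine ⟨fun y => ?_⟩
  obtain ⟨p, hp, hcoeff, hz⟩ := (h26_isIntegral_iff (Algebra.adjoin O {x}) (y : F)).1 y.2
  have hl : p ∈ lifts ((aeval x : O[X] →ₐ[O] F) : O[X] →+* F) := by
    rw [lifts_iff_coeff_lifts]
    intro n
    have h1 := hcoeff n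
    rw [Algebra.adjoin_singleton_eq_range_aeval] at h1
    obtain ⟨c, hc⟩ := h1
    exact ⟨c, hc⟩
  obtain ⟨q, hq, -, hqm⟩ := lifts_and_natDegree_eq_and_monic hl hp
  refine ⟨q, hqm, ?_⟩
  apply Subtype.ext
  have h2 : (((eval₂ (algebraMap O[X] ↥(chart O x).toSubring) y q :
      ↥(chart O x).toSubring)) : F)
      = eval₂ ((chart O x).toSubring.subtype.comp (chartHom O x)) (y : F) q :=
    Polynomial.hom_eval₂ q (chartHom O x) (chart O x).toSubring.subtype y
  rw [h2]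
  have h3 : (chart O x).toSubring.subtype.comp (chartHom O x)
      = ((aeval x : O[X] →ₐ[O] F) : O[X] →+* F) :=
    RingHom.ext fun P => coe_chartHom O x P
  rw [h3, ← eval_map, hq]
  exact hz

/-- A maximal ideal of the chart containing `π₀` contains the value of a monic polynomial
at the coordinate. -/
theorem exists_monic_chartHom_mem (π₀ : O) [hmax : (Ideal.span {π₀}).IsMaximal] (y : F)
    (𝔫 : Ideal ↥(chart O y).toSubring) (h𝔫 : 𝔫.IsMaximal) (hπ : chartPi O y π₀ ∈ 𝔫) :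
    ∃ Q : O[X], Q.Monic ∧ chartHom O y Q ∈ 𝔫 := by
  letI := chartAlgebra O y
  haveI := chart_isIntegral_poly (O := O) y
  haveI := h𝔫
  have hM : (𝔫.comap (algebraMap O[X] ↥(chart O y).toSubring)).IsMaximal :=
    Ideal.isMaximal_comap_of_isIntegral_of_isMaximal 𝔫
  have hπM : C π₀ ∈ 𝔫.comap (algebraMap O[X] ↥(chart O y).toSubring) := by
    rw [Ideal.mem_comap]
    change chartHom O y (C π₀) ∈ 𝔫
    rw [chartHom_C_pi]
    exact hπ
  obtain ⟨g, hgm, -, hg⟩ := H11.exists_monic_of_isMaximal π₀ hM hπM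
  refine ⟨g, hgm, ?_⟩
  have h1 : g ∈ 𝔫.comap (algebraMap O[X] ↥(chart O y).toSubring) := by
    rw [hg]
    exact Ideal.subset_span (by simp)
  exact h1

variable {y t σ : F} (hσB : σ ∈ chart O y) (hσt : σ * t ∈ chart O y)

/-- The contraction `contr` in the `Subring` spelling of the charts. -/
def contrS (𝔫 : Ideal ↥(chart O y).toSubring) : Ideal ↥(chart O t).toSubring :=
  contr hσB hσt 𝔫

theorem mem_contrS_iff {𝔫 : Ideal ↥(chart O y).toSubring} {c : ↥(chart O t).toSubring} :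
    c ∈ contrS hσB hσt 𝔫 ↔
      ∃ k : ℕ, ∃ b : ↥(chart O y).toSubring, b ∈ 𝔫 ∧ (b : F) = σ ^ k * (c : F) :=
  Iff.rfl

theorem contrS_isPrime {𝔫 : Ideal ↥(chart O y).toSubring} (h𝔫 : 𝔫.IsPrime)
    (hσ𝔫 : (⟨σ, hσB⟩ : ↥(chart O y).toSubring) ∉ 𝔫) : (contrS hσB hσt 𝔫).IsPrime :=
  contr_isPrime hσB hσt h𝔫 hσ𝔫

theorem chartPi_mem_contrS {𝔫 : Ideal ↥(chart O y).toSubring} (π₀ : O)
    (hπ : chartPi O y π₀ ∈ 𝔫) : chartPi O t π₀ ∈ contrS hσB hσt 𝔫 :=
  ⟨0, _, hπ, by simp⟩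

/-- **The contracted prime is maximal.**  `δ = D(t)`, `δ * y = E(t)`, and the homogenisation
of every monic polynomial with respect to `(D, E)` is nonzero modulo `π₀`. -/
theorem contrS_isMaximal (π₀ : O) [hmax : (Ideal.span {π₀}).IsMaximal] (D E : O[X])
    (hσD : σ * aeval t D = 1) (hE : aeval t E = aeval t D * y)
    (hDE : ∀ Q : O[X], Q.Monic → H11.redPoly π₀ (homog Q D E) ≠ 0)
    {𝔫 : Ideal ↥(chart O y).toSubring} (h𝔫 : 𝔫.IsMaximal) (hπ : chartPi O y π₀ ∈ 𝔫)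
    (hσ𝔫 : (⟨σ, hσB⟩ : ↥(chart O y).toSubring) ∉ 𝔫) : (contrS hσB hσt 𝔫).IsMaximal := by
  have hprime : (contrS hσB hσt 𝔫).IsPrime := contrS_isPrime hσB hσt h𝔫.isPrime hσ𝔫
  obtain ⟨Q, hQm, hQ⟩ := exists_monic_chartHom_mem π₀ y 𝔫 h𝔫 hπ
  letI := chartAlgebra O t
  haveI := chart_isIntegral_poly (O := O) t
  have hcomapPrime : ((contrS hσB hσt 𝔫).comap (algebraMap O[X] ↥(chart O t).toSubring)).IsPrime :=
    Ideal.comap_isPrime _ _
  have hπM : C π₀ ∈ (contrS hσB hσt 𝔫).comap (algebraMap O[X] ↥(chart O t).toSubring) := by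
    rw [Ideal.mem_comap]
    change chartHom O t (C π₀) ∈ _
    rw [chartHom_C_pi]
    exact chartPi_mem_contrS hσB hσt π₀ hπ
  have hPM : homog Q D E ∈
      (contrS hσB hσt 𝔫).comap (algebraMap O[X] ↥(chart O t).toSubring) := by
    rw [Ideal.mem_comap]
    change chartHom O t (homog Q D E) ∈ _
    refine ⟨Q.natDegree, chartHom O y Q, hQ, ?_⟩
    rw [coe_chartHom, coe_chartHom, aeval_homog Q D E t y hE, ← mul_assoc, ← mul_pow, hσD,
      one_pow, one_mul]
  have hM := isMaximal_of_mem_of_redPoly_ne_zero π₀ _ hcomapPrime hπM _ hPM (hDE Q hQm)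
  exact Ideal.isMaximal_of_isIntegral_of_isMaximal_comap (R := O[X]) _ hM

/-- **Transfer of (SM)** from `(chart O t, contrS 𝔫)` to `(chart O y, 𝔫)`. -/
theorem hSM_of_contrS {𝔫 : Ideal ↥(chart O y).toSubring} (h𝔫 : 𝔫.IsPrime)
    (hσ𝔫 : (⟨σ, hσB⟩ : ↥(chart O y).toSubring) ∉ 𝔫) {δ : F} (hδ : δ ∈ Algebra.adjoin O {t})
    (hδy : δ * y ∈ Algebra.adjoin O {t}) (hσδ : σ * δ = 1) (π₀ : O)
    (h : HSM (chartPi O t π₀) (contrS hσB hσt 𝔫)) : HSM (chartPi O y π₀) 𝔫 := by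
  obtain ⟨τ, hτ, h⟩ := h
  have hpow : ∀ k : ℕ, (⟨σ, hσB⟩ : ↥(chart O y).toSubring) ^ k ∉ 𝔫 := fun k hk =>
    hσ𝔫 (h𝔫.mem_of_pow_mem k hk)
  obtain ⟨k₀, hk₀⟩ := exists_pow_mul_mem_chart hσB hσt τ.2
  have hτ𝔫 : (⟨σ ^ k₀ * τ, hk₀⟩ : ↥(chart O y).toSubring) ∈ 𝔫 := by
    obtain ⟨k, b, hb, hbτ⟩ := hτ
    have h1 : (⟨σ ^ k₀ * τ, hk₀⟩ : ↥(chart O y).toSubring) * ⟨σ, hσB⟩ ^ k ∈ 𝔫 := by
      have : (⟨σ ^ k₀ * τ, hk₀⟩ : ↥(chart O y).toSubring) * ⟨σ, hσB⟩ ^ k =
          (⟨σ, hσB⟩ : ↥(chart O y).toSubring) ^ k₀ * b := by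
        apply Subtype.ext
        push_cast
        rw [hbτ]
        ring
      rw [this]
      exact 𝔫.mul_mem_left _ hb
    exact (h𝔫.mem_or_mem h1).resolve_right (hpow k)
  refine ⟨⟨σ ^ k₀ * τ, hk₀⟩, hτ𝔫, fun x hx => ?_⟩
  obtain ⟨m, hm⟩ := exists_pow_mul_mem_chart' hδ hδy x.2
  have hσδm : σ ^ m * δ ^ m = 1 := by rw [← mul_pow, hσδ, one_pow]
  have hc : (⟨δ ^ m * x, hm⟩ : ↥(chart O t).toSubring) ∈ contrS hσB hσt 𝔫 := by
    refine ⟨m, x, hx, ?_⟩
    change (x : F) = σ ^ m * (δ ^ m * (x : F))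
    rw [← mul_assoc, hσδm, one_mul]
  obtain ⟨s', hs', u', v', hE⟩ := h _ hc
  obtain ⟨K₁, hK₁⟩ := exists_pow_mul_mem_chart hσB hσt s'.2
  obtain ⟨K₂, hK₂⟩ := exists_pow_mul_mem_chart hσB hσt u'.2
  obtain ⟨K₃, hK₃⟩ := exists_pow_mul_mem_chart hσB hσt v'.2
  have hE' : (s' : F) * (δ ^ m * (x : F)) = algebraMap O F π₀ * (u' : F) + (τ : F) * (v' : F) := by
    have := congrArg (fun z : ↥(chart O t).toSubring => (z : F)) hE
    simpa using this
  have hx' : (s' : F) * (x : F) = σ ^ m * (algebraMap O F π₀ * (u' : F) + (τ : F) * (v' : F)) := by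
    rw [← hE']
    calc (s' : F) * (x : F) = (σ ^ m * δ ^ m) * ((s' : F) * (x : F)) := by rw [hσδm, one_mul]
      _ = σ ^ m * ((s' : F) * (δ ^ m * (x : F))) := by ring
  refine ⟨(⟨σ ^ K₁ * s', hK₁⟩ : ↥(chart O y).toSubring) * ⟨σ, hσB⟩ ^ (k₀ + K₂ + K₃), ?_,
    (⟨σ, hσB⟩ : ↥(chart O y).toSubring) ^ (K₁ + k₀ + K₃ + m) * ⟨σ ^ K₂ * u', hK₂⟩,
    (⟨σ, hσB⟩ : ↥(chart O y).toSubring) ^ (K₁ + K₂ + m) * ⟨σ ^ K₃ * v', hK₃⟩, ?_⟩
  · intro hmem
    rcases h𝔫.mem_or_mem hmem with h1 | h1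
    · exact hs' ⟨K₁, _, h1, rfl⟩
    · exact hpow _ h1
  · apply Subtype.ext
    push_cast
    simp only [coe_chartPi]
    linear_combination (σ ^ (K₁ + k₀ + K₂ + K₃)) * hx'

include hσt in
/-- **Transfer of `HSMChart`**, one closed point: if `HSMChart O t π₀` holds, then (SM) holds
at every maximal ideal `𝔫 ∋ π₀` of `chart O y` with `σ ∉ 𝔫`. -/
theorem hSM_of_hSMChart (π₀ : O) [hmax : (Ideal.span {π₀}).IsMaximal] (D E : O[X])
    (hσD : σ * aeval t D = 1) (hE : aeval t E = aeval t D * y)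
    (hDE : ∀ Q : O[X], Q.Monic → H11.redPoly π₀ (homog Q D E) ≠ 0)
    (Ht : HSMChart O t π₀)
    {𝔫 : Ideal ↥(chart O y).toSubring} (h𝔫 : 𝔫.IsMaximal) (hπ : chartPi O y π₀ ∈ 𝔫)
    (hσ𝔫 : (⟨σ, hσB⟩ : ↥(chart O y).toSubring) ∉ 𝔫) : HSM (chartPi O y π₀) 𝔫 := by
  have hδ : aeval t D ∈ Algebra.adjoin O {t} := by
    rw [Algebra.adjoin_singleton_eq_range_aeval]
    exact ⟨D, rfl⟩
  have hδy : aeval t D * y ∈ Algebra.adjoin O {t} := by
    rw [Algebra.adjoin_singleton_eq_range_aeval, ← hE]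
    exact ⟨E, rfl⟩
  exact hSM_of_contrS hσB hσt h𝔫.isPrime hσ𝔫 hδ hδy hσD π₀
    (Ht _ (contrS_isMaximal hσB hσt π₀ D E hσD hE hDE h𝔫 hπ hσ𝔫)
      (chartPi_mem_contrS hσB hσt π₀ hπ))

end Chart

section Moebius

variable {O : Type*} {F : Type*} [CommRing O] [Field F] [Algebra O F]

/-- Case (i): `D = X - a`, `E = 1`. -/
theorem redPoly_homog_ne_zero_one (π₀ : O) [hmax : (Ideal.span {π₀}).IsMaximal] (a : O)
    (Q : O[X]) (hQ : Q.Monic) : H11.redPoly π₀ (homog Q (X - C a) 1) ≠ 0 := by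
  refine redPoly_ne_zero_of_eval π₀ _ a (fun hmem => ?_)
  have h1 := eval_homog_mem π₀ Q (X - C a) 1 hQ a (by simp)
  rw [eval_one, one_pow] at h1
  have h2 : (1 : O) ∈ Ideal.span {π₀} := by
    have := (Ideal.span {π₀}).sub_mem hmem h1
    rwa [sub_sub_cancel] at this
  exact hmax.ne_top ((Ideal.eq_top_iff_one _).mpr h2)

/-- Case (ii): `D = 1 - a X`, `E = X`. -/
theorem redPoly_homog_ne_zero_two (π₀ : O) [hmax : (Ideal.span {π₀}).IsMaximal] (a : O)
    (Q : O[X]) (hQ : Q.Monic) : H11.redPoly π₀ (homog Q (1 - C a * X) X) ≠ 0 := by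
  by_cases ha : a ∈ Ideal.span {π₀}
  · -- `D ≡ 1`, the homogenisation is `Q` modulo `π₀`
    have hD : H11.redPoly π₀ (1 - C a * X) = 1 := by
      rw [map_sub, map_one, map_mul]
      have : H11.redPoly π₀ (C a) = 0 := by
        rw [H11.redPoly_eq_zero_iff]
        obtain ⟨c, rfl⟩ := Ideal.mem_span_singleton.mp ha
        exact ⟨C c, by rw [C_mul]⟩
      rw [this, zero_mul, sub_zero]
    have hEq : H11.redPoly π₀ (homog Q (1 - C a * X) X) = H11.redPoly π₀ Q := by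
      conv_rhs => rw [Q.as_sum_range_C_mul_X_pow]
      rw [homog, map_sum, map_sum]
      refine Finset.sum_congr rfl (fun i _ => ?_)
      rw [map_mul, map_mul, map_pow, hD, one_pow, mul_one, map_mul]
    rw [hEq]
    have : Nontrivial (O ⧸ Ideal.span {π₀}) := Ideal.Quotient.nontrivial_iff.mpr hmax.ne_top
    exact (hQ.map (Ideal.Quotient.mk (Ideal.span {π₀}))).ne_zero
  · obtain ⟨a', i, hi, hai⟩ := hmax.exists_inv ha
    have ha' : a' ∉ Ideal.span {π₀} := by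
      intro h
      have : (1 : O) ∈ Ideal.span {π₀} := by
        rw [← hai]
        exact (Ideal.span {π₀}).add_mem (Ideal.mul_mem_right _ _ h) hi
      exact hmax.ne_top ((Ideal.eq_top_iff_one _).mpr this)
    refine redPoly_ne_zero_of_eval π₀ _ a' (fun hmem => ?_)
    have hD : (1 - C a * X : O[X]).eval a' ∈ Ideal.span {π₀} := by
      have : (1 - C a * X : O[X]).eval a' = i := by
        rw [eval_sub, eval_one, eval_mul, eval_C, eval_X, ← hai]
        ring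
      rw [this]
      exact hi
    have h1 := eval_homog_mem π₀ Q (1 - C a * X) X hQ a' hD
    rw [eval_X] at h1
    have h2 : a' ^ Q.natDegree ∈ Ideal.span {π₀} := by
      have := (Ideal.span {π₀}).sub_mem hmem h1
      rwa [sub_sub_cancel] at this
    exact ha' (hmax.isPrime.mem_of_pow_mem _ h2)

/-- **(SM) for the Moebius coordinate `(h - a)⁻¹`** from (SM) for `h` and for `h⁻¹`. -/
theorem hSMChart_moebius (π₀ : O) [hmax : (Ideal.span {π₀}).IsMaximal] (h : F) (a : O)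
    (hh : h ≠ 0) (hha : h - algebraMap O F a ≠ 0) (H1 : HSMChart O h π₀)
    (H2 : HSMChart O h⁻¹ π₀) : HSMChart O (h - algebraMap O F a)⁻¹ π₀ := by
  intro 𝔫 h𝔫 hπ
  have hyB : (h - algebraMap O F a)⁻¹ ∈ chart O (h - algebraMap O F a)⁻¹ := self_mem_chart O _
  have hαB : algebraMap O F a ∈ chart O (h - algebraMap O F a)⁻¹ :=
    (chart O (h - algebraMap O F a)⁻¹).algebraMap_mem a
  by_cases hy : (⟨(h - algebraMap O F a)⁻¹, hyB⟩ :
      ↥(chart O (h - algebraMap O F a)⁻¹).toSubring) ∈ 𝔫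
  · -- the point lies over `h = ∞`: use the chart `h⁻¹`, `σ = 1 + a y = h y`
    have hσeq : 1 + algebraMap O F a * (h - algebraMap O F a)⁻¹ = h * (h - algebraMap O F a)⁻¹ := by
      field_simp
      ring
    have hσB : h * (h - algebraMap O F a)⁻¹ ∈ chart O (h - algebraMap O F a)⁻¹ := by
      rw [← hσeq]
      exact (chart O _).add_mem (chart O _).one_mem ((chart O _).mul_mem hαB hyB)
    have hσt : h * (h - algebraMap O F a)⁻¹ * h⁻¹ ∈ chart O (h - algebraMap O F a)⁻¹ := by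
      have : h * (h - algebraMap O F a)⁻¹ * h⁻¹ = (h - algebraMap O F a)⁻¹ := by
        field_simp
      rw [this]
      exact hyB
    have hσ𝔫 : (⟨h * (h - algebraMap O F a)⁻¹, hσB⟩ :
        ↥(chart O (h - algebraMap O F a)⁻¹).toSubring) ∉ 𝔫 := by
      intro hmem
      have h1 : (1 : ↥(chart O (h - algebraMap O F a)⁻¹).toSubring) =
          ⟨h * (h - algebraMap O F a)⁻¹, hσB⟩ -
            ⟨algebraMap O F a, hαB⟩ * ⟨(h - algebraMap O F a)⁻¹, hyB⟩ := by
        apply Subtype.ext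
        push_cast
        rw [← hσeq]
        ring
      exact h𝔫.ne_top ((Ideal.eq_top_iff_one _).mpr
        (h1 ▸ 𝔫.sub_mem hmem (𝔫.mul_mem_left _ hy)))
    refine hSM_of_hSMChart hσB hσt π₀ (1 - C a * X) X ?_ ?_
      (redPoly_homog_ne_zero_two π₀ a) H2 h𝔫 hπ hσ𝔫
    · simp only [map_sub, map_one, map_mul, aeval_C, aeval_X]
      field_simp
    · simp only [map_sub, map_one, map_mul, aeval_C, aeval_X]
      field_simp
  · -- the point lies over a finite value of `h`: use the chart `h`, `σ = y`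
    have hσt : (h - algebraMap O F a)⁻¹ * h ∈ chart O (h - algebraMap O F a)⁻¹ := by
      have : (h - algebraMap O F a)⁻¹ * h =
          1 + algebraMap O F a * (h - algebraMap O F a)⁻¹ := by
        field_simp
        ring
      rw [this]
      exact (chart O _).add_mem (chart O _).one_mem ((chart O _).mul_mem hαB hyB)
    refine hSM_of_hSMChart hyB hσt π₀ (X - C a) 1 ?_ ?_
      (redPoly_homog_ne_zero_one π₀ a) H1 h𝔫 hπ hy
    · simp only [map_sub, aeval_C, aeval_X]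
      field_simp
    · simp only [map_sub, map_one, aeval_C, aeval_X]
      field_simp

end Moebius

end Fermat.Agent.S18x.IG.H27
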