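import Mathlib
import Fermat.Agent.S18x.IG.H15_DualGlue
import Fermat.Agent.S18x.IG.H27_Dvr

/-!
# S18 / package IG (helper27): PRINCIPLE (*) + (W-b) in one call

* `hSM_of_principle` : the hypotheses of `H15.h15_principle` VERBATIM give `HSM (algebraMap A B π) 𝔫`
  at every prime `𝔫` of `B` containing `π`.
* `hSM_of_principle_localization` : the same, followed by the descent from a localisation
  `B = S⁻¹ B'` to `B'`.
-/

set_option autoImplicit false

namespace Fermat.Agent.S18x.IG.H27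

open Module

section

variable {A B R C : Type*} [CommRing A] [CommRing B] [Algebra A B]
  [CommRing R] [CommRing C] [Algebra R C]
variable {ι : Type*} [Fintype ι]
variable [IsDomain A] [IsDomain R] [IsPrincipalIdealRing R] [IsDomain C] [DecidableEq ι]

/-- **PRINCIPLE (*) ⟹ (SM)**: under the hypotheses of `h15_principle`, the local ring of `B`
at every prime `𝔫 ∋ π` has maximal ideal `(π, t)`. -/
theorem hSM_of_principle (f : A →+* R) (g : B →+* C)
    (hcomm : ∀ a, g (algebraMap A B a) = algebraMap R C (f a))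
    (hf : Function.Surjective f) (hg : Function.Surjective g) (π s : A) (hπ : Prime π)
    (hfπ : f π = 0) (hkg : ∀ x, g x = 0 → x ∈ Ideal.span {algebraMap A B π})
    (hs : Prime (f s)) (hπs : ∀ a : A, s ∣ π * a → s ∣ a)
    (b : Basis ι A B) (hdisc : ¬ π ∣ Algebra.discr A b)
    (hgen : ∀ φ : B →ₗ[A] A, ∃ (n N : ℕ) (y : B), y ^ N ∈ Ideal.span {algebraMap A B s} ∧
      ∀ x, π ^ n * s * φ x = Algebra.trace A B (y * x))
    (𝔫 : Ideal B) (h𝔫 : 𝔫.IsPrime) (hπ𝔫 : algebraMap A B π ∈ 𝔫) :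
    HSM (algebraMap A B π) 𝔫 := by
  have : IsIntegrallyClosed C :=
    H15.h15_principle f g hcomm hf hg π s hπ hfπ hkg hs hπs b hdisc hgen
  obtain ⟨b', -⟩ := H15.h15_exists_fibreBasis f g hcomm hf hg π hfπ hkg b
  have : Module.Finite R C := Module.Finite.of_basis b'
  refine wb_of_finite (R := R) g hg (algebraMap A B π) (fun x hx => ?_) 𝔫 h𝔫 hπ𝔫
  obtain ⟨y, hy⟩ := Ideal.mem_span_singleton'.mp (hkg x hx)
  exact ⟨y, by rw [← hy, mul_comm]⟩

/-- **PRINCIPLE (*) ⟹ (SM), with descent from a localisation.** `B = S⁻¹ B'`; `A` is an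
`A'`-algebra, `π = algebraMap A' A π'`; the hypotheses of `h15_principle` hold for `A → B`.
Then `HSM (algebraMap A' B' π') 𝔫'` for every prime `𝔫' ∋ π'` of `B'` disjoint from `S`. -/
theorem hSM_of_principle_localization {A' B' : Type*} [CommRing A'] [CommRing B']
    [Algebra A' B'] [Algebra A' A] [Algebra B' B] [Algebra A' B] [IsScalarTower A' A B]
    [IsScalarTower A' B' B] (S : Submonoid B') [IsLocalization S B]
    (f : A →+* R) (g : B →+* C)
    (hcomm : ∀ a, g (algebraMap A B a) = algebraMap R C (f a))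
    (hf : Function.Surjective f) (hg : Function.Surjective g) (π' : A') (s : A)
    (hπ : Prime (algebraMap A' A π'))
    (hfπ : f (algebraMap A' A π') = 0)
    (hkg : ∀ x, g x = 0 → x ∈ Ideal.span {algebraMap A B (algebraMap A' A π')})
    (hs : Prime (f s)) (hπs : ∀ a : A, s ∣ algebraMap A' A π' * a → s ∣ a)
    (b : Basis ι A B) (hdisc : ¬ algebraMap A' A π' ∣ Algebra.discr A b)
    (hgen : ∀ φ : B →ₗ[A] A, ∃ (n N : ℕ) (y : B), y ^ N ∈ Ideal.span {algebraMap A B s} ∧
      ∀ x, algebraMap A' A π' ^ n * s * φ x = Algebra.trace A B (y * x))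
    (𝔫 : Ideal B') (h𝔫 : 𝔫.IsPrime) (hπ𝔫 : algebraMap A' B' π' ∈ 𝔫)
    (hS : ∀ σ ∈ S, σ ∉ 𝔫) :
    HSM (algebraMap A' B' π') 𝔫 := by
  have hdisj : Disjoint (S : Set B') (𝔫 : Set B') :=
    Set.disjoint_left.mpr fun σ hσ hσ𝔫 => hS σ hσ hσ𝔫
  have hprime : (𝔫.map (algebraMap B' B)).IsPrime :=
    IsLocalization.isPrime_of_isPrime_disjoint S B 𝔫 h𝔫 hdisj
  have hπeq : algebraMap A B (algebraMap A' A π') = algebraMap B' B (algebraMap A' B' π') := by
    rw [← IsScalarTower.algebraMap_apply A' A B, ← IsScalarTower.algebraMap_apply A' B' B]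
  refine hSM_of_localization (B₀ := B) S 𝔫 h𝔫 hS (algebraMap A' B' π') ?_
  rw [← hπeq]
  refine hSM_of_principle f g hcomm hf hg (algebraMap A' A π') s hπ hfπ hkg hs hπs b hdisc hgen
    _ hprime ?_
  rw [hπeq]
  exact Ideal.mem_map_of_mem _ hπ𝔫

end

end Fermat.Agent.S18x.IG.H27
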