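import Mathlib
import Fermat.Agent.S18x.IG.H11_BaseLocal
import Fermat.Agent.S18x.IG.H27_PrincipleSM

/-!
# S18 / package IG (helper27): the quotient model of PRINCIPLE (*)

For a noetherian local domain `A` with maximal ideal `(π, s)` and an `A`-algebra `B` with a
finite basis, PRINCIPLE (*) is applied to `R := A ⧸ (π)`, `C := B ⧸ π B`.  Here `R`, `C`, `f`,
`g` are constructed, so that the user only supplies `hdisc`, `hgen` and "`π B` is prime".

* `quotAlg π` : the `A ⧸ (π)`-algebra structure of `B ⧸ π B` (activate with `letI`).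
* `hSM_of_principle_local` : `HSM (algebraMap A B π) 𝔫` at every prime `𝔫 ∋ π` of `B`.
* `hSM_of_principle_local_localization` : the same followed by the descent from `B = S⁻¹ B'`
  to `B'`.
* `isPrime_span_of_ker`, `isPrime_span_map_localization`, `not_dvd_of_mem_algebraMapSubmonoid` :
  "`π B` is prime" from the (VERT) data.
-/

set_option autoImplicit false

namespace Fermat.Agent.S18x.IG.H27

open Module

section Quot

variable {A B : Type*} [CommRing A] [CommRing B] [Algebra A B]

theorem span_le_comap_span (π : A) :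
    Ideal.span {π} ≤ (Ideal.span {algebraMap A B π}).comap (algebraMap A B) := by
  rw [Ideal.span_le, Set.singleton_subset_iff]
  exact Ideal.mem_comap.mpr (Ideal.mem_span_singleton_self _)

/-- The `A ⧸ (π)`-algebra structure of `B ⧸ π B`; activate with `letI`. -/
@[reducible] noncomputable def quotAlg (π : A) :
    Algebra (A ⧸ Ideal.span {π}) (B ⧸ Ideal.span {algebraMap A B π}) :=
  Ideal.Quotient.algebraQuotientOfLEComap (span_le_comap_span π)

theorem quotAlg_algebraMap_mk (π : A) (a : A) :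
    letI := quotAlg (B := B) π
    algebraMap (A ⧸ Ideal.span {π}) (B ⧸ Ideal.span {algebraMap A B π})
      (Ideal.Quotient.mk (Ideal.span {π}) a) =
      Ideal.Quotient.mk (Ideal.span {algebraMap A B π}) (algebraMap A B a) :=
  rfl

/-- A prime `s` which does not divide the prime `π` is not a multiple of `π`. -/
theorem not_mem_span_of_prime [IsDomain A] {π s : A} (hπ : Prime π) (hs : Prime s)
    (hsπ : ¬ s ∣ π) : s ∉ Ideal.span {π} := by
  intro h
  obtain ⟨u, hu⟩ := Ideal.mem_span_singleton.mp h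
  rcases hs.irreducible.isUnit_or_isUnit hu with h1 | h1
  · exact hπ.not_isUnit h1
  · obtain ⟨w, rfl⟩ := h1
    exact hsπ ⟨((w⁻¹ : Aˣ) : A), by rw [hu, mul_assoc, Units.mul_inv, mul_one]⟩

variable {ι : Type*} [Fintype ι] [DecidableEq ι]

/-- **PRINCIPLE (*) ⟹ (SM), quotient model.**  `A` a noetherian local domain with maximal
ideal `(π, s)`, `π` prime, `s ∉ (π)`, `π` regular modulo `s`; `B` an `A`-algebra with a finite
basis `b` such that `π B` is a prime ideal; `hdisc` and `hgen` as in `h15_principle`.  Then the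
local ring of `B` at every prime `𝔫 ∋ π` has maximal ideal `(π, t)`. -/
theorem hSM_of_principle_local [IsDomain A] [IsLocalRing A] [IsNoetherianRing A]
    (π s : A) (hm : IsLocalRing.maximalIdeal A = Ideal.span {π, s}) (hπ : Prime π)
    (hsπ : s ∉ Ideal.span {π}) (hπB : (Ideal.span {algebraMap A B π}).IsPrime)
    (hπs : ∀ a : A, s ∣ π * a → s ∣ a)
    (b : Basis ι A B) (hdisc : ¬ π ∣ Algebra.discr A b)
    (hgen : ∀ φ : B →ₗ[A] A, ∃ (n N : ℕ) (y : B), y ^ N ∈ Ideal.span {algebraMap A B s} ∧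
      ∀ x, π ^ n * s * φ x = Algebra.trace A B (y * x))
    (𝔫 : Ideal B) (h𝔫 : 𝔫.IsPrime) (hπ𝔫 : algebraMap A B π ∈ 𝔫) :
    HSM (algebraMap A B π) 𝔫 := by
  have hπI : (Ideal.span {π}).IsPrime := (Ideal.span_singleton_prime hπ.ne_zero).mpr hπ
  letI := quotAlg (B := B) π
  haveI : IsDomain (A ⧸ Ideal.span {π}) := H11.quot_isDomain π hπI
  haveI : IsPrincipalIdealRing (A ⧸ Ideal.span {π}) := H11.quot_isPrincipalIdealRing π s hm hπI
  haveI : IsDomain (B ⧸ Ideal.span {algebraMap A B π}) := Ideal.Quotient.isDomain _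
  exact hSM_of_principle (Ideal.Quotient.mk (Ideal.span {π}))
    (Ideal.Quotient.mk (Ideal.span {algebraMap A B π})) (fun a => rfl)
    Ideal.Quotient.mk_surjective Ideal.Quotient.mk_surjective π s hπ
    (Ideal.Quotient.eq_zero_iff_mem.mpr (Ideal.mem_span_singleton_self _))
    (fun x hx => Ideal.Quotient.eq_zero_iff_mem.mp hx)
    (H11.quot_prime_mk π s hm hπI hsπ) hπs b hdisc hgen 𝔫 h𝔫 hπ𝔫

/-- The same with `s` prime and `¬ s ∣ π` (the hypotheses of `principle_SM`). -/
theorem hSM_of_principle_local' [IsDomain A] [IsLocalRing A] [IsNoetherianRing A]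
    (π s : A) (hm : IsLocalRing.maximalIdeal A = Ideal.span {π, s}) (hπ : Prime π)
    (hs : Prime s) (hsπ : ¬ s ∣ π) (hπB : (Ideal.span {algebraMap A B π}).IsPrime)
    (b : Basis ι A B) (hdisc : ¬ π ∣ Algebra.discr A b)
    (hgen : ∀ φ : B →ₗ[A] A, ∃ (n N : ℕ) (y : B), y ^ N ∈ Ideal.span {algebraMap A B s} ∧
      ∀ x, π ^ n * s * φ x = Algebra.trace A B (y * x))
    (𝔫 : Ideal B) (h𝔫 : 𝔫.IsPrime) (hπ𝔫 : algebraMap A B π ∈ 𝔫) :
    HSM (algebraMap A B π) 𝔫 :=
  hSM_of_principle_local π s hm hπ (not_mem_span_of_prime hπ hs hsπ) hπB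
    (fun _ h => (hs.dvd_or_dvd h).resolve_left hsπ) b hdisc hgen 𝔫 h𝔫 hπ𝔫

end Quot

section Prime

/-- The kernel of a homomorphism to a domain is prime; element form for a principal kernel. -/
theorem isPrime_span_of_ker {B L : Type*} [CommRing B] [CommRing L] [IsDomain L]
    (g : B →+* L) (π : B) (hπ : g π = 0) (hg : ∀ x, g x = 0 → π ∣ x) :
    (Ideal.span {π}).IsPrime := by
  have h : Ideal.span {π} = RingHom.ker g := by
    apply le_antisymm
    · rw [Ideal.span_le, Set.singleton_subset_iff]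
      exact hπ
    · intro x hx
      exact Ideal.mem_span_singleton.mpr (hg x hx)
  rw [h]
  exact RingHom.ker_isPrime g

/-- A principal prime ideal stays prime in a localisation `B = S⁻¹ B'` when no element of `S`
is a multiple of the generator. -/
theorem isPrime_span_map_localization {B' B : Type*} [CommRing B'] [CommRing B] [Algebra B' B]
    (S : Submonoid B') [IsLocalization S B] (π : B') (hπ : (Ideal.span {π}).IsPrime)
    (hS : ∀ σ ∈ S, ¬ π ∣ σ) : (Ideal.span {algebraMap B' B π}).IsPrime := by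
  have hdisj : Disjoint (S : Set B') (Ideal.span {π} : Set B') :=
    Set.disjoint_left.mpr fun σ hσ hσπ => hS σ hσ (Ideal.mem_span_singleton.mp hσπ)
  have := IsLocalization.isPrime_of_isPrime_disjoint S B (Ideal.span {π}) hπ hdisj
  rwa [Ideal.map_span, Set.image_singleton] at this

/-- The hypothesis `hS` of `isPrime_span_map_localization` for
`S := Algebra.algebraMapSubmonoid B' 𝔪.primeCompl`, from the (VERT) data `f`, `g`. -/
theorem not_dvd_of_mem_algebraMapSubmonoid {A' B' K' L' : Type*} [CommRing A'] [CommRing B']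
    [Algebra A' B'] [Field K'] [Field L'] [Algebra K' L'] (f : A' →+* K') (g : B' →+* L')
    (hcomm : ∀ a, g (algebraMap A' B' a) = algebraMap K' L' (f a)) (π : A')
    (hfπ : f π = 0) (hf : ∀ a, f a = 0 → π ∣ a)
    (𝔪 : Ideal A') [𝔪.IsPrime] (hπ𝔪 : π ∈ 𝔪) :
    ∀ σ ∈ Algebra.algebraMapSubmonoid B' 𝔪.primeCompl, ¬ algebraMap A' B' π ∣ σ := by
  rintro σ ⟨a, ha, rfl⟩ ⟨w, hw⟩
  have h1 : g (algebraMap A' B' a) = 0 := by
    rw [hw, map_mul, hcomm π, hfπ, map_zero, zero_mul]
  rw [hcomm, map_eq_zero] at h1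
  obtain ⟨c, rfl⟩ := hf a h1
  exact ha (𝔪.mul_mem_right _ hπ𝔪)

end Prime

section Loc

variable {A' B' A B : Type*} [CommRing A'] [CommRing B'] [Algebra A' B'] [CommRing A]
  [CommRing B] [Algebra A B] [Algebra A' A] [Algebra B' B] [Algebra A' B]
  [IsScalarTower A' A B] [IsScalarTower A' B' B]
variable {ι : Type*} [Fintype ι] [DecidableEq ι]

/-- **PRINCIPLE (*) ⟹ (SM), quotient model, with descent from a localisation.**
`A'`, `B'` are the global rings, `A` (local) and `B = S⁻¹ B'` the localised ones. -/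
theorem hSM_of_principle_local_localization [IsDomain A] [IsLocalRing A] [IsNoetherianRing A]
    (S : Submonoid B') [IsLocalization S B] (π' : A') (s : A)
    (hm : IsLocalRing.maximalIdeal A = Ideal.span {algebraMap A' A π', s})
    (hπ : Prime (algebraMap A' A π')) (hs : Prime s) (hsπ : ¬ s ∣ algebraMap A' A π')
    (hπB : (Ideal.span {algebraMap A B (algebraMap A' A π')}).IsPrime)
    (b : Basis ι A B) (hdisc : ¬ algebraMap A' A π' ∣ Algebra.discr A b)
    (hgen : ∀ φ : B →ₗ[A] A, ∃ (n N : ℕ) (y : B), y ^ N ∈ Ideal.span {algebraMap A B s} ∧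
      ∀ x, algebraMap A' A π' ^ n * s * φ x = Algebra.trace A B (y * x))
    (𝔫 : Ideal B') (h𝔫 : 𝔫.IsPrime) (hπ𝔫 : algebraMap A' B' π' ∈ 𝔫)
    (hS : ∀ σ ∈ S, σ ∉ 𝔫) :
    HSM (algebraMap A' B' π') 𝔫 := by
  have hdisj : Disjoint (S : Set B') (𝔫 : Set B') :=
    Set.disjoint_left.mpr fun σ hσ hσ𝔫 => hS σ hσ hσ𝔫
  have hprime : (𝔫.map (algebraMap B' B)).IsPrime :=
    IsLocalization.isPrime_of_isPrime_disjoint S B 𝔫 h𝔫 hdisj
  have hπeq : algebraMap A B (algebraMap A' A π') = algebraMap B' B (algebraMap A' B' π') := by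
    rw [← IsScalarTower.algebraMap_apply A' A B, ← IsScalarTower.algebraMap_apply A' B' B]
  refine hSM_of_localization (B₀ := B) S 𝔫 h𝔫 hS (algebraMap A' B' π') ?_
  rw [← hπeq]
  refine hSM_of_principle_local' (algebraMap A' A π') s hm hπ hs hsπ hπB b hdisc hgen _ hprime ?_
  rw [hπeq]
  exact Ideal.mem_map_of_mem _ hπ𝔫

end Loc

end Fermat.Agent.S18x.IG.H27
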