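import Fermat.Agent.S18x.IG.H4_HorCore
import Fermat.Agent.S24.H25_Assembly

/-!
# S18 [IG] (I2-HOR) (helper4): the characteristic-zero branch locus of `F_M / K(t)`

`K` algebraically closed of characteristic zero with an embedding into `ℂ` (S24's setting),
`F = FK K M` the modular function field of level `M` (ANY level), `j = jF K M`.  If `t ∈ F`
satisfies `j * D(t) = A(t) ^ 3 * B(t)`, `(j - 1728) * D(t) = S(t) ^ 2 * E(t)` then at every
place `v` where `j` is regular, `t` is regular, `D(t)` is a unit and, unless the value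
`c = t(v)` is a root of `B * E` (an elliptic value of the base curve), `ord_v (t - c) = 1`:
the cover is unramified over the `t`-line away from the cusps and the elliptic values.

Inputs from S24: every place over `j = c` is the place of a point of the upper half plane
(`G3.surj_fin`) and the ramification index there divides the local degree of `j`
(`G3.ptMult_mul_ord`); over `c ∉ {0, 1728}` there are `#X` places (`Final.inputs`).
-/

set_option autoImplicit false

noncomputable section

namespace Fermat.Agent.S18x.IG.H4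

open AlgebraicCurve Polynomial IsLocalRing MulAction
open scoped MatrixGroups
open CongruenceSubgroup ModularCurve
open Fermat.Agent.S24 Fermat.Agent.S24.RH Fermat.Agent.S24.Comb Fermat.Agent.S24.Real

/-! ### No elliptic points at levels divisible by `4` or `9` (not needed below; for the record) -/

theorem h4_nu_eq_zero_of_dvd {M d : ℕ} (hd : d ∣ M) (P : (R : Type) → [CommRing R] → R → Prop)
    (hmap : ∀ x : ZMod M, P (ZMod M) x → P (ZMod d) (ZMod.castHom hd (ZMod d) x))
    (hno : ∀ y : ZMod d, ¬ P (ZMod d) y) : Nat.card {x : ZMod M // P (ZMod M) x} = 0 := by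
  have : IsEmpty {x : ZMod M // P (ZMod M) x} := ⟨fun x => hno _ (hmap x.1 x.2)⟩
  exact Nat.card_of_isEmpty

theorem h4_nuTwo_eq_zero_of_four_dvd {M : ℕ} (h : 4 ∣ M) : nuTwo M = 0 := by
  refine h4_nu_eq_zero_of_dvd h (fun R _ x => x ^ 2 + 1 = 0) (fun x hx => ?_) (by decide)
  have := congrArg (ZMod.castHom h (ZMod 4)) hx
  simpa only [map_add, map_pow, map_one, map_zero] using this

theorem h4_nuThree_eq_zero_of_two_dvd {M : ℕ} (h : 2 ∣ M) : nuThree M = 0 := by
  refine h4_nu_eq_zero_of_dvd h (fun R _ x => x ^ 2 + x + 1 = 0) (fun x hx => ?_) (by decide)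
  have := congrArg (ZMod.castHom h (ZMod 2)) hx
  simpa only [map_add, map_pow, map_one, map_zero] using this

theorem h4_nuTwo_eq_zero_of_three_dvd {M : ℕ} (h : 3 ∣ M) : nuTwo M = 0 := by
  refine h4_nu_eq_zero_of_dvd h (fun R _ x => x ^ 2 + 1 = 0) (fun x hx => ?_) (by decide)
  have := congrArg (ZMod.castHom h (ZMod 3)) hx
  simpa only [map_add, map_pow, map_one, map_zero] using this

theorem h4_nuThree_eq_zero_of_nine_dvd {M : ℕ} (h : 9 ∣ M) : nuThree M = 0 := by
  refine h4_nu_eq_zero_of_dvd h (fun R _ x => x ^ 2 + x + 1 = 0) (fun x hx => ?_) (by decide)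
  have := congrArg (ZMod.castHom h (ZMod 9)) hx
  simpa only [map_add, map_pow, map_one, map_zero] using this

/-! ### The horizontal data for the modular function field -/

/-- An element of an extension of an algebraically closed field which is algebraic is a
constant. -/
theorem h4_mem_range_of_isAlgebraic {K : Type*} [Field K] [IsAlgClosed K]
    {F : Type*} [Field F] [Algebra K F] {x : F}
    (hx : IsAlgebraic K x) : x ∈ Set.range (algebraMap K F) :=
  minpoly.mem_range_of_degree_eq_one K x
    (IsAlgClosed.degree_eq_one_of_irreducible K (minpoly.irreducible hx.isIntegral))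

variable {K : Type*} [Field K] [Algebra ℚ K] [CharZero K] [IsAlgClosed K]
variable (e : K →+* ℂ) (M : ℕ) [NeZero M]

omit [CharZero K] [IsAlgClosed K] in
include e in
/-- **(H2), local form**: the multiplicity of every zero of `j` divides `3`. -/
theorem h4_ord_j_dvd_three (v : Place K (FK K M)) (hv : 0 < v.ord (Final.jF K M)) :
    v.ord (Final.jF K M) ∣ 3 := by
  have hv' : 0 < v.ord (Final.jF K M - algebraMap K (FK K M) 0) := by
    rwa [map_zero, sub_zero]
  obtain ⟨k, hk⟩ := G3.surj_fin e 0 G1.rho (G3.jInv_rho_eq e) v hv'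
  have h := G3.ptMult_mul_ord (N := M) e (G3.zk G1.rho k) 0
    (G3.jInv_zk e G1.rho 0 (G3.jInv_rho_eq e) k)
  rw [hk, map_zero e, G3.locDeg_zero, map_zero, sub_zero] at h
  exact ⟨_, by rw [mul_comm]; exact_mod_cast h.symm⟩

omit [CharZero K] [IsAlgClosed K] in
include e in
/-- **(H2), local form**: the multiplicity of every zero of `j - 1728` divides `2`. -/
theorem h4_ord_j_sub_dvd_two (v : Place K (FK K M))
    (hv : 0 < v.ord (Final.jF K M - algebraMap K (FK K M) 1728)) :
    v.ord (Final.jF K M - algebraMap K (FK K M) 1728) ∣ 2 := by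
  obtain ⟨k, hk⟩ := G3.surj_fin e 1728 UpperHalfPlane.I (G3.jInv_I_eq e) v hv
  have h := G3.ptMult_mul_ord (N := M) e (G3.zk UpperHalfPlane.I k) 1728
    (G3.jInv_zk e UpperHalfPlane.I 1728 (G3.jInv_I_eq e) k)
  rw [hk, map_ofNat e 1728, G3.locDeg_1728] at h
  exact ⟨_, by rw [mul_comm]; exact_mod_cast h.symm⟩

include e in
/-- **(H2)**: over `c ∉ {0, 1728}` every zero of `j - c` is simple. -/
theorem h4_ord_j_sub_eq_one (c : K) (h0 : c ≠ 0) (h1 : c ≠ 1728) (v : Place K (FK K M))
    (hv : 0 < v.ord (Final.jF K M - algebraMap K (FK K M) c)) :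
    v.ord (Final.jF K M - algebraMap K (FK K M) c) = 1 := by
  have inp := Final.inputs K e M
  have hcount := inp.count
  rw [inp.finrank_eq] at hcount
  exact (hcount.zero c).ord_eq_one_of_card_eq (inp.gen c h0 h1) hv

include e in
/-- **The horizontal data** at any level. -/
theorem h4_horData (t : FK K M) (D A B S E : K[X])
    (hA : Final.jF K M * aeval t D = aeval t A ^ 3 * aeval t B)
    (hS : (Final.jF K M - algebraMap K (FK K M) 1728) * aeval t D = aeval t S ^ 2 * aeval t E)
    (hD : D ≠ 0) (hdeg : D.natDegree < 3 * A.natDegree + B.natDegree)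
    (hcop : ∀ c : K, D.eval c = 0 → A.eval c ≠ 0 ∧ B.eval c ≠ 0) :
    H4HorData (Final.jF K M) t D A B S E := by
  have inp := Final.inputs K e M
  have hcount := inp.count
  refine
    { res := hcount.res
      not_const := hcount.not_const
      tr := ?_
      hA := hA
      hS := hS
      hD := hD
      hdeg := hdeg
      hcop := hcop
      loc0 := h4_ord_j_dvd_three e M
      loc1 := h4_ord_j_sub_dvd_two e M
      gen := h4_ord_j_sub_eq_one e M }
  -- transcendence of `t`
  intro halg
  obtain ⟨c, rfl⟩ := h4_mem_range_of_isAlgebraic halg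
  rw [aeval_algebraMap_apply, aeval_algebraMap_apply, aeval_algebraMap_apply, ← map_pow,
    ← map_mul] at hA
  simp only [coe_aeval_eq_eval] at hA
  by_cases hDc : D.eval c = 0
  · have h1 : (algebraMap K (FK K M)) (A.eval c ^ 3 * B.eval c) = 0 := by
      rw [← hA]
      simp [hDc]
    have h2 : A.eval c ^ 3 * B.eval c = 0 := by
      simpa using h1
    rcases mul_eq_zero.mp h2 with h3 | h3
    · exact (hcop c hDc).1 (pow_eq_zero_iff (by norm_num) |>.mp h3)
    · exact (hcop c hDc).2 h3
  · apply hcount.not_const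
    refine ⟨A.eval c ^ 3 * B.eval c / D.eval c, ?_⟩
    have hne : (algebraMap K (FK K M)) (D.eval c) ≠ 0 := by simpa using hDc
    rw [map_div₀, ← hA]
    field_simp

include e in
/-- **(H3)**: the modular function field of level `M` is unramified over the `t`-line at every
place where `j` is regular and `t` does not take an elliptic value (a root of `B * E`). -/
theorem h4_ord_t_sub_eq_one (t : FK K M) (D A B S E : K[X])
    (hA : Final.jF K M * aeval t D = aeval t A ^ 3 * aeval t B)
    (hS : (Final.jF K M - algebraMap K (FK K M) 1728) * aeval t D = aeval t S ^ 2 * aeval t E)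
    (hD : D ≠ 0) (hdeg : D.natDegree < 3 * A.natDegree + B.natDegree)
    (hcop : ∀ c : K, D.eval c = 0 → A.eval c ≠ 0 ∧ B.eval c ≠ 0)
    (v : Place K (FK K M)) (hj : 0 ≤ v.ord (Final.jF K M)) :
    0 ≤ v.ord t ∧ v.ord (aeval t D) = 0 ∧
      ∀ c : K, 0 < v.ord (t - algebraMap K (FK K M) c) → B.eval c ≠ 0 → E.eval c ≠ 0 →
        v.ord (t - algebraMap K (FK K M) c) = 1 := by
  have h := h4_horData e M t D A B S E hA hS hD hdeg hcop
  exact ⟨h.ord_t_nonneg v hj, h.ord_aeval_D v hj,
    fun c hc hB hE => h.ord_t_sub_eq_one v hj hc hB hE⟩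

end Fermat.Agent.S18x.IG.H4
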