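import Fermat.Agent.S18x.IG.H4_HorLevels

/-!
# S18 [IG] (I2-HOR), chart forms (helper4)

The unramifiedness statement (H3) in the two shapes consumed by the chart-wise assembly:

* `h`-chart: `0 < ord_v (t - c)`, `c` not a branch value `⟹ ord_v (t - c) = 1`
  (no hypothesis on `j`);
* `w`-chart (`w = t⁻¹`): `0 < ord_v (t⁻¹ - c)`, `c ≠ 0`, `c⁻¹` not a branch value
  `⟹ ord_v (t⁻¹ - c) = 1`;

and the same for a polynomial `g` over a subfield whose roots avoid the branch values.
-/

set_option autoImplicit false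

noncomputable section

namespace Fermat.Agent.S18x.IG.H4

open AlgebraicCurve Polynomial ModularCurve
open Fermat.Agent.S24 Fermat.Agent.S24.RH Fermat.Agent.S24.Real

section Generic

variable {K F : Type*} [Field K] [Field F] [Algebra K F]
variable {j t : F} {D A B S E : K[X]}

/-- If the value `c` of `t` at `v` is not a root of `D`, then `j` is regular at `v`. -/
theorem H4HorData.ord_j_nonneg_of_value (h : H4HorData j t D A B S E) (v : Place K F) {c : K}
    (hc : 0 < v.ord (t - algebraMap K F c)) (hDc : D.eval c ≠ 0) : 0 ≤ v.ord j := by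
  have ht := h4_mem_of_ord_sub_pos v hc
  obtain ⟨hD1, hD2⟩ := h4_ord_aeval_eq_zero v hc hDc
  have hA0 := ord_nonneg_of_mem v (h4_aeval_mem v ht A)
  have hB0 := ord_nonneg_of_mem v (h4_aeval_mem v ht B)
  have hA2 := h.aeval_ne_zero h.A_ne_zero
  have hB2 := h.aeval_ne_zero h.B_ne_zero
  have h1 := congrArg v.ord h.hA
  rw [v.ord_mul h.j_ne_zero hD2, v.ord_mul (pow_ne_zero _ hA2) hB2, h4_ord_pow, hD1] at h1
  push_cast at h1
  omega

/-- **(H3), `t`-chart form**: no hypothesis on `j`. -/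
theorem H4HorData.ord_t_sub_eq_one_of_value (h : H4HorData j t D A B S E) (v : Place K F)
    {c : K} (hc : 0 < v.ord (t - algebraMap K F c)) (hDc : D.eval c ≠ 0) (hBc : B.eval c ≠ 0)
    (hEc : E.eval c ≠ 0) : v.ord (t - algebraMap K F c) = 1 :=
  h.ord_t_sub_eq_one v (h.ord_j_nonneg_of_value v hc hDc) hc hBc hEc

/-- `t⁻¹ ≡ c ≠ 0` at `v` iff `t ≡ c⁻¹` at `v`, with the same order. -/
theorem h4_ord_inv_sub (v : Place K F) {t : F} (ht0 : t ≠ 0) {c : K} (hc0 : c ≠ 0)
    (hc : 0 < v.ord (t⁻¹ - algebraMap K F c)) :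
    v.ord (t - algebraMap K F c⁻¹) = v.ord (t⁻¹ - algebraMap K F c) := by
  have hcF : algebraMap K F c ≠ 0 := by
    rw [Ne, map_eq_zero_iff _ (algebraMap K F).injective]; exact hc0
  have hinv0 : v.ord t⁻¹ = 0 := by
    have h1 := h4_ord_aeval_eq_zero v hc (P := (X : K[X])) (by simpa using hc0)
    simpa using h1.1
  have ht : v.ord t = 0 := by
    have := v.ord_inv t
    omega
  have hne : t⁻¹ - algebraMap K F c ≠ 0 := by
    intro h0
    rw [h0] at hc
    simp at hc
  have hkey : t - algebraMap K F c⁻¹ =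
      -((algebraMap K F c)⁻¹ * t) * (t⁻¹ - algebraMap K F c) := by
    rw [map_inv₀]
    field_simp
    ring
  have hu : -((algebraMap K F c)⁻¹ * t) ≠ 0 :=
    neg_ne_zero.mpr (mul_ne_zero (inv_ne_zero hcF) ht0)
  have hcord : v.ord (algebraMap K F c) = 0 := ord_algebraMap v c
  have hord : v.ord (-((algebraMap K F c)⁻¹ * t)) = 0 := by
    have h1 : -((algebraMap K F c)⁻¹ * t) = (algebraMap K F (-c⁻¹)) * t := by
      rw [map_neg, map_inv₀]; ring
    have h2 : algebraMap K F (-c⁻¹) ≠ 0 := by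
      rw [Ne, map_eq_zero_iff _ (algebraMap K F).injective]
      exact neg_ne_zero.mpr (inv_ne_zero hc0)
    rw [h1, v.ord_mul h2 ht0, ord_algebraMap v, ht, add_zero]
  rw [hkey, v.ord_mul hu hne, hord, zero_add]

/-- **(H3), `t⁻¹`-chart form.** -/
theorem H4HorData.ord_inv_sub_eq_one (h : H4HorData j t D A B S E) (v : Place K F)
    {c : K} (hc0 : c ≠ 0) (hc : 0 < v.ord (t⁻¹ - algebraMap K F c)) (hDc : D.eval c⁻¹ ≠ 0)
    (hBc : B.eval c⁻¹ ≠ 0) (hEc : E.eval c⁻¹ ≠ 0) : v.ord (t⁻¹ - algebraMap K F c) = 1 := by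
  have ht0 : t ≠ 0 := by
    have := h.aeval_ne_zero (P := X) X_ne_zero
    simpa using this
  have heq := h4_ord_inv_sub v ht0 hc0 hc
  have hc' : 0 < v.ord (t - algebraMap K F c⁻¹) := by rw [heq]; exact hc
  rw [← heq]
  exact h.ord_t_sub_eq_one_of_value v hc' hDc hBc hEc

end Generic

section Levels

variable {K : Type*} [Field K] [Algebra ℚ K] [CharZero K] [IsAlgClosed K]
variable (e : K →+* ℂ) (M : ℕ) [NeZero M]

omit [Algebra ℚ K] [CharZero K] [IsAlgClosed K] in
/-- A root of (the image of) `g` is not a value at which `g` does not vanish. -/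
theorem h4_root_ne {K₀ : Type*} [Field K₀] [Algebra K₀ K] (g : K₀[X]) (a : K₀)
    (ha : g.eval a ≠ 0) (c : K) (hc : (g.map (algebraMap K₀ K)).IsRoot c) :
    c ≠ algebraMap K₀ K a := by
  rintro rfl
  rw [IsRoot.def, eval_map_algebraMap, aeval_algebraMap_apply] at hc
  rw [map_eq_zero_iff _ (algebraMap K₀ K).injective] at hc
  exact ha hc

/-! #### level 2 -/

include e in
/-- **Level 2, `h`-chart**: `h - c` is a uniformiser at every place where `h ≡ c`,
`c ≠ 0, -64`. -/
theorem h4_chart_level2 (h : LaurentSeries ℤ) (hid : jqModC ℤ * h ^ 2 = (h + 256) ^ 3)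
    (T : FK K M) (hT : (T : LaurentSeries K) = coeffMap (Int.castRingHom K) h)
    (v : Place K (FK K M)) (c : K) (hc0 : c ≠ 0) (hc64 : c ≠ -64)
    (hc : 0 < v.ord (T - algebraMap K (FK K M) c)) :
    v.ord (T - algebraMap K (FK K M) c) = 1 := by
  have hmem : coeffMap (Int.castRingHom K) h ∈ FK K M := hT ▸ T.2
  obtain rfl : T = ⟨coeffMap (Int.castRingHom K) h, hmem⟩ := Subtype.ext hT
  have hd := h4_horData_level2 e M h hmem hid
  refine hd.ord_t_sub_eq_one_of_value v hc ?_ (by simp) ?_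
  · simpa [h4D2] using hc0
  · simp only [h4E2, Polynomial.map_add, Polynomial.map_X, Polynomial.map_C, eval_add, eval_X,
      eval_C]
    intro h0
    apply hc64
    have : c = -((Int.castRingHom K) 64) := eq_neg_of_add_eq_zero_left h0
    rw [this]; simp

include e in
/-- **Level 2, `h⁻¹`-chart**: `h⁻¹ - c` is a uniformiser at every place where `h⁻¹ ≡ c`,
`c ≠ 0, -1/64`. -/
theorem h4_chart_inv_level2 (h : LaurentSeries ℤ) (hid : jqModC ℤ * h ^ 2 = (h + 256) ^ 3)
    (T : FK K M) (hT : (T : LaurentSeries K) = coeffMap (Int.castRingHom K) h)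
    (v : Place K (FK K M)) (c : K) (hc0 : c ≠ 0) (hc64 : 64 * c + 1 ≠ 0)
    (hc : 0 < v.ord (T⁻¹ - algebraMap K (FK K M) c)) :
    v.ord (T⁻¹ - algebraMap K (FK K M) c) = 1 := by
  have hmem : coeffMap (Int.castRingHom K) h ∈ FK K M := hT ▸ T.2
  obtain rfl : T = ⟨coeffMap (Int.castRingHom K) h, hmem⟩ := Subtype.ext hT
  have hd := h4_horData_level2 e M h hmem hid
  refine hd.ord_inv_sub_eq_one v hc0 hc ?_ (by simp) ?_
  · simpa [h4D2] using hc0
  · simp only [h4E2, Polynomial.map_add, Polynomial.map_X, Polynomial.map_C, eval_add, eval_X,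
      eval_C]
    intro h0
    apply hc64
    have h1 : c * (c⁻¹ + (Int.castRingHom K) 64) = 0 := by rw [h0, mul_zero]
    rw [mul_add, mul_inv_cancel₀ hc0] at h1
    have h2 : ((Int.castRingHom K) 64 : K) = 64 := by simp
    rw [h2] at h1
    linear_combination h1

/-! #### level 3 -/

include e in
/-- **Level 3, `h`-chart**: `h - c` is a uniformiser at every place where `h ≡ c`,
`c ≠ 0, -27`. -/
theorem h4_chart_level3 (h : LaurentSeries ℤ)
    (hid : jqModC ℤ * h ^ 3 = (h + 243) ^ 3 * (h + 27))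
    (T : FK K M) (hT : (T : LaurentSeries K) = coeffMap (Int.castRingHom K) h)
    (v : Place K (FK K M)) (c : K) (hc0 : c ≠ 0) (hc27 : c ≠ -27)
    (hc : 0 < v.ord (T - algebraMap K (FK K M) c)) :
    v.ord (T - algebraMap K (FK K M) c) = 1 := by
  have hmem : coeffMap (Int.castRingHom K) h ∈ FK K M := hT ▸ T.2
  obtain rfl : T = ⟨coeffMap (Int.castRingHom K) h, hmem⟩ := Subtype.ext hT
  have hd := h4_horData_level3 e M h hmem hid
  refine hd.ord_t_sub_eq_one_of_value v hc ?_ ?_ (by simp)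
  · simpa [h4D3] using hc0
  · simp only [h4B3, Polynomial.map_add, Polynomial.map_X, Polynomial.map_C, eval_add, eval_X,
      eval_C]
    intro h0
    apply hc27
    have : c = -((Int.castRingHom K) 27) := eq_neg_of_add_eq_zero_left h0
    rw [this]; simp

include e in
/-- **Level 3, `h⁻¹`-chart**: `h⁻¹ - c` is a uniformiser at every place where `h⁻¹ ≡ c`,
`c ≠ 0, -1/27`. -/
theorem h4_chart_inv_level3 (h : LaurentSeries ℤ)
    (hid : jqModC ℤ * h ^ 3 = (h + 243) ^ 3 * (h + 27))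
    (T : FK K M) (hT : (T : LaurentSeries K) = coeffMap (Int.castRingHom K) h)
    (v : Place K (FK K M)) (c : K) (hc0 : c ≠ 0) (hc27 : 27 * c + 1 ≠ 0)
    (hc : 0 < v.ord (T⁻¹ - algebraMap K (FK K M) c)) :
    v.ord (T⁻¹ - algebraMap K (FK K M) c) = 1 := by
  have hmem : coeffMap (Int.castRingHom K) h ∈ FK K M := hT ▸ T.2
  obtain rfl : T = ⟨coeffMap (Int.castRingHom K) h, hmem⟩ := Subtype.ext hT
  have hd := h4_horData_level3 e M h hmem hid
  refine hd.ord_inv_sub_eq_one v hc0 hc ?_ ?_ (by simp)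
  · simpa [h4D3] using hc0
  · simp only [h4B3, Polynomial.map_add, Polynomial.map_X, Polynomial.map_C, eval_add, eval_X,
      eval_C]
    intro h0
    apply hc27
    have h1 : c * (c⁻¹ + (Int.castRingHom K) 27) = 0 := by rw [h0, mul_zero]
    rw [mul_add, mul_inv_cancel₀ hc0] at h1
    have h2 : ((Int.castRingHom K) 27 : K) = 27 := by simp
    rw [h2] at h1
    linear_combination h1

/-! #### level 4 -/

include e in
/-- **Level 4, `h`-chart**: `h - c` is a uniformiser at every place where `h ≡ c`,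
`c ≠ 0, -16`. -/
theorem h4_chart_level4 (h : LaurentSeries ℤ)
    (hid : jqModC ℤ * (h ^ 4 * (h + 16)) = (h ^ 2 + 256 * h + 4096) ^ 3)
    (T : FK K M) (hT : (T : LaurentSeries K) = coeffMap (Int.castRingHom K) h)
    (v : Place K (FK K M)) (c : K) (hc0 : c ≠ 0) (hc16 : c ≠ -16)
    (hc : 0 < v.ord (T - algebraMap K (FK K M) c)) :
    v.ord (T - algebraMap K (FK K M) c) = 1 := by
  have hmem : coeffMap (Int.castRingHom K) h ∈ FK K M := hT ▸ T.2
  obtain rfl : T = ⟨coeffMap (Int.castRingHom K) h, hmem⟩ := Subtype.ext hT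
  have hd := h4_horData_level4 e M h hmem hid
  refine hd.ord_t_sub_eq_one_of_value v hc ?_ (by simp) (by simp)
  simp only [h4D4, Polynomial.map_mul, Polynomial.map_pow, Polynomial.map_add, Polynomial.map_X,
    Polynomial.map_C, eval_mul, eval_pow, eval_add, eval_X, eval_C]
  refine mul_ne_zero (pow_ne_zero _ hc0) ?_
  intro h0
  apply hc16
  have : c = -((Int.castRingHom K) 16) := eq_neg_of_add_eq_zero_left h0
  rw [this]; simp

include e in
/-- **Level 4, `h⁻¹`-chart**: `h⁻¹ - c` is a uniformiser at every place where `h⁻¹ ≡ c`,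
`c ≠ 0, -1/16`. -/
theorem h4_chart_inv_level4 (h : LaurentSeries ℤ)
    (hid : jqModC ℤ * (h ^ 4 * (h + 16)) = (h ^ 2 + 256 * h + 4096) ^ 3)
    (T : FK K M) (hT : (T : LaurentSeries K) = coeffMap (Int.castRingHom K) h)
    (v : Place K (FK K M)) (c : K) (hc0 : c ≠ 0) (hc16 : 16 * c + 1 ≠ 0)
    (hc : 0 < v.ord (T⁻¹ - algebraMap K (FK K M) c)) :
    v.ord (T⁻¹ - algebraMap K (FK K M) c) = 1 := by
  have hmem : coeffMap (Int.castRingHom K) h ∈ FK K M := hT ▸ T.2
  obtain rfl : T = ⟨coeffMap (Int.castRingHom K) h, hmem⟩ := Subtype.ext hT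
  have hd := h4_horData_level4 e M h hmem hid
  refine hd.ord_inv_sub_eq_one v hc0 hc ?_ (by simp) (by simp)
  simp only [h4D4, Polynomial.map_mul, Polynomial.map_pow, Polynomial.map_add, Polynomial.map_X,
    Polynomial.map_C, eval_mul, eval_pow, eval_add, eval_X, eval_C]
  refine mul_ne_zero (pow_ne_zero _ (inv_ne_zero hc0)) ?_
  intro h0
  apply hc16
  have h1 : c * (c⁻¹ + (Int.castRingHom K) 16) = 0 := by rw [h0, mul_zero]
  rw [mul_add, mul_inv_cancel₀ hc0] at h1
  have h2 : ((Int.castRingHom K) 16 : K) = 16 := by simp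
  rw [h2] at h1
  linear_combination h1

end Levels

end Fermat.Agent.S18x.IG.H4
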