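import Fermat.Agent.S24.H15_Hurwitz

/-!
# S18 [IG] (I2-HOR), generic core (helper4)

Place-form statement of "the cover is unramified over the `t`-line away from the poles of `j`
and the elliptic values of `t`": for a function field `F / K` with residue fields `K`, elements
`j t : F` related by `j * D(t) = A(t) ^ 3 * B(t)`, `(j - 1728) * D(t) = S(t) ^ 2 * E(t)`, such
that the multiplicity of every zero of `j` divides `3`, of every zero of `j - 1728` divides `2`,
and all other finite fibres of `j` are unramified, every place `v` with `0 ≤ ord_v j` whose value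
`c = t(v)` is not a root of `B * E` has `ord_v (t - c) = 1`.
(`B = E = 1` for a base curve without elliptic points, e.g. `X₀(4)`, `X₀(9)`; `B = 1`,
`E = X + 64` for `X₀(2)`; `B = X + 27`, `E = 1` for `X₀(3)`.)

Everything is elementary valuation theory on polynomials in `t`.
-/

set_option autoImplicit false

noncomputable section

namespace Fermat.Agent.S18x.IG.H4

open AlgebraicCurve Polynomial IsLocalRing
open Fermat.Agent.S24.RH

variable {K F : Type*} [Field K] [Field F] [Algebra K F]

/-! ### Orders of polynomial expressions at a place -/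

theorem h4_ord_pow (v : Place K F) (f : F) (n : ℕ) : v.ord (f ^ n) = n * v.ord f := by
  have h := v.ord_zpow f (n : ℤ)
  rwa [zpow_natCast] at h

theorem h4_mem_of_ord_sub_pos (v : Place K F) {t : F} {c : K}
    (h : 0 < v.ord (t - algebraMap K F c)) : t ∈ v.toValuationSubring := by
  have h1 : t - algebraMap K F c ∈ v.toValuationSubring := mem_of_ord_nonneg v h.le
  have := add_mem h1 (v.algebraMap_mem' c)
  simpa using this

theorem h4_aeval_mem (v : Place K F) {t : F} (ht : t ∈ v.toValuationSubring) (P : K[X]) :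
    aeval t P ∈ v.toValuationSubring := by
  rw [aeval_eq_sum_range]
  refine sum_mem fun i _ => ?_
  rw [Algebra.smul_def]
  exact mul_mem (v.algebraMap_mem' _) (pow_mem ht i)

/-- `P(t) = P(c) + (t - c) * Q(t)`. -/
theorem h4_aeval_eq (t : F) (c : K) (P : K[X]) :
    aeval t P = algebraMap K F (P.eval c) + (t - algebraMap K F c) * aeval t (P /ₘ (X - C c)) := by
  have h := modByMonic_add_div P (X - C c)
  rw [modByMonic_X_sub_C_eq_C_eval] at h
  conv_lhs => rw [← h]
  simp [aeval_C]

/-- If `t ≡ c` at `v` and `P(c) ≠ 0` then `P(t)` is a unit at `v`. -/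
theorem h4_ord_aeval_eq_zero (v : Place K F) {t : F} {c : K}
    (h : 0 < v.ord (t - algebraMap K F c)) {P : K[X]} (hP : P.eval c ≠ 0) :
    v.ord (aeval t P) = 0 ∧ aeval t P ≠ 0 := by
  have ht := h4_mem_of_ord_sub_pos v h
  obtain ⟨h1, h1m⟩ := mem_maximalIdeal_of_ord_pos v h
  set Q := P /ₘ (X - C c) with hQ
  have hQm : aeval t Q ∈ v.toValuationSubring := h4_aeval_mem v ht Q
  have hu : IsUnit (algebraMap K v.toValuationSubring (P.eval c)) :=
    (IsUnit.mk0 _ hP).map (algebraMap K v.toValuationSubring)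
  have hb : (⟨t - algebraMap K F c, h1⟩ : v.toValuationSubring) * ⟨aeval t Q, hQm⟩ ∈
      maximalIdeal v.toValuationSubring := Ideal.mul_mem_right _ _ h1m
  have hunit := isUnit_add_of_mem_maximalIdeal hu hb
  have hcoe : ((hunit.unit : v.toValuationSubring) : F) = aeval t P := by
    rw [IsUnit.unit_spec, h4_aeval_eq t c P]
    simp [v.coe_algebraMap, hQ]
  refine ⟨?_, ?_⟩
  · rw [← hcoe]; exact v.ord_coe_unit _
  · rw [← hcoe]
    exact fun h0 => hunit.unit.ne_zero (Subtype.ext h0)

/-- If `t ≡ c` at `v` and `P(c) = 0` then `ord_v (t - c) ≤ ord_v P(t)`. -/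
theorem h4_le_ord_aeval (v : Place K F) {t : F} {c : K}
    (h : 0 < v.ord (t - algebraMap K F c)) {P : K[X]} (hP : P.eval c = 0)
    (hP0 : aeval t P ≠ 0) : v.ord (t - algebraMap K F c) ≤ v.ord (aeval t P) := by
  have ht := h4_mem_of_ord_sub_pos v h
  have h1 := h4_aeval_eq t c P
  rw [hP, map_zero, zero_add] at h1
  have hQ0 : aeval t (P /ₘ (X - C c)) ≠ 0 := by
    intro h0; apply hP0; rw [h1, h0, mul_zero]
  have htc0 : t - algebraMap K F c ≠ 0 := by
    intro h0; apply hP0; rw [h1, h0, zero_mul]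
  rw [h1, v.ord_mul htc0 hQ0]
  have := ord_nonneg_of_mem v (h4_aeval_mem v ht (P /ₘ (X - C c)))
  omega

/-- At a pole of `t`, `ord_v P(t) = deg P * ord_v t`. -/
theorem h4_ord_aeval_of_ord_neg (v : Place K F) {t : F} (h : v.ord t < 0) {P : K[X]}
    (hP : P ≠ 0) : v.ord (aeval t P) = P.natDegree * v.ord t ∧ aeval t P ≠ 0 := by
  have ht0 : t ≠ 0 := by rintro rfl; simp at h
  have hinv : 0 < v.ord (t⁻¹ - algebraMap K F 0) := by
    rw [map_zero, sub_zero, v.ord_inv]; omega
  have hrev : (reverse P).eval 0 ≠ 0 := by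
    rw [← coeff_zero_eq_eval_zero, coeff_zero_reverse]
    exact leadingCoeff_ne_zero.mpr hP
  obtain ⟨h0, hne⟩ := h4_ord_aeval_eq_zero v hinv hrev
  let _ : Invertible t := invertibleOfNonzero ht0
  have hmul : aeval t⁻¹ (reverse P) * t ^ P.natDegree = aeval t P := by
    have := eval₂_reverse_mul_pow (algebraMap K F) t P
    rwa [invOf_eq_inv] at this
  refine ⟨?_, ?_⟩
  · rw [← hmul, v.ord_mul hne (pow_ne_zero _ ht0), h0, zero_add, h4_ord_pow]
  · rw [← hmul]; exact mul_ne_zero hne (pow_ne_zero _ ht0)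

/-! ### Exact ramification from a count of places -/

/-- If the fundamental identity holds for `x` with degree `n = d * r`, there are exactly `r`
zeros of `x` and every zero has multiplicity divisible by `d`, then every zero has multiplicity
exactly `d`. -/
theorem h4_ord_eq_of_card {x : F} {n r d : ℕ} (hF : FundId (K := K) x n)
    (hcard : Nat.card {Q : Place K F // 0 < Q.ord x} = r) (hn : d * r = n)
    (hdvd : ∀ Q : Place K F, 0 < Q.ord x → (d : ℤ) ∣ Q.ord x) {v : Place K F}
    (hv : 0 < v.ord x) : v.ord x = d := by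
  obtain ⟨S, hS, hsum⟩ := hF
  rw [FundId.card_eq hS] at hcard
  have hge : ∀ Q ∈ S, (d : ℤ) ≤ Q.ord x := fun Q hQ =>
    Int.le_of_dvd ((hS Q).mp hQ) (hdvd Q ((hS Q).mp hQ))
  have hsum0 : ∑ Q ∈ S, (Q.ord x - d) = 0 := by
    rw [Finset.sum_sub_distrib, hsum, Finset.sum_const, nsmul_eq_mul, hcard, ← hn]
    push_cast; ring
  have h0 := (Finset.sum_eq_zero_iff_of_nonneg (fun Q hQ => sub_nonneg.mpr (hge Q hQ))).mp hsum0
    v ((hS v).mpr hv)
  omega

/-! ### The horizontal data and its consequences -/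

/-- The hypotheses of the horizontal (characteristic zero) unramifiedness statement. -/
structure H4HorData (j t : F) (D A B S E : K[X]) : Prop where
  res : ∀ v : Place K F, ResidueTrivial v
  not_const : j ∉ Set.range (algebraMap K F)
  tr : Transcendental K t
  hA : j * aeval t D = aeval t A ^ 3 * aeval t B
  hS : (j - algebraMap K F 1728) * aeval t D = aeval t S ^ 2 * aeval t E
  hD : D ≠ 0
  hdeg : D.natDegree < 3 * A.natDegree + B.natDegree
  hcop : ∀ c : K, D.eval c = 0 → A.eval c ≠ 0 ∧ B.eval c ≠ 0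
  loc0 : ∀ v : Place K F, 0 < v.ord j → v.ord j ∣ 3
  loc1 : ∀ v : Place K F, 0 < v.ord (j - algebraMap K F 1728) →
    v.ord (j - algebraMap K F 1728) ∣ 2
  gen : ∀ c : K, c ≠ 0 → c ≠ 1728 → ∀ v : Place K F,
    0 < v.ord (j - algebraMap K F c) → v.ord (j - algebraMap K F c) = 1

namespace H4HorData

variable {j t : F} {D A B S E : K[X]}

theorem aeval_ne_zero (h : H4HorData j t D A B S E) {P : K[X]} (hP : P ≠ 0) : aeval t P ≠ 0 :=
  fun h0 => hP ((transcendental_iff.mp h.tr) P h0)

theorem j_sub_ne_zero (h : H4HorData j t D A B S E) (c : K) : j - algebraMap K F c ≠ 0 :=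
  fun h0 => h.not_const ⟨c, (sub_eq_zero.mp h0).symm⟩

theorem j_ne_zero (h : H4HorData j t D A B S E) : j ≠ 0 := by
  have := h.j_sub_ne_zero 0
  rwa [map_zero, sub_zero] at this

theorem A_ne_zero (h : H4HorData j t D A B S E) : A ≠ 0 := by
  rintro rfl
  have h1 := h.hA
  rw [map_zero, zero_pow (by norm_num), zero_mul] at h1
  exact mul_ne_zero h.j_ne_zero (h.aeval_ne_zero h.hD) h1

theorem B_ne_zero (h : H4HorData j t D A B S E) : B ≠ 0 := by
  rintro rfl
  have h1 := h.hA
  rw [map_zero, mul_zero] at h1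
  exact mul_ne_zero h.j_ne_zero (h.aeval_ne_zero h.hD) h1

theorem S_ne_zero (h : H4HorData j t D A B S E) : S ≠ 0 := by
  rintro rfl
  have h1 := h.hS
  rw [map_zero, zero_pow (by norm_num), zero_mul] at h1
  exact mul_ne_zero (h.j_sub_ne_zero 1728) (h.aeval_ne_zero h.hD) h1

theorem E_ne_zero (h : H4HorData j t D A B S E) : E ≠ 0 := by
  rintro rfl
  have h1 := h.hS
  rw [map_zero, mul_zero] at h1
  exact mul_ne_zero (h.j_sub_ne_zero 1728) (h.aeval_ne_zero h.hD) h1

theorem not_mem_range (h : H4HorData j t D A B S E) : t ∉ Set.range (algebraMap K F) := by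
  rintro ⟨c, rfl⟩
  exact h.tr (isAlgebraic_algebraMap c)

/-- A place where `j` is regular is a place where `t` is regular. -/
theorem ord_t_nonneg (h : H4HorData j t D A B S E) (v : Place K F) (hj : 0 ≤ v.ord j) :
    0 ≤ v.ord t := by
  by_contra hneg
  rw [not_le] at hneg
  obtain ⟨hD1, hD2⟩ := h4_ord_aeval_of_ord_neg v hneg h.hD
  obtain ⟨hA1, hA2⟩ := h4_ord_aeval_of_ord_neg v hneg h.A_ne_zero
  obtain ⟨hB1, hB2⟩ := h4_ord_aeval_of_ord_neg v hneg h.B_ne_zero
  have h1 := congrArg v.ord h.hA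
  rw [v.ord_mul h.j_ne_zero hD2, v.ord_mul (pow_ne_zero _ hA2) hB2, h4_ord_pow, hD1, hA1,
    hB1] at h1
  have hdeg : (D.natDegree : ℤ) + 1 ≤ 3 * A.natDegree + B.natDegree := by
    exact_mod_cast h.hdeg
  have h2 : v.ord j = (3 * (A.natDegree : ℤ) + B.natDegree - D.natDegree) * v.ord t := by
    push_cast at h1; linarith
  have h3 : (3 * (A.natDegree : ℤ) + B.natDegree - D.natDegree - 1) * v.ord t ≤ 0 :=
    mul_nonpos_of_nonneg_of_nonpos (by linarith) hneg.le
  nlinarith

/-- The value of `t` at a place where `j` is regular is not a root of `D`. -/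
theorem eval_D_ne_zero (h : H4HorData j t D A B S E) (v : Place K F) (hj : 0 ≤ v.ord j) {c : K}
    (hc : 0 < v.ord (t - algebraMap K F c)) : D.eval c ≠ 0 := by
  intro hD0
  obtain ⟨hA1, hA2⟩ := h4_ord_aeval_eq_zero v hc (h.hcop c hD0).1
  obtain ⟨hB1, hB2⟩ := h4_ord_aeval_eq_zero v hc (h.hcop c hD0).2
  have hDne := h.aeval_ne_zero h.hD
  have h1 := congrArg v.ord h.hA
  rw [v.ord_mul h.j_ne_zero hDne, v.ord_mul (pow_ne_zero _ hA2) hB2, h4_ord_pow, hA1, hB1] at h1
  have h2 := h4_le_ord_aeval v hc hD0 hDne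
  simp only [mul_zero, add_zero] at h1
  omega

theorem exists_value (h : H4HorData j t D A B S E) (v : Place K F) (hj : 0 ≤ v.ord j) :
    ∃ c : K, 0 < v.ord (t - algebraMap K F c) := by
  rcases ord_pos_or_ord_neg v (h.res v) h.not_mem_range with h1 | h1
  · have := h.ord_t_nonneg v hj
    omega
  · exact h1

theorem ord_aeval_D (h : H4HorData j t D A B S E) (v : Place K F) (hj : 0 ≤ v.ord j) :
    v.ord (aeval t D) = 0 := by
  obtain ⟨c, hc⟩ := h.exists_value v hj
  exact (h4_ord_aeval_eq_zero v hc (h.eval_D_ne_zero v hj hc)).1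

/-- `ord_v j = 3 * ord_v A(t) + ord_v B(t)` wherever `j` is regular. -/
theorem ord_j_eq (h : H4HorData j t D A B S E) (v : Place K F) (hj : 0 ≤ v.ord j) :
    v.ord j = 3 * v.ord (aeval t A) + v.ord (aeval t B) := by
  have h1 := congrArg v.ord h.hA
  rw [v.ord_mul h.j_ne_zero (h.aeval_ne_zero h.hD),
    v.ord_mul (pow_ne_zero _ (h.aeval_ne_zero h.A_ne_zero)) (h.aeval_ne_zero h.B_ne_zero),
    h4_ord_pow, h.ord_aeval_D v hj] at h1
  push_cast at h1
  linarith

theorem ord_j_sub_eq (h : H4HorData j t D A B S E) (v : Place K F) (hj : 0 ≤ v.ord j) :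
    v.ord (j - algebraMap K F 1728) = 2 * v.ord (aeval t S) + v.ord (aeval t E) := by
  have h1 := congrArg v.ord h.hS
  rw [v.ord_mul (h.j_sub_ne_zero 1728) (h.aeval_ne_zero h.hD),
    v.ord_mul (pow_ne_zero _ (h.aeval_ne_zero h.S_ne_zero)) (h.aeval_ne_zero h.E_ne_zero),
    h4_ord_pow, h.ord_aeval_D v hj] at h1
  push_cast at h1
  linarith

theorem ord_j_nonneg_of_sub_pos (v : Place K F) {c : K}
    (hc : 0 < v.ord (j - algebraMap K F c)) : 0 ≤ v.ord j :=
  ord_nonneg_of_mem v (h4_mem_of_ord_sub_pos v hc)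

/-- **(H3)** the cover is unramified over the `t`-line at every place where `j` is regular and
the value of `t` is not an elliptic value (a root of `B` or `E`). -/
theorem ord_t_sub_eq_one (h : H4HorData j t D A B S E) (v : Place K F) (hj : 0 ≤ v.ord j)
    {c : K} (hc : 0 < v.ord (t - algebraMap K F c)) (hBc : B.eval c ≠ 0) (hEc : E.eval c ≠ 0) :
    v.ord (t - algebraMap K F c) = 1 := by
  have hDc := h.eval_D_ne_zero v hj hc
  have hDt := h.ord_aeval_D v hj
  have hDne := h.aeval_ne_zero h.hD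
  have hBt := (h4_ord_aeval_eq_zero v hc hBc).1
  have hEt := (h4_ord_aeval_eq_zero v hc hEc).1
  set cj : K := A.eval c ^ 3 * B.eval c / D.eval c with hcj
  -- the polynomial `G = A ^ 3 * B - cj * D` vanishes at `c`
  set G : K[X] := A ^ 3 * B - C cj * D with hG
  have hGc : G.eval c = 0 := by
    simp only [hG, eval_sub, eval_pow, eval_mul, eval_C, hcj]
    field_simp
    ring
  have hGt : aeval t G = (j - algebraMap K F cj) * aeval t D := by
    simp only [hG, map_sub, map_mul, map_pow, aeval_C]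
    rw [← h.hA]; ring
  have hjc := h.j_sub_ne_zero cj
  have hGne : aeval t G ≠ 0 := by rw [hGt]; exact mul_ne_zero hjc hDne
  have hle := h4_le_ord_aeval v hc hGc hGne
  rw [hGt, v.ord_mul hjc hDne, hDt, add_zero] at hle
  have hpos : 0 < v.ord (j - algebraMap K F cj) := lt_of_lt_of_le hc hle
  by_cases h0 : cj = 0
  · -- over `j = 0`
    have hAc : A.eval c = 0 := by
      have h1 : A.eval c ^ 3 * B.eval c = 0 := by
        have := h0; rw [hcj, div_eq_zero_iff] at this
        exact this.resolve_right hDc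
      exact pow_eq_zero_iff (by norm_num) |>.mp ((mul_eq_zero.mp h1).resolve_right hBc)
    have hjpos : 0 < v.ord j := by rwa [h0, map_zero, sub_zero] at hpos
    have hj3 : v.ord j ≤ 3 := Int.le_of_dvd (by norm_num) (h.loc0 v hjpos)
    have hA1 : v.ord (aeval t A) ≤ 1 := by
      have := h.ord_j_eq v hj; omega
    have := h4_le_ord_aeval v hc hAc (h.aeval_ne_zero h.A_ne_zero)
    omega
  by_cases h1 : cj = 1728
  · -- over `j = 1728`
    rw [h1] at hpos
    have hj2 : v.ord (j - algebraMap K F 1728) ≤ 2 :=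
      Int.le_of_dvd (by norm_num) (h.loc1 v hpos)
    have hS1 := h.ord_j_sub_eq v hj
    have hSc : S.eval c = 0 := by
      by_contra hne
      have := (h4_ord_aeval_eq_zero v hc hne).1
      omega
    have := h4_le_ord_aeval v hc hSc (h.aeval_ne_zero h.S_ne_zero)
    omega
  · have := h.gen cj h0 h1 v hpos
    omega

end H4HorData

end Fermat.Agent.S18x.IG.H4
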