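import Fermat.Agent.S18x.IG.H4_Hor
import Fermat.Prelude.Def_ModularCurve_X0ModL

/-!
# S18 [IG] (I2-HOR), instances (helper4): from an identity in `ℤ((q))` to the horizontal data

`h : LaurentSeries ℤ` a Hauptmodul of a base level, given by ONE identity
`j * D(h) = A(h) ^ 3 * B(h)` in `LaurentSeries ℤ` (`j = jqModC ℤ`) together with polynomial
facts over `ℤ` (a Bezout identity `U * D + V * (A * B) = n ≠ 0` and
`A ^ 3 * B - 1728 * D = S ^ 2 * E`).  For every algebraically closed `K` of characteristic zero
embedded in `ℂ` and every level `M` such that the image of `h` lies in `FK K M`, the modular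
function field of level `M` is unramified over the `h`-line at every place where `j` is regular
and `h` does not take an elliptic value (a root of `B * E`).

The certificates for the four bases `X₀(2)`, `X₀(3)`, `X₀(4)`, `X₀(9)` are included.
-/

set_option autoImplicit false

noncomputable section

namespace Fermat.Agent.S18x.IG.H4

open AlgebraicCurve Polynomial ModularCurve
open Fermat.Agent.S24 Fermat.Agent.S24.RH Fermat.Agent.S24.Real

section Transport

variable {K : Type*} [Field K]

/-- The coefficient map commutes with polynomial expressions. -/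
theorem h4_coeffMap_aeval (h : LaurentSeries ℤ) (P : ℤ[X]) :
    coeffMap (Int.castRingHom K) (aeval h P) =
      aeval (coeffMap (Int.castRingHom K) h) (P.map (Int.castRingHom K)) := by
  rw [aeval_def, hom_eval₂, aeval_def, eval₂_map]
  congr 1
  exact RingHom.ext_int _ _

end Transport

variable {K : Type*} [Field K] [Algebra ℚ K] [CharZero K] [IsAlgClosed K]
variable (e : K →+* ℂ) (M : ℕ) [NeZero M]

omit [CharZero K] [IsAlgClosed K] in
theorem h4_coe_jF : ((Final.jF K M : FK K M) : LaurentSeries K) = jqModC K := by
  rw [Final.coe_jF, ← jqModC_rat]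
  exact coeffMap_jqModC (algebraMap ℚ K)

include e in
/-- **The horizontal data from an identity in `ℤ((q))`.** -/
theorem h4_horData_of_int (h : LaurentSeries ℤ)
    (hmem : coeffMap (Int.castRingHom K) h ∈ FK K M) (D A B S E U V : ℤ[X]) (n : ℤ) (hn : n ≠ 0)
    (hdeg : D.natDegree < 3 * A.natDegree + B.natDegree)
    (hbez : U * D + V * (A * B) = C n)
    (hpoly : A ^ 3 * B - C 1728 * D = S ^ 2 * E)
    (hA : jqModC ℤ * aeval h D = aeval h A ^ 3 * aeval h B) :
    H4HorData (Final.jF K M) (⟨coeffMap (Int.castRingHom K) h, hmem⟩ : FK K M)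
      (D.map (Int.castRingHom K)) (A.map (Int.castRingHom K)) (B.map (Int.castRingHom K))
      (S.map (Int.castRingHom K)) (E.map (Int.castRingHom K)) := by
  have hinj : Function.Injective (Int.castRingHom K) := Int.cast_injective
  set t : FK K M := ⟨coeffMap (Int.castRingHom K) h, hmem⟩ with ht
  -- the identity over `K`
  have hAK : Final.jF K M * aeval t (D.map (Int.castRingHom K)) =
      aeval t (A.map (Int.castRingHom K)) ^ 3 * aeval t (B.map (Int.castRingHom K)) := by
    apply Subtype.ext
    have h1 := congrArg (coeffMap (Int.castRingHom K)) hA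
    rw [map_mul, map_mul, map_pow, coeffMap_jqModC, h4_coeffMap_aeval, h4_coeffMap_aeval,
      h4_coeffMap_aeval] at h1
    simp only [MulMemClass.coe_mul, SubmonoidClass.coe_pow, h4_coe_jF,
      ← IntermediateField.aeval_coe]
    exact h1
  have hpolyK : (A.map (Int.castRingHom K)) ^ 3 * B.map (Int.castRingHom K)
      - C 1728 * D.map (Int.castRingHom K)
      = (S.map (Int.castRingHom K)) ^ 2 * E.map (Int.castRingHom K) := by
    have := congrArg (Polynomial.map (Int.castRingHom K)) hpoly
    simpa only [Polynomial.map_sub, Polynomial.map_mul, Polynomial.map_pow, Polynomial.map_C,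
      map_ofNat, Polynomial.map_ofNat] using this
  have hSK : (Final.jF K M - algebraMap K (FK K M) 1728) * aeval t (D.map (Int.castRingHom K)) =
      aeval t (S.map (Int.castRingHom K)) ^ 2 * aeval t (E.map (Int.castRingHom K)) := by
    have h2 := congrArg (aeval t) hpolyK
    simp only [map_sub, map_mul, map_pow, aeval_C] at h2
    rw [← h2, ← hAK]
    ring
  have hD : D ≠ 0 := by
    rintro rfl
    rw [mul_zero, zero_add] at hbez
    have h3 := congrArg natDegree hbez
    simp only [natDegree_zero, natDegree_C] at hdeg h3
    have hAB : A * B ≠ 0 := by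
      intro h0
      rw [h0, mul_zero] at hbez
      exact hn (C_eq_zero.mp hbez.symm)
    have hV : V ≠ 0 := by
      rintro rfl
      rw [zero_mul] at hbez
      exact hn (C_eq_zero.mp hbez.symm)
    rw [natDegree_mul hV hAB, natDegree_mul (left_ne_zero_of_mul hAB)
      (right_ne_zero_of_mul hAB)] at h3
    omega
  refine h4_horData e M t _ _ _ _ _ hAK hSK ((Polynomial.map_ne_zero_iff hinj).mpr hD) ?_ ?_
  · rwa [natDegree_map_eq_of_injective hinj, natDegree_map_eq_of_injective hinj,
      natDegree_map_eq_of_injective hinj]
  · intro c hc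
    have h4 := congrArg (fun P => (P.map (Int.castRingHom K)).eval c) hbez
    simp only [Polynomial.map_add, Polynomial.map_mul, Polynomial.map_C, eval_add, eval_mul,
      eval_C, hc, mul_zero, zero_add] at h4
    have hn' : ((Int.castRingHom K) n) ≠ 0 := by
      simpa using hn
    rw [← h4] at hn'
    exact ⟨left_ne_zero_of_mul (right_ne_zero_of_mul hn'),
      right_ne_zero_of_mul (right_ne_zero_of_mul hn')⟩

end Fermat.Agent.S18x.IG.H4
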