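import Mathlib
import Fermat.Agent.S18x.IG.H24_AsmTop
import Fermat.Agent.S18x.IG.H10_VertInstM
import Fermat.Agent.S18x.IG.H21_ZInst
import Fermat.Agent.S18x.IG.H5_HorInst
import Fermat.Agent.S18x.Dict.H7_IGParts

/-!
# S18 [IG] (HSM-INST) (helper5): (SM) on the two charts of the Hauptmodul, levels 2 and 3

The plug of the leaves into `ig_hSMChart`:

* vertical data: helper10's `h10_vi_bundle_coord` / `h10_vi_bundle_coord_inv`;
* saturation: helper2's `h2sat_of_identity` + helper1's `sat_chart`;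
* branch values: helper21's `h21_hZ_two` …;
* horizontal data: `h5_hred_two` ….

Output: `h5_hSM_two`, `h5_hSM_three` = the hypothesis `hSM` of helper7's
`h7_stKumVPrime_two` / `h7_stKumVPrime_three`, verbatim.
-/

set_option autoImplicit false
set_option synthInstance.maxHeartbeats 400000
set_option maxHeartbeats 1000000

noncomputable section

namespace Fermat.Agent.S18x.IG.H5

open Polynomial AlgebraicCurve ModularCurve
open Fermat.Agent.S18x.Spec.H26 Fermat.Agent.S18x.Dict.H20 Fermat.Agent.S18x.Dict.H22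
open Fermat.Agent.S18x.Dict.H23 Fermat.Agent.S18x.IG.H29

local notation "Lbar" => AlgebraicClosure ℚ

section Generic

variable {K : Type} [Field K] [CharZero K] (O : ValuationSubring K) [IsDiscreteValuationRing O]
  (M : ℕ) [NeZero M] [Algebra O ↥(modularFunctionFieldFullC K M)]
  [IsScalarTower O K ↥(modularFunctionFieldFullC K M)]
  (x₀ : LaurentSeries ℤ) (hord : x₀.order = -1) (hlead : x₀.coeff (-1) = 1)
  (hmem : coeffMap (Int.castRingHom K) x₀ ∈ modularFunctionFieldFullC K M)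

include hord hlead in
/-- (SM) on the chart of `x := coordM`, from saturation and the horizontal data. -/
theorem h5_hSMChart_coordM (π₀ : O) (hπ₀ : Irreducible π₀)
    (p : ℕ) [Fact p.Prime] [CharP (IsLocalRing.ResidueField O) p]
    [PerfectRing (IsLocalRing.ResidueField O) p]
    (hsat : ∀ v ∈ (gaussValM O M).toSubring,
      algebraMap O ↥(modularFunctionFieldFullC K M) π₀ * v ∈ chart O (coordM K M x₀ hmem) →
        v ∈ chart O (coordM K M x₀ hmem))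
    (Z : Set O) (hZ : ∀ c ∈ Z, ∀ c' ∈ Z, π₀ ∣ c - c' → c = c')
    (hred : ∀ 𝔭 : Ideal O[X], 𝔭.IsPrime → C π₀ ∉ 𝔭 → (∀ c ∈ Z, X - C c ∉ 𝔭) →
      ∀ y : ↥(chart O (coordM K M x₀ hmem)).toSubring,
        y * y ∈ 𝔭.map (chartHom O (coordM K M x₀ hmem)) →
        ∃ a : O[X], a ∉ 𝔭 ∧
          chartHom O (coordM K M x₀ hmem) a * y ∈ 𝔭.map (chartHom O (coordM K M x₀ hmem))) :
    HSMChart O (coordM K M x₀ hmem) π₀ := by
  obtain ⟨f, g, hcomm, hK, hfπ, hf, hg, hsep⟩ :=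
    H10.h10_vi_bundle_coord O M x₀ hord hlead hmem π₀ hπ₀ p hsat
  exact ig_hSMChart π₀ hπ₀ (coordM K M x₀ hmem) (transcendental_coordM_O O M x₀ hord hlead hmem)
    (finOver_coordM O M x₀ hord hlead hmem) Z hZ f g hcomm hK hfπ hf hg hsep hred

include hord hlead in
/-- (SM) on the chart of `x⁻¹`. -/
theorem h5_hSMChart_coordM_inv (π₀ : O) (hπ₀ : Irreducible π₀)
    (p : ℕ) [Fact p.Prime] [CharP (IsLocalRing.ResidueField O) p]
    [PerfectRing (IsLocalRing.ResidueField O) p]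
    (hsat : ∀ v ∈ (gaussValM O M).toSubring,
      algebraMap O ↥(modularFunctionFieldFullC K M) π₀ * v ∈ chart O (coordM K M x₀ hmem)⁻¹ →
        v ∈ chart O (coordM K M x₀ hmem)⁻¹)
    (Z : Set O) (hZ : ∀ c ∈ Z, ∀ c' ∈ Z, π₀ ∣ c - c' → c = c')
    (hred : ∀ 𝔭 : Ideal O[X], 𝔭.IsPrime → C π₀ ∉ 𝔭 → (∀ c ∈ Z, X - C c ∉ 𝔭) →
      ∀ y : ↥(chart O (coordM K M x₀ hmem)⁻¹).toSubring,
        y * y ∈ 𝔭.map (chartHom O (coordM K M x₀ hmem)⁻¹) →
        ∃ a : O[X], a ∉ 𝔭 ∧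
          chartHom O (coordM K M x₀ hmem)⁻¹ a * y ∈
            𝔭.map (chartHom O (coordM K M x₀ hmem)⁻¹)) :
    HSMChart O (coordM K M x₀ hmem)⁻¹ π₀ := by
  obtain ⟨f, g, hcomm, hK, hfπ, hf, hg, hsep⟩ :=
    H10.h10_vi_bundle_coord_inv O M x₀ hord hlead hmem π₀ hπ₀ p hsat
  exact ig_hSMChart π₀ hπ₀ (coordM K M x₀ hmem)⁻¹
    (transcendental_coordM_inv_O O M x₀ hord hlead hmem)
    (finOver_coordM_inv O M x₀ hord hlead hmem) Z hZ f g hcomm hK hfπ hf hg hsep hred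

end Generic

section Concrete

open Fermat.Agent.S18x.Dict.H7 Fermat.Agent.S18x.IG.H21 Fermat.Agent.S18x.IG.H28

variable (A : ValuationSubring Lbar) {ℓ : ℕ} (hℓ : ℓ.Prime) (hA : A.LiesOverPrime ℓ)
  (M : ℕ) [NeZero M]

include hℓ hA in
/-- Saturation of the two charts of a Hauptmodul (helper2's `h2sat_of_identity` fed with
helper1's `sat_chart`), in the spelling of helper10's bundles. -/
theorem h5_hsat_of_identity (hℓM : ¬ ℓ ∣ M) (K : IntermediateField ℚ Lbar)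
    [IsDiscreteValuationRing (A.comap (algebraMap ↥K Lbar))]
    (x₀ : LaurentSeries ℤ) (hord : x₀.order = -1) (hlead : x₀.coeff (-1) = 1)
    (hmem : coeffMap (Int.castRingHom ↥K) x₀ ∈ modularFunctionFieldFullC ↥K M)
    (N D : ℤ[X]) (hN : N.Monic) (hD : D.Monic) (hdeg : D.natDegree < N.natDegree)
    (hD0 : D.coeff 0 = 0) (n₀ : ℕ) (hn₀ : N.coeff 0 = (n₀ : ℤ)) (hℓn₀ : ¬ ℓ ∣ n₀)
    (hid : jqModC ℤ * aeval x₀ D = aeval x₀ N)
    (π₀ : A.comap (algebraMap ↥K Lbar)) (hπ₀ : Irreducible π₀) :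
    (∀ v ∈ (gaussValM (A.comap (algebraMap ↥K Lbar)) M).toSubring,
      algebraMap (A.comap (algebraMap ↥K Lbar)) ↥(modularFunctionFieldFullC ↥K M) π₀ * v ∈
        chart (A.comap (algebraMap ↥K Lbar)) (coordM ↥K M x₀ hmem) →
        v ∈ chart (A.comap (algebraMap ↥K Lbar)) (coordM ↥K M x₀ hmem)) ∧
    (∀ v ∈ (gaussValM (A.comap (algebraMap ↥K Lbar)) M).toSubring,
      algebraMap (A.comap (algebraMap ↥K Lbar)) ↥(modularFunctionFieldFullC ↥K M) π₀ * v ∈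
        chart (A.comap (algebraMap ↥K Lbar)) (coordM ↥K M x₀ hmem)⁻¹ →
        v ∈ chart (A.comap (algebraMap ↥K Lbar)) (coordM ↥K M x₀ hmem)⁻¹) := by
  have htow : IsScalarTower (A.comap (algebraMap ↥K Lbar)) ↥K
      ↥(modularFunctionFieldFullC ↥K M) := IsScalarTower.of_algebraMap_eq (fun c => rfl)
  have hfact : Fact ℓ.Prime := ⟨hℓ⟩
  have hcharp : CharP (IsLocalRing.ResidueField (A.comap (algebraMap ↥K Lbar))) ℓ :=
    h23_charP_residueField (K := ↥K) A hℓ hA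
  obtain ⟨h1, h2, h3, h4, h5⟩ := coord_inputs (A.comap (algebraMap ↥K Lbar)) M x₀ hmem hord hlead
  obtain ⟨u, hu⟩ := h23_isUnit_natCast (K := ↥K) A hℓ hA n₀ hℓn₀
  have hμ : ((u⁻¹ : (A.comap (algebraMap ↥K Lbar))ˣ) : A.comap (algebraMap ↥K Lbar)) *
      (N.map (Int.castRingHom (A.comap (algebraMap ↥K Lbar)))).coeff 0 = 1 := by
    rw [Polynomial.coeff_map, hn₀]
    have : (Int.castRingHom (A.comap (algebraMap ↥K Lbar))) ((n₀ : ℕ) : ℤ) =
        ((n₀ : ℕ) : A.comap (algebraMap ↥K Lbar)) := by simp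
    rw [this, ← hu]
    exact Units.inv_mul u
  have hD0' : (D.map (Int.castRingHom (A.comap (algebraMap ↥K Lbar)))).coeff 0 = 0 := by
    rw [Polynomial.coeff_map, hD0, map_zero]
  have hdeg' : (D.map (Int.castRingHom (A.comap (algebraMap ↥K Lbar)))).natDegree <
      (N.map (Int.castRingHom (A.comap (algebraMap ↥K Lbar)))).natDegree := by
    rw [hD.natDegree_map, hN.natDegree_map]
    exact hdeg
  obtain ⟨s1, s2, -⟩ := Fermat.Agent.S18x.Qepo.H2.h2sat_of_identity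
    (O := A.comap (algebraMap ↥K Lbar)) (F := ↥(modularFunctionFieldFullC ↥K M))
    (Fermat.Agent.S28.Asm.jbFull ↥K M) (coordM ↥K M x₀ hmem)
    (N.map (Int.castRingHom (A.comap (algebraMap ↥K Lbar))))
    (D.map (Int.castRingHom (A.comap (algebraMap ↥K Lbar))))
    (gaussValM (A.comap (algebraMap ↥K Lbar)) M).toSubring h2 π₀ hπ₀.prime
    (hN.map _) (hD.map _) hdeg'
    (h7_identity_FM (A.comap (algebraMap ↥K Lbar)) M x₀ hmem N D hid) hD0' _ hμ h4
    (Fermat.Agent.S18x.Qepo.sat_chart (A.comap (algebraMap ↥K Lbar)) π₀ hπ₀ M ℓ hℓM)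
  exact ⟨s1, s2⟩

include hℓ hA in
/-- **(HSM-INST), level 2**: (SM) on the charts of `h₂` and `h₂⁻¹` over every number field;
the hypothesis `hSM` of helper7's `h7_stKumVPrime_two`, verbatim. -/
theorem h5_hSM_two (hℓ2 : ℓ ≠ 2) (h2M : 2 ∣ M) (hℓM : ¬ ℓ ∣ M) :
    ∀ K : IntermediateField ℚ Lbar, FiniteDimensional ℚ K →
      ∀ _ : IsDiscreteValuationRing (A.comap (algebraMap ↥K Lbar)),
      ∃ π₀ : A.comap (algebraMap ↥K Lbar), Irreducible π₀ ∧
        HSMChart (A.comap (algebraMap ↥K Lbar)) (h7x2 M ↥K h2M) π₀ ∧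
        HSMChart (A.comap (algebraMap ↥K Lbar)) (h7x2 M ↥K h2M)⁻¹ π₀ := by
  intro K hK hdvr
  have htow : IsScalarTower (A.comap (algebraMap ↥K Lbar)) ↥K
      ↥(modularFunctionFieldFullC ↥K M) := IsScalarTower.of_algebraMap_eq (fun c => rfl)
  have hint : Algebra.IsIntegral ↥K Lbar := isIntegral_intermediate K
  have hfact : Fact ℓ.Prime := ⟨hℓ⟩
  have hcharp : CharP (IsLocalRing.ResidueField (A.comap (algebraMap ↥K Lbar))) ℓ :=
    h23_charP_residueField (K := ↥K) A hℓ hA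
  have hfinite : Finite (IsLocalRing.ResidueField (A.comap (algebraMap ↥K Lbar))) :=
    h23_finite_residueField_intermediate A hℓ hA K
  have hperf : PerfectRing (IsLocalRing.ResidueField (A.comap (algebraMap ↥K Lbar))) ℓ :=
    PerfectRing.ofFiniteOfIsReduced ℓ _
  obtain ⟨π₀, hπ₀⟩ := IsDiscreteValuationRing.exists_irreducible (A.comap (algebraMap ↥K Lbar))
  have h2u : IsUnit (2 : A.comap (algebraMap ↥K Lbar)) := h21_isUnit_two A hℓ hA hℓ2
  obtain ⟨s1, s2⟩ := h5_hsat_of_identity A hℓ hA M hℓM K h2 h7_order_h2 coeff_h2_neg_one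
    (h7_mem_two M ↥K h2M) ((X + C 256) ^ 3) (X ^ 2) ((monic_X_add_C 256).pow 3) (monic_X_pow 2)
    (by rw [natDegree_X_pow, natDegree_pow, natDegree_X_add_C]; norm_num)
    (by rw [coeff_X_pow]; norm_num) (256 ^ 3)
    (by rw [coeff_zero_eq_eval_zero, eval_pow, eval_add, eval_X, eval_C]; norm_num)
    (by
      intro h
      have h1 : ℓ ∣ 2 := by
        have h2 : (256 : ℕ) ^ 3 = 2 ^ 24 := by norm_num
        rw [h2] at h
        exact hℓ.dvd_of_dvd_pow h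
      exact hℓ2 ((Nat.prime_dvd_prime_iff_eq hℓ Nat.prime_two).mp h1))
    (by
      rw [map_pow, map_pow, map_add, aeval_X, aeval_C]
      have e : algebraMap ℤ (LaurentSeries ℤ) 256 = 256 := map_ofNat _ 256
      rw [e]
      exact j_h2) π₀ hπ₀
  refine ⟨π₀, hπ₀, ?_, ?_⟩
  · exact h5_hSMChart_coordM (A.comap (algebraMap ↥K Lbar)) M h2 h7_order_h2 coeff_h2_neg_one
      (h7_mem_two M ↥K h2M) π₀ hπ₀ ℓ s1 {0, -64} (h21_hZ_two π₀ hπ₀.not_isUnit h2u)
      (h5_hred_two (A.comap (algebraMap ↥K Lbar)) M h2M π₀ hπ₀ {0, -64} (by simp) (by simp))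
  · exact h5_hSMChart_coordM_inv (A.comap (algebraMap ↥K Lbar)) M h2 h7_order_h2
      coeff_h2_neg_one (h7_mem_two M ↥K h2M) π₀ hπ₀ ℓ s2 {0, -h21_inv 64 (h21_isUnit_64 h2u)}
      (h21_hZ_two_inv π₀ hπ₀.not_isUnit h2u)
      (h5_hred_two_inv (A.comap (algebraMap ↥K Lbar)) M h2M π₀ hπ₀ _ (by simp)
        (-h21_inv 64 (h21_isUnit_64 h2u))
        (by rw [mul_neg, h21_mul_inv, neg_add_cancel]) (by simp))

include hℓ hA in
/-- **(HSM-INST), level 3**: (SM) on the charts of `h₃` and `h₃⁻¹` over every number field;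
the hypothesis `hSM` of helper7's `h7_stKumVPrime_three`, verbatim. -/
theorem h5_hSM_three (hℓ3 : ℓ ≠ 3) (h3M : 3 ∣ M) (hℓM : ¬ ℓ ∣ M) :
    ∀ K : IntermediateField ℚ Lbar, FiniteDimensional ℚ K →
      ∀ _ : IsDiscreteValuationRing (A.comap (algebraMap ↥K Lbar)),
      ∃ π₀ : A.comap (algebraMap ↥K Lbar), Irreducible π₀ ∧
        HSMChart (A.comap (algebraMap ↥K Lbar)) (h7x3 M ↥K h3M) π₀ ∧
        HSMChart (A.comap (algebraMap ↥K Lbar)) (h7x3 M ↥K h3M)⁻¹ π₀ := by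
  intro K hK hdvr
  have htow : IsScalarTower (A.comap (algebraMap ↥K Lbar)) ↥K
      ↥(modularFunctionFieldFullC ↥K M) := IsScalarTower.of_algebraMap_eq (fun c => rfl)
  have hint : Algebra.IsIntegral ↥K Lbar := isIntegral_intermediate K
  have hfact : Fact ℓ.Prime := ⟨hℓ⟩
  have hcharp : CharP (IsLocalRing.ResidueField (A.comap (algebraMap ↥K Lbar))) ℓ :=
    h23_charP_residueField (K := ↥K) A hℓ hA
  have hfinite : Finite (IsLocalRing.ResidueField (A.comap (algebraMap ↥K Lbar))) :=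
    h23_finite_residueField_intermediate A hℓ hA K
  have hperf : PerfectRing (IsLocalRing.ResidueField (A.comap (algebraMap ↥K Lbar))) ℓ :=
    PerfectRing.ofFiniteOfIsReduced ℓ _
  obtain ⟨π₀, hπ₀⟩ := IsDiscreteValuationRing.exists_irreducible (A.comap (algebraMap ↥K Lbar))
  have h3u : IsUnit (3 : A.comap (algebraMap ↥K Lbar)) := h21_isUnit_three A hℓ hA hℓ3
  obtain ⟨s1, s2⟩ := h5_hsat_of_identity A hℓ hA M hℓM K h3 h7_order_h3 coeff_h3_neg_one
    (h7_mem_three M ↥K h3M) ((X + C 243) ^ 3 * (X + C 27)) (X ^ 3)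
    (((monic_X_add_C 243).pow 3).mul (monic_X_add_C 27)) (monic_X_pow 3)
    (by
      rw [natDegree_X_pow,
        (((monic_X_add_C (243 : ℤ)).pow 3).natDegree_mul (monic_X_add_C 27)),
        natDegree_pow, natDegree_X_add_C, natDegree_X_add_C]
      norm_num)
    (by rw [coeff_X_pow]; norm_num) (243 ^ 3 * 27)
    (by
      rw [coeff_zero_eq_eval_zero, eval_mul, eval_pow, eval_add, eval_add, eval_X, eval_C,
        eval_C]
      norm_num)
    (by
      intro h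
      have h1 : ℓ ∣ 3 := by
        have h2 : (243 : ℕ) ^ 3 * 27 = 3 ^ 18 := by norm_num
        rw [h2] at h
        exact hℓ.dvd_of_dvd_pow h
      exact hℓ3 ((Nat.prime_dvd_prime_iff_eq hℓ Nat.prime_three).mp h1))
    (by
      rw [map_pow, map_mul, map_pow, map_add, map_add, aeval_X, aeval_C, aeval_C]
      have e : algebraMap ℤ (LaurentSeries ℤ) 243 = 243 := map_ofNat _ 243
      have e' : algebraMap ℤ (LaurentSeries ℤ) 27 = 27 := map_ofNat _ 27
      rw [e, e']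
      exact j_h3) π₀ hπ₀
  refine ⟨π₀, hπ₀, ?_, ?_⟩
  · exact h5_hSMChart_coordM (A.comap (algebraMap ↥K Lbar)) M h3 h7_order_h3 coeff_h3_neg_one
      (h7_mem_three M ↥K h3M) π₀ hπ₀ ℓ s1 {0, -27} (h21_hZ_three π₀ hπ₀.not_isUnit h3u)
      (h5_hred_three (A.comap (algebraMap ↥K Lbar)) M h3M π₀ hπ₀ {0, -27} (by simp) (by simp))
  · exact h5_hSMChart_coordM_inv (A.comap (algebraMap ↥K Lbar)) M h3 h7_order_h3
      coeff_h3_neg_one (h7_mem_three M ↥K h3M) π₀ hπ₀ ℓ s2 {0, -h21_inv 27 (h21_isUnit_27 h3u)}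
      (h21_hZ_three_inv π₀ hπ₀.not_isUnit h3u)
      (h5_hred_three_inv (A.comap (algebraMap ↥K Lbar)) M h3M π₀ hπ₀ _ (by simp)
        (-h21_inv 27 (h21_isUnit_27 h3u))
        (by rw [mul_neg, h21_mul_inv, neg_add_cancel]) (by simp))

include hℓ hA in
/-- **`Kum.StKumVPrime A M ℓ`, hypothesis-free**, at a level `M` divisible by `2`
(`ℓ` odd, `ℓ ∤ M`). -/
theorem h5_stKumVPrime_two (hℓ2 : ℓ ≠ 2) (h2M : 2 ∣ M) (hℓM : ¬ ℓ ∣ M) :
    Fermat.Agent.S18x.Kum.StKumVPrime A M ℓ :=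
  h7_stKumVPrime_two A hℓ hA M hℓ2 h2M hℓM (h5_hSM_two A hℓ hA M hℓ2 h2M hℓM)

include hℓ hA in
/-- **`Kum.StKumVPrime A M ℓ`, hypothesis-free**, at a level `M` divisible by `3`
(`ℓ ≠ 3`, `ℓ ∤ M`). -/
theorem h5_stKumVPrime_three (hℓ3 : ℓ ≠ 3) (h3M : 3 ∣ M) (hℓM : ¬ ℓ ∣ M) :
    Fermat.Agent.S18x.Kum.StKumVPrime A M ℓ :=
  h7_stKumVPrime_three A hℓ hA M hℓ3 h3M hℓM (h5_hSM_three A hℓ hA M hℓ3 h3M hℓM)

end Concrete

end Fermat.Agent.S18x.IG.H5
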