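import Mathlib

/-!
# S18 [IG] (HM-b), generic part (helper6): a Hauptmodul generates the function field

`K ⊆ K(x) ⊆ F ⊆ K(t)` with `x * D(t) = N(t)`, `N` monic of degree `n > deg D` and
`n ≤ [F : K(x)]`: then `F = K(t)`, `[F : K(x)] = n`.

Mathlib only.
-/

set_option autoImplicit false

namespace Fermat.Agent.S18x.IG.H6

open Polynomial IntermediateField

section TypeLevel

variable {K F T : Type*} [Field K] [Field F] [Field T] [Algebra K F] [Algebra F T] [Algebra K T]
  [IsScalarTower K F T]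

/-- The polynomial `N - x D` over `K(x)`. -/
noncomputable def h6_relPoly (x : F) (N D : K[X]) : (K⟮x⟯)[X] :=
  N.map (algebraMap K K⟮x⟯) - C (AdjoinSimple.gen K x) * D.map (algebraMap K K⟮x⟯)

theorem h6_relPoly_natDegree (x : F) (N D : K[X]) (hdeg : D.natDegree < N.natDegree) :
    (h6_relPoly x N D).natDegree = N.natDegree := by
  rw [h6_relPoly]
  have h1 : (C (AdjoinSimple.gen K x) * D.map (algebraMap K K⟮x⟯)).natDegree < 
      (N.map (algebraMap K K⟮x⟯)).natDegree := by
    rw [natDegree_map]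
    refine lt_of_le_of_lt (natDegree_C_mul_le _ _) ?_
    rw [natDegree_map]
    exact hdeg
  rw [natDegree_sub_eq_left_of_natDegree_lt h1, natDegree_map]

theorem h6_relPoly_monic (x : F) (N D : K[X]) (hN : N.Monic) (hdeg : D.natDegree < N.natDegree) :
    (h6_relPoly x N D).Monic := by
  rw [h6_relPoly]
  refine Monic.sub_of_left (hN.map _) ?_
  rw [degree_eq_natDegree (hN.map _).ne_zero]
  refine lt_of_le_of_lt degree_le_natDegree ?_
  have h1 : (C (AdjoinSimple.gen K x) * D.map (algebraMap K K⟮x⟯)).natDegree < 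
      (N.map (algebraMap K K⟮x⟯)).natDegree := by
    rw [natDegree_map]
    refine lt_of_le_of_lt (natDegree_C_mul_le _ _) ?_
    rw [natDegree_map]
    exact hdeg
  exact_mod_cast h1

/-- **Type-level form.** `K → F → T` a tower of fields, `T = K(t)`, `x ∈ F`,
`x * D(t) = N(t)` with `N` monic, `deg D < deg N ≤ [F : K(x)]`. Then `F → T` is surjective and
`[F : K(x)] = deg N`. -/
theorem h6_surjective_of_rel (x : F) (t : T) (htop : K⟮t⟯ = ⊤) (N D : K[X]) (hN : N.Monic)
    (hdeg : D.natDegree < N.natDegree)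
    (hrel : algebraMap F T x * aeval t D = aeval t N)
    (hfin : N.natDegree ≤ Module.finrank K⟮x⟯ F) :
    Function.Surjective (algebraMap F T) ∧ Module.finrank K⟮x⟯ F = N.natDegree := by
  classical
  -- `t` is a root of the monic polynomial `N - x D`
  have hroot : aeval t (h6_relPoly x N D) = 0 := by
    rw [h6_relPoly, map_sub, map_mul, aeval_C, aeval_map_algebraMap, aeval_map_algebraMap]
    have : algebraMap K⟮x⟯ T (AdjoinSimple.gen K x) = algebraMap F T x := rfl
    rw [this, hrel, sub_self]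
  have hmon := h6_relPoly_monic x N D hN hdeg
  have hint : IsIntegral K⟮x⟯ t := ⟨_, hmon, hroot⟩
  -- `T = K(x)(t)`
  have htop' : (K⟮x⟯)⟮t⟯ = ⊤ := by
    rw [eq_top_iff]
    intro y _
    have hy : y ∈ K⟮t⟯ := by rw [htop]; trivial
    have hle : K⟮t⟯ ≤ ((K⟮x⟯)⟮t⟯).restrictScalars K := by
      rw [adjoin_le_iff]
      rintro z (rfl : z = t)
      rw [SetLike.mem_coe, IntermediateField.mem_restrictScalars]
      exact mem_adjoin_simple_self _ _
    have h3 := hle hy
    rwa [IntermediateField.mem_restrictScalars] at h3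
  have hdT : Module.finrank K⟮x⟯ T ≤ N.natDegree := by
    have h1 : Module.finrank K⟮x⟯ T = Module.finrank K⟮x⟯ (K⟮x⟯)⟮t⟯ := by
      rw [htop', IntermediateField.finrank_top']
    rw [h1, adjoin.finrank hint, ← h6_relPoly_natDegree x N D hdeg]
    exact natDegree_le_of_dvd (minpoly.dvd _ _ hroot) hmon.ne_zero
  haveI hfT : FiniteDimensional K⟮x⟯ T := by
    have := adjoin.finiteDimensional hint
    rw [htop'] at this
    exact (IntermediateField.topEquiv (F := K⟮x⟯) (E := T)).toLinearEquiv.finiteDimensional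
  haveI : FiniteDimensional F T := FiniteDimensional.right K⟮x⟯ F T
  have hmul := Module.finrank_mul_finrank K⟮x⟯ F T
  have hn0 : 0 < N.natDegree := lt_of_le_of_lt (Nat.zero_le _) hdeg
  have hFT : 0 < Module.finrank F T := Module.finrank_pos
  have hLF : 0 < Module.finrank K⟮x⟯ F := lt_of_lt_of_le hn0 hfin
  have hFT1 : Module.finrank F T = 1 := by
    by_contra hne
    have h2 : 2 ≤ Module.finrank F T := by omega
    have : Module.finrank K⟮x⟯ F * 2 ≤ Module.finrank K⟮x⟯ F * Module.finrank F T :=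
      Nat.mul_le_mul_left _ h2
    omega
  refine ⟨?_, ?_⟩
  · have hbt : (⊥ : Subalgebra F T) = ⊤ := Subalgebra.bot_eq_top_of_finrank_eq_one hFT1
    intro y
    have hy : y ∈ (⊥ : Subalgebra F T) := by rw [hbt]; trivial
    exact Algebra.mem_bot.mp hy
  · rw [hFT1, mul_one] at hmul
    omega

end TypeLevel

section Outer

variable {K E : Type*} [Field K] [Field E] [Algebra K E]

theorem h6_adjoin_gen_eq_top (t : E) : K⟮AdjoinSimple.gen K t⟯ = ⊤ := by
  apply IntermediateField.lift_injective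
  rw [lift_adjoin_simple, lift_top, AdjoinSimple.coe_gen]

/-- **(HM-b), generic form.** `F` an intermediate field of `E / K`, `x ∈ F`, `t ∈ E` with
`F ≤ K(t)`, `x * D(t) = N(t)`, `N` monic, `deg D < deg N ≤ [F : K(x)]`. Then `t ∈ F`,
`F = K(t)` and `[F : K(x)] = deg N`. -/
theorem h6_hauptmodul (F : IntermediateField K E) (x : F) (t : E) (N D : K[X]) (hN : N.Monic)
    (hdeg : D.natDegree < N.natDegree)
    (hrel : (x : E) * aeval t D = aeval t N)
    (hle : F ≤ K⟮t⟯)
    (hfin : N.natDegree ≤ Module.finrank K⟮x⟯ F) :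
    t ∈ F ∧ F = K⟮t⟯ ∧ Module.finrank K⟮x⟯ F = N.natDegree := by
  letI : Algebra F K⟮t⟯ := (IntermediateField.inclusion hle).toRingHom.toAlgebra
  haveI : IsScalarTower K F K⟮t⟯ := IsScalarTower.of_algebraMap_eq (fun c => by
    show algebraMap K K⟮t⟯ c = IntermediateField.inclusion hle (algebraMap K F c)
    rw [AlgHom.commutes])
  have hval : ∀ y : F, ((algebraMap F K⟮t⟯ y : K⟮t⟯) : E) = (y : E) := fun y => rfl
  have hrel' : algebraMap F K⟮t⟯ x * aeval (AdjoinSimple.gen K t) D
      = aeval (AdjoinSimple.gen K t) N := by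
    apply Subtype.ext
    rw [MulMemClass.coe_mul, hval, AdjoinSimple.coe_aeval_gen_apply,
      AdjoinSimple.coe_aeval_gen_apply]
    exact hrel
  obtain ⟨hsurj, hrank⟩ := h6_surjective_of_rel (K := K) (F := F) (T := K⟮t⟯) x
    (AdjoinSimple.gen K t) (h6_adjoin_gen_eq_top t) N D hN hdeg hrel' hfin
  have hge : K⟮t⟯ ≤ F := by
    intro y hy
    obtain ⟨z, hz⟩ := hsurj ⟨y, hy⟩
    have : (z : E) = y := by
      rw [← hval z, hz]
    rw [← this]
    exact z.2
  exact ⟨hge (mem_adjoin_simple_self K t), le_antisymm hle hge, hrank⟩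

end Outer

end Fermat.Agent.S18x.IG.H6
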