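import Mathlib
import Fermat.Agent.S18x.IG.H8_HmBase

/-!
# S18 [IG] (I1-HM), level 4, part 2 (helper8): the series `s`, `Y` and their derivatives

`E4x = E(q⁴)`, `s4 = q E(q⁴)⁸ / E(q)⁸` (the inverse of the Hauptmodul of `X_0(4)`),
`Y4 = (4 P(q⁴) - P(q)) / (3 (1 + 16 s4))`.

* `s4_mul : s4 * Eu ^ 8 = X * E4x ^ 8`
* `hY4 : 3 * (1 + 16 * s4) * Y4 = 4 * P(q⁴) - P(q)`
* `thD_s4 : θ s4 = s4 * (1 + 16 * s4) * Y4`
* `thD_Y4 : 3 * (16 * θ s4 * Y4 + (1 + 16 * s4) * θ Y4) = 4 * θ P(q⁴) - θ P(q)`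
-/

set_option autoImplicit false

namespace Fermat.Agent.S18x.IG.H8

open PowerSeries
open Fermat.Agent.S16x.Swd.H8

theorem four_ne_zero' : (4 : ℕ) ≠ 0 := by norm_num
theorem two_ne_zero' : (2 : ℕ) ≠ 0 := by norm_num

/-- `E(q⁴)` -/
noncomputable def E4x : ℚ⟦X⟧ := PowerSeries.expand 4 four_ne_zero' Eu

/-- `s = q E(q⁴)⁸ / E(q)⁸`, the inverse of the Hauptmodul `t` of `X_0(4)`. -/
noncomputable def s4 : ℚ⟦X⟧ := PowerSeries.X * E4x ^ 8 * (Eu⁻¹) ^ 8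

/-- `Y = (4 P(q⁴) - P(q)) / (3 (1 + 16 s))`. -/
noncomputable def Y4 : ℚ⟦X⟧ :=
  PowerSeries.C (1 / 3 : ℚ) * (4 * Pd 4 four_ne_zero' - Pser ℚ) * (1 + 16 * s4)⁻¹

theorem Eu_mul_inv : Eu * Eu⁻¹ = 1 :=
  PowerSeries.mul_inv_cancel Eu (by rw [constantCoeff_Eq]; exact one_ne_zero)

theorem s4_mul : s4 * Eu ^ 8 = PowerSeries.X * E4x ^ 8 := by
  have h : (Eu⁻¹) ^ 8 * Eu ^ 8 = 1 := by
    rw [← mul_pow, mul_comm, Eu_mul_inv, one_pow]
  rw [s4, mul_assoc, h, mul_one]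

theorem constantCoeff_s4 : PowerSeries.constantCoeff s4 = 0 := by
  rw [s4, map_mul, map_mul, PowerSeries.constantCoeff_X, zero_mul, zero_mul]

theorem constantCoeff_D4 : PowerSeries.constantCoeff (1 + 16 * s4) = 1 := by
  rw [map_add, map_mul, constantCoeff_s4, mul_zero, add_zero, map_one]

theorem D4_mul_inv : (1 + 16 * s4) * (1 + 16 * s4)⁻¹ = 1 :=
  PowerSeries.mul_inv_cancel _ (by rw [constantCoeff_D4]; exact one_ne_zero)

theorem hY4 : 3 * (1 + 16 * s4) * Y4 = 4 * Pd 4 four_ne_zero' - Pser ℚ := by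
  have h3 : (3 : ℚ⟦X⟧) * PowerSeries.C (1 / 3 : ℚ) = 1 := by
    have : (3 : ℚ⟦X⟧) = PowerSeries.C (3 : ℚ) := by rw [map_ofNat]
    rw [this, ← map_mul]
    norm_num
  rw [Y4]
  linear_combination (PowerSeries.C (1 / 3 : ℚ) * (4 * Pd 4 four_ne_zero' - Pser ℚ) * 3) * D4_mul_inv
    + (4 * Pd 4 four_ne_zero' - Pser ℚ) * h3

theorem thD_E4x : 24 * thD E4x = 4 * (Pd 4 four_ne_zero' - 1) * E4x := by
  have h := congrArg (PowerSeries.expand 4 four_ne_zero') thD_Eq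
  rw [map_mul, map_mul, map_sub, map_one, map_ofNat] at h
  rw [E4x, thD_expand, Pd]
  push_cast
  linear_combination 4 * h

theorem thD_s4 : thD s4 = s4 * (1 + 16 * s4) * Y4 := by
  have hd := congrArg thD s4_mul
  rw [Derivation.leibniz, Derivation.leibniz, Derivation.leibniz_pow, Derivation.leibniz_pow,
    thD_X] at hd
  simp only [smul_eq_mul, nsmul_eq_mul] at hd
  push_cast at hd
  have hne : (24 : ℚ⟦X⟧) * Eu ^ 8 ≠ 0 := by
    refine mul_ne_zero ?_ (pow_ne_zero _ Eq_ne_zero)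
    intro h
    have h' := congrArg (PowerSeries.constantCoeff (R := ℚ)) h
    rw [map_ofNat, map_zero] at h'
    norm_num at h'
  apply mul_left_cancel₀ hne
  linear_combination 24 * hd - (8 * s4 * Eu ^ 7) * thD_Eq + (8 * PowerSeries.X * E4x ^ 7) * thD_E4x
    - (32 * Pd 4 four_ne_zero' - 8) * s4_mul - (8 * Eu ^ 8 * s4) * hY4

theorem thD_Y4 :
    3 * (16 * thD s4 * Y4 + (1 + 16 * s4) * thD Y4) =
      4 * thD (Pd 4 four_ne_zero') - thD (Pser ℚ) := by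
  have hd := congrArg thD hY4
  simp only [map_sub, map_add, Derivation.leibniz, Derivation.map_one_eq_zero,
    thD_ofNat, smul_eq_mul, zero_add] at hd
  linear_combination hd

end Fermat.Agent.S18x.IG.H8
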