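import Mathlib
import Fermat.Agent.S18x.IG.H8_HmBase

/-!
# S18 [IG] (I1-HM), level 4, part 1 (helper8): the linear differential system

Generated with a python script (exact rational arithmetic); every identity is checked by
`linear_combination` / `ring`.

For the Hauptmodul `t = 1/s` of `X_0(4)`, `s = q E(q⁴)⁸ / E(q)⁸`, `Dm = 1 + 16 s`,
`Y = (4 P(q⁴) - P(q)) / (3 Dm)` (so that `θ s = s Dm Y`), the seven defects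
`Q(q^d) - A_d(s) Y²`, `R(q^d) - B_d(s) Y³` (`d = 1, 2, 4`), `2 P(q²) - P(q) - (1 + 32 s) Y`
satisfy a linear system `36 Dm θ G = M G`.
-/

set_option autoImplicit false
set_option linter.unusedVariables false

namespace Fermat.Agent.S18x.IG.H8

section Abstract

theorem sys4_Q1 {A : Type*} [CommRing A]
    (P1 P2 P4 Q1 Q2 Q4 R1 R2 R4 s Y dP1 dP2 dP4 dQ1 dQ2 dQ4 dR1 dR2 dR4 ds dY : A)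
    (hdY : 3 * (16 * ds * Y + (1 + 16 * s) * dY) = 4 * dP4 - dP1)
    (hs : ds = s * (1 + 16 * s) * Y)
    (hP1 : 12 * dP1 = P1 ^ 2 - Q1)
    (hP4 : 3 * dP4 = P4 ^ 2 - Q4)
    (hQ1 : 3 * dQ1 = P1 * Q1 - R1)
    (hY : 3 * (1 + 16 * s) * Y = 4 * P4 - P1)
    :
    36 * ((1 + 16 * s) * (-8192*s^2*Y*dY - 8192*s*Y^2*ds - 512*s*Y*dY - 256*Y^2*ds - 2*Y*dY + dQ1)) =
      (192*P1*s + 12*P1 - 8192*s^2*Y - 512*s*Y - 2*Y) * (Q1 - 4096*s^2*Y^2 - 256*s*Y^2 - Y^2)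
      + (-192*s - 12) * (R1 + 262144*s^3*Y^3 + 24576*s^2*Y^3 + 480*s*Y^3 - Y^3)
      + (131072*s^2*Y + 8192*s*Y + 32*Y) * (Q4 - 16*s^2*Y^2 - 16*s*Y^2 - Y^2) := by
  linear_combination (-98304*s^2*Y - 6144*s*Y - 24*Y) * hdY
    + (-147456*s*Y^2 - 8064*Y^2) * hs
    + (8192*s^2*Y + 512*s*Y + 2*Y) * hP1
    + (-131072*s^2*Y - 8192*s*Y - 32*Y) * hP4
    + (192*s + 12) * hQ1
    + (8192*P1*s^2*Y + 512*P1*s*Y + 2*P1*Y + 32768*P4*s^2*Y + 2048*P4*s*Y + 8*P4*Y + 393216*s^3*Y^2 + 49152*s^2*Y^2 + 1632*s*Y^2 + 6*Y^2) * hY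

theorem sys4_R1 {A : Type*} [CommRing A]
    (P1 P2 P4 Q1 Q2 Q4 R1 R2 R4 s Y dP1 dP2 dP4 dQ1 dQ2 dQ4 dR1 dR2 dR4 ds dY : A)
    (hdY : 3 * (16 * ds * Y + (1 + 16 * s) * dY) = 4 * dP4 - dP1)
    (hs : ds = s * (1 + 16 * s) * Y)
    (hP1 : 12 * dP1 = P1 ^ 2 - Q1)
    (hP4 : 3 * dP4 = P4 ^ 2 - Q4)
    (hR1 : 2 * dR1 = P1 * R1 - Q1 ^ 2)
    (hY : 3 * (1 + 16 * s) * Y = 4 * P4 - P1)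
    :
    36 * ((1 + 16 * s) * (786432*s^3*Y^2*dY + 786432*s^2*Y^3*ds + 73728*s^2*Y^2*dY + 49152*s*Y^3*ds + 1440*s*Y^2*dY + 480*Y^3*ds - 3*Y^2*dY + dR1)) =
      (-288*Q1*s - 18*Q1 - 393216*s^3*Y^2 - 73728*s^2*Y^2 - 3456*s*Y^2 - 21*Y^2) * (Q1 - 4096*s^2*Y^2 - 256*s*Y^2 - Y^2)
      + (288*P1*s + 18*P1) * (R1 + 262144*s^3*Y^3 + 24576*s^2*Y^3 + 480*s*Y^3 - Y^3)
      + (-12582912*s^3*Y^2 - 1179648*s^2*Y^2 - 23040*s*Y^2 + 48*Y^2) * (Q4 - 16*s^2*Y^2 - 16*s*Y^2 - Y^2) := by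
  linear_combination (9437184*s^3*Y^2 + 884736*s^2*Y^2 + 17280*s*Y^2 - 36*Y^2) * hdY
    + (14155776*s^2*Y^3 + 1216512*s*Y^3 + 19008*Y^3) * hs
    + (-786432*s^3*Y^2 - 73728*s^2*Y^2 - 1440*s*Y^2 + 3*Y^2) * hP1
    + (12582912*s^3*Y^2 + 1179648*s^2*Y^2 + 23040*s*Y^2 - 48*Y^2) * hP4
    + (288*s + 18) * hR1
    + (-786432*P1*s^3*Y^2 - 73728*P1*s^2*Y^2 - 1440*P1*s*Y^2 + 3*P1*Y^2 - 3145728*P4*s^3*Y^2 - 294912*P4*s^2*Y^2 - 5760*P4*s*Y^2 + 12*P4*Y^2 - 37748736*s^4*Y^3 - 5898240*s^3*Y^3 - 290304*s^2*Y^3 - 4176*s*Y^3 + 9*Y^3) * hY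

theorem sys4_Q2 {A : Type*} [CommRing A]
    (P1 P2 P4 Q1 Q2 Q4 R1 R2 R4 s Y dP1 dP2 dP4 dQ1 dQ2 dQ4 dR1 dR2 dR4 ds dY : A)
    (hdY : 3 * (16 * ds * Y + (1 + 16 * s) * dY) = 4 * dP4 - dP1)
    (hs : ds = s * (1 + 16 * s) * Y)
    (hP1 : 12 * dP1 = P1 ^ 2 - Q1)
    (hP4 : 3 * dP4 = P4 ^ 2 - Q4)
    (hQ2 : 3 * dQ2 = 2 * (P2 * Q2 - R2))
    (hY : 3 * (1 + 16 * s) * Y = 4 * P4 - P1)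
    :
    36 * ((1 + 16 * s) * (-512*s^2*Y*dY - 512*s*Y^2*ds - 32*s*Y*dY - 16*Y^2*ds - 2*Y*dY + dQ2)) =
      (-512*s^2*Y - 32*s*Y - 2*Y) * (Q1 - 4096*s^2*Y^2 - 256*s*Y^2 - Y^2)
      + (384*P2*s + 24*P2) * (Q2 - 256*s^2*Y^2 - 16*s*Y^2 - Y^2)
      + (-384*s - 24) * (R2 + 4096*s^3*Y^3 + 384*s^2*Y^3 - 24*s*Y^3 - Y^3)
      + (8192*s^2*Y + 512*s*Y + 32*Y) * (Q4 - 16*s^2*Y^2 - 16*s*Y^2 - Y^2)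
      + (49152*s^3*Y^2 + 6144*s^2*Y^2 + 384*s*Y^2 + 12*Y^2) * (-P1 + 2*P2 - 32*s*Y - Y) := by
  linear_combination (-6144*s^2*Y - 384*s*Y - 24*Y) * hdY
    + (-9216*s*Y^2 + 576*Y^2) * hs
    + (512*s^2*Y + 32*s*Y + 2*Y) * hP1
    + (-8192*s^2*Y - 512*s*Y - 32*Y) * hP4
    + (192*s + 12) * hQ2
    + (512*P1*s^2*Y + 32*P1*s*Y + 2*P1*Y + 2048*P4*s^2*Y + 128*P4*s*Y + 8*P4*Y + 24576*s^3*Y^2 + 3072*s^2*Y^2 + 192*s*Y^2 + 6*Y^2) * hY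

theorem sys4_R2 {A : Type*} [CommRing A]
    (P1 P2 P4 Q1 Q2 Q4 R1 R2 R4 s Y dP1 dP2 dP4 dQ1 dQ2 dQ4 dR1 dR2 dR4 ds dY : A)
    (hdY : 3 * (16 * ds * Y + (1 + 16 * s) * dY) = 4 * dP4 - dP1)
    (hs : ds = s * (1 + 16 * s) * Y)
    (hP1 : 12 * dP1 = P1 ^ 2 - Q1)
    (hP4 : 3 * dP4 = P4 ^ 2 - Q4)
    (hR2 : dR2 = P2 * R2 - Q2 ^ 2)
    (hY : 3 * (1 + 16 * s) * Y = 4 * P4 - P1)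
    :
    36 * ((1 + 16 * s) * (12288*s^3*Y^2*dY + 12288*s^2*Y^3*ds + 1152*s^2*Y^2*dY + 768*s*Y^3*ds - 72*s*Y^2*dY - 24*Y^3*ds - 3*Y^2*dY + dR2)) =
      (12288*s^3*Y^2 + 1152*s^2*Y^2 - 72*s*Y^2 - 3*Y^2) * (Q1 - 4096*s^2*Y^2 - 256*s*Y^2 - Y^2)
      + (-576*Q2*s - 36*Q2 - 147456*s^3*Y^2 - 18432*s^2*Y^2 - 1152*s*Y^2 - 36*Y^2) * (Q2 - 256*s^2*Y^2 - 16*s*Y^2 - Y^2)
      + (576*P2*s + 36*P2) * (R2 + 4096*s^3*Y^3 + 384*s^2*Y^3 - 24*s*Y^3 - Y^3)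
      + (-196608*s^3*Y^2 - 18432*s^2*Y^2 + 1152*s*Y^2 + 48*Y^2) * (Q4 - 16*s^2*Y^2 - 16*s*Y^2 - Y^2)
      + (-1179648*s^4*Y^3 - 184320*s^3*Y^3 + 720*s*Y^3 + 18*Y^3) * (-P1 + 2*P2 - 32*s*Y - Y) := by
  linear_combination (147456*s^3*Y^2 + 13824*s^2*Y^2 - 864*s*Y^2 - 36*Y^2) * hdY
    + (221184*s^2*Y^3 + 55296*s*Y^3 + 864*Y^3) * hs
    + (-12288*s^3*Y^2 - 1152*s^2*Y^2 + 72*s*Y^2 + 3*Y^2) * hP1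
    + (196608*s^3*Y^2 + 18432*s^2*Y^2 - 1152*s*Y^2 - 48*Y^2) * hP4
    + (576*s + 36) * hR2
    + (-12288*P1*s^3*Y^2 - 1152*P1*s^2*Y^2 + 72*P1*s*Y^2 + 3*P1*Y^2 - 49152*P4*s^3*Y^2 - 4608*P4*s^2*Y^2 + 288*P4*s*Y^2 + 12*P4*Y^2 - 589824*s^4*Y^3 - 92160*s^3*Y^3 + 360*s*Y^3 + 9*Y^3) * hY

theorem sys4_Q4 {A : Type*} [CommRing A]
    (P1 P2 P4 Q1 Q2 Q4 R1 R2 R4 s Y dP1 dP2 dP4 dQ1 dQ2 dQ4 dR1 dR2 dR4 ds dY : A)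
    (hdY : 3 * (16 * ds * Y + (1 + 16 * s) * dY) = 4 * dP4 - dP1)
    (hs : ds = s * (1 + 16 * s) * Y)
    (hP1 : 12 * dP1 = P1 ^ 2 - Q1)
    (hP4 : 3 * dP4 = P4 ^ 2 - Q4)
    (hQ4 : 3 * dQ4 = 4 * (P4 * Q4 - R4))
    (hY : 3 * (1 + 16 * s) * Y = 4 * P4 - P1)
    :
    36 * ((1 + 16 * s) * (-32*s^2*Y*dY - 32*s*Y^2*ds - 32*s*Y*dY - 16*Y^2*ds - 2*Y*dY + dQ4)) =
      (-32*s^2*Y - 32*s*Y - 2*Y) * (Q1 - 4096*s^2*Y^2 - 256*s*Y^2 - Y^2)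
      + (768*P4*s + 48*P4 + 512*s^2*Y + 512*s*Y + 32*Y) * (Q4 - 16*s^2*Y^2 - 16*s*Y^2 - Y^2)
      + (-768*s - 48) * (R4 + 64*s^3*Y^3 - 120*s^2*Y^3 - 24*s*Y^3 - Y^3) := by
  linear_combination (-384*s^2*Y - 384*s*Y - 24*Y) * hdY
    + (8064*s*Y^2 + 576*Y^2) * hs
    + (32*s^2*Y + 32*s*Y + 2*Y) * hP1
    + (-512*s^2*Y - 512*s*Y - 32*Y) * hP4
    + (192*s + 12) * hQ4
    + (32*P1*s^2*Y + 32*P1*s*Y + 2*P1*Y + 128*P4*s^2*Y + 128*P4*s*Y + 8*P4*Y - 1536*s^3*Y^2 - 1632*s^2*Y^2 - 192*s*Y^2 - 6*Y^2) * hY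

theorem sys4_R4 {A : Type*} [CommRing A]
    (P1 P2 P4 Q1 Q2 Q4 R1 R2 R4 s Y dP1 dP2 dP4 dQ1 dQ2 dQ4 dR1 dR2 dR4 ds dY : A)
    (hdY : 3 * (16 * ds * Y + (1 + 16 * s) * dY) = 4 * dP4 - dP1)
    (hs : ds = s * (1 + 16 * s) * Y)
    (hP1 : 12 * dP1 = P1 ^ 2 - Q1)
    (hP4 : 3 * dP4 = P4 ^ 2 - Q4)
    (hR4 : dR4 = 2 * (P4 * R4 - Q4 ^ 2))
    (hY : 3 * (1 + 16 * s) * Y = 4 * P4 - P1)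
    :
    36 * ((1 + 16 * s) * (192*s^3*Y^2*dY + 192*s^2*Y^3*ds - 360*s^2*Y^2*dY - 240*s*Y^3*ds - 72*s*Y^2*dY - 24*Y^3*ds - 3*Y^2*dY + dR4)) =
      (192*s^3*Y^2 - 360*s^2*Y^2 - 72*s*Y^2 - 3*Y^2) * (Q1 - 4096*s^2*Y^2 - 256*s*Y^2 - Y^2)
      + (-1152*Q4*s - 72*Q4 - 21504*s^3*Y^2 - 13824*s^2*Y^2 - 1152*s*Y^2 - 24*Y^2) * (Q4 - 16*s^2*Y^2 - 16*s*Y^2 - Y^2)
      + (1152*P4*s + 72*P4) * (R4 + 64*s^3*Y^3 - 120*s^2*Y^3 - 24*s*Y^3 - Y^3) := by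
  linear_combination (2304*s^3*Y^2 - 4320*s^2*Y^2 - 864*s*Y^2 - 36*Y^2) * hdY
    + (76032*s^2*Y^3 + 19008*s*Y^3 + 864*Y^3) * hs
    + (-192*s^3*Y^2 + 360*s^2*Y^2 + 72*s*Y^2 + 3*Y^2) * hP1
    + (3072*s^3*Y^2 - 5760*s^2*Y^2 - 1152*s*Y^2 - 48*Y^2) * hP4
    + (576*s + 36) * hR4
    + (-192*P1*s^3*Y^2 + 360*P1*s^2*Y^2 + 72*P1*s*Y^2 + 3*P1*Y^2 - 768*P4*s^3*Y^2 + 1440*P4*s^2*Y^2 + 288*P4*s*Y^2 + 12*P4*Y^2 + 9216*s^4*Y^3 - 16704*s^3*Y^3 - 4536*s^2*Y^3 - 360*s*Y^3 - 9*Y^3) * hY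

theorem sys4_V {A : Type*} [CommRing A]
    (P1 P2 P4 Q1 Q2 Q4 R1 R2 R4 s Y dP1 dP2 dP4 dQ1 dQ2 dQ4 dR1 dR2 dR4 ds dY : A)
    (hdY : 3 * (16 * ds * Y + (1 + 16 * s) * dY) = 4 * dP4 - dP1)
    (hs : ds = s * (1 + 16 * s) * Y)
    (hP1 : 12 * dP1 = P1 ^ 2 - Q1)
    (hP2 : 6 * dP2 = P2 ^ 2 - Q2)
    (hP4 : 3 * dP4 = P4 ^ 2 - Q4)
    (hY : 3 * (1 + 16 * s) * Y = 4 * P4 - P1)
    :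
    36 * ((1 + 16 * s) * (-32*s*dY - 32*Y*ds - dP1 + 2*dP2 - dY)) =
      (16*s + 2) * (Q1 - 4096*s^2*Y^2 - 256*s*Y^2 - Y^2)
      + (-192*s - 12) * (Q2 - 256*s^2*Y^2 - 16*s*Y^2 - Y^2)
      + (512*s + 16) * (Q4 - 16*s^2*Y^2 - 16*s*Y^2 - Y^2)
      + (48*P1*s + 3*P1 + 96*P2*s + 6*P2 + 1536*s^2*Y + 144*s*Y + 3*Y) * (-P1 + 2*P2 - 32*s*Y - Y) := by
  linear_combination (-384*s - 12) * hdY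
    + (-576*Y) * hs
    + (-16*s - 2) * hP1
    + (192*s + 12) * hP2
    + (-512*s - 16) * hP4
    + (32*P1*s + P1 + 128*P4*s + 4*P4 + 1536*s^2*Y + 144*s*Y + 3*Y) * hY

end Abstract

end Fermat.Agent.S18x.IG.H8
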