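import Mathlib
import Fermat.Agent.S18x.IG.H8_Hm4Def

/-!
# S18 [IG] (I1-HM), level 4, part 3 (helper8): truncations modulo `X⁵`

Generated with a python script (exact arithmetic); all certificates are checked by
`linear_combination` in the quotient ring `ℚ⟦X⟧ ⧸ (X⁵)`.
-/

set_option autoImplicit false

namespace Fermat.Agent.S18x.IG.H8

open PowerSeries
open Fermat.Agent.S16x.Swd.H8
open scoped ArithmeticFunction.sigma

local notation "x5" => trQ 5 (PowerSeries.X : ℚ⟦X⟧)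

theorem x5_pow : x5 ^ 5 = 0 := trQ_X_pow 5

theorem tr_three_cancel (n : ℕ) (a : ℚ⟦X⟧ ⧸ trI n) (h : 3 * a = 0) : a = 0 := by
  have h3 : trQ n (PowerSeries.C (1 / 3 : ℚ)) * 3 = 1 := by
    have : (3 : ℚ⟦X⟧ ⧸ trI n) = trQ n (PowerSeries.C (3 : ℚ)) := by
      rw [map_ofNat, map_ofNat]
    rw [this, ← map_mul, ← map_mul]
    norm_num
  calc a = (trQ n (PowerSeries.C (1 / 3 : ℚ)) * 3) * a := by rw [h3, one_mul]
    _ = trQ n (PowerSeries.C (1 / 3 : ℚ)) * (3 * a) := by ring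
    _ = 0 := by rw [h, mul_zero]

theorem sigma_vals4 :
    (σ 1 1 = 1) ∧ (σ 1 2 = 3) ∧ (σ 1 3 = 4) ∧ (σ 1 4 = 7) ∧
    (σ 3 1 = 1) ∧ (σ 3 2 = 9) ∧ (σ 3 3 = 28) ∧ (σ 3 4 = 73) ∧
    (σ 5 1 = 1) ∧ (σ 5 2 = 33) ∧ (σ 5 3 = 244) ∧ (σ 5 4 = 1057) := by decide

theorem tr5_P1 : trQ 5 (Pser ℚ) = -168*x5^4 - 96*x5^3 - 72*x5^2 - 24*x5 + 1 := by
  obtain ⟨a1, a2, a3, a4, b1, b2, b3, b4, c1, c2, c3, c4⟩ := sigma_vals4
  rw [trQ_eq_sum]
  simp only [Finset.sum_range_succ, Finset.sum_range_zero, coeff_Pser]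
  norm_num [a1, a2, a3, a4, b1, b2, b3, b4, c1, c2, c3, c4, map_neg, map_mul, map_ofNat]
  try ring

theorem tr5_Q1 : trQ 5 (Qser ℚ) = 17520*x5^4 + 6720*x5^3 + 2160*x5^2 + 240*x5 + 1 := by
  obtain ⟨a1, a2, a3, a4, b1, b2, b3, b4, c1, c2, c3, c4⟩ := sigma_vals4
  rw [trQ_eq_sum]
  simp only [Finset.sum_range_succ, Finset.sum_range_zero, coeff_Qser]
  norm_num [a1, a2, a3, a4, b1, b2, b3, b4, c1, c2, c3, c4, map_neg, map_mul, map_ofNat]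
  try ring

theorem tr5_R1 : trQ 5 (Rser ℚ) = -532728*x5^4 - 122976*x5^3 - 16632*x5^2 - 504*x5 + 1 := by
  obtain ⟨a1, a2, a3, a4, b1, b2, b3, b4, c1, c2, c3, c4⟩ := sigma_vals4
  rw [trQ_eq_sum]
  simp only [Finset.sum_range_succ, Finset.sum_range_zero, coeff_Rser]
  norm_num [a1, a2, a3, a4, b1, b2, b3, b4, c1, c2, c3, c4, map_neg, map_mul, map_ofNat]
  try ring

theorem tr5_P2 : trQ 5 (Pd 2 two_ne_zero') = -72*x5^4 - 24*x5^2 + 1 := by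
  obtain ⟨a1, a2, a3, a4, b1, b2, b3, b4, c1, c2, c3, c4⟩ := sigma_vals4
  rw [trQ_eq_sum]
  simp only [Finset.sum_range_succ, Finset.sum_range_zero, coeff_Pser, Pd, PowerSeries.coeff_expand]
  norm_num [a1, a2, a3, a4, b1, b2, b3, b4, c1, c2, c3, c4, map_neg, map_mul, map_ofNat]
  try ring

theorem tr5_Q2 : trQ 5 (Qd 2 two_ne_zero') = 2160*x5^4 + 240*x5^2 + 1 := by
  obtain ⟨a1, a2, a3, a4, b1, b2, b3, b4, c1, c2, c3, c4⟩ := sigma_vals4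
  rw [trQ_eq_sum]
  simp only [Finset.sum_range_succ, Finset.sum_range_zero, coeff_Qser, Qd, PowerSeries.coeff_expand]
  norm_num [a1, a2, a3, a4, b1, b2, b3, b4, c1, c2, c3, c4, map_neg, map_mul, map_ofNat]
  try ring

theorem tr5_R2 : trQ 5 (Rd 2 two_ne_zero') = -16632*x5^4 - 504*x5^2 + 1 := by
  obtain ⟨a1, a2, a3, a4, b1, b2, b3, b4, c1, c2, c3, c4⟩ := sigma_vals4
  rw [trQ_eq_sum]
  simp only [Finset.sum_range_succ, Finset.sum_range_zero, coeff_Rser, Rd, PowerSeries.coeff_expand]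
  norm_num [a1, a2, a3, a4, b1, b2, b3, b4, c1, c2, c3, c4, map_neg, map_mul, map_ofNat]
  try ring

theorem tr5_P4 : trQ 5 (Pd 4 four_ne_zero') = -24*x5^4 + 1 := by
  obtain ⟨a1, a2, a3, a4, b1, b2, b3, b4, c1, c2, c3, c4⟩ := sigma_vals4
  rw [trQ_eq_sum]
  simp only [Finset.sum_range_succ, Finset.sum_range_zero, coeff_Pser, Pd, PowerSeries.coeff_expand]
  norm_num [a1, a2, a3, a4, b1, b2, b3, b4, c1, c2, c3, c4, map_neg, map_mul, map_ofNat]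
  try ring

theorem tr5_Q4 : trQ 5 (Qd 4 four_ne_zero') = 240*x5^4 + 1 := by
  obtain ⟨a1, a2, a3, a4, b1, b2, b3, b4, c1, c2, c3, c4⟩ := sigma_vals4
  rw [trQ_eq_sum]
  simp only [Finset.sum_range_succ, Finset.sum_range_zero, coeff_Qser, Qd, PowerSeries.coeff_expand]
  norm_num [a1, a2, a3, a4, b1, b2, b3, b4, c1, c2, c3, c4, map_neg, map_mul, map_ofNat]
  try ring

theorem tr5_R4 : trQ 5 (Rd 4 four_ne_zero') = -504*x5^4 + 1 := by
  obtain ⟨a1, a2, a3, a4, b1, b2, b3, b4, c1, c2, c3, c4⟩ := sigma_vals4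
  rw [trQ_eq_sum]
  simp only [Finset.sum_range_succ, Finset.sum_range_zero, coeff_Rser, Rd, PowerSeries.coeff_expand]
  norm_num [a1, a2, a3, a4, b1, b2, b3, b4, c1, c2, c3, c4, map_neg, map_mul, map_ofNat]
  try ring

theorem tr5_Eu : trQ 5 Eu = -x5^2 - x5 + 1 := by
  rw [trQ_Eq 4]
  simp only [Finset.prod_range_succ, Finset.prod_range_zero]
  linear_combination (x5^5 - x5^4 - x5^3 + 2) * x5_pow

theorem coeff_Eu_zero : Eu.coeff 0 = 1 := by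
  rw [PowerSeries.coeff_zero_eq_constantCoeff_apply, constantCoeff_Eq]

theorem coeff_Eu_one : Eu.coeff 1 = -1 := by
  have h : trQ 5 Eu = trQ 5 (1 - PowerSeries.X - PowerSeries.X ^ 2) := by
    rw [tr5_Eu, map_sub, map_sub, map_one, map_pow]
    ring
  have h1 := (trQ_eq_iff 5 _ _).mp h 1 (by norm_num)
  rw [h1]
  simp [PowerSeries.coeff_X, PowerSeries.coeff_X_pow, PowerSeries.coeff_one]

theorem tr5_E4x : trQ 5 E4x = -x5^4 + 1 := by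
  rw [trQ_eq_sum]
  simp only [Finset.sum_range_succ, Finset.sum_range_zero, E4x, PowerSeries.coeff_expand]
  norm_num [coeff_Eu_zero, coeff_Eu_one, map_neg]
  try ring

theorem tr5_s4 : trQ 5 s4 = 192*x5^4 + 44*x5^3 + 8*x5^2 + x5 := by
  have h := congrArg (trQ 5) s4_mul
  rw [map_mul, map_mul, map_pow, map_pow, tr5_Eu, tr5_E4x] at h
  linear_combination (726*x5^4 + 192*x5^3 + 44*x5^2 + 8*x5 + 1) * h
    + (trQ 5 s4 * (-726*x5^15 - 6000*x5^14 - 16100*x5^13 - 4200*x5^12 + 49875*x5^11 + 53928*x5^10 - 67500*x5^9 - 105600*x5^8 + 63300*x5^7 + 105000*x5^6 - 53844*x5^5 - 56000*x5^4 + 36225*x5^3 + 10200*x5^2 - 12000*x5 + 2472) + (726*x5^32 + 192*x5^31 + 44*x5^30 + 8*x5^29 - 5807*x5^28 - 1536*x5^27 - 352*x5^26 - 64*x5^25 + 20320*x5^24 + 5376*x5^23 + 1232*x5^22 + 224*x5^21 - 40628*x5^20 - 10752*x5^19 - 2464*x5^18 - 448*x5^17 + 50764*x5^16 + 13440*x5^15 + 3080*x5^14 + 560*x5^13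 - 40586*x5^12 - 10752*x5^11 - 2464*x5^10 - 448*x5^9 + 20272*x5^8 + 5376*x5^7 + 1232*x5^6 + 224*x5^5 - 5780*x5^4 - 1536*x5^3 - 352*x5^2 - 64*x5 + 718)) * x5_pow

theorem tr5_Y4 : trQ 5 Y4 = 24*x5^4 - 32*x5^3 + 24*x5^2 - 8*x5 + 1 := by
  have h := congrArg (trQ 5) hY4
  rw [map_mul, map_mul, map_add, map_mul, map_sub, map_mul, map_one, tr5_s4, tr5_P4, tr5_P1] at h
  simp only [map_ofNat] at h
  have h3 : 3 * (trQ 5 Y4 - (24*x5^4 - 32*x5^3 + 24*x5^2 - 8*x5 + 1)) = 0 := by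
    linear_combination (3072*x5^4 - 704*x5^3 + 128*x5^2 - 16*x5 + 1) * h
      - 3 * (trQ 5 Y4 * (9437184*x5^3 + 290816*x5) - (73728*x5^3 + 81408*x5^2 + 54272*x5 + 11392)) * x5_pow
  exact sub_eq_zero.mp (tr_three_cancel 5 _ h3)


end Fermat.Agent.S18x.IG.H8
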