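import Mathlib
import Fermat.Agent.S18x.IG.H8_Hm4Sys
import Fermat.Agent.S18x.IG.H8_Hm4Tr

/-!
# S18 [IG] (I1-HM), level 4, part 4 (helper8): the seven defects vanish

`G4 i = 0` for the seven defects (by `ode_unique`): hence
`Q(q^d) = A_d(s) Y²`, `R(q^d) = B_d(s) Y³` (`d = 1, 2, 4`), `2 P(q²) - P(q) = (1 + 32 s) Y`.
Generated with a python script; all identities are checked by `linear_combination`.
-/

set_option autoImplicit false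
set_option linter.unusedSimpArgs false
set_option linter.unusedTactic false
set_option linter.unusedVariables false

namespace Fermat.Agent.S18x.IG.H8

open PowerSeries
open Fermat.Agent.S16x.Swd.H8

local notation "x5" => trQ 5 (PowerSeries.X : ℚ⟦X⟧)

/-- a defect of level 4 -/
noncomputable def GQ1 : ℚ⟦X⟧ := (Qser ℚ) - 4096*s4^2*Y4^2 - 256*s4*Y4^2 - Y4^2

/-- a defect of level 4 -/
noncomputable def GR1 : ℚ⟦X⟧ := (Rser ℚ) + 262144*s4^3*Y4^3 + 24576*s4^2*Y4^3 + 480*s4*Y4^3 - Y4^3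

/-- a defect of level 4 -/
noncomputable def GQ2 : ℚ⟦X⟧ := (Qd 2 two_ne_zero') - 256*s4^2*Y4^2 - 16*s4*Y4^2 - Y4^2

/-- a defect of level 4 -/
noncomputable def GR2 : ℚ⟦X⟧ := (Rd 2 two_ne_zero') + 4096*s4^3*Y4^3 + 384*s4^2*Y4^3 - 24*s4*Y4^3 - Y4^3

/-- a defect of level 4 -/
noncomputable def GQ4 : ℚ⟦X⟧ := (Qd 4 four_ne_zero') - 16*s4^2*Y4^2 - 16*s4*Y4^2 - Y4^2

/-- a defect of level 4 -/
noncomputable def GR4 : ℚ⟦X⟧ := (Rd 4 four_ne_zero') + 64*s4^3*Y4^3 - 120*s4^2*Y4^3 - 24*s4*Y4^3 - Y4^3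

/-- a defect of level 4 -/
noncomputable def GV4 : ℚ⟦X⟧ := -(Pser ℚ) + 2*(Pd 2 two_ne_zero') - 32*s4*Y4 - Y4

/-- the vector of the seven defects -/
noncomputable def G4 : Fin 7 → ℚ⟦X⟧ := ![GQ1, GR1, GQ2, GR2, GQ4, GR4, GV4]

/-- the coefficient matrix of the linear system `36 (1 + 16 s) θ G = M G` -/
noncomputable def M4 : Fin 7 → Fin 7 → ℚ⟦X⟧ :=
  ![![192*(Pser ℚ)*s4 + 12*(Pser ℚ) - 8192*s4^2*Y4 - 512*s4*Y4 - 2*Y4,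
      -192*s4 - 12,
      0,
      0,
      131072*s4^2*Y4 + 8192*s4*Y4 + 32*Y4,
      0,
      0],
    ![-288*(Qser ℚ)*s4 - 18*(Qser ℚ) - 393216*s4^3*Y4^2 - 73728*s4^2*Y4^2 - 3456*s4*Y4^2 - 21*Y4^2,
      288*(Pser ℚ)*s4 + 18*(Pser ℚ),
      0,
      0,
      -12582912*s4^3*Y4^2 - 1179648*s4^2*Y4^2 - 23040*s4*Y4^2 + 48*Y4^2,
      0,
      0],
    ![-512*s4^2*Y4 - 32*s4*Y4 - 2*Y4,
      0,
      384*(Pd 2 two_ne_zero')*s4 + 24*(Pd 2 two_ne_zero'),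
      -384*s4 - 24,
      8192*s4^2*Y4 + 512*s4*Y4 + 32*Y4,
      0,
      49152*s4^3*Y4^2 + 6144*s4^2*Y4^2 + 384*s4*Y4^2 + 12*Y4^2],
    ![12288*s4^3*Y4^2 + 1152*s4^2*Y4^2 - 72*s4*Y4^2 - 3*Y4^2,
      0,
      -576*(Qd 2 two_ne_zero')*s4 - 36*(Qd 2 two_ne_zero') - 147456*s4^3*Y4^2 - 18432*s4^2*Y4^2 - 1152*s4*Y4^2 - 36*Y4^2,
      576*(Pd 2 two_ne_zero')*s4 + 36*(Pd 2 two_ne_zero'),
      -196608*s4^3*Y4^2 - 18432*s4^2*Y4^2 + 1152*s4*Y4^2 + 48*Y4^2,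
      0,
      -1179648*s4^4*Y4^3 - 184320*s4^3*Y4^3 + 720*s4*Y4^3 + 18*Y4^3],
    ![-32*s4^2*Y4 - 32*s4*Y4 - 2*Y4,
      0,
      0,
      0,
      768*(Pd 4 four_ne_zero')*s4 + 48*(Pd 4 four_ne_zero') + 512*s4^2*Y4 + 512*s4*Y4 + 32*Y4,
      -768*s4 - 48,
      0],
    ![192*s4^3*Y4^2 - 360*s4^2*Y4^2 - 72*s4*Y4^2 - 3*Y4^2,
      0,
      0,
      0,
      -1152*(Qd 4 four_ne_zero')*s4 - 72*(Qd 4 four_ne_zero') - 21504*s4^3*Y4^2 - 13824*s4^2*Y4^2 - 1152*s4*Y4^2 - 24*Y4^2,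
      1152*(Pd 4 four_ne_zero')*s4 + 72*(Pd 4 four_ne_zero'),
      0],
    ![16*s4 + 2,
      0,
      -192*s4 - 12,
      0,
      512*s4 + 16,
      0,
      48*(Pser ℚ)*s4 + 3*(Pser ℚ) + 96*(Pd 2 two_ne_zero')*s4 + 6*(Pd 2 two_ne_zero') + 1536*s4^2*Y4 + 144*s4*Y4 + 3*Y4]]

theorem cc_P1 : PowerSeries.constantCoeff (Pser ℚ) = 1 := by
  rw [← PowerSeries.coeff_zero_eq_constantCoeff_apply, coeff_Pser, if_pos rfl]

theorem cc_Q1 : PowerSeries.constantCoeff (Qser ℚ) = 1 := by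
  rw [← PowerSeries.coeff_zero_eq_constantCoeff_apply, coeff_Qser, if_pos rfl]

theorem cc_R1 : PowerSeries.constantCoeff (Rser ℚ) = 1 := by
  rw [← PowerSeries.coeff_zero_eq_constantCoeff_apply, coeff_Rser, if_pos rfl]

theorem cc_Pd (d : ℕ) (hd : d ≠ 0) : PowerSeries.constantCoeff (Pd d hd) = 1 := by
  rw [Pd, PowerSeries.constantCoeff_expand, cc_P1]

theorem cc_Qd (d : ℕ) (hd : d ≠ 0) : PowerSeries.constantCoeff (Qd d hd) = 1 := by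
  rw [Qd, PowerSeries.constantCoeff_expand, cc_Q1]

theorem cc_Rd (d : ℕ) (hd : d ≠ 0) : PowerSeries.constantCoeff (Rd d hd) = 1 := by
  rw [Rd, PowerSeries.constantCoeff_expand, cc_R1]

theorem cc_Y4 : PowerSeries.constantCoeff Y4 = 1 := by
  have h := congrArg (PowerSeries.constantCoeff (R := ℚ)) hY4
  rw [map_mul, map_mul, constantCoeff_D4, map_sub, map_mul, cc_Pd, cc_P1, map_ofNat, map_ofNat] at h
  linarith

theorem thD_GQ1 : thD GQ1 = -8192*s4^2*Y4*(thD Y4) - 8192*s4*Y4^2*(thD s4) - 512*s4*Y4*(thD Y4) - 256*Y4^2*(thD s4) - 2*Y4*(thD Y4) + (thD (Qser ℚ)) := by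
  unfold GQ1
  simp only [map_sub, map_add, map_neg, map_mul, Derivation.leibniz, Derivation.leibniz_pow,
    Derivation.map_one_eq_zero, thD_ofNat, smul_eq_mul, nsmul_eq_mul]
  push_cast
  ring

theorem thD_GR1 : thD GR1 = 786432*s4^3*Y4^2*(thD Y4) + 786432*s4^2*Y4^3*(thD s4) + 73728*s4^2*Y4^2*(thD Y4) + 49152*s4*Y4^3*(thD s4) + 1440*s4*Y4^2*(thD Y4) + 480*Y4^3*(thD s4) - 3*Y4^2*(thD Y4) + (thD (Rser ℚ)) := by
  unfold GR1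
  simp only [map_sub, map_add, map_neg, map_mul, Derivation.leibniz, Derivation.leibniz_pow,
    Derivation.map_one_eq_zero, thD_ofNat, smul_eq_mul, nsmul_eq_mul]
  push_cast
  ring

theorem thD_GQ2 : thD GQ2 = -512*s4^2*Y4*(thD Y4) - 512*s4*Y4^2*(thD s4) - 32*s4*Y4*(thD Y4) - 16*Y4^2*(thD s4) - 2*Y4*(thD Y4) + (thD (Qd 2 two_ne_zero')) := by
  unfold GQ2
  simp only [map_sub, map_add, map_neg, map_mul, Derivation.leibniz, Derivation.leibniz_pow,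
    Derivation.map_one_eq_zero, thD_ofNat, smul_eq_mul, nsmul_eq_mul]
  push_cast
  ring

theorem thD_GR2 : thD GR2 = 12288*s4^3*Y4^2*(thD Y4) + 12288*s4^2*Y4^3*(thD s4) + 1152*s4^2*Y4^2*(thD Y4) + 768*s4*Y4^3*(thD s4) - 72*s4*Y4^2*(thD Y4) - 24*Y4^3*(thD s4) - 3*Y4^2*(thD Y4) + (thD (Rd 2 two_ne_zero')) := by
  unfold GR2
  simp only [map_sub, map_add, map_neg, map_mul, Derivation.leibniz, Derivation.leibniz_pow,
    Derivation.map_one_eq_zero, thD_ofNat, smul_eq_mul, nsmul_eq_mul]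
  push_cast
  ring

theorem thD_GQ4 : thD GQ4 = -32*s4^2*Y4*(thD Y4) - 32*s4*Y4^2*(thD s4) - 32*s4*Y4*(thD Y4) - 16*Y4^2*(thD s4) - 2*Y4*(thD Y4) + (thD (Qd 4 four_ne_zero')) := by
  unfold GQ4
  simp only [map_sub, map_add, map_neg, map_mul, Derivation.leibniz, Derivation.leibniz_pow,
    Derivation.map_one_eq_zero, thD_ofNat, smul_eq_mul, nsmul_eq_mul]
  push_cast
  ring

theorem thD_GR4 : thD GR4 = 192*s4^3*Y4^2*(thD Y4) + 192*s4^2*Y4^3*(thD s4) - 360*s4^2*Y4^2*(thD Y4) - 240*s4*Y4^3*(thD s4) - 72*s4*Y4^2*(thD Y4) - 24*Y4^3*(thD s4) - 3*Y4^2*(thD Y4) + (thD (Rd 4 four_ne_zero')) := by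
  unfold GR4
  simp only [map_sub, map_add, map_neg, map_mul, Derivation.leibniz, Derivation.leibniz_pow,
    Derivation.map_one_eq_zero, thD_ofNat, smul_eq_mul, nsmul_eq_mul]
  push_cast
  ring

theorem thD_GV4 : thD GV4 = -32*s4*(thD Y4) - 32*Y4*(thD s4) - (thD (Pser ℚ)) + 2*(thD (Pd 2 two_ne_zero')) - (thD Y4) := by
  unfold GV4
  simp only [map_sub, map_add, map_neg, map_mul, Derivation.leibniz, Derivation.leibniz_pow,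
    Derivation.map_one_eq_zero, thD_ofNat, smul_eq_mul, nsmul_eq_mul]
  push_cast
  ring

theorem ram4_P1 : 12 * thD (Pser ℚ) = Pser ℚ ^ 2 - Qser ℚ := by
  have h := ramanujan_P ℚ
  rwa [← thD_apply] at h

theorem ram4_Q1 : 3 * thD (Qser ℚ) = Pser ℚ * Qser ℚ - Rser ℚ := by
  have h := ramanujan_Q ℚ
  rwa [← thD_apply] at h

theorem ram4_R1 : 2 * thD (Rser ℚ) = Pser ℚ * Rser ℚ - Qser ℚ ^ 2 := by
  have h := ramanujan_R ℚ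
  rwa [← thD_apply] at h

theorem ram4_P2 : 6 * thD (Pd 2 two_ne_zero') = Pd 2 two_ne_zero' ^ 2 - Qd 2 two_ne_zero' := by
  have h := ram_Pd 2 two_ne_zero'
  push_cast at h
  have h2 : (2 : ℚ⟦X⟧) * (6 * thD (Pd 2 two_ne_zero') - (Pd 2 two_ne_zero' ^ 2 - Qd 2 two_ne_zero')) = 0 := by
    linear_combination h
  rcases mul_eq_zero.mp h2 with h3 | h3
  · exfalso
    have h' := congrArg (PowerSeries.constantCoeff (R := ℚ)) h3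
    rw [map_ofNat, map_zero] at h'
    norm_num at h'
  · exact sub_eq_zero.mp h3

theorem ram4_Q2 : 3 * thD (Qd 2 two_ne_zero') =
    2 * (Pd 2 two_ne_zero' * Qd 2 two_ne_zero' - Rd 2 two_ne_zero') := by
  have h := ram_Qd 2 two_ne_zero'
  push_cast at h
  exact h

theorem ram4_R2 : thD (Rd 2 two_ne_zero') =
    Pd 2 two_ne_zero' * Rd 2 two_ne_zero' - Qd 2 two_ne_zero' ^ 2 := by
  have h := ram_Rd 2 two_ne_zero'
  push_cast at h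
  have h2 : (2 : ℚ⟦X⟧) * (thD (Rd 2 two_ne_zero') -
      (Pd 2 two_ne_zero' * Rd 2 two_ne_zero' - Qd 2 two_ne_zero' ^ 2)) = 0 := by
    linear_combination h
  rcases mul_eq_zero.mp h2 with h3 | h3
  · exfalso
    have h' := congrArg (PowerSeries.constantCoeff (R := ℚ)) h3
    rw [map_ofNat, map_zero] at h'
    norm_num at h'
  · exact sub_eq_zero.mp h3

theorem ram4_P4 : 3 * thD (Pd 4 four_ne_zero') = Pd 4 four_ne_zero' ^ 2 - Qd 4 four_ne_zero' := by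
  have h := ram_Pd 4 four_ne_zero'
  push_cast at h
  have h2 : (4 : ℚ⟦X⟧) * (3 * thD (Pd 4 four_ne_zero') -
      (Pd 4 four_ne_zero' ^ 2 - Qd 4 four_ne_zero')) = 0 := by
    linear_combination h
  rcases mul_eq_zero.mp h2 with h3 | h3
  · exfalso
    have h' := congrArg (PowerSeries.constantCoeff (R := ℚ)) h3
    rw [map_ofNat, map_zero] at h'
    norm_num at h'
  · exact sub_eq_zero.mp h3

theorem ram4_Q4 : 3 * thD (Qd 4 four_ne_zero') =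
    4 * (Pd 4 four_ne_zero' * Qd 4 four_ne_zero' - Rd 4 four_ne_zero') := by
  have h := ram_Qd 4 four_ne_zero'
  push_cast at h
  exact h

theorem ram4_R4 : thD (Rd 4 four_ne_zero') =
    2 * (Pd 4 four_ne_zero' * Rd 4 four_ne_zero' - Qd 4 four_ne_zero' ^ 2) := by
  have h := ram_Rd 4 four_ne_zero'
  push_cast at h
  have h2 : (2 : ℚ⟦X⟧) * (thD (Rd 4 four_ne_zero') -
      2 * (Pd 4 four_ne_zero' * Rd 4 four_ne_zero' - Qd 4 four_ne_zero' ^ 2)) = 0 := by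
    linear_combination h
  rcases mul_eq_zero.mp h2 with h3 | h3
  · exfalso
    have h' := congrArg (PowerSeries.constantCoeff (R := ℚ)) h3
    rw [map_ofNat, map_zero] at h'
    norm_num at h'
  · exact sub_eq_zero.mp h3

theorem ode4_GQ1 : 36 * ((1 + 16 * s4) * thD GQ1) =
    (192*(Pser ℚ)*s4 + 12*(Pser ℚ) - 8192*s4^2*Y4 - 512*s4*Y4 - 2*Y4) * GQ1
    + (-192*s4 - 12) * GR1
    + (131072*s4^2*Y4 + 8192*s4*Y4 + 32*Y4) * GQ4 := by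
  have h := sys4_Q1 (Pser ℚ) (Pd 2 two_ne_zero') (Pd 4 four_ne_zero') (Qser ℚ) (Qd 2 two_ne_zero') (Qd 4 four_ne_zero') (Rser ℚ) (Rd 2 two_ne_zero') (Rd 4 four_ne_zero') s4 Y4 (thD (Pser ℚ)) (thD (Pd 2 two_ne_zero')) (thD (Pd 4 four_ne_zero')) (thD (Qser ℚ)) (thD (Qd 2 two_ne_zero')) (thD (Qd 4 four_ne_zero')) (thD (Rser ℚ)) (thD (Rd 2 two_ne_zero')) (thD (Rd 4 four_ne_zero')) (thD s4) (thD Y4)
    thD_Y4 thD_s4 ram4_P1 ram4_P4 ram4_Q1 hY4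
  rw [thD_GQ1]
  unfold GQ1 GQ4 GR1
  linear_combination h

theorem ode4_GR1 : 36 * ((1 + 16 * s4) * thD GR1) =
    (-288*(Qser ℚ)*s4 - 18*(Qser ℚ) - 393216*s4^3*Y4^2 - 73728*s4^2*Y4^2 - 3456*s4*Y4^2 - 21*Y4^2) * GQ1
    + (288*(Pser ℚ)*s4 + 18*(Pser ℚ)) * GR1
    + (-12582912*s4^3*Y4^2 - 1179648*s4^2*Y4^2 - 23040*s4*Y4^2 + 48*Y4^2) * GQ4 := by
  have h := sys4_R1 (Pser ℚ) (Pd 2 two_ne_zero') (Pd 4 four_ne_zero') (Qser ℚ) (Qd 2 two_ne_zero') (Qd 4 four_ne_zero') (Rser ℚ) (Rd 2 two_ne_zero') (Rd 4 four_ne_zero') s4 Y4 (thD (Pser ℚ)) (thD (Pd 2 two_ne_zero')) (thD (Pd 4 four_ne_zero')) (thD (Qser ℚ)) (thD (Qd 2 two_ne_zero')) (thD (Qd 4 four_ne_zero')) (thD (Rser ℚ)) (thD (Rd 2 two_ne_zero')) (thD (Rd 4 four_ne_zero')) (thD s4) (thD Y4)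
    thD_Y4 thD_s4 ram4_P1 ram4_P4 ram4_R1 hY4
  rw [thD_GR1]
  unfold GQ1 GQ4 GR1
  linear_combination h

theorem ode4_GQ2 : 36 * ((1 + 16 * s4) * thD GQ2) =
    (-512*s4^2*Y4 - 32*s4*Y4 - 2*Y4) * GQ1
    + (384*(Pd 2 two_ne_zero')*s4 + 24*(Pd 2 two_ne_zero')) * GQ2
    + (-384*s4 - 24) * GR2
    + (8192*s4^2*Y4 + 512*s4*Y4 + 32*Y4) * GQ4
    + (49152*s4^3*Y4^2 + 6144*s4^2*Y4^2 + 384*s4*Y4^2 + 12*Y4^2) * GV4 := by
  have h := sys4_Q2 (Pser ℚ) (Pd 2 two_ne_zero') (Pd 4 four_ne_zero') (Qser ℚ) (Qd 2 two_ne_zero') (Qd 4 four_ne_zero') (Rser ℚ) (Rd 2 two_ne_zero') (Rd 4 four_ne_zero') s4 Y4 (thD (Pser ℚ)) (thD (Pd 2 two_ne_zero')) (thD (Pd 4 four_ne_zero')) (thD (Qser ℚ)) (thD (Qd 2 two_ne_zero')) (thD (Qd 4 four_ne_zero')) (thD (Rser ℚ)) (thD (Rd 2 two_ne_zero')) (thD (Rd 4 four_ne_zero')) (thD s4) (thD Y4)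
    thD_Y4 thD_s4 ram4_P1 ram4_P4 ram4_Q2 hY4
  rw [thD_GQ2]
  unfold GQ1 GQ2 GQ4 GR2 GV4
  linear_combination h

theorem ode4_GR2 : 36 * ((1 + 16 * s4) * thD GR2) =
    (12288*s4^3*Y4^2 + 1152*s4^2*Y4^2 - 72*s4*Y4^2 - 3*Y4^2) * GQ1
    + (-576*(Qd 2 two_ne_zero')*s4 - 36*(Qd 2 two_ne_zero') - 147456*s4^3*Y4^2 - 18432*s4^2*Y4^2 - 1152*s4*Y4^2 - 36*Y4^2) * GQ2
    + (576*(Pd 2 two_ne_zero')*s4 + 36*(Pd 2 two_ne_zero')) * GR2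
    + (-196608*s4^3*Y4^2 - 18432*s4^2*Y4^2 + 1152*s4*Y4^2 + 48*Y4^2) * GQ4
    + (-1179648*s4^4*Y4^3 - 184320*s4^3*Y4^3 + 720*s4*Y4^3 + 18*Y4^3) * GV4 := by
  have h := sys4_R2 (Pser ℚ) (Pd 2 two_ne_zero') (Pd 4 four_ne_zero') (Qser ℚ) (Qd 2 two_ne_zero') (Qd 4 four_ne_zero') (Rser ℚ) (Rd 2 two_ne_zero') (Rd 4 four_ne_zero') s4 Y4 (thD (Pser ℚ)) (thD (Pd 2 two_ne_zero')) (thD (Pd 4 four_ne_zero')) (thD (Qser ℚ)) (thD (Qd 2 two_ne_zero')) (thD (Qd 4 four_ne_zero')) (thD (Rser ℚ)) (thD (Rd 2 two_ne_zero')) (thD (Rd 4 four_ne_zero')) (thD s4) (thD Y4)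
    thD_Y4 thD_s4 ram4_P1 ram4_P4 ram4_R2 hY4
  rw [thD_GR2]
  unfold GQ1 GQ2 GQ4 GR2 GV4
  linear_combination h

theorem ode4_GQ4 : 36 * ((1 + 16 * s4) * thD GQ4) =
    (-32*s4^2*Y4 - 32*s4*Y4 - 2*Y4) * GQ1
    + (768*(Pd 4 four_ne_zero')*s4 + 48*(Pd 4 four_ne_zero') + 512*s4^2*Y4 + 512*s4*Y4 + 32*Y4) * GQ4
    + (-768*s4 - 48) * GR4 := by
  have h := sys4_Q4 (Pser ℚ) (Pd 2 two_ne_zero') (Pd 4 four_ne_zero') (Qser ℚ) (Qd 2 two_ne_zero') (Qd 4 four_ne_zero') (Rser ℚ) (Rd 2 two_ne_zero') (Rd 4 four_ne_zero') s4 Y4 (thD (Pser ℚ)) (thD (Pd 2 two_ne_zero')) (thD (Pd 4 four_ne_zero')) (thD (Qser ℚ)) (thD (Qd 2 two_ne_zero')) (thD (Qd 4 four_ne_zero')) (thD (Rser ℚ)) (thD (Rd 2 two_ne_zero')) (thD (Rd 4 four_ne_zero')) (thD s4) (thD Y4)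
    thD_Y4 thD_s4 ram4_P1 ram4_P4 ram4_Q4 hY4
  rw [thD_GQ4]
  unfold GQ1 GQ4 GR4
  linear_combination h

theorem ode4_GR4 : 36 * ((1 + 16 * s4) * thD GR4) =
    (192*s4^3*Y4^2 - 360*s4^2*Y4^2 - 72*s4*Y4^2 - 3*Y4^2) * GQ1
    + (-1152*(Qd 4 four_ne_zero')*s4 - 72*(Qd 4 four_ne_zero') - 21504*s4^3*Y4^2 - 13824*s4^2*Y4^2 - 1152*s4*Y4^2 - 24*Y4^2) * GQ4
    + (1152*(Pd 4 four_ne_zero')*s4 + 72*(Pd 4 four_ne_zero')) * GR4 := by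
  have h := sys4_R4 (Pser ℚ) (Pd 2 two_ne_zero') (Pd 4 four_ne_zero') (Qser ℚ) (Qd 2 two_ne_zero') (Qd 4 four_ne_zero') (Rser ℚ) (Rd 2 two_ne_zero') (Rd 4 four_ne_zero') s4 Y4 (thD (Pser ℚ)) (thD (Pd 2 two_ne_zero')) (thD (Pd 4 four_ne_zero')) (thD (Qser ℚ)) (thD (Qd 2 two_ne_zero')) (thD (Qd 4 four_ne_zero')) (thD (Rser ℚ)) (thD (Rd 2 two_ne_zero')) (thD (Rd 4 four_ne_zero')) (thD s4) (thD Y4)
    thD_Y4 thD_s4 ram4_P1 ram4_P4 ram4_R4 hY4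
  rw [thD_GR4]
  unfold GQ1 GQ4 GR4
  linear_combination h

theorem ode4_GV4 : 36 * ((1 + 16 * s4) * thD GV4) =
    (16*s4 + 2) * GQ1
    + (-192*s4 - 12) * GQ2
    + (512*s4 + 16) * GQ4
    + (48*(Pser ℚ)*s4 + 3*(Pser ℚ) + 96*(Pd 2 two_ne_zero')*s4 + 6*(Pd 2 two_ne_zero') + 1536*s4^2*Y4 + 144*s4*Y4 + 3*Y4) * GV4 := by
  have h := sys4_V (Pser ℚ) (Pd 2 two_ne_zero') (Pd 4 four_ne_zero') (Qser ℚ) (Qd 2 two_ne_zero') (Qd 4 four_ne_zero') (Rser ℚ) (Rd 2 two_ne_zero') (Rd 4 four_ne_zero') s4 Y4 (thD (Pser ℚ)) (thD (Pd 2 two_ne_zero')) (thD (Pd 4 four_ne_zero')) (thD (Qser ℚ)) (thD (Qd 2 two_ne_zero')) (thD (Qd 4 four_ne_zero')) (thD (Rser ℚ)) (thD (Rd 2 two_ne_zero')) (thD (Rd 4 four_ne_zero')) (thD s4) (thD Y4)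
    thD_Y4 thD_s4 ram4_P1 ram4_P2 ram4_P4 hY4
  rw [thD_GV4]
  unfold GQ1 GQ2 GQ4 GV4
  linear_combination h


end Fermat.Agent.S18x.IG.H8
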