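import Mathlib
import Fermat.Agent.S18x.IG.H8_Hm4G

/-!
# S18 [IG] (I1-HM), level 4, part 5 (helper8): `G4 = 0`

* `tr5_G*` : the seven defects vanish modulo `X⁵`;
* `M4_inj` : the indicial matrix has no eigenvalue `n ≥ 5`
  (`det (36 n - M(0)) = (36 n)⁴ (36 n - 36)(36 n - 72)(36 n - 144)`);
* `G4_zero : ∀ i, G4 i = 0`, and the resulting identities
  `Q(q^d) = A_d(s) Y²`, `R(q^d) = B_d(s) Y³`.
-/

set_option autoImplicit false
set_option linter.unusedSimpArgs false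
set_option linter.unusedVariables false
set_option linter.unusedTactic false

namespace Fermat.Agent.S18x.IG.H8

open PowerSeries
open Fermat.Agent.S16x.Swd.H8

local notation "x5" => trQ 5 (PowerSeries.X : ℚ⟦X⟧)

theorem tr5_GQ1 : trQ 5 GQ1 = 0 := by
  unfold GQ1
  simp only [map_sub, map_add, map_neg, map_mul, map_pow, map_one, map_ofNat, tr5_P1, tr5_P2, tr5_P4, tr5_Q1, tr5_Q2,
    tr5_Q4, tr5_R1, tr5_R2, tr5_R4, tr5_s4, tr5_Y4]
  linear_combination (-86973087744*x5^11 + 192065568768*x5^10 - 234079911936*x5^9 + 168258699264*x5^8 - 76832309248*x5^7 + 19702546432*x5^6 - 2000551936*x5^5 - 76038144*x5^4 + 26738112*x5^3 - 15186432*x5^2 + 3471232*x5 + 153472) * x5_pow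

theorem tr5_GR1 : trQ 5 GR1 = 0 := by
  unfold GR1
  simp only [map_sub, map_add, map_neg, map_mul, map_pow, map_one, map_ofNat, tr5_P1, tr5_P2, tr5_P4, tr5_Q1, tr5_Q2,
    tr5_Q4, tr5_R1, tr5_R2, tr5_R4, tr5_s4, tr5_Y4]
  linear_combination (25649407252758528*x5^19 - 84963661524762624*x5^18 + 150456483950100480*x5^17 - 171503739255914496*x5^16 + 137021345211875328*x5^15 - 78015594145775616*x5^14 + 31330885085167616*x5^13 - 8375477748105216*x5^12 + 1273028271931392*x5^11 - 44886407053312*x5^10 - 22847395332096*x5^9 + 8396196691968*x5^8 - 2075405071872*x5^7 + 178530318336*x5^6 + 17592958464*x5^5 - 763458048*x5^4 + 490137408*x5^3 - 173532672*x5^2 - 24041856*x5 + 1230720) * x5_pow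

theorem tr5_GQ2 : trQ 5 GQ2 = 0 := by
  unfold GQ2
  simp only [map_sub, map_add, map_neg, map_mul, map_pow, map_one, map_ofNat, tr5_P1, tr5_P2, tr5_P4, tr5_Q1, tr5_Q2,
    tr5_Q4, tr5_R1, tr5_R2, tr5_R4, tr5_s4, tr5_Y4]
  linear_combination (-5435817984*x5^11 + 12004098048*x5^10 - 14629994496*x5^9 + 10516168704*x5^8 - 4802019328*x5^7 + 1231409152*x5^6 - 125034496*x5^5 - 4752384*x5^4 + 1670592*x5^3 - 947712*x5^2 + 214912*x5 + 11392) * x5_pow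

theorem tr5_GR2 : trQ 5 GR2 = 0 := by
  unfold GR2
  simp only [map_sub, map_add, map_neg, map_mul, map_pow, map_one, map_ofNat, tr5_P1, tr5_P2, tr5_P4, tr5_Q1, tr5_Q2,
    tr5_Q4, tr5_R1, tr5_R2, tr5_R4, tr5_s4, tr5_Y4]
  linear_combination (400771988324352*x5^19 - 1327557211324416*x5^18 + 2350882561720320*x5^17 - 2679745925873664*x5^16 + 2140958518935552*x5^15 - 1218993658527744*x5^14 + 489545079455744*x5^13 - 130866839814144*x5^12 + 19890983141376*x5^11 - 701034840064*x5^10 - 357614125056*x5^9 + 131995054080*x5^8 - 33167783424*x5^7 + 3290566656*x5^6 + 22470144*x5^5 + 81552384*x5^4 - 16926912*x5^3 + 1569024*x5^2 - 785280*x5 + 17088) * x5_pow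

theorem tr5_GQ4 : trQ 5 GQ4 = 0 := by
  unfold GQ4
  simp only [map_sub, map_add, map_neg, map_mul, map_pow, map_one, map_ofNat, tr5_P1, tr5_P2, tr5_P4, tr5_Q1, tr5_Q2,
    tr5_Q4, tr5_R1, tr5_R2, tr5_R4, tr5_s4, tr5_Y4]
  linear_combination (-339738624*x5^11 + 750256128*x5^10 - 914374656*x5^9 + 657260544*x5^8 - 301785088*x5^7 + 81006592*x5^6 - 13136896*x5^5 + 3972096*x5^4 - 2138688*x5^3 + 680448*x5^2 - 123008*x5 + 11392) * x5_pow

theorem tr5_GR4 : trQ 5 GR4 = 0 := by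
  unfold GR4
  simp only [map_sub, map_add, map_neg, map_mul, map_pow, map_one, map_ofNat, tr5_P1, tr5_P2, tr5_P4, tr5_Q1, tr5_Q2,
    tr5_Q4, tr5_R1, tr5_R2, tr5_R4, tr5_s4, tr5_Y4]
  linear_combination (6262062317568*x5^19 - 20743081426944*x5^18 + 36732540026880*x5^17 - 41871030091776*x5^16 + 33388266258432*x5^15 - 18819363373056*x5^14 + 7223049912320*x5^13 - 1526947774464*x5^12 - 134357090304*x5^11 + 267117903872*x5^10 - 132103139328*x5^9 + 43007717376*x5^8 - 9482589696*x5^7 + 1306693632*x5^6 - 131487744*x5^5 + 24652800*x5^4 - 5669568*x5^3 + 1020672*x5^2 - 184512*x5 + 17088) * x5_pow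

theorem tr5_GV4 : trQ 5 GV4 = 0 := by
  unfold GV4
  simp only [map_sub, map_add, map_neg, map_mul, map_pow, map_one, map_ofNat, tr5_P1, tr5_P2, tr5_P4, tr5_Q1, tr5_Q2,
    tr5_Q4, tr5_R1, tr5_R2, tr5_R4, tr5_s4, tr5_Y4]
  linear_combination (-147456*x5^3 + 162816*x5^2 - 108544*x5 + 22784) * x5_pow

theorem G4_trunc (i : Fin 7) (n : ℕ) (hn : n < 5) : (G4 i).coeff n = 0 := by
  have h : trQ 5 (G4 i) = 0 := by
    fin_cases i
    · exact tr5_GQ1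
    · exact tr5_GR1
    · exact tr5_GQ2
    · exact tr5_GR2
    · exact tr5_GQ4
    · exact tr5_GR4
    · exact tr5_GV4
  exact (trQ_eq_zero_iff 5 _).mp h n hn

theorem M4_coeff_zero (i j : Fin 7) : (M4 i j).coeff 0 =
    (![![10, -12, 0, 0, 32, 0, 0],
      ![-39, 18, 0, 0, 48, 0, 0],
      ![-2, 0, 24, -24, 32, 0, 12],
      ![-3, 0, -72, 36, 48, 0, 18],
      ![-2, 0, 0, 0, 80, -48, 0],
      ![-3, 0, 0, 0, -96, 72, 0],
      ![2, 0, -12, 0, 16, 0, 12]] : Fin 7 → Fin 7 → ℚ) i j := by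
  rw [PowerSeries.coeff_zero_eq_constantCoeff_apply]
  fin_cases i <;> fin_cases j <;>
    simp [M4, cc_P1, cc_Q1, cc_R1, cc_Pd, cc_Qd, cc_Rd, cc_Y4, constantCoeff_s4, map_ofNat] <;> norm_num

theorem M4_inj (n : ℕ) (hn : 5 ≤ n) (x : Fin 7 → ℚ)
    (h : ∀ i, (36 : ℚ) * n * x i = ∑ j, (M4 i j).coeff 0 * x j) : ∀ i, x i = 0 := by
  have hn' : (5 : ℚ) ≤ n := by exact_mod_cast hn
  have key : ∀ i, (36 : ℚ) * n * x i = ∑ j, (![![10, -12, 0, 0, 32, 0, 0],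
      ![-39, 18, 0, 0, 48, 0, 0],
      ![-2, 0, 24, -24, 32, 0, 12],
      ![-3, 0, -72, 36, 48, 0, 18],
      ![-2, 0, 0, 0, 80, -48, 0],
      ![-3, 0, 0, 0, -96, 72, 0],
      ![2, 0, -12, 0, 16, 0, 12]] : Fin 7 → Fin 7 → ℚ) i j * x j := by
    intro i
    rw [h i]
    exact Finset.sum_congr rfl (fun j _ => by rw [M4_coeff_zero])
  have h0 := key 0
  have h1 := key 1
  have h2 := key 2
  have h3 := key 3
  have h4 := key 4
  have h5 := key 5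
  have h6 := key 6
  simp [Fin.sum_univ_succ] at h0 h1 h2 h3 h4 h5 h6
  have hdet : ((36 : ℚ) * n) ^ 4 * (36 * n - 36) * (36 * n - 72) * (36 * n - 144) ≠ 0 := by
    have e1 : (36 : ℚ) * n ≠ 0 := by nlinarith
    have e2 : (36 : ℚ) * n - 36 ≠ 0 := by
      intro e; nlinarith
    have e3 : (36 : ℚ) * n - 72 ≠ 0 := by
      intro e; nlinarith
    have e4 : (36 : ℚ) * n - 144 ≠ 0 := by
      intro e; nlinarith
    exact mul_ne_zero (mul_ne_zero (mul_ne_zero (pow_ne_zero 4 e1) e2) e3) e4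
  intro i
  fin_cases i
  · refine (mul_eq_zero.mp (?_ : ((36 : ℚ) * n) ^ 4 * (36 * n - 36) * (36 * n - 72) * (36 * n - 144) * x 0 = 0)).resolve_left hdet
    linear_combination ((36 * (n : ℚ))^6 - 242*(36 * (n : ℚ))^5 + 16128*(36 * (n : ℚ))^4 - 300672*(36 * (n : ℚ))^3 + 1492992*(36 * (n : ℚ))^2) * h0 + (-12*(36 * (n : ℚ))^5 + 2688*(36 * (n : ℚ))^4 - 145152*(36 * (n : ℚ))^3 + 995328*(36 * (n : ℚ))^2) * h1 + (32*(36 * (n : ℚ))^5 - 5760*(36 * (n : ℚ))^4 + 331776*(36 * (n : ℚ))^3 - 5971968*(36 * (n : ℚ))^2) * h4 + (-1536*(36 * (n : ℚ))^4 + 165888*(36 * (n : ℚ))^3 - 3981312*(36 * (n : ℚ))^2) * h5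
  · refine (mul_eq_zero.mp (?_ : ((36 : ℚ) * n) ^ 4 * (36 * n - 36) * (36 * n - 72) * (36 * n - 144) * x 1 = 0)).resolve_left hdet
    linear_combination (-39*(36 * (n : ℚ))^5 + 8640*(36 * (n : ℚ))^4 - 451008*(36 * (n : ℚ))^3 + 2239488*(36 * (n : ℚ))^2) * h0 + ((36 * (n : ℚ))^6 - 234*(36 * (n : ℚ))^5 + 14400*(36 * (n : ℚ))^4 - 217728*(36 * (n : ℚ))^3 + 1492992*(36 * (n : ℚ))^2) * h1 + (48*(36 * (n : ℚ))^5 - 8640*(36 * (n : ℚ))^4 + 497664*(36 * (n : ℚ))^3 - 8957952*(36 * (n : ℚ))^2) * h4 + (-2304*(36 * (n : ℚ))^4 + 248832*(36 * (n : ℚ))^3 - 5971968*(36 * (n : ℚ))^2) * h5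
  · refine (mul_eq_zero.mp (?_ : ((36 : ℚ) * n) ^ 4 * (36 * n - 36) * (36 * n - 72) * (36 * n - 144) * x 2 = 0)).resolve_left hdet
    linear_combination (-2*(36 * (n : ℚ))^5 + 468*(36 * (n : ℚ))^4 - 28512*(36 * (n : ℚ))^3 + 373248*(36 * (n : ℚ))^2) * h0 + (24*(36 * (n : ℚ))^4 - 5184*(36 * (n : ℚ))^3 + 248832*(36 * (n : ℚ))^2) * h1 + ((36 * (n : ℚ))^6 - 228*(36 * (n : ℚ))^5 + 14256*(36 * (n : ℚ))^4 - 326592*(36 * (n : ℚ))^3 + 2239488*(36 * (n : ℚ))^2) * h2 + (-24*(36 * (n : ℚ))^5 + 4608*(36 * (n : ℚ))^4 - 176256*(36 * (n : ℚ))^3 + 1492992*(36 * (n : ℚ))^2) * h3 + (32*(36 * (n : ℚ))^5 - 5760*(36 * (n : ℚ))^4 + 331776*(36 * (n : ℚ))^3 - 5971968*(36 * (n : ℚ))^2) * h4 + (-1536*(36 * (n : ℚ))^4 + 165888*(36 * (n : ℚ))^3 - 3981312*(36 * (n : ℚ))^2) * h5 + (12*(36 * (n : ℚ))^5 - 3024*(36 * (n : ℚ))^4 + 217728*(36 * (n : ℚ))^3 - 4478976*(36 * (n : ℚ))^2) * h6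
  · refine (mul_eq_zero.mp (?_ : ((36 : ℚ) * n) ^ 4 * (36 * n - 36) * (36 * n - 72) * (36 * n - 144) * x 3 = 0)).resolve_left hdet
    linear_combination (-3*(36 * (n : ℚ))^5 + 702*(36 * (n : ℚ))^4 - 42768*(36 * (n : ℚ))^3 + 559872*(36 * (n : ℚ))^2) * h0 + (36*(36 * (n : ℚ))^4 - 7776*(36 * (n : ℚ))^3 + 373248*(36 * (n : ℚ))^2) * h1 + (-72*(36 * (n : ℚ))^5 + 13608*(36 * (n : ℚ))^4 - 489888*(36 * (n : ℚ))^3 + 3359232*(36 * (n : ℚ))^2) * h2 + ((36 * (n : ℚ))^6 - 216*(36 * (n : ℚ))^5 + 12096*(36 * (n : ℚ))^4 - 264384*(36 * (n : ℚ))^3 + 2239488*(36 * (n : ℚ))^2) * h3 + (48*(36 * (n : ℚ))^5 - 8640*(36 * (n : ℚ))^4 + 497664*(36 * (n : ℚ))^3 - 8957952*(36 * (n : ℚ))^2) * h4 + (-2304*(36 * (n : ℚ))^4 + 248832*(36 * (n : ℚ))^3 - 5971968*(36 * (n : ℚ))^2) * h5 + (18*(36 * (n : ℚ))^5 - 4536*(36 * (n : ℚ))^4 + 326592*(36 * (n : ℚ))^3 - 6718464*(36 * (n : ℚ))^2) * h6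
  · refine (mul_eq_zero.mp (?_ : ((36 : ℚ) * n) ^ 4 * (36 * n - 36) * (36 * n - 72) * (36 * n - 144) * x 4 = 0)).resolve_left hdet
    linear_combination (-2*(36 * (n : ℚ))^5 + 468*(36 * (n : ℚ))^4 - 28512*(36 * (n : ℚ))^3 + 373248*(36 * (n : ℚ))^2) * h0 + (24*(36 * (n : ℚ))^4 - 5184*(36 * (n : ℚ))^3 + 248832*(36 * (n : ℚ))^2) * h1 + ((36 * (n : ℚ))^6 - 172*(36 * (n : ℚ))^5 + 8928*(36 * (n : ℚ))^4 - 103680*(36 * (n : ℚ))^3 - 1492992*(36 * (n : ℚ))^2) * h4 + (-48*(36 * (n : ℚ))^5 + 4800*(36 * (n : ℚ))^4 - 82944*(36 * (n : ℚ))^3 - 995328*(36 * (n : ℚ))^2) * h5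
  · refine (mul_eq_zero.mp (?_ : ((36 : ℚ) * n) ^ 4 * (36 * n - 36) * (36 * n - 72) * (36 * n - 144) * x 5 = 0)).resolve_left hdet
    linear_combination (-3*(36 * (n : ℚ))^5 + 702*(36 * (n : ℚ))^4 - 42768*(36 * (n : ℚ))^3 + 559872*(36 * (n : ℚ))^2) * h0 + (36*(36 * (n : ℚ))^4 - 7776*(36 * (n : ℚ))^3 + 373248*(36 * (n : ℚ))^2) * h1 + (-96*(36 * (n : ℚ))^5 + 9504*(36 * (n : ℚ))^4 - 155520*(36 * (n : ℚ))^3 - 2239488*(36 * (n : ℚ))^2) * h4 + ((36 * (n : ℚ))^6 - 180*(36 * (n : ℚ))^5 + 9792*(36 * (n : ℚ))^4 - 124416*(36 * (n : ℚ))^3 - 1492992*(36 * (n : ℚ))^2) * h5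
  · refine (mul_eq_zero.mp (?_ : ((36 : ℚ) * n) ^ 4 * (36 * n - 36) * (36 * n - 72) * (36 * n - 144) * x 6 = 0)).resolve_left hdet
    linear_combination (2*(36 * (n : ℚ))^5 - 468*(36 * (n : ℚ))^4 + 28512*(36 * (n : ℚ))^3 - 373248*(36 * (n : ℚ))^2) * h0 + (-24*(36 * (n : ℚ))^4 + 5184*(36 * (n : ℚ))^3 - 248832*(36 * (n : ℚ))^2) * h1 + (-12*(36 * (n : ℚ))^5 + 2592*(36 * (n : ℚ))^4 - 139968*(36 * (n : ℚ))^3 + 2239488*(36 * (n : ℚ))^2) * h2 + (288*(36 * (n : ℚ))^4 - 51840*(36 * (n : ℚ))^3 + 1492992*(36 * (n : ℚ))^2) * h3 + (16*(36 * (n : ℚ))^5 - 2880*(36 * (n : ℚ))^4 + 165888*(36 * (n : ℚ))^3 - 2985984*(36 * (n : ℚ))^2) * h4 + (-768*(36 * (n : ℚ))^4 + 82944*(36 * (n : ℚ))^3 - 1990656*(36 * (n : ℚ))^2) * h5 + ((36 * (n : ℚ))^6 - 240*(36 * (n : ℚ))^5 + 15120*(36 * (n : ℚ))^4 - 155520*(36 * (n : ℚ))^3 - 4478976*(36 * (n : ℚ))^2) * h6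

/-- **The seven defects of level 4 vanish.** -/
theorem G4_zero (i : Fin 7) : G4 i = 0 := by
  refine ode_unique G4 36 (1 + 16 * s4) ?_ M4 5 ?_ (fun i n hn => G4_trunc i n hn) M4_inj i
  · rw [PowerSeries.coeff_zero_eq_constantCoeff_apply, constantCoeff_D4]
  · intro i
    have e36 : (PowerSeries.C (36 : ℚ) : ℚ⟦X⟧) = 36 := by rw [map_ofNat]
    rw [e36]
    fin_cases i
    · simpa [G4, M4, Fin.sum_univ_succ, add_assoc] using ode4_GQ1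
    · simpa [G4, M4, Fin.sum_univ_succ, add_assoc] using ode4_GR1
    · simpa [G4, M4, Fin.sum_univ_succ, add_assoc] using ode4_GQ2
    · simpa [G4, M4, Fin.sum_univ_succ, add_assoc] using ode4_GR2
    · simpa [G4, M4, Fin.sum_univ_succ, add_assoc] using ode4_GQ4
    · simpa [G4, M4, Fin.sum_univ_succ, add_assoc] using ode4_GR4
    · simpa [G4, M4, Fin.sum_univ_succ, add_assoc] using ode4_GV4

theorem Q1_eq4 : Qser ℚ = (1 + 256 * s4 + 4096 * s4 ^ 2) * Y4 ^ 2 := by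
  have h := G4_zero 0
  simp only [G4] at h
  have h' : GQ1 = 0 := by simpa using h
  unfold GQ1 at h'
  linear_combination h'

theorem R1_eq4 : Rser ℚ = (1 - 480 * s4 - 24576 * s4 ^ 2 - 262144 * s4 ^ 3) * Y4 ^ 3 := by
  have h := G4_zero 1
  simp only [G4] at h
  have h' : GR1 = 0 := by simpa using h
  unfold GR1 at h'
  linear_combination h'

theorem Q2_eq4 : Qd 2 two_ne_zero' = (1 + 16 * s4 + 256 * s4 ^ 2) * Y4 ^ 2 := by
  have h := G4_zero 2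
  simp only [G4] at h
  have h' : GQ2 = 0 := by simpa using h
  unfold GQ2 at h'
  linear_combination h'

theorem R2_eq4 : Rd 2 two_ne_zero' = (1 + 24 * s4 - 384 * s4 ^ 2 - 4096 * s4 ^ 3) * Y4 ^ 3 := by
  have h := G4_zero 3
  simp only [G4] at h
  have h' : GR2 = 0 := by simpa using h
  unfold GR2 at h'
  linear_combination h'

theorem Q4_eq4 : Qd 4 four_ne_zero' = (1 + 16 * s4 + 16 * s4 ^ 2) * Y4 ^ 2 := by
  have h := G4_zero 4
  simp only [G4] at h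
  have h' : GQ4 = 0 := by simpa using h
  unfold GQ4 at h'
  linear_combination h'

theorem R4_eq4 : Rd 4 four_ne_zero' = (1 + 24 * s4 + 120 * s4 ^ 2 - 64 * s4 ^ 3) * Y4 ^ 3 := by
  have h := G4_zero 5
  simp only [G4] at h
  have h' : GR4 = 0 := by simpa using h
  unfold GR4 at h'
  linear_combination h'


end Fermat.Agent.S18x.IG.H8
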