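import Mathlib
import Fermat.Agent.S18x.IG.H8_HmBase
import Fermat.Agent.S18x.IG.H28_HmLaurent

/-!
# S18 [IG] (HM-a), levels 4 and 9, part 0 (helper8): from `ℚ⟦X⟧` to `ℤ((q))`

Generic bridge between the formal identities of `H8_Hm4Zero` / `H8_Hm9Zero` (in `ℚ⟦X⟧`) and the
prelude's `jqModC`, `qExpand` (in `LaurentSeries`):

* `jq_mul_delta_Q` : `j · Δ = Q³` in `ℚ((q))`, `jqd_mul_delta_Q` : the same for `j(q^d)`;
* `expand_Q_cube_sub_R_sq` : `Q(q^d)³ - R(q^d)² = 1728 Δ(q^d)`;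
* `mQ` : the coefficient map `ℤ((q)) → ℚ((q))`, injective;
* `hauptZ k d` : the eta quotient `q⁻¹ (E(q) / E(q^d))^k` in `ℤ((q))` and its inverse over `ℚ`.
-/

set_option autoImplicit false

noncomputable section

namespace Fermat.Agent.S18x.IG.H8

open PowerSeries ModularCurve
open Fermat.Agent.S16x.Swd.H8

local notation "ιZ" => HahnSeries.ofPowerSeries ℤ ℤ
local notation "ιQ" => HahnSeries.ofPowerSeries ℤ ℚ

/-- the coefficient map `ℤ((q)) → ℚ((q))` -/
def mQ : LaurentSeries ℤ →+* LaurentSeries ℚ := coeffMap (Int.castRingHom ℚ)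

theorem mQ_injective : Function.Injective mQ := by
  intro x y h
  ext k
  have h1 := congrArg (fun z : LaurentSeries ℚ => z.coeff k) h
  simp only [mQ, coeffMap_coeff] at h1
  exact Int.cast_injective h1

theorem mQ_ofPowerSeries (f : ℤ⟦X⟧) : mQ (ιZ f) = ιQ (f.map (Int.castRingHom ℚ)) :=
  coeffMap_ofPowerSeries _ _

theorem mQ_jqModC : mQ (jqModC ℤ) = jqModC ℚ := coeffMap_jqModC _

theorem mQ_qExpand (d : ℕ) [NeZero d] (f : LaurentSeries ℤ) :
    mQ (qExpand ℤ d f) = qExpand ℚ d (mQ f) := coeffMap_qExpand _ _ _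

theorem eisenstein4_eq_Qz : eisenstein4 = Qz := by
  ext n
  rw [eisenstein4, PowerSeries.coeff_mk, coeff_Qz]
  split_ifs with h
  · rfl
  · rw [ArithmeticFunction.sigma_apply]
    push_cast
    rfl

theorem map_eisenstein4 : eisenstein4.map (Int.castRingHom ℚ) = Qser ℚ := by
  rw [eisenstein4_eq_Qz]; rfl

theorem map_deltaZ :
    (Fermat.Agent.S24.Real.deltaZ).map (Int.castRingHom ℚ) = PowerSeries.X * Eu ^ 24 := by
  rw [Fermat.Agent.S24.Real.deltaZ, dedekindEtaUnit, map_mul, map_pow, PowerSeries.map_X, Eu]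

theorem map_expand_int (d : ℕ) (hd : d ≠ 0) (f : ℤ⟦X⟧) :
    (PowerSeries.expand d hd f).map (Int.castRingHom ℚ) =
      PowerSeries.expand d hd (f.map (Int.castRingHom ℚ)) := by
  ext n
  rw [PowerSeries.coeff_map, PowerSeries.coeff_expand, PowerSeries.coeff_expand]
  split_ifs with h
  · rw [PowerSeries.coeff_map]
  · simp

/-- `j Δ = Q³` in `ℚ((q))`. -/
theorem jq_mul_delta_Q : jqModC ℚ * ιQ (PowerSeries.X * Eu ^ 24) = ιQ (Qser ℚ ^ 3) := by
  have h := congrArg mQ Fermat.Agent.S18x.IG.H28.jq_mul_delta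
  rw [map_mul, mQ_jqModC, mQ_ofPowerSeries, mQ_ofPowerSeries, map_deltaZ, map_pow,
    map_eisenstein4] at h
  exact h

/-- `j(q^d) Δ(q^d) = Q(q^d)³` in `ℚ((q))`. -/
theorem jqd_mul_delta_Q (d : ℕ) [NeZero d] :
    qExpand ℚ d (jqModC ℚ) * ιQ (PowerSeries.expand d (NeZero.ne d) (PowerSeries.X * Eu ^ 24)) =
      ιQ (Qd d (NeZero.ne d) ^ 3) := by
  have h := congrArg (qExpand ℚ d) jq_mul_delta_Q
  rw [map_mul, Fermat.Agent.S18x.IG.H28.qExpand_ofPowerSeries,
    Fermat.Agent.S18x.IG.H28.qExpand_ofPowerSeries, map_pow] at h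
  exact h

/-- `Q(q^d)³ - R(q^d)² = 1728 Δ(q^d)`. -/
theorem expand_Q_cube_sub_R_sq (d : ℕ) (hd : d ≠ 0) :
    Qd d hd ^ 3 - Rd d hd ^ 2 = 1728 * PowerSeries.expand d hd (PowerSeries.X * Eu ^ 24) := by
  have h := congrArg (PowerSeries.expand d hd) Q_cube_sub_R_sq
  rw [map_sub, map_pow, map_pow, map_mul, map_ofNat] at h
  exact h

/-- cancellation of `1728` in `ℚ⟦X⟧` -/
theorem cancel_1728 {a b : ℚ⟦X⟧} (h : (1728 : ℚ⟦X⟧) * a = 1728 * b) : a = b := by
  have h0 : (1728 : ℚ⟦X⟧) ≠ 0 := by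
    intro h'
    have h2 := congrArg (PowerSeries.constantCoeff (R := ℚ)) h'
    rw [map_ofNat, map_zero] at h2
    norm_num at h2
  exact mul_left_cancel₀ h0 h

/-- a power series with constant coefficient `1` is a unit in `ℚ((q))` -/
theorem isUnit_ofPowerSeries {Y : ℚ⟦X⟧} (hY : PowerSeries.constantCoeff Y = 1) :
    IsUnit (ιQ Y) := by
  have h : Y * Y⁻¹ = 1 := PowerSeries.mul_inv_cancel Y (by rw [hY]; exact one_ne_zero)
  have h2 : ιQ Y * ιQ Y⁻¹ = 1 := by rw [← map_mul, h, map_one]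
  exact IsUnit.of_mul_eq_one _ h2

/-- cancellation of `Y⁶` in `ℚ((q))` -/
theorem cancel_Y6 {Y : ℚ⟦X⟧} (hY : PowerSeries.constantCoeff Y = 1) {a b : LaurentSeries ℚ}
    (h : a * ιQ Y ^ 6 = b * ιQ Y ^ 6) : a = b :=
  ((isUnit_ofPowerSeries hY).pow 6).mul_right_cancel h

/-! ### the eta quotients over `ℤ` -/

/-- `E(q^d)` over `ℤ` -/
def etaD (d : ℕ) [NeZero d] : ℤ⟦X⟧ := PowerSeries.expand d (NeZero.ne d) etaProd

theorem constantCoeff_etaD (d : ℕ) [NeZero d] : PowerSeries.constantCoeff (etaD d) = 1 := by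
  rw [etaD, PowerSeries.constantCoeff_expand, constantCoeff_etaProd]

/-- the inverse of `E(q^d)` over `ℤ` -/
def etaDinv (d : ℕ) [NeZero d] : ℤ⟦X⟧ := (etaD d).invOfUnit 1

theorem etaD_mul_inv (d : ℕ) [NeZero d] : etaD d * etaDinv d = 1 :=
  PowerSeries.mul_invOfUnit _ _ (by rw [constantCoeff_etaD]; rfl)

theorem constantCoeff_etaDinv (d : ℕ) [NeZero d] :
    PowerSeries.constantCoeff (etaDinv d) = 1 := by
  have h := congrArg (PowerSeries.constantCoeff (R := ℤ)) (etaD_mul_inv d)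
  rwa [map_mul, constantCoeff_etaD, one_mul, map_one] at h

/-- the unit part `(E(q) / E(q^d))^k` of the eta quotient -/
def hauptU (k d : ℕ) [NeZero d] : ℤ⟦X⟧ := etaProd ^ k * etaDinv d ^ k

theorem constantCoeff_hauptU (k d : ℕ) [NeZero d] :
    PowerSeries.constantCoeff (hauptU k d) = 1 := by
  rw [hauptU, map_mul, map_pow, map_pow, constantCoeff_etaProd, constantCoeff_etaDinv, one_pow,
    one_mul]

/-- the eta quotient `q⁻¹ (E(q) / E(q^d))^k` in `ℤ((q))` -/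
def hauptZ (k d : ℕ) [NeZero d] : LaurentSeries ℤ :=
  HahnSeries.single (-1 : ℤ) (1 : ℤ) * ιZ (hauptU k d)

theorem coeff_hauptZ_neg_one (k d : ℕ) [NeZero d] : (hauptZ k d).coeff (-1) = 1 := by
  rw [hauptZ, Fermat.Agent.S18x.IG.H28.coeff_single_neg_one_mul,
    show (-1 : ℤ) + 1 = ((0 : ℕ) : ℤ) by simp, HahnSeries.ofPowerSeries_apply_coeff,
    PowerSeries.coeff_zero_eq_constantCoeff_apply, constantCoeff_hauptU]

theorem coeff_hauptZ_of_lt (k d : ℕ) [NeZero d] {n : ℤ} (hn : n < -1) :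
    (hauptZ k d).coeff n = 0 := by
  rw [hauptZ, Fermat.Agent.S18x.IG.H28.coeff_single_neg_one_mul,
    ofPowerSeries_coeff_of_neg _ (by omega)]

theorem order_hauptZ (k d : ℕ) [NeZero d] : (hauptZ k d).order = -1 := by
  have h1 := coeff_hauptZ_neg_one k d
  have hne : hauptZ k d ≠ 0 := by
    intro h0
    rw [h0, HahnSeries.coeff_zero] at h1
    exact zero_ne_one h1
  apply le_antisymm
  · exact HahnSeries.order_le_of_coeff_ne_zero (by rw [h1]; exact one_ne_zero)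
  · by_contra hlt
    rw [not_le] at hlt
    exact hne (HahnSeries.coeff_order_eq_zero.mp (coeff_hauptZ_of_lt k d hlt))

/-- over `ℚ`, the eta quotient is inverse to `s = q E(q^d)^k / E(q)^k` -/
theorem mQ_hauptZ_mul (k d : ℕ) [NeZero d] :
    mQ (hauptZ k d) *
      ιQ (PowerSeries.X * PowerSeries.expand d (NeZero.ne d) Eu ^ k * (Eu⁻¹) ^ k) = 1 := by
  have hE : Eu * Eu⁻¹ = 1 :=
    PowerSeries.mul_inv_cancel Eu (by rw [constantCoeff_Eq]; exact one_ne_zero)
  have hD : PowerSeries.expand d (NeZero.ne d) Eu * (etaDinv d).map (Int.castRingHom ℚ) = 1 := by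
    have h := congrArg (PowerSeries.map (Int.castRingHom ℚ)) (etaD_mul_inv d)
    rw [map_mul, map_one, etaD, map_expand_int] at h
    exact h
  have hX : (HahnSeries.single (-1 : ℤ) (1 : ℚ)) * ιQ PowerSeries.X = 1 := by
    rw [HahnSeries.ofPowerSeries_X, HahnSeries.single_mul_single]
    simp
  have hu : (hauptU k d).map (Int.castRingHom ℚ) *
      (PowerSeries.X * PowerSeries.expand d (NeZero.ne d) Eu ^ k * (Eu⁻¹) ^ k) =
        PowerSeries.X := by
    rw [hauptU, map_mul, map_pow, map_pow]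
    change (Eu ^ k * (etaDinv d).map (Int.castRingHom ℚ) ^ k) * _ = _
    calc Eu ^ k * (etaDinv d).map (Int.castRingHom ℚ) ^ k *
          (PowerSeries.X * PowerSeries.expand d (NeZero.ne d) Eu ^ k * (Eu⁻¹) ^ k)
        = PowerSeries.X * (Eu * Eu⁻¹) ^ k *
            (PowerSeries.expand d (NeZero.ne d) Eu * (etaDinv d).map (Int.castRingHom ℚ)) ^ k := by
          ring
      _ = PowerSeries.X := by rw [hE, hD, one_pow, mul_one, mul_one]
  rw [hauptZ, map_mul, mQ_ofPowerSeries]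
  have h1 : mQ (HahnSeries.single (-1 : ℤ) (1 : ℤ)) = HahnSeries.single (-1 : ℤ) (1 : ℚ) := by
    rw [mQ, coeffMap_single, map_one]
  rw [h1, mul_assoc, ← map_mul, hu, hX]

end Fermat.Agent.S18x.IG.H8
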