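import Mathlib
import Fermat.Agent.S18x.IG.H8_HmL
import Fermat.Agent.S18x.IG.H8_Hm4Zero

/-!
# S18 [IG] (HM-a), level 4 (helper8): the Hauptmodul `t4` in `ℤ((q))` and its `j`-relations

`t4 = q⁻¹ (E(q) / E(q^4))^8` with `E = ∏ (1 - qⁿ)`; the identities for `j(q^d)`, `d ∣ 4`,
over `ℤ` and over every commutative ring.  Generated with a python script.
-/

set_option autoImplicit false
set_option linter.unusedSimpArgs false
set_option linter.unusedVariables false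
set_option linter.unusedTactic false

noncomputable section

namespace Fermat.Agent.S18x.IG.H8

open PowerSeries ModularCurve
open Fermat.Agent.S16x.Swd.H8

local notation "ιQ" => HahnSeries.ofPowerSeries ℤ ℚ

/-- `Δ(q^1)` in terms of `s` and `Y` -/
theorem delta1_eq4 : PowerSeries.X * Eu ^ 24 = s4 ^ 1 * (16*s4 + 1) ^ 1 * Y4 ^ 6 := by
  apply cancel_1728
  have h := Q_cube_sub_R_sq
  rw [Q1_eq4, R1_eq4] at h
  linear_combination -h

/-- `Δ(q^2)` in terms of `s` and `Y` -/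
theorem delta2_eq4 : PowerSeries.expand 2 two_ne_zero' (PowerSeries.X * Eu ^ 24) = s4 ^ 2 * (16*s4 + 1) ^ 2 * Y4 ^ 6 := by
  apply cancel_1728
  have h := expand_Q_cube_sub_R_sq 2 two_ne_zero'
  rw [Q2_eq4, R2_eq4] at h
  linear_combination -h

/-- `Δ(q^4)` in terms of `s` and `Y` -/
theorem delta4_eq4 : PowerSeries.expand 4 four_ne_zero' (PowerSeries.X * Eu ^ 24) = s4 ^ 4 * (16*s4 + 1) ^ 1 * Y4 ^ 6 := by
  apply cancel_1728
  have h := expand_Q_cube_sub_R_sq 4 four_ne_zero'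
  rw [Q4_eq4, R4_eq4] at h
  linear_combination -h

/-- the relation for `j(q^1)` in terms of `s`, over `ℚ` -/
theorem jrel1_s4 : jqModC ℚ * ((ιQ s4) ^ 1 * (16*(ιQ s4) + 1) ^ 1) = (4096*(ιQ s4)^2 + 256*(ιQ s4) + 1) ^ 3 := by
  apply cancel_Y6 cc_Y4
  have h := jq_mul_delta_Q
  rw [delta1_eq4, Q1_eq4] at h
  simp only [map_mul, map_pow, map_add, map_sub, map_neg, map_ofNat, map_one] at h
  linear_combination h

/-- the relation for `j(q^2)` in terms of `s`, over `ℚ` -/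
theorem jrel2_s4 : qExpand ℚ 2 (jqModC ℚ) * ((ιQ s4) ^ 2 * (16*(ιQ s4) + 1) ^ 2) = (256*(ιQ s4)^2 + 16*(ιQ s4) + 1) ^ 3 := by
  apply cancel_Y6 cc_Y4
  have h := jqd_mul_delta_Q 2
  rw [show PowerSeries.expand 2 (NeZero.ne 2) (PowerSeries.X * Eu ^ 24) = s4 ^ 2 * (16*s4 + 1) ^ 2 * Y4 ^ 6 from delta2_eq4,
    show Qd 2 (NeZero.ne 2) = _ from Q2_eq4] at h
  simp only [map_mul, map_pow, map_add, map_sub, map_neg, map_ofNat, map_one] at h
  linear_combination h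

/-- the relation for `j(q^4)` in terms of `s`, over `ℚ` -/
theorem jrel4_s4 : qExpand ℚ 4 (jqModC ℚ) * ((ιQ s4) ^ 4 * (16*(ιQ s4) + 1) ^ 1) = (16*(ιQ s4)^2 + 16*(ιQ s4) + 1) ^ 3 := by
  apply cancel_Y6 cc_Y4
  have h := jqd_mul_delta_Q 4
  rw [show PowerSeries.expand 4 (NeZero.ne 4) (PowerSeries.X * Eu ^ 24) = s4 ^ 4 * (16*s4 + 1) ^ 1 * Y4 ^ 6 from delta4_eq4,
    show Qd 4 (NeZero.ne 4) = _ from Q4_eq4] at h
  simp only [map_mul, map_pow, map_add, map_sub, map_neg, map_ofNat, map_one] at h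
  linear_combination h

/-- the Hauptmodul of level 4: `t4 = q⁻¹ (E(q) / E(q^4))^8` -/
def t4 : LaurentSeries ℤ := hauptZ 8 4

theorem t4_shape : t4 = HahnSeries.single (-1 : ℤ) (1 : ℤ) *
    HahnSeries.ofPowerSeries ℤ ℤ (hauptU 8 4) := rfl

theorem coeff_t4_neg_one : t4.coeff (-1) = 1 :=
  coeff_hauptZ_neg_one 8 4

theorem coeff_t4_of_lt {n : ℤ} (hn : n < -1) : t4.coeff n = 0 :=
  coeff_hauptZ_of_lt 8 4 hn

theorem order_t4 : t4.order = -1 :=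
  order_hauptZ 8 4

/-- over `ℚ` the Hauptmodul is the inverse of `s` -/
theorem mQ_t4_mul : mQ t4 * ιQ s4 = 1 :=
  mQ_hauptZ_mul 8 4

section Reduce

variable {S : Type*} [CommRing S] (h σ J : S) (hσ : h * σ = 1)
include hσ

theorem redD1_4 : h ^ 6 * (σ ^ 1 * (16*σ + 1) ^ 1) = h^5 + 16*h^4 := by
  linear_combination (16*h^5*σ + h^5 + 16*h^4) * hσ

theorem redA1_4 : h ^ 2 * (4096*σ^2 + 256*σ + 1) = h^2 + 256*h + 4096 := by
  linear_combination (4096*h*σ + 256*h + 4096) * hσ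

theorem red1_4 (e : J * (σ ^ 1 * (16*σ + 1) ^ 1) = (4096*σ^2 + 256*σ + 1) ^ 3) :
    J * (h^5 + 16*h^4) = (h^2 + 256*h + 4096) ^ 3 := by
  have hD := redD1_4 h σ hσ
  have hA := redA1_4 h σ hσ
  linear_combination (-J) * hD + (h ^ 6) * e + ((h ^ 2 * (4096*σ^2 + 256*σ + 1)) ^ 2 + (h ^ 2 * (4096*σ^2 + 256*σ + 1)) * (h^2 + 256*h + 4096) + (h^2 + 256*h + 4096) ^ 2) * hA

theorem redD2_4 : h ^ 6 * (σ ^ 2 * (16*σ + 1) ^ 2) = h^4 + 32*h^3 + 256*h^2 := by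
  linear_combination (256*h^5*σ^3 + 32*h^5*σ^2 + h^5*σ + 256*h^4*σ^2 + 32*h^4*σ + h^4 + 256*h^3*σ + 32*h^3 + 256*h^2) * hσ

theorem redA2_4 : h ^ 2 * (256*σ^2 + 16*σ + 1) = h^2 + 16*h + 256 := by
  linear_combination (256*h*σ + 16*h + 256) * hσ

theorem red2_4 (e : J * (σ ^ 2 * (16*σ + 1) ^ 2) = (256*σ^2 + 16*σ + 1) ^ 3) :
    J * (h^4 + 32*h^3 + 256*h^2) = (h^2 + 16*h + 256) ^ 3 := by
  have hD := redD2_4 h σ hσ
  have hA := redA2_4 h σ hσ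
  linear_combination (-J) * hD + (h ^ 6) * e + ((h ^ 2 * (256*σ^2 + 16*σ + 1)) ^ 2 + (h ^ 2 * (256*σ^2 + 16*σ + 1)) * (h^2 + 16*h + 256) + (h^2 + 16*h + 256) ^ 2) * hA

theorem redD4_4 : h ^ 6 * (σ ^ 4 * (16*σ + 1) ^ 1) = h^2 + 16*h := by
  linear_combination (16*h^5*σ^4 + h^5*σ^3 + 16*h^4*σ^3 + h^4*σ^2 + 16*h^3*σ^2 + h^3*σ + 16*h^2*σ + h^2 + 16*h) * hσ

theorem redA4_4 : h ^ 2 * (16*σ^2 + 16*σ + 1) = h^2 + 16*h + 16 := by
  linear_combination (16*h*σ + 16*h + 16) * hσ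

theorem red4_4 (e : J * (σ ^ 4 * (16*σ + 1) ^ 1) = (16*σ^2 + 16*σ + 1) ^ 3) :
    J * (h^2 + 16*h) = (h^2 + 16*h + 16) ^ 3 := by
  have hD := redD4_4 h σ hσ
  have hA := redA4_4 h σ hσ
  linear_combination (-J) * hD + (h ^ 6) * e + ((h ^ 2 * (16*σ^2 + 16*σ + 1)) ^ 2 + (h ^ 2 * (16*σ^2 + 16*σ + 1)) * (h^2 + 16*h + 16) + (h^2 + 16*h + 16) ^ 2) * hA

end Reduce

/-- **Level 4**: the relation between `j(q^1)` and the Hauptmodul, in `ℤ((q))`. -/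
theorem j1_t4 : jqModC ℤ * (t4 ^ 4 * (t4 + 16)) = (t4 ^ 2 + 256 * t4 + 4096) ^ 3 := by
  apply mQ_injective
  have h := red1_4 (mQ t4) (ιQ s4) (jqModC ℚ) mQ_t4_mul jrel1_s4
  simp only [map_mul, map_pow, map_add, map_sub, map_neg, map_ofNat, map_one, mQ_jqModC, mQ_qExpand]
  linear_combination h

/-- **Level 4**: the relation between `j(q^2)` and the Hauptmodul, in `ℤ((q))`. -/
theorem j2_t4 : qExpand ℤ 2 (jqModC ℤ) * (t4 ^ 2 * (t4 + 16) ^ 2) = (t4 ^ 2 + 16 * t4 + 256) ^ 3 := by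
  apply mQ_injective
  have h := red2_4 (mQ t4) (ιQ s4) (qExpand ℚ 2 (jqModC ℚ)) mQ_t4_mul jrel2_s4
  simp only [map_mul, map_pow, map_add, map_sub, map_neg, map_ofNat, map_one, mQ_jqModC, mQ_qExpand]
  linear_combination h

/-- **Level 4**: the relation between `j(q^4)` and the Hauptmodul, in `ℤ((q))`. -/
theorem j4_t4 : qExpand ℤ 4 (jqModC ℤ) * (t4 * (t4 + 16)) = (t4 ^ 2 + 16 * t4 + 16) ^ 3 := by
  apply mQ_injective
  have h := red4_4 (mQ t4) (ιQ s4) (qExpand ℚ 4 (jqModC ℚ)) mQ_t4_mul jrel4_s4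
  simp only [map_mul, map_pow, map_add, map_sub, map_neg, map_ofNat, map_one, mQ_jqModC, mQ_qExpand]
  linear_combination h

/-- **Level 4**: the relation for `j - 1728`. -/
theorem j1728_t4 : (jqModC ℤ - 1728) * (t4 ^ 4 * (t4 + 16)) = ((t4 + 32) * (t4 ^ 2 - 512 * t4 - 8192)) ^ 2 := by
  linear_combination j1_t4

end Fermat.Agent.S18x.IG.H8
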