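import Mathlib
import Fermat.Agent.S18x.IG.H8_HmBase

/-!
# S18 [IG] (I1-HM), level 9, part 2 (helper8): the series `s`, `Y` and their derivatives
-/

set_option autoImplicit false
set_option linter.unusedSimpArgs false
set_option linter.unusedVariables false
set_option linter.unusedTactic false

namespace Fermat.Agent.S18x.IG.H8

open PowerSeries
open Fermat.Agent.S16x.Swd.H8

theorem nz9_mid : (3 : ℕ) ≠ 0 := by norm_num
theorem nz9_top : (9 : ℕ) ≠ 0 := by norm_num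

/-- `E(q^9)` -/
noncomputable def E9x : ℚ⟦X⟧ := PowerSeries.expand 9 nz9_top Eu

/-- `s = q E(q^9)^3 / E(q)^3`, the inverse of the Hauptmodul of `X_0(9)`. -/
noncomputable def s9 : ℚ⟦X⟧ := PowerSeries.X * E9x ^ 3 * (Eu⁻¹) ^ 3

/-- `Y = (9 P(q^9) - P(q)) / (8 Dm(s))`. -/
noncomputable def Y9 : ℚ⟦X⟧ :=
  PowerSeries.C (1 / 8 : ℚ) * (9 * Pd 9 nz9_top - Pser ℚ) * (27*s9^2 + 9*s9 + 1)⁻¹

theorem Eu_mul_inv9 : Eu * Eu⁻¹ = 1 :=
  PowerSeries.mul_inv_cancel Eu (by rw [constantCoeff_Eq]; exact one_ne_zero)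

theorem s9_mul : s9 * Eu ^ 3 = PowerSeries.X * E9x ^ 3 := by
  have h : (Eu⁻¹) ^ 3 * Eu ^ 3 = 1 := by
    rw [← mul_pow, mul_comm, Eu_mul_inv9, one_pow]
  rw [s9, mul_assoc, h, mul_one]

theorem constantCoeff_s9 : PowerSeries.constantCoeff s9 = 0 := by
  rw [s9, map_mul, map_mul, PowerSeries.constantCoeff_X, zero_mul, zero_mul]

theorem constantCoeff_D9 : PowerSeries.constantCoeff (27*s9^2 + 9*s9 + 1) = 1 := by
  simp [constantCoeff_s9]

theorem D9_mul_inv : (27*s9^2 + 9*s9 + 1) * (27*s9^2 + 9*s9 + 1)⁻¹ = 1 :=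
  PowerSeries.mul_inv_cancel _ (by rw [constantCoeff_D9]; exact one_ne_zero)

theorem hY9 : 8 * (27*s9^2 + 9*s9 + 1) * Y9 = 9 * Pd 9 nz9_top - Pser ℚ := by
  have h3 : (8 : ℚ⟦X⟧) * PowerSeries.C (1 / 8 : ℚ) = 1 := by
    have : (8 : ℚ⟦X⟧) = PowerSeries.C (8 : ℚ) := by rw [map_ofNat]
    rw [this, ← map_mul]
    norm_num
  rw [Y9]
  linear_combination (PowerSeries.C (1 / 8 : ℚ) * (9 * Pd 9 nz9_top - Pser ℚ) * 8) * D9_mul_inv
    + (9 * Pd 9 nz9_top - Pser ℚ) * h3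

theorem thD_E9x : 24 * thD E9x = 9 * (Pd 9 nz9_top - 1) * E9x := by
  have h := congrArg (PowerSeries.expand 9 nz9_top) thD_Eq
  rw [map_mul, map_mul, map_sub, map_one, map_ofNat] at h
  rw [E9x, thD_expand, Pd]
  push_cast
  linear_combination 9 * h

theorem thD_s9 : thD s9 = s9 * (27*s9^2 + 9*s9 + 1) * Y9 := by
  have hd := congrArg thD s9_mul
  rw [Derivation.leibniz, Derivation.leibniz, Derivation.leibniz_pow, Derivation.leibniz_pow,
    thD_X] at hd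
  simp only [smul_eq_mul, nsmul_eq_mul] at hd
  push_cast at hd
  have hne : (24 : ℚ⟦X⟧) * Eu ^ 3 ≠ 0 := by
    refine mul_ne_zero ?_ (pow_ne_zero _ Eq_ne_zero)
    intro h
    have h' := congrArg (PowerSeries.constantCoeff (R := ℚ)) h
    rw [map_ofNat, map_zero] at h'
    norm_num at h'
  apply mul_left_cancel₀ hne
  linear_combination 24 * hd - (3 * s9 * Eu ^ 2) * thD_Eq + (3 * PowerSeries.X * E9x ^ 2) * thD_E9x
    - (27 * Pd 9 nz9_top - 3) * s9_mul - (3 * Eu ^ 3 * s9) * hY9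

theorem thD_Y9 :
    8 * ((54*s9 + 9) * thD s9 * Y9 + (27*s9^2 + 9*s9 + 1) * thD Y9) =
      9 * thD (Pd 9 nz9_top) - thD (Pser ℚ) := by
  have hd := congrArg thD hY9
  simp only [map_sub, map_add, map_mul, Derivation.leibniz, Derivation.leibniz_pow,
    Derivation.map_one_eq_zero, thD_ofNat, smul_eq_mul, nsmul_eq_mul, zero_add] at hd
  push_cast at hd
  linear_combination hd


end Fermat.Agent.S18x.IG.H8

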