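import Mathlib
import Fermat.Agent.S18x.IG.H8_HmBase

/-!
# S18 [IG] (I1-HM), level 9, part 1 (helper8): the linear differential system

Generated with a python script (exact rational arithmetic); every identity is checked by
`linear_combination`.  The seven defects satisfy `96 Dm θ G = M G`.
-/

set_option autoImplicit false
set_option linter.unusedSimpArgs false
set_option linter.unusedVariables false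
set_option linter.unusedTactic false

namespace Fermat.Agent.S18x.IG.H8

theorem sys9_Q1 {A : Type*} [CommRing A]
    (P1 P3 P9 Q1 Q3 Q9 R1 R3 R9 s Y dP1 dP3 dP9 dQ1 dQ3 dQ9 dR1 dR3 dR9 ds dY : A)
    (hdY : 8 * ((54*s + 9) * ds * Y + (27*s^2 + 9*s + 1) * dY) = 9 * dP9 - dP1)
    (hs : ds = s * (27*s^2 + 9*s + 1) * Y)
    (hP1 : 12 * dP1 = (P1 ^ 2 - Q1))
    (hP9 : 12 * dP9 = 9 * (P9 ^ 2 - Q9))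
    (hQ1 : 3 * dQ1 = (P1 * Q1 - R1))
    (hY : 8 * (27*s^2 + 9*s + 1) * Y = 9 * P9 - P1)
    :
    96 * ((27*s^2 + 9*s + 1) * (-118098*s^4*Y*dY - 236196*s^3*Y^2*ds - 52488*s^3*Y*dY - 78732*s^2*Y^2*ds - 8748*s^2*Y*dY - 8748*s*Y^2*ds - 504*s*Y*dY - 252*Y^2*ds - 2*Y*dY + dQ1)) =
      (864*P1*s^2 + 288*P1*s + 32*P1 - 118098*s^4*Y - 52488*s^3*Y - 8748*s^2*Y - 504*s*Y - 2*Y) * (Q1 - 59049*s^4*Y^2 - 26244*s^3*Y^2 - 4374*s^2*Y^2 - 252*s*Y^2 - Y^2)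
      + (-864*s^2 - 288*s - 32) * (R1 + 14348907*s^6*Y^3 + 9565938*s^5*Y^3 + 2657205*s^4*Y^3 + 367416*s^3*Y^3 + 24057*s^2*Y^3 + 486*s*Y^3 - Y^3)
      + (9565938*s^4*Y + 4251528*s^3*Y + 708588*s^2*Y + 40824*s*Y + 162*Y) * (Q9 - 9*s^4*Y^2 - 84*s^3*Y^2 - 54*s^2*Y^2 - 12*s*Y^2 - Y^2) := by
  linear_combination (-1417176*s^4*Y - 629856*s^3*Y - 104976*s^2*Y - 6048*s*Y - 24*Y) * hdY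
    + (-34012224*s^4*Y^2 - 22674816*s^3*Y^2 - 5598720*s^2*Y^2 - 611712*s*Y^2 - 22464*Y^2) * hs
    + (118098*s^4*Y + 52488*s^3*Y + 8748*s^2*Y + 504*s*Y + 2*Y) * hP1
    + (-1062882*s^4*Y - 472392*s^3*Y - 78732*s^2*Y - 4536*s*Y - 18*Y) * hP9
    + (864*s^2 + 288*s + 32) * hQ1
    + (118098*P1*s^4*Y + 52488*P1*s^3*Y + 8748*P1*s^2*Y + 504*P1*s*Y + 2*P1*Y + 1062882*P9*s^4*Y + 472392*P9*s^3*Y + 78732*P9*s^2*Y + 4536*P9*s*Y + 18*P9*Y + 25509168*s^6*Y^2 + 19840464*s^5*Y^2 + 6613488*s^4*Y^2 + 1158624*s^3*Y^2 + 106704*s^2*Y^2 + 4176*s*Y^2 + 16*Y^2) * hY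

theorem sys9_R1 {A : Type*} [CommRing A]
    (P1 P3 P9 Q1 Q3 Q9 R1 R3 R9 s Y dP1 dP3 dP9 dQ1 dQ3 dQ9 dR1 dR3 dR9 ds dY : A)
    (hdY : 8 * ((54*s + 9) * ds * Y + (27*s^2 + 9*s + 1) * dY) = 9 * dP9 - dP1)
    (hs : ds = s * (27*s^2 + 9*s + 1) * Y)
    (hP1 : 12 * dP1 = (P1 ^ 2 - Q1))
    (hP9 : 12 * dP9 = 9 * (P9 ^ 2 - Q9))
    (hR1 : 2 * dR1 = (P1 * R1 - Q1 ^ 2))
    (hY : 8 * (27*s^2 + 9*s + 1) * Y = 9 * P9 - P1)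
    :
    96 * ((27*s^2 + 9*s + 1) * (43046721*s^6*Y^2*dY + 86093442*s^5*Y^3*ds + 28697814*s^5*Y^2*dY + 47829690*s^4*Y^3*ds + 7971615*s^4*Y^2*dY + 10628820*s^3*Y^3*ds + 1102248*s^3*Y^2*dY + 1102248*s^2*Y^3*ds + 72171*s^2*Y^2*dY + 48114*s*Y^3*ds + 1458*s*Y^2*dY + 486*Y^3*ds - 3*Y^2*dY + dR1)) =
      (-1296*Q1*s^2 - 432*Q1*s - 48*Q1 - 33480783*s^6*Y^2 - 30823578*s^5*Y^2 - 11868849*s^4*Y^2 - 2373624*s^3*Y^2 - 247941*s^2*Y^2 - 11070*s*Y^2 - 51*Y^2) * (Q1 - 59049*s^4*Y^2 - 26244*s^3*Y^2 - 4374*s^2*Y^2 - 252*s*Y^2 - Y^2)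
      + (1296*P1*s^2 + 432*P1*s + 48*P1) * (R1 + 14348907*s^6*Y^3 + 9565938*s^5*Y^3 + 2657205*s^4*Y^3 + 367416*s^3*Y^3 + 24057*s^2*Y^3 + 486*s*Y^3 - Y^3)
      + (-3486784401*s^6*Y^2 - 2324522934*s^5*Y^2 - 645700815*s^4*Y^2 - 89282088*s^3*Y^2 - 5845851*s^2*Y^2 - 118098*s*Y^2 + 243*Y^2) * (Q9 - 9*s^4*Y^2 - 84*s^3*Y^2 - 54*s^2*Y^2 - 12*s*Y^2 - Y^2) := by
  linear_combination (516560652*s^6*Y^2 + 344373768*s^5*Y^2 + 95659380*s^4*Y^2 + 13226976*s^3*Y^2 + 866052*s^2*Y^2 + 17496*s*Y^2 - 36*Y^2) * hdY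
    + (12397455648*s^6*Y^3 + 11019960576*s^5*Y^3 + 4030448544*s^4*Y^3 + 770943744*s^3*Y^3 + 78732000*s^2*Y^3 + 3794688*s*Y^3 + 49248*Y^3) * hs
    + (-43046721*s^6*Y^2 - 28697814*s^5*Y^2 - 7971615*s^4*Y^2 - 1102248*s^3*Y^2 - 72171*s^2*Y^2 - 1458*s*Y^2 + 3*Y^2) * hP1
    + (387420489*s^6*Y^2 + 258280326*s^5*Y^2 + 71744535*s^4*Y^2 + 9920232*s^3*Y^2 + 649539*s^2*Y^2 + 13122*s*Y^2 - 27*Y^2) * hP9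
    + (1296*s^2 + 432*s + 48) * hR1
    + (-43046721*P1*s^6*Y^2 - 28697814*P1*s^5*Y^2 - 7971615*P1*s^4*Y^2 - 1102248*P1*s^3*Y^2 - 72171*P1*s^2*Y^2 - 1458*P1*s*Y^2 + 3*P1*Y^2 - 387420489*P9*s^6*Y^2 - 258280326*P9*s^5*Y^2 - 71744535*P9*s^4*Y^2 - 9920232*P9*s^3*Y^2 - 649539*P9*s^2*Y^2 - 13122*P9*s*Y^2 + 27*P9*Y^2 - 9298091736*s^8*Y^3 - 9298091736*s^7*Y^3 - 4132485216*s^6*Y^3 - 1041624360*s^5*Y^3 - 158723712*s^4*Y^3 - 14329224*s^3*Y^3 - 681696*s^2*Y^3 - 11448*s*Y^3 + 24*Y^3) * hY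

theorem sys9_Q3 {A : Type*} [CommRing A]
    (P1 P3 P9 Q1 Q3 Q9 R1 R3 R9 s Y dP1 dP3 dP9 dQ1 dQ3 dQ9 dR1 dR3 dR9 ds dY : A)
    (hdY : 8 * ((54*s + 9) * ds * Y + (27*s^2 + 9*s + 1) * dY) = 9 * dP9 - dP1)
    (hs : ds = s * (27*s^2 + 9*s + 1) * Y)
    (hP1 : 12 * dP1 = (P1 ^ 2 - Q1))
    (hP9 : 12 * dP9 = 9 * (P9 ^ 2 - Q9))
    (hQ3 : 3 * dQ3 = 3 * (P3 * Q3 - R3))
    (hY : 8 * (27*s^2 + 9*s + 1) * Y = 9 * P9 - P1)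
    :
    96 * ((27*s^2 + 9*s + 1) * (-1458*s^4*Y*dY - 2916*s^3*Y^2*ds - 648*s^3*Y*dY - 972*s^2*Y^2*ds - 108*s^2*Y*dY - 108*s*Y^2*ds - 24*s*Y*dY - 12*Y^2*ds - 2*Y*dY + dQ3)) =
      (-1458*s^4*Y - 648*s^3*Y - 108*s^2*Y - 24*s*Y - 2*Y) * (Q1 - 59049*s^4*Y^2 - 26244*s^3*Y^2 - 4374*s^2*Y^2 - 252*s*Y^2 - Y^2)
      + (2592*P3*s^2 + 864*P3*s + 96*P3) * (Q3 - 729*s^4*Y^2 - 324*s^3*Y^2 - 54*s^2*Y^2 - 12*s*Y^2 - Y^2)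
      + (-2592*s^2 - 864*s - 96) * (R3 + 19683*s^6*Y^3 + 13122*s^5*Y^3 + 3645*s^4*Y^3 - 135*s^2*Y^3 - 18*s*Y^3 - Y^3)
      + (118098*s^4*Y + 52488*s^3*Y + 8748*s^2*Y + 1944*s*Y + 162*Y) * (Q9 - 9*s^4*Y^2 - 84*s^3*Y^2 - 54*s^2*Y^2 - 12*s*Y^2 - Y^2)
      + (629856*s^6*Y^2 + 489888*s^5*Y^2 + 163296*s^4*Y^2 + 36288*s^3*Y^2 + 6048*s^2*Y^2 + 672*s*Y^2 + 32*Y^2) * (-P1 + 3*P3 - 162*s^2*Y - 36*s*Y - 2*Y) := by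
  linear_combination (-17496*s^4*Y - 7776*s^3*Y - 1296*s^2*Y - 288*s*Y - 24*Y) * hdY
    + (-419904*s^4*Y^2 - 279936*s^3*Y^2 + 10368*s*Y^2 + 576*Y^2) * hs
    + (1458*s^4*Y + 648*s^3*Y + 108*s^2*Y + 24*s*Y + 2*Y) * hP1
    + (-13122*s^4*Y - 5832*s^3*Y - 972*s^2*Y - 216*s*Y - 18*Y) * hP9
    + (864*s^2 + 288*s + 32) * hQ3
    + (1458*P1*s^4*Y + 648*P1*s^3*Y + 108*P1*s^2*Y + 24*P1*s*Y + 2*P1*Y + 13122*P9*s^4*Y + 5832*P9*s^3*Y + 972*P9*s^2*Y + 216*P9*s*Y + 18*P9*Y + 314928*s^6*Y^2 + 244944*s^5*Y^2 + 81648*s^4*Y^2 + 18144*s^3*Y^2 + 3024*s^2*Y^2 + 336*s*Y^2 + 16*Y^2) * hY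

theorem sys9_R3 {A : Type*} [CommRing A]
    (P1 P3 P9 Q1 Q3 Q9 R1 R3 R9 s Y dP1 dP3 dP9 dQ1 dQ3 dQ9 dR1 dR3 dR9 ds dY : A)
    (hdY : 8 * ((54*s + 9) * ds * Y + (27*s^2 + 9*s + 1) * dY) = 9 * dP9 - dP1)
    (hs : ds = s * (27*s^2 + 9*s + 1) * Y)
    (hP1 : 12 * dP1 = (P1 ^ 2 - Q1))
    (hP9 : 12 * dP9 = 9 * (P9 ^ 2 - Q9))
    (hR3 : 2 * dR3 = 3 * (P3 * R3 - Q3 ^ 2))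
    (hY : 8 * (27*s^2 + 9*s + 1) * Y = 9 * P9 - P1)
    :
    96 * ((27*s^2 + 9*s + 1) * (59049*s^6*Y^2*dY + 118098*s^5*Y^3*ds + 39366*s^5*Y^2*dY + 65610*s^4*Y^3*ds + 10935*s^4*Y^2*dY + 14580*s^3*Y^3*ds - 405*s^2*Y^2*dY - 270*s*Y^3*ds - 54*s*Y^2*dY - 18*Y^3*ds - 3*Y^2*dY + dR3)) =
      (59049*s^6*Y^2 + 39366*s^5*Y^2 + 10935*s^4*Y^2 - 405*s^2*Y^2 - 54*s*Y^2 - 3*Y^2) * (Q1 - 59049*s^4*Y^2 - 26244*s^3*Y^2 - 4374*s^2*Y^2 - 252*s*Y^2 - Y^2)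
      + (-3888*Q3*s^2 - 1296*Q3*s - 144*Q3 - 2834352*s^6*Y^2 - 2204496*s^5*Y^2 - 734832*s^4*Y^2 - 163296*s^3*Y^2 - 27216*s^2*Y^2 - 3024*s*Y^2 - 144*Y^2) * (Q3 - 729*s^4*Y^2 - 324*s^3*Y^2 - 54*s^2*Y^2 - 12*s*Y^2 - Y^2)
      + (3888*P3*s^2 + 1296*P3*s + 144*P3) * (R3 + 19683*s^6*Y^3 + 13122*s^5*Y^3 + 3645*s^4*Y^3 - 135*s^2*Y^3 - 18*s*Y^3 - Y^3)
      + (-4782969*s^6*Y^2 - 3188646*s^5*Y^2 - 885735*s^4*Y^2 + 32805*s^2*Y^2 + 4374*s*Y^2 + 243*Y^2) * (Q9 - 9*s^4*Y^2 - 84*s^3*Y^2 - 54*s^2*Y^2 - 12*s*Y^2 - Y^2)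
      + (-25509168*s^8*Y^3 - 25509168*s^7*Y^3 - 11337408*s^6*Y^3 - 2204496*s^5*Y^3 + 81648*s^3*Y^3 + 15552*s^2*Y^3 + 1296*s*Y^3 + 48*Y^3) * (-P1 + 3*P3 - 162*s^2*Y - 36*s*Y - 2*Y) := by
  linear_combination (708588*s^6*Y^2 + 472392*s^5*Y^2 + 131220*s^4*Y^2 - 4860*s^2*Y^2 - 648*s*Y^2 - 36*Y^2) * hdY
    + (17006112*s^6*Y^3 + 15116544*s^5*Y^3 + 9447840*s^4*Y^3 + 2799360*s^3*Y^3 + 349920*s^2*Y^3 + 20736*s*Y^3 + 864*Y^3) * hs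
    + (-59049*s^6*Y^2 - 39366*s^5*Y^2 - 10935*s^4*Y^2 + 405*s^2*Y^2 + 54*s*Y^2 + 3*Y^2) * hP1
    + (531441*s^6*Y^2 + 354294*s^5*Y^2 + 98415*s^4*Y^2 - 3645*s^2*Y^2 - 486*s*Y^2 - 27*Y^2) * hP9
    + (1296*s^2 + 432*s + 48) * hR3
    + (-59049*P1*s^6*Y^2 - 39366*P1*s^5*Y^2 - 10935*P1*s^4*Y^2 + 405*P1*s^2*Y^2 + 54*P1*s*Y^2 + 3*P1*Y^2 - 531441*P9*s^6*Y^2 - 354294*P9*s^5*Y^2 - 98415*P9*s^4*Y^2 + 3645*P9*s^2*Y^2 + 486*P9*s*Y^2 + 27*P9*Y^2 - 12754584*s^8*Y^3 - 12754584*s^7*Y^3 - 5668704*s^6*Y^3 - 1102248*s^5*Y^3 + 40824*s^3*Y^3 + 7776*s^2*Y^3 + 648*s*Y^3 + 24*Y^3) * hY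

theorem sys9_Q9 {A : Type*} [CommRing A]
    (P1 P3 P9 Q1 Q3 Q9 R1 R3 R9 s Y dP1 dP3 dP9 dQ1 dQ3 dQ9 dR1 dR3 dR9 ds dY : A)
    (hdY : 8 * ((54*s + 9) * ds * Y + (27*s^2 + 9*s + 1) * dY) = 9 * dP9 - dP1)
    (hs : ds = s * (27*s^2 + 9*s + 1) * Y)
    (hP1 : 12 * dP1 = (P1 ^ 2 - Q1))
    (hP9 : 12 * dP9 = 9 * (P9 ^ 2 - Q9))
    (hQ9 : 3 * dQ9 = 9 * (P9 * Q9 - R9))
    (hY : 8 * (27*s^2 + 9*s + 1) * Y = 9 * P9 - P1)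
    :
    96 * ((27*s^2 + 9*s + 1) * (-18*s^4*Y*dY - 36*s^3*Y^2*ds - 168*s^3*Y*dY - 252*s^2*Y^2*ds - 108*s^2*Y*dY - 108*s*Y^2*ds - 24*s*Y*dY - 12*Y^2*ds - 2*Y*dY + dQ9)) =
      (-18*s^4*Y - 168*s^3*Y - 108*s^2*Y - 24*s*Y - 2*Y) * (Q1 - 59049*s^4*Y^2 - 26244*s^3*Y^2 - 4374*s^2*Y^2 - 252*s*Y^2 - Y^2)
      + (864*P1*s^2 + 288*P1*s + 32*P1 + 188082*s^4*Y + 138024*s^3*Y + 43308*s^2*Y + 6552*s*Y + 418*Y) * (Q9 - 9*s^4*Y^2 - 84*s^3*Y^2 - 54*s^2*Y^2 - 12*s*Y^2 - Y^2)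
      + (-7776*s^2 - 2592*s - 288) * (R9 + 27*s^6*Y^3 - 486*s^5*Y^3 - 891*s^4*Y^3 - 504*s^3*Y^3 - 135*s^2*Y^3 - 18*s*Y^3 - Y^3) := by
  linear_combination (-216*s^4*Y - 2016*s^3*Y - 1296*s^2*Y - 288*s*Y - 24*Y) * hdY
    + (202176*s^4*Y^2 + 203904*s^3*Y^2 + 69120*s^2*Y^2 + 10368*s*Y^2 + 576*Y^2) * hs
    + (18*s^4*Y + 168*s^3*Y + 108*s^2*Y + 24*s*Y + 2*Y) * hP1
    + (-162*s^4*Y - 1512*s^3*Y - 972*s^2*Y - 216*s*Y - 18*Y) * hP9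
    + (864*s^2 + 288*s + 32) * hQ9
    + (18*P1*s^4*Y + 168*P1*s^3*Y + 108*P1*s^2*Y + 24*P1*s*Y + 2*P1*Y + 162*P9*s^4*Y + 1512*P9*s^3*Y + 972*P9*s^2*Y + 216*P9*s*Y + 18*P9*Y - 864*Q9*s^2 - 288*Q9*s - 32*Q9 + 3888*s^6*Y^2 + 37584*s^5*Y^2 + 35568*s^4*Y^2 + 14304*s^3*Y^2 + 3024*s^2*Y^2 + 336*s*Y^2 + 16*Y^2) * hY

theorem sys9_R9 {A : Type*} [CommRing A]
    (P1 P3 P9 Q1 Q3 Q9 R1 R3 R9 s Y dP1 dP3 dP9 dQ1 dQ3 dQ9 dR1 dR3 dR9 ds dY : A)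
    (hdY : 8 * ((54*s + 9) * ds * Y + (27*s^2 + 9*s + 1) * dY) = 9 * dP9 - dP1)
    (hs : ds = s * (27*s^2 + 9*s + 1) * Y)
    (hP1 : 12 * dP1 = (P1 ^ 2 - Q1))
    (hP9 : 12 * dP9 = 9 * (P9 ^ 2 - Q9))
    (hR9 : 2 * dR9 = 9 * (P9 * R9 - Q9 ^ 2))
    (hY : 8 * (27*s^2 + 9*s + 1) * Y = 9 * P9 - P1)
    :
    96 * ((27*s^2 + 9*s + 1) * (81*s^6*Y^2*dY + 162*s^5*Y^3*ds - 1458*s^5*Y^2*dY - 2430*s^4*Y^3*ds - 2673*s^4*Y^2*dY - 3564*s^3*Y^3*ds - 1512*s^3*Y^2*dY - 1512*s^2*Y^3*ds - 405*s^2*Y^2*dY - 270*s*Y^3*ds - 54*s*Y^2*dY - 18*Y^3*ds - 3*Y^2*dY + dR9)) =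
      (81*s^6*Y^2 - 1458*s^5*Y^2 - 2673*s^4*Y^2 - 1512*s^3*Y^2 - 405*s^2*Y^2 - 54*s*Y^2 - 3*Y^2) * (Q1 - 59049*s^4*Y^2 - 26244*s^3*Y^2 - 4374*s^2*Y^2 - 252*s*Y^2 - Y^2)
      + (-11664*Q9*s^2 - 3888*Q9*s - 432*Q9 - 111537*s^6*Y^2 - 896670*s^5*Y^2 - 743823*s^4*Y^2 - 263736*s^3*Y^2 - 48843*s^2*Y^2 - 4698*s*Y^2 - 189*Y^2) * (Q9 - 9*s^4*Y^2 - 84*s^3*Y^2 - 54*s^2*Y^2 - 12*s*Y^2 - Y^2)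
      + (1296*P1*s^2 + 432*P1*s + 48*P1 + 279936*s^4*Y + 186624*s^3*Y + 51840*s^2*Y + 6912*s*Y + 384*Y) * (R9 + 27*s^6*Y^3 - 486*s^5*Y^3 - 891*s^4*Y^3 - 504*s^3*Y^3 - 135*s^2*Y^3 - 18*s*Y^3 - Y^3) := by
  linear_combination (972*s^6*Y^2 - 17496*s^5*Y^2 - 32076*s^4*Y^2 - 18144*s^3*Y^2 - 4860*s^2*Y^2 - 648*s*Y^2 - 36*Y^2) * hdY
    + (1329696*s^6*Y^3 + 3794688*s^5*Y^3 + 2916000*s^4*Y^3 + 1057536*s^3*Y^3 + 204768*s^2*Y^3 + 20736*s*Y^3 + 864*Y^3) * hs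
    + (-81*s^6*Y^2 + 1458*s^5*Y^2 + 2673*s^4*Y^2 + 1512*s^3*Y^2 + 405*s^2*Y^2 + 54*s*Y^2 + 3*Y^2) * hP1
    + (729*s^6*Y^2 - 13122*s^5*Y^2 - 24057*s^4*Y^2 - 13608*s^3*Y^2 - 3645*s^2*Y^2 - 486*s*Y^2 - 27*Y^2) * hP9
    + (1296*s^2 + 432*s + 48) * hR9
    + (-81*P1*s^6*Y^2 + 1458*P1*s^5*Y^2 + 2673*P1*s^4*Y^2 + 1512*P1*s^3*Y^2 + 405*P1*s^2*Y^2 + 54*P1*s*Y^2 + 3*P1*Y^2 - 729*P9*s^6*Y^2 + 13122*P9*s^5*Y^2 + 24057*P9*s^4*Y^2 + 13608*P9*s^3*Y^2 + 3645*P9*s^2*Y^2 + 486*P9*s*Y^2 + 27*P9*Y^2 - 1296*R9*s^2 - 432*R9*s - 48*R9 - 17496*s^8*Y^3 + 309096*s^7*Y^3 + 681696*s^6*Y^3 + 530712*s^5*Y^3 + 217728*s^4*Y^3 + 52920*s^3*Y^3 + 7776*s^2*Y^3 + 648*s*Y^3 + 24*Y^3) * hY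

theorem sys9_V {A : Type*} [CommRing A]
    (P1 P3 P9 Q1 Q3 Q9 R1 R3 R9 s Y dP1 dP3 dP9 dQ1 dQ3 dQ9 dR1 dR3 dR9 ds dY : A)
    (hdY : 8 * ((54*s + 9) * ds * Y + (27*s^2 + 9*s + 1) * dY) = 9 * dP9 - dP1)
    (hs : ds = s * (27*s^2 + 9*s + 1) * Y)
    (hP1 : 12 * dP1 = (P1 ^ 2 - Q1))
    (hP3 : 12 * dP3 = 3 * (P3 ^ 2 - Q3))
    (hP9 : 12 * dP9 = 9 * (P9 ^ 2 - Q9))
    (hY : 8 * (27*s^2 + 9*s + 1) * Y = 9 * P9 - P1)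
    :
    96 * ((27*s^2 + 9*s + 1) * (-162*s^2*dY - 324*s*Y*ds - 36*s*dY - 36*Y*ds - dP1 + 3*dP3 - 2*dY)) =
      (54*s^2 + 36*s + 6) * (Q1 - 59049*s^4*Y^2 - 26244*s^3*Y^2 - 4374*s^2*Y^2 - 252*s*Y^2 - Y^2)
      + (-1944*s^2 - 648*s - 72) * (Q3 - 729*s^4*Y^2 - 324*s^3*Y^2 - 54*s^2*Y^2 - 12*s*Y^2 - Y^2)
      + (13122*s^2 + 2916*s + 162) * (Q9 - 9*s^4*Y^2 - 84*s^3*Y^2 - 54*s^2*Y^2 - 12*s*Y^2 - Y^2)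
      + (216*P1*s^2 + 72*P1*s + 8*P1 + 648*P3*s^2 + 216*P3*s + 24*P3 + 34992*s^4*Y + 19440*s^3*Y + 4320*s^2*Y + 432*s*Y + 16*Y) * (-P1 + 3*P3 - 162*s^2*Y - 36*s*Y - 2*Y) := by
  linear_combination (-1944*s^2 - 432*s - 24) * hdY
    + (-46656*s^2*Y - 20736*s*Y - 1728*Y) * hs
    + (-54*s^2 - 36*s - 6) * hP1
    + (648*s^2 + 216*s + 24) * hP3
    + (-1458*s^2 - 324*s - 18) * hP9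
    + (162*P1*s^2 + 36*P1*s + 2*P1 + 1458*P9*s^2 + 324*P9*s + 18*P9 + 34992*s^4*Y + 19440*s^3*Y + 4320*s^2*Y + 432*s*Y + 16*Y) * hY


end Fermat.Agent.S18x.IG.H8

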