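import Mathlib
import Fermat.Agent.S18x.IG.H8_Hm9Def

/-!
# S18 [IG] (I1-HM), level 9, part 3 (helper8): truncations modulo `X^10`

Generated with a python script (exact arithmetic); all certificates are checked by
`linear_combination` in the quotient ring `ℚ⟦X⟧ ⧸ (X^10)`.
-/

set_option autoImplicit false
set_option linter.unusedSimpArgs false
set_option linter.unusedVariables false
set_option linter.unusedTactic false

namespace Fermat.Agent.S18x.IG.H8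

open PowerSeries
open Fermat.Agent.S16x.Swd.H8
open scoped ArithmeticFunction.sigma

local notation "x10" => trQ 10 (PowerSeries.X : ℚ⟦X⟧)

theorem x10_pow : x10 ^ 10 = 0 := trQ_X_pow 10

theorem tr_cancel9 (n : ℕ) (a : ℚ⟦X⟧ ⧸ trI n) (h : 8 * a = 0) : a = 0 := by
  have h3 : trQ n (PowerSeries.C (1 / 8 : ℚ)) * 8 = 1 := by
    have : (8 : ℚ⟦X⟧ ⧸ trI n) = trQ n (PowerSeries.C (8 : ℚ)) := by
      rw [map_ofNat, map_ofNat]
    rw [this, ← map_mul, ← map_mul]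
    norm_num
  calc a = (trQ n (PowerSeries.C (1 / 8 : ℚ)) * 8) * a := by rw [h3, one_mul]
    _ = trQ n (PowerSeries.C (1 / 8 : ℚ)) * (8 * a) := by ring
    _ = 0 := by rw [h, mul_zero]

theorem sigma9_1_1 : σ 1 1 = 1 := by decide
theorem sigma9_1_2 : σ 1 2 = 3 := by decide
theorem sigma9_1_3 : σ 1 3 = 4 := by decide
theorem sigma9_1_4 : σ 1 4 = 7 := by decide
theorem sigma9_1_5 : σ 1 5 = 6 := by decide
theorem sigma9_1_6 : σ 1 6 = 12 := by decide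
theorem sigma9_1_7 : σ 1 7 = 8 := by decide
theorem sigma9_1_8 : σ 1 8 = 15 := by decide
theorem sigma9_1_9 : σ 1 9 = 13 := by decide
theorem sigma9_3_1 : σ 3 1 = 1 := by decide
theorem sigma9_3_2 : σ 3 2 = 9 := by decide
theorem sigma9_3_3 : σ 3 3 = 28 := by decide
theorem sigma9_3_4 : σ 3 4 = 73 := by decide
theorem sigma9_3_5 : σ 3 5 = 126 := by decide
theorem sigma9_3_6 : σ 3 6 = 252 := by decide
theorem sigma9_3_7 : σ 3 7 = 344 := by decide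
theorem sigma9_3_8 : σ 3 8 = 585 := by decide
theorem sigma9_3_9 : σ 3 9 = 757 := by decide
theorem sigma9_5_1 : σ 5 1 = 1 := by decide
theorem sigma9_5_2 : σ 5 2 = 33 := by decide
theorem sigma9_5_3 : σ 5 3 = 244 := by decide
theorem sigma9_5_4 : σ 5 4 = 1057 := by decide
theorem sigma9_5_5 : σ 5 5 = 3126 := by decide
theorem sigma9_5_6 : σ 5 6 = 8052 := by decide
theorem sigma9_5_7 : σ 5 7 = 16808 := by decide
theorem sigma9_5_8 : σ 5 8 = 33825 := by decide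
theorem sigma9_5_9 : σ 5 9 = 59293 := by decide

theorem tr10_P1 : trQ 10 (Pser ℚ) = -312*x10^9 - 360*x10^8 - 192*x10^7 - 288*x10^6 - 144*x10^5 - 168*x10^4 - 96*x10^3 - 72*x10^2 - 24*x10 + 1 := by
  rw [trQ_eq_sum]
  simp only [Finset.sum_range_succ, Finset.sum_range_zero, coeff_Pser]
  norm_num [sigma9_1_1, sigma9_1_2, sigma9_1_3, sigma9_1_4, sigma9_1_5, sigma9_1_6, sigma9_1_7, sigma9_1_8, sigma9_1_9, sigma9_3_1, sigma9_3_2, sigma9_3_3, sigma9_3_4, sigma9_3_5, sigma9_3_6, sigma9_3_7, sigma9_3_8, sigma9_3_9, sigma9_5_1, sigma9_5_2, sigma9_5_3, sigma9_5_4, sigma9_5_5, sigma9_5_6, sigma9_5_7, sigma9_5_8, sigma9_5_9, map_neg, map_mul, map_ofNat]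
  try ring

theorem tr10_Q1 : trQ 10 (Qser ℚ) = 181680*x10^9 + 140400*x10^8 + 82560*x10^7 + 60480*x10^6 + 30240*x10^5 + 17520*x10^4 + 6720*x10^3 + 2160*x10^2 + 240*x10 + 1 := by
  rw [trQ_eq_sum]
  simp only [Finset.sum_range_succ, Finset.sum_range_zero, coeff_Qser]
  norm_num [sigma9_1_1, sigma9_1_2, sigma9_1_3, sigma9_1_4, sigma9_1_5, sigma9_1_6, sigma9_1_7, sigma9_1_8, sigma9_1_9, sigma9_3_1, sigma9_3_2, sigma9_3_3, sigma9_3_4, sigma9_3_5, sigma9_3_6, sigma9_3_7, sigma9_3_8, sigma9_3_9, sigma9_5_1, sigma9_5_2, sigma9_5_3, sigma9_5_4, sigma9_5_5, sigma9_5_6, sigma9_5_7, sigma9_5_8, sigma9_5_9, map_neg, map_mul, map_ofNat]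
  try ring

theorem tr10_R1 : trQ 10 (Rser ℚ) = -29883672*x10^9 - 17047800*x10^8 - 8471232*x10^7 - 4058208*x10^6 - 1575504*x10^5 - 532728*x10^4 - 122976*x10^3 - 16632*x10^2 - 504*x10 + 1 := by
  rw [trQ_eq_sum]
  simp only [Finset.sum_range_succ, Finset.sum_range_zero, coeff_Rser]
  norm_num [sigma9_1_1, sigma9_1_2, sigma9_1_3, sigma9_1_4, sigma9_1_5, sigma9_1_6, sigma9_1_7, sigma9_1_8, sigma9_1_9, sigma9_3_1, sigma9_3_2, sigma9_3_3, sigma9_3_4, sigma9_3_5, sigma9_3_6, sigma9_3_7, sigma9_3_8, sigma9_3_9, sigma9_5_1, sigma9_5_2, sigma9_5_3, sigma9_5_4, sigma9_5_5, sigma9_5_6, sigma9_5_7, sigma9_5_8, sigma9_5_9, map_neg, map_mul, map_ofNat]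
  try ring

theorem tr10_P3 : trQ 10 (Pd 3 nz9_mid) = -96*x10^9 - 72*x10^6 - 24*x10^3 + 1 := by
  rw [trQ_eq_sum]
  simp only [Finset.sum_range_succ, Finset.sum_range_zero, coeff_Pser, Pd, PowerSeries.coeff_expand]
  norm_num [sigma9_1_1, sigma9_1_2, sigma9_1_3, sigma9_1_4, sigma9_1_5, sigma9_1_6, sigma9_1_7, sigma9_1_8, sigma9_1_9, sigma9_3_1, sigma9_3_2, sigma9_3_3, sigma9_3_4, sigma9_3_5, sigma9_3_6, sigma9_3_7, sigma9_3_8, sigma9_3_9, sigma9_5_1, sigma9_5_2, sigma9_5_3, sigma9_5_4, sigma9_5_5, sigma9_5_6, sigma9_5_7, sigma9_5_8, sigma9_5_9, map_neg, map_mul, map_ofNat]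
  try ring

theorem tr10_Q3 : trQ 10 (Qd 3 nz9_mid) = 6720*x10^9 + 2160*x10^6 + 240*x10^3 + 1 := by
  rw [trQ_eq_sum]
  simp only [Finset.sum_range_succ, Finset.sum_range_zero, coeff_Qser, Qd, PowerSeries.coeff_expand]
  norm_num [sigma9_1_1, sigma9_1_2, sigma9_1_3, sigma9_1_4, sigma9_1_5, sigma9_1_6, sigma9_1_7, sigma9_1_8, sigma9_1_9, sigma9_3_1, sigma9_3_2, sigma9_3_3, sigma9_3_4, sigma9_3_5, sigma9_3_6, sigma9_3_7, sigma9_3_8, sigma9_3_9, sigma9_5_1, sigma9_5_2, sigma9_5_3, sigma9_5_4, sigma9_5_5, sigma9_5_6, sigma9_5_7, sigma9_5_8, sigma9_5_9, map_neg, map_mul, map_ofNat]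
  try ring

theorem tr10_R3 : trQ 10 (Rd 3 nz9_mid) = -122976*x10^9 - 16632*x10^6 - 504*x10^3 + 1 := by
  rw [trQ_eq_sum]
  simp only [Finset.sum_range_succ, Finset.sum_range_zero, coeff_Rser, Rd, PowerSeries.coeff_expand]
  norm_num [sigma9_1_1, sigma9_1_2, sigma9_1_3, sigma9_1_4, sigma9_1_5, sigma9_1_6, sigma9_1_7, sigma9_1_8, sigma9_1_9, sigma9_3_1, sigma9_3_2, sigma9_3_3, sigma9_3_4, sigma9_3_5, sigma9_3_6, sigma9_3_7, sigma9_3_8, sigma9_3_9, sigma9_5_1, sigma9_5_2, sigma9_5_3, sigma9_5_4, sigma9_5_5, sigma9_5_6, sigma9_5_7, sigma9_5_8, sigma9_5_9, map_neg, map_mul, map_ofNat]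
  try ring

theorem tr10_P9 : trQ 10 (Pd 9 nz9_top) = -24*x10^9 + 1 := by
  rw [trQ_eq_sum]
  simp only [Finset.sum_range_succ, Finset.sum_range_zero, coeff_Pser, Pd, PowerSeries.coeff_expand]
  norm_num [sigma9_1_1, sigma9_1_2, sigma9_1_3, sigma9_1_4, sigma9_1_5, sigma9_1_6, sigma9_1_7, sigma9_1_8, sigma9_1_9, sigma9_3_1, sigma9_3_2, sigma9_3_3, sigma9_3_4, sigma9_3_5, sigma9_3_6, sigma9_3_7, sigma9_3_8, sigma9_3_9, sigma9_5_1, sigma9_5_2, sigma9_5_3, sigma9_5_4, sigma9_5_5, sigma9_5_6, sigma9_5_7, sigma9_5_8, sigma9_5_9, map_neg, map_mul, map_ofNat]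
  try ring

theorem tr10_Q9 : trQ 10 (Qd 9 nz9_top) = 240*x10^9 + 1 := by
  rw [trQ_eq_sum]
  simp only [Finset.sum_range_succ, Finset.sum_range_zero, coeff_Qser, Qd, PowerSeries.coeff_expand]
  norm_num [sigma9_1_1, sigma9_1_2, sigma9_1_3, sigma9_1_4, sigma9_1_5, sigma9_1_6, sigma9_1_7, sigma9_1_8, sigma9_1_9, sigma9_3_1, sigma9_3_2, sigma9_3_3, sigma9_3_4, sigma9_3_5, sigma9_3_6, sigma9_3_7, sigma9_3_8, sigma9_3_9, sigma9_5_1, sigma9_5_2, sigma9_5_3, sigma9_5_4, sigma9_5_5, sigma9_5_6, sigma9_5_7, sigma9_5_8, sigma9_5_9, map_neg, map_mul, map_ofNat]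
  try ring

theorem tr10_R9 : trQ 10 (Rd 9 nz9_top) = -504*x10^9 + 1 := by
  rw [trQ_eq_sum]
  simp only [Finset.sum_range_succ, Finset.sum_range_zero, coeff_Rser, Rd, PowerSeries.coeff_expand]
  norm_num [sigma9_1_1, sigma9_1_2, sigma9_1_3, sigma9_1_4, sigma9_1_5, sigma9_1_6, sigma9_1_7, sigma9_1_8, sigma9_1_9, sigma9_3_1, sigma9_3_2, sigma9_3_3, sigma9_3_4, sigma9_3_5, sigma9_3_6, sigma9_3_7, sigma9_3_8, sigma9_3_9, sigma9_5_1, sigma9_5_2, sigma9_5_3, sigma9_5_4, sigma9_5_5, sigma9_5_6, sigma9_5_7, sigma9_5_8, sigma9_5_9, map_neg, map_mul, map_ofNat]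
  try ring

theorem tr10_Eu : trQ 10 Eu = x10^7 + x10^5 - x10^2 - x10 + 1 := by
  rw [trQ_Eq 9]
  simp only [Finset.prod_range_succ, Finset.prod_range_zero]
  linear_combination (-x10^35 + x10^34 + x10^33 - x10^30 - x10^28 - x10^25 + 2*x10^23 + x10^22 + x10^21 + x10^20 - x10^18 - x10^17 - x10^16 - 2*x10^15 - x10^14 - x10^13 + x10^12 + x10^11 + 2*x10^10 + x10^9 + x10^8 + x10^7 - x10^5 - x10^4 - x10^3 - 2*x10^2 + 1) * x10_pow

theorem coeff_Eu_zero9 : Eu.coeff 0 = 1 := by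
  rw [PowerSeries.coeff_zero_eq_constantCoeff_apply, constantCoeff_Eq]

theorem coeff_Eu_one9 : Eu.coeff 1 = -1 := by
  have h : trQ 2 Eu = trQ 2 (1 - PowerSeries.X) := by
    rw [trQ_Eq 1]
    simp only [Finset.prod_range_succ, Finset.prod_range_zero, map_sub, map_one]
    ring
  have h1 := (trQ_eq_iff 2 _ _).mp h 1 (by norm_num)
  rw [h1]
  simp [PowerSeries.coeff_X, PowerSeries.coeff_one]

theorem tr10_E9x : trQ 10 E9x = -x10^9 + 1 := by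
  rw [trQ_eq_sum]
  simp only [Finset.sum_range_succ, Finset.sum_range_zero, E9x, PowerSeries.coeff_expand]
  norm_num [coeff_Eu_zero9, coeff_Eu_one9, map_neg]
  try ring

theorem tr10_s9 : trQ 10 s9 = 810*x10^9 + 429*x10^8 + 221*x10^7 + 108*x10^6 + 51*x10^5 + 22*x10^4 + 9*x10^3 + 3*x10^2 + x10 := by
  have h := congrArg (trQ 10) s9_mul
  rw [map_mul, map_mul, map_pow, map_pow, tr10_Eu, tr10_E9x] at h
  linear_combination (1479*x10^9 + 810*x10^8 + 429*x10^7 + 221*x10^6 + 108*x10^5 + 51*x10^4 + 22*x10^3 + 9*x10^2 + 3*x10 + 1) * h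
    + (trQ 10 s9 * (-1479*x10^20 - 810*x10^19 - 4866*x10^18 - 2651*x10^17 - 5832*x10^16 + 1293*x10^15 + 3755*x10^14 + 6519*x10^13 + 12432*x10^12 + 2295*x10^11 + 1101*x10^10 - 12810*x10^9 - 7090*x10^8 - 3789*x10^7 - 1974*x10^6 + 9380*x10^5 + 5205*x10^4 + 2802*x10^3 - 5932*x10^2 - 3321*x10 + 2640) + (-1479*x10^27 - 810*x10^26 - 429*x10^25 - 221*x10^24 - 108*x10^23 - 51*x10^22 - 22*x10^21 - 9*x10^20 - 3*x10^19 + 4436*x10^18 + 2430*x10^17 + 1287*x10^16 + 663*x10^15 + 324*x10^14 + 153*x10^13 + 66*x10^12 + 27*x10^11 + 9*x10^10 - 4434*x10^9 - 2430*x10^8 - 1287*x10^7 - 663*x10^6 - 324*x10^5 - 153*x10^4 - 66*x10^3 - 27*x10^2 - 9*x10 + 1476)) * x10_pow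

theorem tr10_Y9 : trQ 10 Y9 = 12*x10^9 + 45*x10^8 - 48*x10^7 + 36*x10^6 + 18*x10^5 - 42*x10^4 + 12*x10^3 + 9*x10^2 - 6*x10 + 1 := by
  have h := congrArg (trQ 10) hY9
  simp only [map_mul, map_add, map_sub, map_pow, map_one, map_ofNat, tr10_s9, tr10_P9, tr10_P1] at h
  have h3 : 8 * (trQ 10 Y9 - (12*x10^9 + 45*x10^8 - 48*x10^7 + 36*x10^6 + 18*x10^5 - 42*x10^4 + 12*x10^3 + 9*x10^2 - 6*x10 + 1)) = 0 := by
    linear_combination (3861*x10^8 - 1989*x10^7 + 459*x10^5 - 198*x10^4 + 27*x10^2 - 9*x10 + 1) * h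
      - 8 * (trQ 10 Y9 * (68396456700*x10^16 + 37215041760*x10^15 + 19185722127*x10^14 + 17026908183*x10^13 + 8890803081*x10^12 + 4219552116*x10^11 + 2324737260*x10^10 + 1015821405*x10^9 + 450339750*x10^8 + 170367300*x10^7 + 58664331*x10^6 + 24194700*x10^5 + 7136289*x10^4 + 1568565*x10^3 + 653670*x10^2 + 112050*x10) - (46332*x10^7 + 149877*x10^6 + 3159*x10^5 + 96768*x10^4 + 16173*x10^3 + 47385*x10^2 + 16659*x10 + 13122)) * x10_pow
  exact sub_eq_zero.mp (tr_cancel9 10 _ h3)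


end Fermat.Agent.S18x.IG.H8

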