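import Mathlib
import Fermat.Agent.S18x.IG.H8_Hm9Sys
import Fermat.Agent.S18x.IG.H8_Hm9Tr

/-!
# S18 [IG] (I1-HM), level 9, part 4 (helper8): the seven defects and their ODE

Generated with a python script; all identities are checked by `linear_combination`.
-/

set_option autoImplicit false
set_option linter.unusedSimpArgs false
set_option linter.unusedVariables false
set_option linter.unusedTactic false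

namespace Fermat.Agent.S18x.IG.H8

open PowerSeries
open Fermat.Agent.S16x.Swd.H8

/-- a defect of level 9 -/
noncomputable def G9Q1 : ℚ⟦X⟧ := (Qser ℚ) - 59049*s9^4*Y9^2 - 26244*s9^3*Y9^2 - 4374*s9^2*Y9^2 - 252*s9*Y9^2 - Y9^2

/-- a defect of level 9 -/
noncomputable def G9R1 : ℚ⟦X⟧ := (Rser ℚ) + 14348907*s9^6*Y9^3 + 9565938*s9^5*Y9^3 + 2657205*s9^4*Y9^3 + 367416*s9^3*Y9^3 + 24057*s9^2*Y9^3 + 486*s9*Y9^3 - Y9^3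

/-- a defect of level 9 -/
noncomputable def G9Q3 : ℚ⟦X⟧ := (Qd 3 nz9_mid) - 729*s9^4*Y9^2 - 324*s9^3*Y9^2 - 54*s9^2*Y9^2 - 12*s9*Y9^2 - Y9^2

/-- a defect of level 9 -/
noncomputable def G9R3 : ℚ⟦X⟧ := (Rd 3 nz9_mid) + 19683*s9^6*Y9^3 + 13122*s9^5*Y9^3 + 3645*s9^4*Y9^3 - 135*s9^2*Y9^3 - 18*s9*Y9^3 - Y9^3

/-- a defect of level 9 -/
noncomputable def G9Q9 : ℚ⟦X⟧ := (Qd 9 nz9_top) - 9*s9^4*Y9^2 - 84*s9^3*Y9^2 - 54*s9^2*Y9^2 - 12*s9*Y9^2 - Y9^2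

/-- a defect of level 9 -/
noncomputable def G9R9 : ℚ⟦X⟧ := (Rd 9 nz9_top) + 27*s9^6*Y9^3 - 486*s9^5*Y9^3 - 891*s9^4*Y9^3 - 504*s9^3*Y9^3 - 135*s9^2*Y9^3 - 18*s9*Y9^3 - Y9^3

/-- a defect of level 9 -/
noncomputable def G9V : ℚ⟦X⟧ := -(Pser ℚ) + 3*(Pd 3 nz9_mid) - 162*s9^2*Y9 - 36*s9*Y9 - 2*Y9

/-- the vector of the seven defects -/
noncomputable def G9 : Fin 7 → ℚ⟦X⟧ := ![G9Q1, G9R1, G9Q3, G9R3, G9Q9, G9R9, G9V]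

set_option maxHeartbeats 4000000 in
/-- the coefficient matrix of the linear system -/
noncomputable def M9 : Fin 7 → Fin 7 → ℚ⟦X⟧ :=
  ![![864*(Pser ℚ)*s9^2 + 288*(Pser ℚ)*s9 + 32*(Pser ℚ) - 118098*s9^4*Y9 - 52488*s9^3*Y9 - 8748*s9^2*Y9 - 504*s9*Y9 - 2*Y9,
      -864*s9^2 - 288*s9 - 32,
      0,
      0,
      9565938*s9^4*Y9 + 4251528*s9^3*Y9 + 708588*s9^2*Y9 + 40824*s9*Y9 + 162*Y9,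
      0,
      0],
    ![-1296*(Qser ℚ)*s9^2 - 432*(Qser ℚ)*s9 - 48*(Qser ℚ) - 33480783*s9^6*Y9^2 - 30823578*s9^5*Y9^2 - 11868849*s9^4*Y9^2 - 2373624*s9^3*Y9^2 - 247941*s9^2*Y9^2 - 11070*s9*Y9^2 - 51*Y9^2,
      1296*(Pser ℚ)*s9^2 + 432*(Pser ℚ)*s9 + 48*(Pser ℚ),
      0,
      0,
      -3486784401*s9^6*Y9^2 - 2324522934*s9^5*Y9^2 - 645700815*s9^4*Y9^2 - 89282088*s9^3*Y9^2 - 5845851*s9^2*Y9^2 - 118098*s9*Y9^2 + 243*Y9^2,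
      0,
      0],
    ![-1458*s9^4*Y9 - 648*s9^3*Y9 - 108*s9^2*Y9 - 24*s9*Y9 - 2*Y9,
      0,
      2592*(Pd 3 nz9_mid)*s9^2 + 864*(Pd 3 nz9_mid)*s9 + 96*(Pd 3 nz9_mid),
      -2592*s9^2 - 864*s9 - 96,
      118098*s9^4*Y9 + 52488*s9^3*Y9 + 8748*s9^2*Y9 + 1944*s9*Y9 + 162*Y9,
      0,
      629856*s9^6*Y9^2 + 489888*s9^5*Y9^2 + 163296*s9^4*Y9^2 + 36288*s9^3*Y9^2 + 6048*s9^2*Y9^2 + 672*s9*Y9^2 + 32*Y9^2],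
    ![59049*s9^6*Y9^2 + 39366*s9^5*Y9^2 + 10935*s9^4*Y9^2 - 405*s9^2*Y9^2 - 54*s9*Y9^2 - 3*Y9^2,
      0,
      -3888*(Qd 3 nz9_mid)*s9^2 - 1296*(Qd 3 nz9_mid)*s9 - 144*(Qd 3 nz9_mid) - 2834352*s9^6*Y9^2 - 2204496*s9^5*Y9^2 - 734832*s9^4*Y9^2 - 163296*s9^3*Y9^2 - 27216*s9^2*Y9^2 - 3024*s9*Y9^2 - 144*Y9^2,
      3888*(Pd 3 nz9_mid)*s9^2 + 1296*(Pd 3 nz9_mid)*s9 + 144*(Pd 3 nz9_mid),
      -4782969*s9^6*Y9^2 - 3188646*s9^5*Y9^2 - 885735*s9^4*Y9^2 + 32805*s9^2*Y9^2 + 4374*s9*Y9^2 + 243*Y9^2,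
      0,
      -25509168*s9^8*Y9^3 - 25509168*s9^7*Y9^3 - 11337408*s9^6*Y9^3 - 2204496*s9^5*Y9^3 + 81648*s9^3*Y9^3 + 15552*s9^2*Y9^3 + 1296*s9*Y9^3 + 48*Y9^3],
    ![-18*s9^4*Y9 - 168*s9^3*Y9 - 108*s9^2*Y9 - 24*s9*Y9 - 2*Y9,
      0,
      0,
      0,
      864*(Pser ℚ)*s9^2 + 288*(Pser ℚ)*s9 + 32*(Pser ℚ) + 188082*s9^4*Y9 + 138024*s9^3*Y9 + 43308*s9^2*Y9 + 6552*s9*Y9 + 418*Y9,
      -7776*s9^2 - 2592*s9 - 288,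
      0],
    ![81*s9^6*Y9^2 - 1458*s9^5*Y9^2 - 2673*s9^4*Y9^2 - 1512*s9^3*Y9^2 - 405*s9^2*Y9^2 - 54*s9*Y9^2 - 3*Y9^2,
      0,
      0,
      0,
      -11664*(Qd 9 nz9_top)*s9^2 - 3888*(Qd 9 nz9_top)*s9 - 432*(Qd 9 nz9_top) - 111537*s9^6*Y9^2 - 896670*s9^5*Y9^2 - 743823*s9^4*Y9^2 - 263736*s9^3*Y9^2 - 48843*s9^2*Y9^2 - 4698*s9*Y9^2 - 189*Y9^2,
      1296*(Pser ℚ)*s9^2 + 432*(Pser ℚ)*s9 + 48*(Pser ℚ) + 279936*s9^4*Y9 + 186624*s9^3*Y9 + 51840*s9^2*Y9 + 6912*s9*Y9 + 384*Y9,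
      0],
    ![54*s9^2 + 36*s9 + 6,
      0,
      -1944*s9^2 - 648*s9 - 72,
      0,
      13122*s9^2 + 2916*s9 + 162,
      0,
      216*(Pser ℚ)*s9^2 + 72*(Pser ℚ)*s9 + 8*(Pser ℚ) + 648*(Pd 3 nz9_mid)*s9^2 + 216*(Pd 3 nz9_mid)*s9 + 24*(Pd 3 nz9_mid) + 34992*s9^4*Y9 + 19440*s9^3*Y9 + 4320*s9^2*Y9 + 432*s9*Y9 + 16*Y9]]

theorem cc9_P1 : PowerSeries.constantCoeff (Pser ℚ) = 1 := by
  rw [← PowerSeries.coeff_zero_eq_constantCoeff_apply, coeff_Pser, if_pos rfl]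

theorem cc9_Q1 : PowerSeries.constantCoeff (Qser ℚ) = 1 := by
  rw [← PowerSeries.coeff_zero_eq_constantCoeff_apply, coeff_Qser, if_pos rfl]

theorem cc9_R1 : PowerSeries.constantCoeff (Rser ℚ) = 1 := by
  rw [← PowerSeries.coeff_zero_eq_constantCoeff_apply, coeff_Rser, if_pos rfl]

theorem cc9_Pd (d : ℕ) (hd : d ≠ 0) : PowerSeries.constantCoeff (Pd d hd) = 1 := by
  rw [Pd, PowerSeries.constantCoeff_expand, cc9_P1]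

theorem cc9_Qd (d : ℕ) (hd : d ≠ 0) : PowerSeries.constantCoeff (Qd d hd) = 1 := by
  rw [Qd, PowerSeries.constantCoeff_expand, cc9_Q1]

theorem cc9_Rd (d : ℕ) (hd : d ≠ 0) : PowerSeries.constantCoeff (Rd d hd) = 1 := by
  rw [Rd, PowerSeries.constantCoeff_expand, cc9_R1]

theorem cc9_Y : PowerSeries.constantCoeff Y9 = 1 := by
  have h := congrArg (PowerSeries.constantCoeff (R := ℚ)) hY9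
  rw [map_mul, map_mul, constantCoeff_D9, map_sub, map_mul, cc9_Pd, cc9_P1, map_ofNat, map_ofNat] at h
  linarith

theorem ram9_P1 : 12 * thD (Pser ℚ) = Pser ℚ ^ 2 - Qser ℚ := by
  have h := ramanujan_P ℚ
  rwa [← thD_apply] at h

theorem ram9_Q1 : 3 * thD (Qser ℚ) = Pser ℚ * Qser ℚ - Rser ℚ := by
  have h := ramanujan_Q ℚ
  rwa [← thD_apply] at h

theorem ram9_R1 : 2 * thD (Rser ℚ) = Pser ℚ * Rser ℚ - Qser ℚ ^ 2 := by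
  have h := ramanujan_R ℚ
  rwa [← thD_apply] at h

theorem ram9_P3 : 12 * thD (Pd 3 nz9_mid) = 3 * (Pd 3 nz9_mid ^ 2 - Qd 3 nz9_mid) := by
  have h := ram_Pd 3 nz9_mid
  push_cast at h
  exact h

theorem ram9_Q3 : 3 * thD (Qd 3 nz9_mid) = 3 * (Pd 3 nz9_mid * Qd 3 nz9_mid - Rd 3 nz9_mid) := by
  have h := ram_Qd 3 nz9_mid
  push_cast at h
  exact h

theorem ram9_R3 : 2 * thD (Rd 3 nz9_mid) = 3 * (Pd 3 nz9_mid * Rd 3 nz9_mid - Qd 3 nz9_mid ^ 2) := by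
  have h := ram_Rd 3 nz9_mid
  push_cast at h
  exact h

theorem ram9_P9 : 12 * thD (Pd 9 nz9_top) = 9 * (Pd 9 nz9_top ^ 2 - Qd 9 nz9_top) := by
  have h := ram_Pd 9 nz9_top
  push_cast at h
  exact h

theorem ram9_Q9 : 3 * thD (Qd 9 nz9_top) = 9 * (Pd 9 nz9_top * Qd 9 nz9_top - Rd 9 nz9_top) := by
  have h := ram_Qd 9 nz9_top
  push_cast at h
  exact h

theorem ram9_R9 : 2 * thD (Rd 9 nz9_top) = 9 * (Pd 9 nz9_top * Rd 9 nz9_top - Qd 9 nz9_top ^ 2) := by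
  have h := ram_Rd 9 nz9_top
  push_cast at h
  exact h

theorem thD_G9Q1 : thD G9Q1 = -118098*s9^4*Y9*(thD Y9) - 236196*s9^3*Y9^2*(thD s9) - 52488*s9^3*Y9*(thD Y9) - 78732*s9^2*Y9^2*(thD s9) - 8748*s9^2*Y9*(thD Y9) - 8748*s9*Y9^2*(thD s9) - 504*s9*Y9*(thD Y9) - 252*Y9^2*(thD s9) - 2*Y9*(thD Y9) + (thD (Qser ℚ)) := by
  unfold G9Q1
  simp only [map_sub, map_add, map_neg, map_mul, Derivation.leibniz, Derivation.leibniz_pow,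
    Derivation.map_one_eq_zero, thD_ofNat, smul_eq_mul, nsmul_eq_mul]
  push_cast
  ring

theorem thD_G9R1 : thD G9R1 = 43046721*s9^6*Y9^2*(thD Y9) + 86093442*s9^5*Y9^3*(thD s9) + 28697814*s9^5*Y9^2*(thD Y9) + 47829690*s9^4*Y9^3*(thD s9) + 7971615*s9^4*Y9^2*(thD Y9) + 10628820*s9^3*Y9^3*(thD s9) + 1102248*s9^3*Y9^2*(thD Y9) + 1102248*s9^2*Y9^3*(thD s9) + 72171*s9^2*Y9^2*(thD Y9) + 48114*s9*Y9^3*(thD s9) + 1458*s9*Y9^2*(thD Y9) + 486*Y9^3*(thD s9) - 3*Y9^2*(thD Y9) + (thD (Rser ℚ)) := by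
  unfold G9R1
  simp only [map_sub, map_add, map_neg, map_mul, Derivation.leibniz, Derivation.leibniz_pow,
    Derivation.map_one_eq_zero, thD_ofNat, smul_eq_mul, nsmul_eq_mul]
  push_cast
  ring

theorem thD_G9Q3 : thD G9Q3 = -1458*s9^4*Y9*(thD Y9) - 2916*s9^3*Y9^2*(thD s9) - 648*s9^3*Y9*(thD Y9) - 972*s9^2*Y9^2*(thD s9) - 108*s9^2*Y9*(thD Y9) - 108*s9*Y9^2*(thD s9) - 24*s9*Y9*(thD Y9) - 12*Y9^2*(thD s9) - 2*Y9*(thD Y9) + (thD (Qd 3 nz9_mid)) := by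
  unfold G9Q3
  simp only [map_sub, map_add, map_neg, map_mul, Derivation.leibniz, Derivation.leibniz_pow,
    Derivation.map_one_eq_zero, thD_ofNat, smul_eq_mul, nsmul_eq_mul]
  push_cast
  ring

theorem thD_G9R3 : thD G9R3 = 59049*s9^6*Y9^2*(thD Y9) + 118098*s9^5*Y9^3*(thD s9) + 39366*s9^5*Y9^2*(thD Y9) + 65610*s9^4*Y9^3*(thD s9) + 10935*s9^4*Y9^2*(thD Y9) + 14580*s9^3*Y9^3*(thD s9) - 405*s9^2*Y9^2*(thD Y9) - 270*s9*Y9^3*(thD s9) - 54*s9*Y9^2*(thD Y9) - 18*Y9^3*(thD s9) - 3*Y9^2*(thD Y9) + (thD (Rd 3 nz9_mid)) := by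
  unfold G9R3
  simp only [map_sub, map_add, map_neg, map_mul, Derivation.leibniz, Derivation.leibniz_pow,
    Derivation.map_one_eq_zero, thD_ofNat, smul_eq_mul, nsmul_eq_mul]
  push_cast
  ring

theorem thD_G9Q9 : thD G9Q9 = -18*s9^4*Y9*(thD Y9) - 36*s9^3*Y9^2*(thD s9) - 168*s9^3*Y9*(thD Y9) - 252*s9^2*Y9^2*(thD s9) - 108*s9^2*Y9*(thD Y9) - 108*s9*Y9^2*(thD s9) - 24*s9*Y9*(thD Y9) - 12*Y9^2*(thD s9) - 2*Y9*(thD Y9) + (thD (Qd 9 nz9_top)) := by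
  unfold G9Q9
  simp only [map_sub, map_add, map_neg, map_mul, Derivation.leibniz, Derivation.leibniz_pow,
    Derivation.map_one_eq_zero, thD_ofNat, smul_eq_mul, nsmul_eq_mul]
  push_cast
  ring

theorem thD_G9R9 : thD G9R9 = 81*s9^6*Y9^2*(thD Y9) + 162*s9^5*Y9^3*(thD s9) - 1458*s9^5*Y9^2*(thD Y9) - 2430*s9^4*Y9^3*(thD s9) - 2673*s9^4*Y9^2*(thD Y9) - 3564*s9^3*Y9^3*(thD s9) - 1512*s9^3*Y9^2*(thD Y9) - 1512*s9^2*Y9^3*(thD s9) - 405*s9^2*Y9^2*(thD Y9) - 270*s9*Y9^3*(thD s9) - 54*s9*Y9^2*(thD Y9) - 18*Y9^3*(thD s9) - 3*Y9^2*(thD Y9) + (thD (Rd 9 nz9_top)) := by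
  unfold G9R9
  simp only [map_sub, map_add, map_neg, map_mul, Derivation.leibniz, Derivation.leibniz_pow,
    Derivation.map_one_eq_zero, thD_ofNat, smul_eq_mul, nsmul_eq_mul]
  push_cast
  ring

theorem thD_G9V : thD G9V = -162*s9^2*(thD Y9) - 324*s9*Y9*(thD s9) - 36*s9*(thD Y9) - 36*Y9*(thD s9) - (thD (Pser ℚ)) + 3*(thD (Pd 3 nz9_mid)) - 2*(thD Y9) := by
  unfold G9V
  simp only [map_sub, map_add, map_neg, map_mul, Derivation.leibniz, Derivation.leibniz_pow,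
    Derivation.map_one_eq_zero, thD_ofNat, smul_eq_mul, nsmul_eq_mul]
  push_cast
  ring

theorem ode9_G9Q1 : 96 * ((27*s9^2 + 9*s9 + 1) * thD G9Q1) =
    (864*(Pser ℚ)*s9^2 + 288*(Pser ℚ)*s9 + 32*(Pser ℚ) - 118098*s9^4*Y9 - 52488*s9^3*Y9 - 8748*s9^2*Y9 - 504*s9*Y9 - 2*Y9) * G9Q1
    + (-864*s9^2 - 288*s9 - 32) * G9R1
    + (9565938*s9^4*Y9 + 4251528*s9^3*Y9 + 708588*s9^2*Y9 + 40824*s9*Y9 + 162*Y9) * G9Q9 := by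
  have h := sys9_Q1 (Pser ℚ) (Pd 3 nz9_mid) (Pd 9 nz9_top) (Qser ℚ) (Qd 3 nz9_mid) (Qd 9 nz9_top) (Rser ℚ) (Rd 3 nz9_mid) (Rd 9 nz9_top) s9 Y9 (thD (Pser ℚ)) (thD (Pd 3 nz9_mid)) (thD (Pd 9 nz9_top)) (thD (Qser ℚ)) (thD (Qd 3 nz9_mid)) (thD (Qd 9 nz9_top)) (thD (Rser ℚ)) (thD (Rd 3 nz9_mid)) (thD (Rd 9 nz9_top)) (thD s9) (thD Y9)
    thD_Y9 thD_s9 ram9_P1 ram9_P9 ram9_Q1 hY9
  rw [thD_G9Q1]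
  unfold G9Q1 G9Q9 G9R1
  linear_combination h

theorem ode9_G9R1 : 96 * ((27*s9^2 + 9*s9 + 1) * thD G9R1) =
    (-1296*(Qser ℚ)*s9^2 - 432*(Qser ℚ)*s9 - 48*(Qser ℚ) - 33480783*s9^6*Y9^2 - 30823578*s9^5*Y9^2 - 11868849*s9^4*Y9^2 - 2373624*s9^3*Y9^2 - 247941*s9^2*Y9^2 - 11070*s9*Y9^2 - 51*Y9^2) * G9Q1
    + (1296*(Pser ℚ)*s9^2 + 432*(Pser ℚ)*s9 + 48*(Pser ℚ)) * G9R1
    + (-3486784401*s9^6*Y9^2 - 2324522934*s9^5*Y9^2 - 645700815*s9^4*Y9^2 - 89282088*s9^3*Y9^2 - 5845851*s9^2*Y9^2 - 118098*s9*Y9^2 + 243*Y9^2) * G9Q9 := by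
  have h := sys9_R1 (Pser ℚ) (Pd 3 nz9_mid) (Pd 9 nz9_top) (Qser ℚ) (Qd 3 nz9_mid) (Qd 9 nz9_top) (Rser ℚ) (Rd 3 nz9_mid) (Rd 9 nz9_top) s9 Y9 (thD (Pser ℚ)) (thD (Pd 3 nz9_mid)) (thD (Pd 9 nz9_top)) (thD (Qser ℚ)) (thD (Qd 3 nz9_mid)) (thD (Qd 9 nz9_top)) (thD (Rser ℚ)) (thD (Rd 3 nz9_mid)) (thD (Rd 9 nz9_top)) (thD s9) (thD Y9)
    thD_Y9 thD_s9 ram9_P1 ram9_P9 ram9_R1 hY9
  rw [thD_G9R1]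
  unfold G9Q1 G9Q9 G9R1
  linear_combination h

theorem ode9_G9Q3 : 96 * ((27*s9^2 + 9*s9 + 1) * thD G9Q3) =
    (-1458*s9^4*Y9 - 648*s9^3*Y9 - 108*s9^2*Y9 - 24*s9*Y9 - 2*Y9) * G9Q1
    + (2592*(Pd 3 nz9_mid)*s9^2 + 864*(Pd 3 nz9_mid)*s9 + 96*(Pd 3 nz9_mid)) * G9Q3
    + (-2592*s9^2 - 864*s9 - 96) * G9R3
    + (118098*s9^4*Y9 + 52488*s9^3*Y9 + 8748*s9^2*Y9 + 1944*s9*Y9 + 162*Y9) * G9Q9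
    + (629856*s9^6*Y9^2 + 489888*s9^5*Y9^2 + 163296*s9^4*Y9^2 + 36288*s9^3*Y9^2 + 6048*s9^2*Y9^2 + 672*s9*Y9^2 + 32*Y9^2) * G9V := by
  have h := sys9_Q3 (Pser ℚ) (Pd 3 nz9_mid) (Pd 9 nz9_top) (Qser ℚ) (Qd 3 nz9_mid) (Qd 9 nz9_top) (Rser ℚ) (Rd 3 nz9_mid) (Rd 9 nz9_top) s9 Y9 (thD (Pser ℚ)) (thD (Pd 3 nz9_mid)) (thD (Pd 9 nz9_top)) (thD (Qser ℚ)) (thD (Qd 3 nz9_mid)) (thD (Qd 9 nz9_top)) (thD (Rser ℚ)) (thD (Rd 3 nz9_mid)) (thD (Rd 9 nz9_top)) (thD s9) (thD Y9)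
    thD_Y9 thD_s9 ram9_P1 ram9_P9 ram9_Q3 hY9
  rw [thD_G9Q3]
  unfold G9Q1 G9Q3 G9Q9 G9R3 G9V
  linear_combination h

theorem ode9_G9R3 : 96 * ((27*s9^2 + 9*s9 + 1) * thD G9R3) =
    (59049*s9^6*Y9^2 + 39366*s9^5*Y9^2 + 10935*s9^4*Y9^2 - 405*s9^2*Y9^2 - 54*s9*Y9^2 - 3*Y9^2) * G9Q1
    + (-3888*(Qd 3 nz9_mid)*s9^2 - 1296*(Qd 3 nz9_mid)*s9 - 144*(Qd 3 nz9_mid) - 2834352*s9^6*Y9^2 - 2204496*s9^5*Y9^2 - 734832*s9^4*Y9^2 - 163296*s9^3*Y9^2 - 27216*s9^2*Y9^2 - 3024*s9*Y9^2 - 144*Y9^2) * G9Q3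
    + (3888*(Pd 3 nz9_mid)*s9^2 + 1296*(Pd 3 nz9_mid)*s9 + 144*(Pd 3 nz9_mid)) * G9R3
    + (-4782969*s9^6*Y9^2 - 3188646*s9^5*Y9^2 - 885735*s9^4*Y9^2 + 32805*s9^2*Y9^2 + 4374*s9*Y9^2 + 243*Y9^2) * G9Q9
    + (-25509168*s9^8*Y9^3 - 25509168*s9^7*Y9^3 - 11337408*s9^6*Y9^3 - 2204496*s9^5*Y9^3 + 81648*s9^3*Y9^3 + 15552*s9^2*Y9^3 + 1296*s9*Y9^3 + 48*Y9^3) * G9V := by
  have h := sys9_R3 (Pser ℚ) (Pd 3 nz9_mid) (Pd 9 nz9_top) (Qser ℚ) (Qd 3 nz9_mid) (Qd 9 nz9_top) (Rser ℚ) (Rd 3 nz9_mid) (Rd 9 nz9_top) s9 Y9 (thD (Pser ℚ)) (thD (Pd 3 nz9_mid)) (thD (Pd 9 nz9_top)) (thD (Qser ℚ)) (thD (Qd 3 nz9_mid)) (thD (Qd 9 nz9_top)) (thD (Rser ℚ)) (thD (Rd 3 nz9_mid)) (thD (Rd 9 nz9_top)) (thD s9) (thD Y9)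
    thD_Y9 thD_s9 ram9_P1 ram9_P9 ram9_R3 hY9
  rw [thD_G9R3]
  unfold G9Q1 G9Q3 G9Q9 G9R3 G9V
  linear_combination h

theorem ode9_G9Q9 : 96 * ((27*s9^2 + 9*s9 + 1) * thD G9Q9) =
    (-18*s9^4*Y9 - 168*s9^3*Y9 - 108*s9^2*Y9 - 24*s9*Y9 - 2*Y9) * G9Q1
    + (864*(Pser ℚ)*s9^2 + 288*(Pser ℚ)*s9 + 32*(Pser ℚ) + 188082*s9^4*Y9 + 138024*s9^3*Y9 + 43308*s9^2*Y9 + 6552*s9*Y9 + 418*Y9) * G9Q9
    + (-7776*s9^2 - 2592*s9 - 288) * G9R9 := by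
  have h := sys9_Q9 (Pser ℚ) (Pd 3 nz9_mid) (Pd 9 nz9_top) (Qser ℚ) (Qd 3 nz9_mid) (Qd 9 nz9_top) (Rser ℚ) (Rd 3 nz9_mid) (Rd 9 nz9_top) s9 Y9 (thD (Pser ℚ)) (thD (Pd 3 nz9_mid)) (thD (Pd 9 nz9_top)) (thD (Qser ℚ)) (thD (Qd 3 nz9_mid)) (thD (Qd 9 nz9_top)) (thD (Rser ℚ)) (thD (Rd 3 nz9_mid)) (thD (Rd 9 nz9_top)) (thD s9) (thD Y9)
    thD_Y9 thD_s9 ram9_P1 ram9_P9 ram9_Q9 hY9
  rw [thD_G9Q9]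
  unfold G9Q1 G9Q9 G9R9
  linear_combination h

theorem ode9_G9R9 : 96 * ((27*s9^2 + 9*s9 + 1) * thD G9R9) =
    (81*s9^6*Y9^2 - 1458*s9^5*Y9^2 - 2673*s9^4*Y9^2 - 1512*s9^3*Y9^2 - 405*s9^2*Y9^2 - 54*s9*Y9^2 - 3*Y9^2) * G9Q1
    + (-11664*(Qd 9 nz9_top)*s9^2 - 3888*(Qd 9 nz9_top)*s9 - 432*(Qd 9 nz9_top) - 111537*s9^6*Y9^2 - 896670*s9^5*Y9^2 - 743823*s9^4*Y9^2 - 263736*s9^3*Y9^2 - 48843*s9^2*Y9^2 - 4698*s9*Y9^2 - 189*Y9^2) * G9Q9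
    + (1296*(Pser ℚ)*s9^2 + 432*(Pser ℚ)*s9 + 48*(Pser ℚ) + 279936*s9^4*Y9 + 186624*s9^3*Y9 + 51840*s9^2*Y9 + 6912*s9*Y9 + 384*Y9) * G9R9 := by
  have h := sys9_R9 (Pser ℚ) (Pd 3 nz9_mid) (Pd 9 nz9_top) (Qser ℚ) (Qd 3 nz9_mid) (Qd 9 nz9_top) (Rser ℚ) (Rd 3 nz9_mid) (Rd 9 nz9_top) s9 Y9 (thD (Pser ℚ)) (thD (Pd 3 nz9_mid)) (thD (Pd 9 nz9_top)) (thD (Qser ℚ)) (thD (Qd 3 nz9_mid)) (thD (Qd 9 nz9_top)) (thD (Rser ℚ)) (thD (Rd 3 nz9_mid)) (thD (Rd 9 nz9_top)) (thD s9) (thD Y9)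
    thD_Y9 thD_s9 ram9_P1 ram9_P9 ram9_R9 hY9
  rw [thD_G9R9]
  unfold G9Q1 G9Q9 G9R9
  linear_combination h

theorem ode9_G9V : 96 * ((27*s9^2 + 9*s9 + 1) * thD G9V) =
    (54*s9^2 + 36*s9 + 6) * G9Q1
    + (-1944*s9^2 - 648*s9 - 72) * G9Q3
    + (13122*s9^2 + 2916*s9 + 162) * G9Q9
    + (216*(Pser ℚ)*s9^2 + 72*(Pser ℚ)*s9 + 8*(Pser ℚ) + 648*(Pd 3 nz9_mid)*s9^2 + 216*(Pd 3 nz9_mid)*s9 + 24*(Pd 3 nz9_mid) + 34992*s9^4*Y9 + 19440*s9^3*Y9 + 4320*s9^2*Y9 + 432*s9*Y9 + 16*Y9) * G9V := by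
  have h := sys9_V (Pser ℚ) (Pd 3 nz9_mid) (Pd 9 nz9_top) (Qser ℚ) (Qd 3 nz9_mid) (Qd 9 nz9_top) (Rser ℚ) (Rd 3 nz9_mid) (Rd 9 nz9_top) s9 Y9 (thD (Pser ℚ)) (thD (Pd 3 nz9_mid)) (thD (Pd 9 nz9_top)) (thD (Qser ℚ)) (thD (Qd 3 nz9_mid)) (thD (Qd 9 nz9_top)) (thD (Rser ℚ)) (thD (Rd 3 nz9_mid)) (thD (Rd 9 nz9_top)) (thD s9) (thD Y9)
    thD_Y9 thD_s9 ram9_P1 ram9_P3 ram9_P9 hY9
  rw [thD_G9V]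
  unfold G9Q1 G9Q3 G9Q9 G9V
  linear_combination h


end Fermat.Agent.S18x.IG.H8

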