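import Mathlib
import Fermat.Agent.S18x.IG.H8_Hm9G

/-!
# S18 [IG] (I1-HM), level 9, part 5 (helper8): the defects vanish

`G9_zero : ∀ i, G9 i = 0` and the resulting identities `Q(q^d) = A_d(s) Y²`, `R(q^d) = B_d(s) Y³`.
-/

set_option autoImplicit false
set_option linter.unusedSimpArgs false
set_option linter.unusedVariables false
set_option linter.unusedTactic false

namespace Fermat.Agent.S18x.IG.H8

open PowerSeries
open Fermat.Agent.S16x.Swd.H8

local notation "x10" => trQ 10 (PowerSeries.X : ℚ⟦X⟧)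

theorem tr10_G9Q1 : trQ 10 G9Q1 = 0 := by
  unfold G9Q1
  simp only [map_sub, map_add, map_neg, map_mul, map_pow, map_one, map_ofNat, tr10_P1, tr10_P3, tr10_P9, tr10_Q1, tr10_Q3, tr10_Q9, tr10_R1, tr10_R3, tr10_R9, tr10_s9, tr10_Y9]
  linear_combination (-3660286792793760000*x10^44 - 35206536299575536000*x10^43 - 90503490561733587600*x10^42 - 45801840704298996960*x10^41 - 115228292030687698056*x10^40 - 146533761649841719536*x10^39 - 34754951416340150001*x10^38 - 57467497529751013116*x10^37 - 63596679131319045246*x10^36 + 5716097343909587556*x10^35 + 12406288196888559*x10^34 - 14410006718247514008*x10^33 - 2520428307297471864*x10^32 + 121382190232560432*x10^31 - 816089229610497432*x10^30 - 290632471894824480*x10^29 - 151727880849657624*x10^28 - 31817094566688504*x10^27 - 28496807383057308*x10^26 - 17707271558563908*x10^25 + 5757832565087724*x10^24 + 258271719726348*x10^23 - 2223139339845936*x10^22 + 179017109701128*x10^21 + 101285181358560*x10^20 + 23137680168288*x10^19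 - 1842693801552*x10^18 - 3249771267816*x10^17 + 2141231080248*x10^16 - 2560857672096*x10^15 - 1139610109734*x10^14 + 658387724796*x10^13 - 195496474158*x10^12 - 162338856696*x10^11 - 40179492720*x10^10 - 11095845264*x10^9 - 3519355536*x10^8 - 1786225392*x10^7 - 543736728*x10^6 - 26928072*x10^5 - 131918904*x10^4 + 26798400*x10^3 + 35041284*x10^2 + 8738892*x10 + 99576) * x10_pow

theorem tr10_G9R1 : trQ 10 G9R1 = 0 := by
  unfold G9R1
  simp only [map_sub, map_add, map_neg, map_mul, map_pow, map_one, map_ofNat, tr10_P1, tr10_P3, tr10_P9, tr10_Q1, tr10_Q3, tr10_Q9, tr10_R1, tr10_R3, tr10_R9, tr10_s9, tr10_Y9]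
  linear_combination (7002815304416790989376000000*x10^71 + 101035063030946701107830400000*x10^70 + 502677140044850252169228000000*x10^69 + 991054354815735276932072280000*x10^68 + 969511142638754975025674064000*x10^67 + 2083586891405033248512987079440*x10^66 + 2445720166556837903899810985616*x10^65 + 1468275725658897803837921291604*x10^64 + 2174175017016149495003708711520*x10^63 + 1899086368829628875183767853235*x10^62 + 490506590476457907090512799870*x10^61 + 732253569663362091908385188925*x10^60 + 673760909966747279924398001148*x10^59 + 1298423052200286231270519285*x10^58 + 95424775758365516499073480146*x10^57 + 194547625209908490486431553147*x10^56 + 26142783313365420891223853196*x10^55 - 798396358983457196898486504*x10^54 + 19707752527388945999554077648*x10^53 + 7723993649811654614357638440*x10^52 + 2137655395323833788360152540*x10^51 + 1124433220218380196478633098*x10^50 + 724902349708650625940183130*x10^49 + 394774183082232279984844764*x10^48 - 15035338427486146560328176*x10^47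 + 50388931435812122671565886*x10^46 + 60629033258133120261411606*x10^45 - 4031623747490814014299272*x10^44 - 2566470997960994775806748*x10^43 + 2816974366306522190596224*x10^42 + 470380562677293409564236*x10^41 + 72973036318204390157496*x10^40 - 65433248101411390974348*x10^39 + 51079305135153780407925*x10^38 + 18367384296767507296092*x10^37 - 20965099240235476339218*x10^36 + 7230282678974506173768*x10^35 + 6282891657213271664013*x10^34 - 821323600672693681800*x10^33 + 114093679256487207108*x10^32 + 275782462504411153464*x10^31 + 142409208780819284544*x10^30 + 44603011859112287676*x10^29 + 10019962367778739500*x10^28 + 11933397503980701984*x10^27 + 1783007670104239680*x10^26 - 1085728124378644632*x10^25 + 785182453667337816*x10^24 + 241136400914269308*x10^23 - 52375001386793148*x10^22 - 30406791712220892*x10^21 - 5858834260149216*x10^20 + 542400170339088*x10^19 - 334508193853920*x10^18 - 18989032927788*x10^17 + 366154423318116*x10^16 - 7950153522528*x10^15 + 11684321278137*x10^14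 + 45018632665422*x10^13 + 23548365104445*x10^12 + 6384874991364*x10^11 + 1715772831840*x10^10 + 582454125432*x10^9 + 210715770600*x10^8 + 38192295096*x10^7 + 8308191276*x10^6 - 5027650236*x10^5 - 6199384356*x10^4 - 3291195456*x10^3 - 628016490*x10^2 + 21948786*x10 + 51273972) * x10_pow

theorem tr10_G9Q3 : trQ 10 G9Q3 = 0 := by
  unfold G9Q3
  simp only [map_sub, map_add, map_neg, map_mul, map_pow, map_one, map_ofNat, tr10_P1, tr10_P3, tr10_P9, tr10_Q1, tr10_Q3, tr10_Q9, tr10_R1, tr10_R3, tr10_R9, tr10_s9, tr10_Y9]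
  linear_combination (-45188725836960000*x10^44 - 434648596291056000*x10^43 - 1117327043972019600*x10^42 - 565454823509864160*x10^41 - 1422571506551699976*x10^40 - 1809058785800515056*x10^39 - 429073474275804321*x10^38 - 709475278145074236*x10^37 - 785144186806407966*x10^36 + 70569103011229476*x10^35 + 153164051813439*x10^34 - 177901317509228568*x10^33 - 31116398855524344*x10^32 + 1498545558426672*x10^31 - 10075175674203672*x10^30 - 3588055208578080*x10^29 - 1873183714193304*x10^28 - 392803636625784*x10^27 - 351812436827868*x10^26 - 218608290846468*x10^25 + 71084352655404*x10^24 + 3188539749708*x10^23 - 27446164689456*x10^22 + 2210087774088*x10^21 + 1250434337760*x10^20 + 285650372448*x10^19 - 22749306192*x10^18 - 40121669736*x10^17 + 26426626488*x10^16 - 31626213696*x10^15 - 14049966294*x10^14 + 8095578156*x10^13 - 2410415118*x10^12 - 1974125736*x10^11 - 527616720*x10^10 - 131000544*x10^9 - 25579296*x10^8 - 37750752*x10^7 - 6466248*x10^6 + 5273208*x10^5 - 4041144*x10^4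 + 76320*x10^3 + 893844*x10^2 - 22788*x10 + 17496) * x10_pow

theorem tr10_G9R3 : trQ 10 G9R3 = 0 := by
  unfold G9R3
  simp only [map_sub, map_add, map_neg, map_mul, map_pow, map_one, map_ofNat, tr10_P1, tr10_P3, tr10_P9, tr10_Q1, tr10_Q3, tr10_Q9, tr10_R1, tr10_R3, tr10_R9, tr10_s9, tr10_Y9]
  linear_combination (9606056659007943744000000*x10^71 + 138594050796909055017600000*x10^70 + 689543401981961937132000000*x10^69 + 1359470994260267869591320000*x10^68 + 1329919262878950583025616000*x10^67 + 2858143883957521602898473360*x10^66 + 3354897347814592460767916304*x10^65 + 2014095645622630732287957876*x10^64 + 2982407430749176262007830880*x10^63 + 2605056747365746056493508715*x10^62 + 672848546606938144157082030*x10^61 + 1004463058523130441575288325*x10^60 + 924226213946155390842795612*x10^59 + 1781101580521654638231165*x10^58 + 130898183481982875856067874*x10^57 + 266869170383962264041744243*x10^56 + 35861156808457367477673324*x10^55 - 1095193908070586003975976*x10^54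 + 27033954084209802468524112*x10^53 + 10595327365996782735744360*x10^52 + 2932311927741884483347260*x10^51 + 1542432400848258157035162*x10^50 + 994379080533128430644970*x10^49 + 541528371854913964313916*x10^48 - 20624606896414467160944*x10^47 + 69120619253514571565934*x10^46 + 83167398159304691716614*x10^45 - 5530348538957430631368*x10^44 - 3520542290699066060412*x10^43 + 3864139354548739610496*x10^42 + 645222410375608096236*x10^41 + 100112478849599770008*x10^40 - 89844964054618395708*x10^39 + 70079633710772116293*x10^38 + 25246250286012858564*x10^37 - 28866736356509971530*x10^36 + 9962732766789866088*x10^35 + 8676896800036368213*x10^34 - 1209794743899347976*x10^33 + 181150268774437836*x10^32 + 412601947760803176*x10^31 + 158062435354308816*x10^30 + 65555410047802308*x10^29 + 27208591568233668*x10^28 + 8903349832803696*x10^27 + 1629258531782472*x10^26 + 481124616362064*x10^25 + 563870083167936*x10^24 + 235692673506108*x10^23 - 9440067439908*x10^22 - 47832640571124*x10^21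 - 686720729376*x10^20 - 9283596754896*x10^19 + 2759433086016*x10^18 + 1793713616604*x10^17 - 1135851009084*x10^16 + 204846866784*x10^15 + 211596974649*x10^14 - 21432703842*x10^13 + 40276373661*x10^12 + 8003126700*x10^11 + 3866482512*x10^10 + 729747792*x10^9 - 359781696*x10^8 + 406267488*x10^7 + 27156276*x10^6 - 84553308*x10^5 + 14004252*x10^4 - 3275856*x10^3 - 1926018*x10^2 - 34182*x10 + 26244) * x10_pow

theorem tr10_G9Q9 : trQ 10 G9Q9 = 0 := by
  unfold G9Q9
  simp only [map_sub, map_add, map_neg, map_mul, map_pow, map_one, map_ofNat, tr10_P1, tr10_P3, tr10_P9, tr10_Q1, tr10_Q3, tr10_Q9, tr10_R1, tr10_R3, tr10_R9, tr10_s9, tr10_Y9]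
  linear_combination (-557885504160000*x10^44 - 5366032052976000*x10^43 - 13794161036691600*x10^42 - 6980923747035360*x10^41 - 17562611191996296*x10^40 - 22334059083956976*x10^39 - 5297203386121041*x10^38 - 8758954051173756*x10^37 - 9693138108721086*x10^36 + 865101293645796*x10^35 - 53753084244081*x10^34 - 2316547726235928*x10^33 - 381083008968504*x10^32 - 135246846523248*x10^31 - 269184743010792*x10^30 + 24950872141200*x10^29 - 92201583151944*x10^28 - 63076992384024*x10^27 + 59441112133092*x10^26 - 9960478313508*x10^25 - 24407935745076*x10^24 + 8192154903228*x10^23 + 1626377582304*x10^22 - 1729158333912*x10^21 + 236859898320*x10^20 - 79503472512*x10^19 + 32210997408*x10^18 + 14505991704*x10^17 - 24066920232*x10^16 + 8193617424*x10^15 + 4424875146*x10^14 - 4142796084*x10^13 + 444543282*x10^12 + 420287304*x10^11 - 124897680*x10^10 + 3578256*x10^9 - 9378576*x10^8 - 1015632*x10^7 + 2627352*x10^6 - 1669752*x10^5 - 62424*x10^4 + 359280*x10^3 - 151356*x10^2 - 22788*x10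 + 17496) * x10_pow

theorem tr10_G9R9 : trQ 10 G9R9 = 0 := by
  unfold G9R9
  simp only [map_sub, map_add, map_neg, map_mul, map_pow, map_one, map_ofNat, tr10_P1, tr10_P3, tr10_P9, tr10_Q1, tr10_Q3, tr10_Q9, tr10_R1, tr10_R3, tr10_R9, tr10_s9, tr10_Y9]
  linear_combination (13177032454057536000000*x10^71 + 190115296017707894400000*x10^70 + 945875722883349708000000*x10^69 + 1864843613525744677080000*x10^68 + 1824306259093210676304000*x10^67 + 3920636329159837589709840*x10^66 + 4602053975054310645772176*x10^65 + 2762819815668903610820244*x10^64 + 4091093869340433829914720*x10^63 + 3573162377531574608900835*x10^62 + 918754260549228287039070*x10^61 + 1358384434196658232646925*x10^60 + 1236333289674415742640828*x10^59 - 17035987160946215462715*x10^58 + 110979856577427430572018*x10^57 + 307196193707530886618667*x10^56 + 40573200214135151136252*x10^55 - 63695722690754942014656*x10^54 + 3147371364106058896728*x10^53 + 35276618500153305428088*x10^52 - 18177015135393294644700*x10^51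 - 11438999552929068787806*x10^50 + 15975670798622292824826*x10^49 - 4158395077283077826772*x10^48 - 6676439100103745595576*x10^47 + 3287827748431141998102*x10^46 + 499549151516092359966*x10^45 - 978695319414534053544*x10^44 + 139078372035000383316*x10^43 + 16127161108320293568*x10^42 - 18959178889409435892*x10^41 + 22990306370089249296*x10^40 - 22580847675808129044*x10^39 + 804321173442757581*x10^38 + 7373431915282092492*x10^37 - 3476168986321432746*x10^36 - 621277783567884432*x10^35 + 920543197627372797*x10^34 - 190478613354498216*x10^33 - 42860234177476668*x10^32 + 20718336256256952*x10^31 - 8536283866562688*x10^30 + 8878503481154892*x10^29 - 3117741095348532*x10^28 - 1620929260146528*x10^27 + 1601866787823648*x10^26 - 265185785430360*x10^25 - 240447656348712*x10^24 + 111117981152556*x10^23 - 5585203283436*x10^22 - 6712576826364*x10^21 + 1265574242160*x10^20 - 966599385264*x10^19 + 586088755488*x10^18 - 23163978348*x10^17 - 153378420588*x10^16 + 74741114448*x10^15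 + 4813359849*x10^14 - 13452754914*x10^13 + 2623527549*x10^12 + 837335844*x10^11 - 292802688*x10^10 + 34247448*x10^9 - 25525368*x10^8 - 1523448*x10^7 + 3941028*x10^6 - 2504628*x10^5 - 93636*x10^4 + 538920*x10^3 - 227034*x10^2 - 34182*x10 + 26244) * x10_pow

theorem tr10_G9V : trQ 10 G9V = 0 := by
  unfold G9V
  simp only [map_sub, map_add, map_neg, map_mul, map_pow, map_one, map_ofNat, tr10_P1, tr10_P3, tr10_P9, tr10_Q1, tr10_Q3, tr10_Q9, tr10_R1, tr10_R3, tr10_R9, tr10_s9, tr10_Y9]
  linear_combination (-1275458400*x10^17 - 6134010120*x10^16 - 1018337184*x10^15 - 3082575042*x10^14 - 4844717244*x10^13 + 230181750*x10^12 + 430770960*x10^11 - 559098288*x10^10 - 90681768*x10^9 - 37015704*x10^8 - 11645208*x10^7 - 4496688*x10^6 - 2457864*x10^5 + 110376*x10^4 - 420336*x10^3 - 535572*x10^2 + 250020*x10 + 52488) * x10_pow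

theorem G9_trunc (i : Fin 7) (n : ℕ) (hn : n < 10) : (G9 i).coeff n = 0 := by
  have h : trQ 10 (G9 i) = 0 := by
    fin_cases i
    · exact tr10_G9Q1
    · exact tr10_G9R1
    · exact tr10_G9Q3
    · exact tr10_G9R3
    · exact tr10_G9Q9
    · exact tr10_G9R9
    · exact tr10_G9V
  exact (trQ_eq_zero_iff 10 _).mp h n hn

theorem M9_coeff_zero (i j : Fin 7) : (M9 i j).coeff 0 =
    (![![30, -32, 0, 0, 162, 0, 0],
      ![-99, 48, 0, 0, 243, 0, 0],
      ![-2, 0, 96, -96, 162, 0, 32],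
      ![-3, 0, -288, 144, 243, 0, 48],
      ![-2, 0, 0, 0, 450, -288, 0],
      ![-3, 0, 0, 0, -621, 432, 0],
      ![6, 0, -72, 0, 162, 0, 48]] : Fin 7 → Fin 7 → ℚ) i j := by
  rw [PowerSeries.coeff_zero_eq_constantCoeff_apply]
  fin_cases i <;> fin_cases j <;>
    simp [M9, cc9_P1, cc9_Q1, cc9_R1, cc9_Pd, cc9_Qd, cc9_Rd, cc9_Y, constantCoeff_s9, map_ofNat] <;> norm_num

theorem M9_inj (n : ℕ) (hn : 10 ≤ n) (x : Fin 7 → ℚ)
    (h : ∀ i, (96 : ℚ) * n * x i = ∑ j, (M9 i j).coeff 0 * x j) : ∀ i, x i = 0 := by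
  have hn' : (10 : ℚ) ≤ n := by exact_mod_cast hn
  have key : ∀ i, (96 : ℚ) * n * x i = ∑ j, (![![30, -32, 0, 0, 162, 0, 0],
      ![-99, 48, 0, 0, 243, 0, 0],
      ![-2, 0, 96, -96, 162, 0, 32],
      ![-3, 0, -288, 144, 243, 0, 48],
      ![-2, 0, 0, 0, 450, -288, 0],
      ![-3, 0, 0, 0, -621, 432, 0],
      ![6, 0, -72, 0, 162, 0, 48]] : Fin 7 → Fin 7 → ℚ) i j * x j := by
    intro i
    rw [h i]
    exact Finset.sum_congr rfl (fun j _ => by rw [M9_coeff_zero])
  have h0 := key 0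
  have h1 := key 1
  have h2 := key 2
  have h3 := key 3
  have h4 := key 4
  have h5 := key 5
  have h6 := key 6
  simp [Fin.sum_univ_succ] at h0 h1 h2 h3 h4 h5 h6
  have hdet : ((96 : ℚ) * n) ^ 4 * (96 * n - 96) * (96 * n - 288) * (96 * n - 864) ≠ 0 := by
    have e1 : (96 : ℚ) * n ≠ 0 := by nlinarith
    have e2 : (96 : ℚ) * n - 96 ≠ 0 := by
      intro e; nlinarith
    have e3 : (96 : ℚ) * n - 288 ≠ 0 := by
      intro e; nlinarith
    have e4 : (96 : ℚ) * n - 864 ≠ 0 := by
      intro e; nlinarith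
    exact mul_ne_zero (mul_ne_zero (mul_ne_zero (pow_ne_zero 4 e1) e2) e3) e4
  intro i
  fin_cases i
  · refine (mul_eq_zero.mp (?_ : ((96 : ℚ) * n) ^ 4 * (96 * n - 96) * (96 * n - 288) * (96 * n - 864) * x 0 = 0)).resolve_left hdet
    linear_combination ((96 * (n : ℚ))^6 - 1218*(96 * (n : ℚ))^5 + 325728*(96 * (n : ℚ))^4 - 17418240*(96 * (n : ℚ))^3 + 214990848*(96 * (n : ℚ))^2) * h0 + (-32*(96 * (n : ℚ))^5 + 37440*(96 * (n : ℚ))^4 - 8626176*(96 * (n : ℚ))^3 + 143327232*(96 * (n : ℚ))^2) * h1 + (162*(96 * (n : ℚ))^5 - 132192*(96 * (n : ℚ))^4 + 31352832*(96 * (n : ℚ))^3 - 1934917632*(96 * (n : ℚ))^2) * h4 + (-46656*(96 * (n : ℚ))^4 + 17915904*(96 * (n : ℚ))^3 - 1289945088*(96 * (n : ℚ))^2) * h5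
  · refine (mul_eq_zero.mp (?_ : ((96 : ℚ) * n) ^ 4 * (96 * n - 96) * (96 * n - 288) * (96 * n - 864) * x 1 = 0)).resolve_left hdet
    linear_combination (-99*(96 * (n : ℚ))^5 + 115344*(96 * (n : ℚ))^4 - 26127360*(96 * (n : ℚ))^3 + 322486272*(96 * (n : ℚ))^2) * h0 + ((96 * (n : ℚ))^6 - 1200*(96 * (n : ℚ))^5 + 304992*(96 * (n : ℚ))^4 - 12939264*(96 * (n : ℚ))^3 + 214990848*(96 * (n : ℚ))^2) * h1 + (243*(96 * (n : ℚ))^5 - 198288*(96 * (n : ℚ))^4 + 47029248*(96 * (n : ℚ))^3 - 2902376448*(96 * (n : ℚ))^2) * h4 + (-69984*(96 * (n : ℚ))^4 + 26873856*(96 * (n : ℚ))^3 - 1934917632*(96 * (n : ℚ))^2) * h5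
  · refine (mul_eq_zero.mp (?_ : ((96 : ℚ) * n) ^ 4 * (96 * n - 96) * (96 * n - 288) * (96 * n - 864) * x 2 = 0)).resolve_left hdet
    linear_combination (-2*(96 * (n : ℚ))^5 + 2400*(96 * (n : ℚ))^4 - 608256*(96 * (n : ℚ))^3 + 23887872*(96 * (n : ℚ))^2) * h0 + (64*(96 * (n : ℚ))^4 - 73728*(96 * (n : ℚ))^3 + 15925248*(96 * (n : ℚ))^2) * h1 + ((96 * (n : ℚ))^6 - 1152*(96 * (n : ℚ))^5 + 274176*(96 * (n : ℚ))^4 - 22560768*(96 * (n : ℚ))^3 + 573308928*(96 * (n : ℚ))^2) * h2 + (-96*(96 * (n : ℚ))^5 + 96768*(96 * (n : ℚ))^4 - 12386304*(96 * (n : ℚ))^3 + 382205952*(96 * (n : ℚ))^2) * h3 + (162*(96 * (n : ℚ))^5 - 132192*(96 * (n : ℚ))^4 + 31352832*(96 * (n : ℚ))^3 - 1934917632*(96 * (n : ℚ))^2) * h4 + (-46656*(96 * (n : ℚ))^4 + 17915904*(96 * (n : ℚ))^3 - 1289945088*(96 * (n : ℚ))^2) * h5 + (32*(96 * (n : ℚ))^5 - 39936*(96 * (n : ℚ))^4 + 11501568*(96 * (n : ℚ))^3 - 764411904*(96 * (n : ℚ))^2) * h6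
  · refine (mul_eq_zero.mp (?_ : ((96 : ℚ) * n) ^ 4 * (96 * n - 96) * (96 * n - 288) * (96 * n - 864) * x 3 = 0)).resolve_left hdet
    linear_combination (-3*(96 * (n : ℚ))^5 + 3600*(96 * (n : ℚ))^4 - 912384*(96 * (n : ℚ))^3 + 35831808*(96 * (n : ℚ))^2) * h0 + (96*(96 * (n : ℚ))^4 - 110592*(96 * (n : ℚ))^3 + 23887872*(96 * (n : ℚ))^2) * h1 + (-288*(96 * (n : ℚ))^5 + 286848*(96 * (n : ℚ))^4 - 33841152*(96 * (n : ℚ))^3 + 859963392*(96 * (n : ℚ))^2) * h2 + ((96 * (n : ℚ))^6 - 1104*(96 * (n : ℚ))^5 + 228096*(96 * (n : ℚ))^4 - 18579456*(96 * (n : ℚ))^3 + 573308928*(96 * (n : ℚ))^2) * h3 + (243*(96 * (n : ℚ))^5 - 198288*(96 * (n : ℚ))^4 + 47029248*(96 * (n : ℚ))^3 - 2902376448*(96 * (n : ℚ))^2) * h4 + (-69984*(96 * (n : ℚ))^4 + 26873856*(96 * (n : ℚ))^3 - 1934917632*(96 * (n : ℚ))^2) * h5 + (48*(96 * (n : ℚ))^5 - 59904*(96 * (n : ℚ))^4 + 17252352*(96 * (n : ℚ))^3 - 1146617856*(96 * (n : ℚ))^2) * h6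
  · refine (mul_eq_zero.mp (?_ : ((96 : ℚ) * n) ^ 4 * (96 * n - 96) * (96 * n - 288) * (96 * n - 864) * x 4 = 0)).resolve_left hdet
    linear_combination (-2*(96 * (n : ℚ))^5 + 2400*(96 * (n : ℚ))^4 - 608256*(96 * (n : ℚ))^3 + 23887872*(96 * (n : ℚ))^2) * h0 + (64*(96 * (n : ℚ))^4 - 73728*(96 * (n : ℚ))^3 + 15925248*(96 * (n : ℚ))^2) * h1 + ((96 * (n : ℚ))^6 - 798*(96 * (n : ℚ))^5 + 178848*(96 * (n : ℚ))^4 - 8460288*(96 * (n : ℚ))^3 - 214990848*(96 * (n : ℚ))^2) * h4 + (-288*(96 * (n : ℚ))^5 + 105408*(96 * (n : ℚ))^4 - 5971968*(96 * (n : ℚ))^3 - 143327232*(96 * (n : ℚ))^2) * h5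
  · refine (mul_eq_zero.mp (?_ : ((96 : ℚ) * n) ^ 4 * (96 * n - 96) * (96 * n - 288) * (96 * n - 864) * x 5 = 0)).resolve_left hdet
    linear_combination (-3*(96 * (n : ℚ))^5 + 3600*(96 * (n : ℚ))^4 - 912384*(96 * (n : ℚ))^3 + 35831808*(96 * (n : ℚ))^2) * h0 + (96*(96 * (n : ℚ))^4 - 110592*(96 * (n : ℚ))^3 + 23887872*(96 * (n : ℚ))^2) * h1 + (-621*(96 * (n : ℚ))^5 + 226800*(96 * (n : ℚ))^4 - 12690432*(96 * (n : ℚ))^3 - 322486272*(96 * (n : ℚ))^2) * h4 + ((96 * (n : ℚ))^6 - 816*(96 * (n : ℚ))^5 + 185760*(96 * (n : ℚ))^4 - 8957952*(96 * (n : ℚ))^3 - 214990848*(96 * (n : ℚ))^2) * h5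
  · refine (mul_eq_zero.mp (?_ : ((96 : ℚ) * n) ^ 4 * (96 * n - 96) * (96 * n - 288) * (96 * n - 864) * x 6 = 0)).resolve_left hdet
    linear_combination (6*(96 * (n : ℚ))^5 - 7200*(96 * (n : ℚ))^4 + 1824768*(96 * (n : ℚ))^3 - 71663616*(96 * (n : ℚ))^2) * h0 + (-192*(96 * (n : ℚ))^4 + 221184*(96 * (n : ℚ))^3 - 47775744*(96 * (n : ℚ))^2) * h1 + (-72*(96 * (n : ℚ))^5 + 79488*(96 * (n : ℚ))^4 - 15925248*(96 * (n : ℚ))^3 + 859963392*(96 * (n : ℚ))^2) * h2 + (6912*(96 * (n : ℚ))^4 - 6635520*(96 * (n : ℚ))^3 + 573308928*(96 * (n : ℚ))^2) * h3 + (162*(96 * (n : ℚ))^5 - 132192*(96 * (n : ℚ))^4 + 31352832*(96 * (n : ℚ))^3 - 1934917632*(96 * (n : ℚ))^2) * h4 + (-46656*(96 * (n : ℚ))^4 + 17915904*(96 * (n : ℚ))^3 - 1289945088*(96 * (n : ℚ))^2) * h5 + ((96 * (n : ℚ))^6 - 1200*(96 * (n : ℚ))^5 + 299520*(96 * (n : ℚ))^4 - 6635520*(96 * (n : ℚ))^3 - 1146617856*(96 * (n : ℚ))^2) * h6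

/-- **The seven defects of level 9 vanish.** -/
theorem G9_zero (i : Fin 7) : G9 i = 0 := by
  refine ode_unique G9 96 (27*s9^2 + 9*s9 + 1) ?_ M9 10 ?_ (fun i n hn => G9_trunc i n hn) M9_inj i
  · rw [PowerSeries.coeff_zero_eq_constantCoeff_apply, constantCoeff_D9]
  · intro i
    have e36 : (PowerSeries.C (96 : ℚ) : ℚ⟦X⟧) = 96 := by rw [map_ofNat]
    rw [e36]
    fin_cases i
    · simpa [G9, M9, Fin.sum_univ_succ, add_assoc] using ode9_G9Q1
    · simpa [G9, M9, Fin.sum_univ_succ, add_assoc] using ode9_G9R1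
    · simpa [G9, M9, Fin.sum_univ_succ, add_assoc] using ode9_G9Q3
    · simpa [G9, M9, Fin.sum_univ_succ, add_assoc] using ode9_G9R3
    · simpa [G9, M9, Fin.sum_univ_succ, add_assoc] using ode9_G9Q9
    · simpa [G9, M9, Fin.sum_univ_succ, add_assoc] using ode9_G9R9
    · simpa [G9, M9, Fin.sum_univ_succ, add_assoc] using ode9_G9V

theorem Q1_eq9 : Qser ℚ = (59049*s9^4 + 26244*s9^3 + 4374*s9^2 + 252*s9 + 1) * Y9 ^ 2 := by
  have h := G9_zero 0
  simp only [G9] at h
  have h' : G9Q1 = 0 := by simpa using h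
  unfold G9Q1 at h'
  linear_combination h'

theorem R1_eq9 : Rser ℚ = (-14348907*s9^6 - 9565938*s9^5 - 2657205*s9^4 - 367416*s9^3 - 24057*s9^2 - 486*s9 + 1) * Y9 ^ 3 := by
  have h := G9_zero 1
  simp only [G9] at h
  have h' : G9R1 = 0 := by simpa using h
  unfold G9R1 at h'
  linear_combination h'

theorem Q3_eq9 : Qd 3 nz9_mid = (729*s9^4 + 324*s9^3 + 54*s9^2 + 12*s9 + 1) * Y9 ^ 2 := by
  have h := G9_zero 2
  simp only [G9] at h
  have h' : G9Q3 = 0 := by simpa using h
  unfold G9Q3 at h'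
  linear_combination h'

theorem R3_eq9 : Rd 3 nz9_mid = (-19683*s9^6 - 13122*s9^5 - 3645*s9^4 + 135*s9^2 + 18*s9 + 1) * Y9 ^ 3 := by
  have h := G9_zero 3
  simp only [G9] at h
  have h' : G9R3 = 0 := by simpa using h
  unfold G9R3 at h'
  linear_combination h'

theorem Q9_eq9 : Qd 9 nz9_top = (9*s9^4 + 84*s9^3 + 54*s9^2 + 12*s9 + 1) * Y9 ^ 2 := by
  have h := G9_zero 4
  simp only [G9] at h
  have h' : G9Q9 = 0 := by simpa using h
  unfold G9Q9 at h'
  linear_combination h'

theorem R9_eq9 : Rd 9 nz9_top = (-27*s9^6 + 486*s9^5 + 891*s9^4 + 504*s9^3 + 135*s9^2 + 18*s9 + 1) * Y9 ^ 3 := by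
  have h := G9_zero 5
  simp only [G9] at h
  have h' : G9R9 = 0 := by simpa using h
  unfold G9R9 at h'
  linear_combination h'

theorem V_eq9 : 3 * (Pd 3 nz9_mid) - Pser ℚ = (162*s9^2 + 36*s9 + 2) * Y9 := by
  have h := G9_zero 6
  simp only [G9] at h
  have h' : G9V = 0 := by simpa using h
  unfold G9V at h'
  linear_combination h'


end Fermat.Agent.S18x.IG.H8

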