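import Mathlib
import Fermat.Agent.S18x.IG.H8_HmL
import Fermat.Agent.S18x.IG.H8_Hm9Zero

/-!
# S18 [IG] (HM-a), level 9 (helper8): the Hauptmodul `t9` in `ℤ((q))` and its `j`-relations

`t9 = q⁻¹ (E(q) / E(q^9))^3` with `E = ∏ (1 - qⁿ)`; the identities for `j(q^d)`, `d ∣ 9`,
over `ℤ` and over every commutative ring.  Generated with a python script.
-/

set_option autoImplicit false
set_option linter.unusedSimpArgs false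
set_option linter.unusedVariables false
set_option linter.unusedTactic false

noncomputable section

namespace Fermat.Agent.S18x.IG.H8

open PowerSeries ModularCurve
open Fermat.Agent.S16x.Swd.H8

local notation "ιQ" => HahnSeries.ofPowerSeries ℤ ℚ

/-- `Δ(q^1)` in terms of `s` and `Y` -/
theorem delta1_eq9 : PowerSeries.X * Eu ^ 24 = s9 ^ 1 * (27*s9^2 + 9*s9 + 1) ^ 1 * Y9 ^ 6 := by
  apply cancel_1728
  have h := Q_cube_sub_R_sq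
  rw [Q1_eq9, R1_eq9] at h
  linear_combination -h

/-- `Δ(q^3)` in terms of `s` and `Y` -/
theorem delta3_eq9 : PowerSeries.expand 3 nz9_mid (PowerSeries.X * Eu ^ 24) = s9 ^ 3 * (27*s9^2 + 9*s9 + 1) ^ 3 * Y9 ^ 6 := by
  apply cancel_1728
  have h := expand_Q_cube_sub_R_sq 3 nz9_mid
  rw [Q3_eq9, R3_eq9] at h
  linear_combination -h

/-- `Δ(q^9)` in terms of `s` and `Y` -/
theorem delta9_eq9 : PowerSeries.expand 9 nz9_top (PowerSeries.X * Eu ^ 24) = s9 ^ 9 * (27*s9^2 + 9*s9 + 1) ^ 1 * Y9 ^ 6 := by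
  apply cancel_1728
  have h := expand_Q_cube_sub_R_sq 9 nz9_top
  rw [Q9_eq9, R9_eq9] at h
  linear_combination -h

/-- the relation for `j(q^1)` in terms of `s`, over `ℚ` -/
theorem jrel1_s9 : jqModC ℚ * ((ιQ s9) ^ 1 * (27*(ιQ s9)^2 + 9*(ιQ s9) + 1) ^ 1) = (59049*(ιQ s9)^4 + 26244*(ιQ s9)^3 + 4374*(ιQ s9)^2 + 252*(ιQ s9) + 1) ^ 3 := by
  apply cancel_Y6 cc9_Y
  have h := jq_mul_delta_Q
  rw [delta1_eq9, Q1_eq9] at h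
  simp only [map_mul, map_pow, map_add, map_sub, map_neg, map_ofNat, map_one] at h
  linear_combination h

/-- the relation for `j(q^3)` in terms of `s`, over `ℚ` -/
theorem jrel3_s9 : qExpand ℚ 3 (jqModC ℚ) * ((ιQ s9) ^ 3 * (27*(ιQ s9)^2 + 9*(ιQ s9) + 1) ^ 3) = (729*(ιQ s9)^4 + 324*(ιQ s9)^3 + 54*(ιQ s9)^2 + 12*(ιQ s9) + 1) ^ 3 := by
  apply cancel_Y6 cc9_Y
  have h := jqd_mul_delta_Q 3
  rw [show PowerSeries.expand 3 (NeZero.ne 3) (PowerSeries.X * Eu ^ 24) = s9 ^ 3 * (27*s9^2 + 9*s9 + 1) ^ 3 * Y9 ^ 6 from delta3_eq9,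
    show Qd 3 (NeZero.ne 3) = _ from Q3_eq9] at h
  simp only [map_mul, map_pow, map_add, map_sub, map_neg, map_ofNat, map_one] at h
  linear_combination h

/-- the relation for `j(q^9)` in terms of `s`, over `ℚ` -/
theorem jrel9_s9 : qExpand ℚ 9 (jqModC ℚ) * ((ιQ s9) ^ 9 * (27*(ιQ s9)^2 + 9*(ιQ s9) + 1) ^ 1) = (9*(ιQ s9)^4 + 84*(ιQ s9)^3 + 54*(ιQ s9)^2 + 12*(ιQ s9) + 1) ^ 3 := by
  apply cancel_Y6 cc9_Y
  have h := jqd_mul_delta_Q 9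
  rw [show PowerSeries.expand 9 (NeZero.ne 9) (PowerSeries.X * Eu ^ 24) = s9 ^ 9 * (27*s9^2 + 9*s9 + 1) ^ 1 * Y9 ^ 6 from delta9_eq9,
    show Qd 9 (NeZero.ne 9) = _ from Q9_eq9] at h
  simp only [map_mul, map_pow, map_add, map_sub, map_neg, map_ofNat, map_one] at h
  linear_combination h

/-- the Hauptmodul of level 9: `t9 = q⁻¹ (E(q) / E(q^9))^3` -/
def t9 : LaurentSeries ℤ := hauptZ 3 9

theorem t9_shape : t9 = HahnSeries.single (-1 : ℤ) (1 : ℤ) *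
    HahnSeries.ofPowerSeries ℤ ℤ (hauptU 3 9) := rfl

theorem coeff_t9_neg_one : t9.coeff (-1) = 1 :=
  coeff_hauptZ_neg_one 3 9

theorem coeff_t9_of_lt {n : ℤ} (hn : n < -1) : t9.coeff n = 0 :=
  coeff_hauptZ_of_lt 3 9 hn

theorem order_t9 : t9.order = -1 :=
  order_hauptZ 3 9

/-- over `ℚ` the Hauptmodul is the inverse of `s` -/
theorem mQ_t9_mul : mQ t9 * ιQ s9 = 1 :=
  mQ_hauptZ_mul 3 9

section Reduce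

variable {S : Type*} [CommRing S] (h σ J : S) (hσ : h * σ = 1)
include hσ

theorem redD1_9 : h ^ 12 * (σ ^ 1 * (27*σ^2 + 9*σ + 1) ^ 1) = h^11 + 9*h^10 + 27*h^9 := by
  linear_combination (27*h^11*σ^2 + 9*h^11*σ + h^11 + 27*h^10*σ + 9*h^10 + 27*h^9) * hσ

theorem redA1_9 : h ^ 4 * (59049*σ^4 + 26244*σ^3 + 4374*σ^2 + 252*σ + 1) = h^4 + 252*h^3 + 4374*h^2 + 26244*h + 59049 := by
  linear_combination (59049*h^3*σ^3 + 26244*h^3*σ^2 + 4374*h^3*σ + 59049*h^2*σ^2 + 252*h^3 + 26244*h^2*σ + 4374*h^2 + 59049*h*σ + 26244*h + 59049) * hσ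

theorem red1_9 (e : J * (σ ^ 1 * (27*σ^2 + 9*σ + 1) ^ 1) = (59049*σ^4 + 26244*σ^3 + 4374*σ^2 + 252*σ + 1) ^ 3) :
    J * (h^11 + 9*h^10 + 27*h^9) = (h^4 + 252*h^3 + 4374*h^2 + 26244*h + 59049) ^ 3 := by
  have hD := redD1_9 h σ hσ
  have hA := redA1_9 h σ hσ
  linear_combination (-J) * hD + (h ^ 12) * e + ((h ^ 4 * (59049*σ^4 + 26244*σ^3 + 4374*σ^2 + 252*σ + 1)) ^ 2 + (h ^ 4 * (59049*σ^4 + 26244*σ^3 + 4374*σ^2 + 252*σ + 1)) * (h^4 + 252*h^3 + 4374*h^2 + 26244*h + 59049) + (h^4 + 252*h^3 + 4374*h^2 + 26244*h + 59049) ^ 2) * hA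

theorem redD3_9 : h ^ 12 * (σ ^ 3 * (27*σ^2 + 9*σ + 1) ^ 3) = h^9 + 27*h^8 + 324*h^7 + 2187*h^6 + 8748*h^5 + 19683*h^4 + 19683*h^3 := by
  linear_combination (19683*h^11*σ^8 + 19683*h^11*σ^7 + 8748*h^11*σ^6 + 19683*h^10*σ^7 + 2187*h^11*σ^5 + 19683*h^10*σ^6 + 324*h^11*σ^4 + 8748*h^10*σ^5 + 19683*h^9*σ^6 + 27*h^11*σ^3 + 2187*h^10*σ^4 + 19683*h^9*σ^5 + h^11*σ^2 + 324*h^10*σ^3 + 8748*h^9*σ^4 + 19683*h^8*σ^5 + 27*h^10*σ^2 + 2187*h^9*σ^3 + 19683*h^8*σ^4 + h^10*σ + 324*h^9*σ^2 + 8748*h^8*σ^3 + 19683*h^7*σ^4 + 27*h^9*σ + 2187*h^8*σ^2 + 19683*h^7*σ^3 + h^9 + 324*h^8*σ + 8748*h^7*σ^2 + 19683*h^6*σ^3 + 27*h^8 + 2187*h^7*σ + 19683*h^6*σ^2 + 324*h^7 + 8748*h^6*σ + 19683*h^5*σ^2 + 2187*h^6 + 19683*h^5*σ + 8748*h^5 + 19683*h^4*σ + 19683*h^4 + 19683*h^3) * hσ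

theorem redA3_9 : h ^ 4 * (729*σ^4 + 324*σ^3 + 54*σ^2 + 12*σ + 1) = h^4 + 12*h^3 + 54*h^2 + 324*h + 729 := by
  linear_combination (729*h^3*σ^3 + 324*h^3*σ^2 + 54*h^3*σ + 729*h^2*σ^2 + 12*h^3 + 324*h^2*σ + 54*h^2 + 729*h*σ + 324*h + 729) * hσ

theorem red3_9 (e : J * (σ ^ 3 * (27*σ^2 + 9*σ + 1) ^ 3) = (729*σ^4 + 324*σ^3 + 54*σ^2 + 12*σ + 1) ^ 3) :
    J * (h^9 + 27*h^8 + 324*h^7 + 2187*h^6 + 8748*h^5 + 19683*h^4 + 19683*h^3) = (h^4 + 12*h^3 + 54*h^2 + 324*h + 729) ^ 3 := by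
  have hD := redD3_9 h σ hσ
  have hA := redA3_9 h σ hσ
  linear_combination (-J) * hD + (h ^ 12) * e + ((h ^ 4 * (729*σ^4 + 324*σ^3 + 54*σ^2 + 12*σ + 1)) ^ 2 + (h ^ 4 * (729*σ^4 + 324*σ^3 + 54*σ^2 + 12*σ + 1)) * (h^4 + 12*h^3 + 54*h^2 + 324*h + 729) + (h^4 + 12*h^3 + 54*h^2 + 324*h + 729) ^ 2) * hA

theorem redD9_9 : h ^ 12 * (σ ^ 9 * (27*σ^2 + 9*σ + 1) ^ 1) = h^3 + 9*h^2 + 27*h := by
  linear_combination (27*h^11*σ^10 + 9*h^11*σ^9 + h^11*σ^8 + 27*h^10*σ^9 + 9*h^10*σ^8 + h^10*σ^7 + 27*h^9*σ^8 + 9*h^9*σ^7 + h^9*σ^6 + 27*h^8*σ^7 + 9*h^8*σ^6 + h^8*σ^5 + 27*h^7*σ^6 + 9*h^7*σ^5 + h^7*σ^4 + 27*h^6*σ^5 + 9*h^6*σ^4 + h^6*σ^3 + 27*h^5*σ^4 + 9*h^5*σ^3 + h^5*σ^2 + 27*h^4*σ^3 + 9*h^4*σ^2 + h^4*σ + 27*h^3*σ^2 + 9*h^3*σ + h^3 + 27*h^2*σ + 9*h^2 + 27*h) * hσ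

theorem redA9_9 : h ^ 4 * (9*σ^4 + 84*σ^3 + 54*σ^2 + 12*σ + 1) = h^4 + 12*h^3 + 54*h^2 + 84*h + 9 := by
  linear_combination (9*h^3*σ^3 + 84*h^3*σ^2 + 54*h^3*σ + 9*h^2*σ^2 + 12*h^3 + 84*h^2*σ + 54*h^2 + 9*h*σ + 84*h + 9) * hσ

theorem red9_9 (e : J * (σ ^ 9 * (27*σ^2 + 9*σ + 1) ^ 1) = (9*σ^4 + 84*σ^3 + 54*σ^2 + 12*σ + 1) ^ 3) :
    J * (h^3 + 9*h^2 + 27*h) = (h^4 + 12*h^3 + 54*h^2 + 84*h + 9) ^ 3 := by
  have hD := redD9_9 h σ hσ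
  have hA := redA9_9 h σ hσ
  linear_combination (-J) * hD + (h ^ 12) * e + ((h ^ 4 * (9*σ^4 + 84*σ^3 + 54*σ^2 + 12*σ + 1)) ^ 2 + (h ^ 4 * (9*σ^4 + 84*σ^3 + 54*σ^2 + 12*σ + 1)) * (h^4 + 12*h^3 + 54*h^2 + 84*h + 9) + (h^4 + 12*h^3 + 54*h^2 + 84*h + 9) ^ 2) * hA

end Reduce

/-- **Level 9**: the relation between `j(q^1)` and the Hauptmodul, in `ℤ((q))`. -/
theorem j1_t9 : jqModC ℤ * (t9 ^ 9 * (t9 ^ 2 + 9 * t9 + 27)) = ((t9 + 9) * (t9 ^ 3 + 243 * t9 ^ 2 + 2187 * t9 + 6561)) ^ 3 := by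
  apply mQ_injective
  have h := red1_9 (mQ t9) (ιQ s9) (jqModC ℚ) mQ_t9_mul jrel1_s9
  simp only [map_mul, map_pow, map_add, map_sub, map_neg, map_ofNat, map_one, mQ_jqModC, mQ_qExpand]
  linear_combination h

/-- **Level 9**: the relation between `j(q^3)` and the Hauptmodul, in `ℤ((q))`. -/
theorem j3_t9 : qExpand ℤ 3 (jqModC ℤ) * (t9 ^ 3 * (t9 ^ 2 + 9 * t9 + 27) ^ 3) = ((t9 + 3) * ((t9 + 3) ^ 3 + 216)) ^ 3 := by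
  apply mQ_injective
  have h := red3_9 (mQ t9) (ιQ s9) (qExpand ℚ 3 (jqModC ℚ)) mQ_t9_mul jrel3_s9
  simp only [map_mul, map_pow, map_add, map_sub, map_neg, map_ofNat, map_one, mQ_jqModC, mQ_qExpand]
  linear_combination h

/-- **Level 9**: the relation between `j(q^9)` and the Hauptmodul, in `ℤ((q))`. -/
theorem j9_t9 : qExpand ℤ 9 (jqModC ℤ) * (t9 * (t9 ^ 2 + 9 * t9 + 27)) = ((t9 + 3) * (t9 ^ 3 + 9 * t9 ^ 2 + 27 * t9 + 3)) ^ 3 := by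
  apply mQ_injective
  have h := red9_9 (mQ t9) (ιQ s9) (qExpand ℚ 9 (jqModC ℚ)) mQ_t9_mul jrel9_s9
  simp only [map_mul, map_pow, map_add, map_sub, map_neg, map_ofNat, map_one, mQ_jqModC, mQ_qExpand]
  linear_combination h

/-- **Level 9**: the relation for `j - 1728`. -/
theorem j1728_t9 : (jqModC ℤ - 1728) * (t9 ^ 9 * (t9 ^ 2 + 9 * t9 + 27)) = (t9 ^ 6 - 486 * t9 ^ 5 - 24057 * t9 ^ 4 - 367416 * t9 ^ 3 - 2657205 * t9 ^ 2 - 9565938 * t9 - 14348907) ^ 2 := by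
  linear_combination j1_t9

end Fermat.Agent.S18x.IG.H8
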