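import Fermat.Agent.S18x.IG.H8_Hm4L
import Fermat.Agent.S18x.IG.H8_Hm9L
import Fermat.Agent.S18x.IG.H6_HmbDeg
import Fermat.Agent.S18x.IG.H29_Coord
import Fermat.Agent.S18x.IG.H4_HorLevels
import Fermat.Agent.S18x.Desc.H19_Bridge

/-!
# S18 [IG] (HM-INST), levels 4 and 9 (helper8): the Hauptmoduln `t4`, `t9`, instantiated

`t4, t9 : LaurentSeries ℤ` (from `H8_Hm4L`, `H8_Hm9L`) satisfy helper6's `H6Haupt` at the
levels `4` and `9`.  Hence, with no hypothesis left:

* `t4 ∈ F_M` for every field of characteristic `0` and every `M` divisible by `4`, and for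
  every field of characteristic `ℓ ≠ 2`; `F_4 = K(t4)`; the same for `t9` (`9 ∣ M`, `ℓ ≠ 3`);
* the inputs `hord`, `hlead`, `hmem` of helper29's coordinate package;
* helper4's unramifiedness in `Place` form: at levels `4` and `9` there is NO elliptic value,
  the only branch values of the Hauptmodul are the cusp values `0, -16` resp. `0` and the
  roots of `c² + 9c + 27`.
-/

set_option autoImplicit false
set_option linter.unusedSectionVars false
set_option linter.style.haveILetI false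
set_option synthInstance.maxHeartbeats 400000
set_option maxHeartbeats 1000000

open ModularCurve IntermediateField Polynomial

noncomputable section

namespace Fermat.Agent.S18x.IG.H8

/-! ### the polynomial data -/

/-- numerators at level 4 -/
def N4 (d : ℕ) : ℤ[X] :=
  if d = 1 then (X ^ 2 + C 256 * X + C 4096) ^ 3
  else if d = 2 then (X ^ 2 + C 16 * X + C 256) ^ 3 else (X ^ 2 + C 16 * X + C 16) ^ 3

/-- denominators at level 4 -/
def D4 (d : ℕ) : ℤ[X] :=
  if d = 1 then X ^ 4 * (X + C 16) else if d = 2 then X ^ 2 * (X + C 16) ^ 2 else X * (X + C 16)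

/-- numerators at level 9 -/
def N9 (d : ℕ) : ℤ[X] :=
  if d = 1 then ((X + C 9) * (X ^ 3 + C 243 * X ^ 2 + C 2187 * X + C 6561)) ^ 3
  else if d = 3 then ((X + C 3) * ((X + C 3) ^ 3 + C 216)) ^ 3
  else ((X + C 3) * (X ^ 3 + C 9 * X ^ 2 + C 27 * X + C 3)) ^ 3

/-- denominators at level 9 -/
def D9 (d : ℕ) : ℤ[X] :=
  if d = 1 then X ^ 9 * (X ^ 2 + C 9 * X + C 27)
  else if d = 3 then X ^ 3 * (X ^ 2 + C 9 * X + C 27) ^ 3 else X * (X ^ 2 + C 9 * X + C 27)

theorem N4_one : N4 1 = (X ^ 2 + C 256 * X + C 4096) ^ 3 := if_pos rfl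
theorem N4_two : N4 2 = (X ^ 2 + C 16 * X + C 256) ^ 3 := by
  rw [N4, if_neg (by norm_num), if_pos rfl]
theorem N4_four : N4 4 = (X ^ 2 + C 16 * X + C 16) ^ 3 := by
  rw [N4, if_neg (by norm_num), if_neg (by norm_num)]
theorem D4_one : D4 1 = X ^ 4 * (X + C 16) := if_pos rfl
theorem D4_two : D4 2 = X ^ 2 * (X + C 16) ^ 2 := by
  rw [D4, if_neg (by norm_num), if_pos rfl]
theorem D4_four : D4 4 = X * (X + C 16) := by
  rw [D4, if_neg (by norm_num), if_neg (by norm_num)]

theorem N9_one : N9 1 = ((X + C 9) * (X ^ 3 + C 243 * X ^ 2 + C 2187 * X + C 6561)) ^ 3 :=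
  if_pos rfl
theorem N9_three : N9 3 = ((X + C 3) * ((X + C 3) ^ 3 + C 216)) ^ 3 := by
  rw [N9, if_neg (by norm_num), if_pos rfl]
theorem N9_nine : N9 9 = ((X + C 3) * (X ^ 3 + C 9 * X ^ 2 + C 27 * X + C 3)) ^ 3 := by
  rw [N9, if_neg (by norm_num), if_neg (by norm_num)]
theorem D9_one : D9 1 = X ^ 9 * (X ^ 2 + C 9 * X + C 27) := if_pos rfl
theorem D9_three : D9 3 = X ^ 3 * (X ^ 2 + C 9 * X + C 27) ^ 3 := by
  rw [D9, if_neg (by norm_num), if_pos rfl]
theorem D9_nine : D9 9 = X * (X ^ 2 + C 9 * X + C 27) := by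
  rw [D9, if_neg (by norm_num), if_neg (by norm_num)]

theorem dvd_four {d : ℕ} (hd : d ∣ 4) : d = 1 ∨ d = 2 ∨ d = 4 := by
  have hle : d ≤ 4 := Nat.le_of_dvd (by norm_num) hd
  interval_cases d <;> simp_all

theorem dvd_nine {d : ℕ} (hd : d ∣ 9) : d = 1 ∨ d = 3 ∨ d = 9 := by
  have hle : d ≤ 9 := Nat.le_of_dvd (by norm_num) hd
  interval_cases d <;> simp_all

theorem monic_quad (a b : ℤ) : (X ^ 2 + C a * X + C b : ℤ[X]).Monic := by
  monicity!

theorem natDegree_quad (a b : ℤ) : (X ^ 2 + C a * X + C b : ℤ[X]).natDegree = 2 := by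
  compute_degree!

theorem monic_cub (a b c : ℤ) : (X ^ 3 + C a * X ^ 2 + C b * X + C c : ℤ[X]).Monic := by
  monicity!

theorem natDegree_cub (a b c : ℤ) :
    (X ^ 3 + C a * X ^ 2 + C b * X + C c : ℤ[X]).natDegree = 3 := by
  compute_degree!

theorem monic_cub' : ((X + C 3) ^ 3 + C 216 : ℤ[X]).Monic := by
  have h : ((X + C 3) ^ 3 + C 216 : ℤ[X]) = X ^ 3 + C 9 * X ^ 2 + C 27 * X + C 243 := by
    simp only [map_ofNat]
    ring
  rw [h]
  exact monic_cub _ _ _

theorem natDegree_N4_one : (N4 1).natDegree = 6 := by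
  rw [N4_one, (monic_quad _ _).natDegree_pow, natDegree_quad]

theorem natDegree_N9_one : (N9 1).natDegree = 12 := by
  rw [N9_one, ((monic_X_add_C _).mul (monic_cub _ _ _)).natDegree_pow,
    (monic_X_add_C _).natDegree_mul (monic_cub _ _ _), natDegree_X_add_C, natDegree_cub]

theorem natDegree_D4_one : (D4 1).natDegree = 5 := by
  rw [D4_one, (monic_X_pow 4).natDegree_mul (monic_X_add_C _), natDegree_X_pow,
    natDegree_X_add_C]

theorem natDegree_D9_one : (D9 1).natDegree = 11 := by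
  rw [D9_one, (monic_X_pow 9).natDegree_mul (monic_quad _ _), natDegree_X_pow, natDegree_quad]

/-- **(HM-a) at level 4 in helper6's packaged form.** -/
theorem haupt_four : H6.H6Haupt 4 t4 N4 D4 where
  coeff_neg_one := coeff_t4_neg_one
  monicN := by rw [N4_one]; exact (monic_quad _ _).pow 3
  monicD := by
    intro d hd
    rcases dvd_four hd with rfl | rfl | rfl
    · rw [D4_one]; exact (monic_X_pow 4).mul (monic_X_add_C _)
    · rw [D4_two]; exact (monic_X_pow 2).mul ((monic_X_add_C _).pow 2)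
    · rw [D4_four]; exact monic_X.mul (monic_X_add_C _)
  deg_lt := by rw [natDegree_N4_one, natDegree_D4_one]; norm_num
  deg_eq := by rw [natDegree_N4_one, H6.h6_psi_four]
  rel := by
    intro d _ hd
    rcases dvd_four hd with rfl | rfl | rfl
    · rw [N4_one, D4_one, qExpand_one_apply]
      simp only [map_pow, map_add, map_mul, aeval_X, map_ofNat]
      exact j1_t4
    · rw [N4_two, D4_two]
      simp only [map_pow, map_add, map_mul, aeval_X, map_ofNat]
      exact j2_t4
    · rw [N4_four, D4_four]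
      simp only [map_pow, map_add, map_mul, aeval_X, map_ofNat]
      exact j4_t4

/-- **(HM-a) at level 9 in helper6's packaged form.** -/
theorem haupt_nine : H6.H6Haupt 9 t9 N9 D9 where
  coeff_neg_one := coeff_t9_neg_one
  monicN := by rw [N9_one]; exact ((monic_X_add_C _).mul (monic_cub _ _ _)).pow 3
  monicD := by
    intro d hd
    rcases dvd_nine hd with rfl | rfl | rfl
    · rw [D9_one]; exact (monic_X_pow 9).mul (monic_quad _ _)
    · rw [D9_three]; exact (monic_X_pow 3).mul ((monic_quad _ _).pow 3)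
    · rw [D9_nine]; exact monic_X.mul (monic_quad _ _)
  deg_lt := by rw [natDegree_N9_one, natDegree_D9_one]; norm_num
  deg_eq := by rw [natDegree_N9_one, H6.h6_psi_nine]
  rel := by
    intro d _ hd
    rcases dvd_nine hd with rfl | rfl | rfl
    · rw [N9_one, D9_one, qExpand_one_apply]
      simp only [map_pow, map_add, map_mul, aeval_X, map_ofNat]
      exact j1_t9
    · rw [N9_three, D9_three]
      simp only [map_pow, map_add, map_mul, aeval_X, map_ofNat]
      exact j3_t9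
    · rw [N9_nine, D9_nine]
      simp only [map_pow, map_add, map_mul, aeval_X, map_ofNat]
      exact j9_t9

/-! ### the Hauptmoduln over an arbitrary ring -/

section General

variable (R : Type*) [CommRing R]

/-- The Hauptmodul of level 4 with coefficients in `R`. -/
def t4R : LaurentSeries R := coeffMap (Int.castRingHom R) t4

/-- The Hauptmodul of level 9 with coefficients in `R`. -/
def t9R : LaurentSeries R := coeffMap (Int.castRingHom R) t9

theorem coeff_t4R_neg_one : (t4R R).coeff (-1) = 1 := by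
  rw [t4R, coeffMap_coeff, coeff_t4_neg_one, map_one]

theorem coeff_t9R_neg_one : (t9R R).coeff (-1) = 1 := by
  rw [t9R, coeffMap_coeff, coeff_t9_neg_one, map_one]

/-- **Level 4**: `j t⁴ (t + 16) = (t² + 256 t + 4096)³` over `R`. -/
theorem j1_t4R : jqModC R * (t4R R ^ 4 * (t4R R + 16)) = (t4R R ^ 2 + 256 * t4R R + 4096) ^ 3 := by
  have h := congrArg (coeffMap (Int.castRingHom R)) j1_t4
  simpa only [map_mul, map_pow, map_add, map_ofNat, coeffMap_jqModC, t4R] using h

/-- **Level 4**: `j(q²) t² (t + 16)² = (t² + 16 t + 256)³` over `R`. -/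
theorem j2_t4R : qExpand R 2 (jqModC R) * (t4R R ^ 2 * (t4R R + 16) ^ 2) =
    (t4R R ^ 2 + 16 * t4R R + 256) ^ 3 := by
  have h := congrArg (coeffMap (Int.castRingHom R)) j2_t4
  simpa only [map_mul, map_pow, map_add, map_ofNat, coeffMap_jqModC, coeffMap_qExpand, t4R]
    using h

/-- **Level 4**: `j(q⁴) t (t + 16) = (t² + 16 t + 16)³` over `R`. -/
theorem j4_t4R : qExpand R 4 (jqModC R) * (t4R R * (t4R R + 16)) =
    (t4R R ^ 2 + 16 * t4R R + 16) ^ 3 := by
  have h := congrArg (coeffMap (Int.castRingHom R)) j4_t4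
  simpa only [map_mul, map_pow, map_add, map_ofNat, coeffMap_jqModC, coeffMap_qExpand, t4R]
    using h

/-- **Level 9**: the `j`-relation over `R`. -/
theorem j1_t9R : jqModC R * (t9R R ^ 9 * (t9R R ^ 2 + 9 * t9R R + 27)) =
    ((t9R R + 9) * (t9R R ^ 3 + 243 * t9R R ^ 2 + 2187 * t9R R + 6561)) ^ 3 := by
  have h := congrArg (coeffMap (Int.castRingHom R)) j1_t9
  simpa only [map_mul, map_pow, map_add, map_ofNat, coeffMap_jqModC, t9R] using h

/-- **Level 9**: the `j(q³)`-relation over `R`. -/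
theorem j3_t9R : qExpand R 3 (jqModC R) * (t9R R ^ 3 * (t9R R ^ 2 + 9 * t9R R + 27) ^ 3) =
    ((t9R R + 3) * ((t9R R + 3) ^ 3 + 216)) ^ 3 := by
  have h := congrArg (coeffMap (Int.castRingHom R)) j3_t9
  simpa only [map_mul, map_pow, map_add, map_ofNat, coeffMap_jqModC, coeffMap_qExpand, t9R]
    using h

/-- **Level 9**: the `j(q⁹)`-relation over `R`. -/
theorem j9_t9R : qExpand R 9 (jqModC R) * (t9R R * (t9R R ^ 2 + 9 * t9R R + 27)) =
    ((t9R R + 3) * (t9R R ^ 3 + 9 * t9R R ^ 2 + 27 * t9R R + 3)) ^ 3 := by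
  have h := congrArg (coeffMap (Int.castRingHom R)) j9_t9
  simpa only [map_mul, map_pow, map_add, map_ofNat, coeffMap_jqModC, coeffMap_qExpand, t9R]
    using h

end General

/-! ### membership and generation, characteristic `0` -/

section CharZero

variable (K : Type) [Field K] [CharZero K]

/-- `t4 ∈ F_M` for every `M` divisible by `4` (characteristic `0`). -/
theorem t4_mem_full (M : ℕ) [NeZero M] (hM : 4 ∣ M) :
    coeffMap (Int.castRingHom K) t4 ∈ modularFunctionFieldFullC K M :=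
  haupt_four.mem_full K M hM

/-- `t9 ∈ F_M` for every `M` divisible by `9` (characteristic `0`). -/
theorem t9_mem_full (M : ℕ) [NeZero M] (hM : 9 ∣ M) :
    coeffMap (Int.castRingHom K) t9 ∈ modularFunctionFieldFullC K M :=
  haupt_nine.mem_full K M hM

/-- `F_4 = K(t4)` -/
theorem full_four_eq : modularFunctionFieldFullC K 4 = K⟮t4R K⟯ :=
  (haupt_four.char_zero K).2.1

/-- `F_9 = K(t9)` -/
theorem full_nine_eq : modularFunctionFieldFullC K 9 = K⟮t9R K⟯ :=
  (haupt_nine.char_zero K).2.1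

theorem transcendental_t4R : Transcendental K (t4R K) :=
  (haupt_four.char_zero K).2.2

theorem transcendental_t9R : Transcendental K (t9R K) :=
  (haupt_nine.char_zero K).2.2

end CharZero

/-! ### membership and generation, characteristic `ℓ` -/

section CharL

variable (κ : Type) [Field κ] (ℓ : ℕ) [Fact ℓ.Prime] [CharP κ ℓ]

theorem not_dvd_four_of_ne (hℓ : ℓ ≠ 2) : ¬ ℓ ∣ 4 := by
  intro h
  have h2 : ℓ ∣ 2 ^ 2 := by simpa using h
  have h3 := (Fact.out : ℓ.Prime).dvd_of_dvd_pow h2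
  rcases (Nat.dvd_prime Nat.prime_two).mp h3 with h1 | h1
  · exact (Fact.out : ℓ.Prime).one_lt.ne' h1
  · exact hℓ h1

theorem not_dvd_nine_of_ne (hℓ : ℓ ≠ 3) : ¬ ℓ ∣ 9 := by
  intro h
  have h2 : ℓ ∣ 3 ^ 2 := by simpa using h
  have h3 := (Fact.out : ℓ.Prime).dvd_of_dvd_pow h2
  rcases (Nat.dvd_prime Nat.prime_three).mp h3 with h1 | h1
  · exact (Fact.out : ℓ.Prime).one_lt.ne' h1
  · exact hℓ h1

/-- `t̄4 ∈ F̄_M` for `4 ∣ M`, in characteristic `ℓ ≠ 2` -/
theorem t4R_mem_full_l (hℓ : ℓ ≠ 2) (M : ℕ) [NeZero M] (hM : 4 ∣ M) :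
    t4R κ ∈ modularFunctionFieldFullC κ M :=
  haupt_four.mem_full_l κ ℓ (not_dvd_four_of_ne ℓ hℓ) M hM

/-- `t̄9 ∈ F̄_M` for `9 ∣ M`, in characteristic `ℓ ≠ 3` -/
theorem t9R_mem_full_l (hℓ : ℓ ≠ 3) (M : ℕ) [NeZero M] (hM : 9 ∣ M) :
    t9R κ ∈ modularFunctionFieldFullC κ M :=
  haupt_nine.mem_full_l κ ℓ (not_dvd_nine_of_ne ℓ hℓ) M hM

/-- `F̄_4 = κ(t̄4)` in characteristic `ℓ ≠ 2` -/
theorem full_four_eq_l (hℓ : ℓ ≠ 2) : modularFunctionFieldFullC κ 4 = κ⟮t4R κ⟯ :=
  (haupt_four.char_l κ ℓ (not_dvd_four_of_ne ℓ hℓ)).2.1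

/-- `F̄_9 = κ(t̄9)` in characteristic `ℓ ≠ 3` -/
theorem full_nine_eq_l (hℓ : ℓ ≠ 3) : modularFunctionFieldFullC κ 9 = κ⟮t9R κ⟯ :=
  (haupt_nine.char_l κ ℓ (not_dvd_nine_of_ne ℓ hℓ)).2.1

theorem transcendental_t4R_l (hℓ : ℓ ≠ 2) : Transcendental κ (t4R κ) :=
  (haupt_four.char_l κ ℓ (not_dvd_four_of_ne ℓ hℓ)).2.2

theorem transcendental_t9R_l (hℓ : ℓ ≠ 3) : Transcendental κ (t9R κ) :=
  (haupt_nine.char_l κ ℓ (not_dvd_nine_of_ne ℓ hℓ)).2.2

end CharL

/-! ### helper29's coordinate package at `x₀ = t4`, `t9` -/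

section Coord

variable (K : Type) [Field K] [CharZero K] (M : ℕ) [NeZero M]

/-- the Hauptmodul of level 4 as an element of `F_M`, `4 ∣ M` -/
def coord4 (hM : 4 ∣ M) : ↥(modularFunctionFieldFullC K M) :=
  H29.coordM K M t4 (t4_mem_full K M hM)

/-- the Hauptmodul of level 9 as an element of `F_M`, `9 ∣ M` -/
def coord9 (hM : 9 ∣ M) : ↥(modularFunctionFieldFullC K M) :=
  H29.coordM K M t9 (t9_mem_full K M hM)

theorem coe_coord4 (hM : 4 ∣ M) : (coord4 K M hM : LaurentSeries K) = t4R K := rfl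

theorem coe_coord9 (hM : 9 ∣ M) : (coord9 K M hM : LaurentSeries K) = t9R K := rfl

theorem transcendental_coord4 (hM : 4 ∣ M) : Transcendental K (coord4 K M hM) :=
  H29.transcendental_coordM K M t4 order_t4 coeff_t4_neg_one (t4_mem_full K M hM)

theorem transcendental_coord9 (hM : 9 ∣ M) : Transcendental K (coord9 K M hM) :=
  H29.transcendental_coordM K M t9 order_t9 coeff_t9_neg_one (t9_mem_full K M hM)

theorem finiteDimensional_coord4 (hM : 4 ∣ M) :
    FiniteDimensional (IntermediateField.adjoin K {coord4 K M hM})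
      ↥(modularFunctionFieldFullC K M) :=
  H29.finiteDimensional_coordM K M t4 order_t4 coeff_t4_neg_one (t4_mem_full K M hM)

theorem finiteDimensional_coord9 (hM : 9 ∣ M) :
    FiniteDimensional (IntermediateField.adjoin K {coord9 K M hM})
      ↥(modularFunctionFieldFullC K M) :=
  H29.finiteDimensional_coordM K M t9 order_t9 coeff_t9_neg_one (t9_mem_full K M hM)

end Coord

/-! ### helper4's unramifiedness, hypothesis-free: NO elliptic value at levels 4 and 9 -/

section Hor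

variable {K : Type} [Field K] [Algebra ℚ K] [CharZero K] [IsAlgClosed K]
variable (e : K →+* ℂ) (M : ℕ) [NeZero M]

theorem t4_mem_FK (hM : 4 ∣ M) :
    coeffMap (Int.castRingHom K) t4 ∈ Fermat.Agent.S24.Real.FK K M := by
  rw [show Fermat.Agent.S24.Real.FK K M = modularFunctionFieldFullC K M from
    Fermat.Agent.S18x.Desc.H19.h19_laurentBaseChange_eq K M]
  exact t4_mem_full K M hM

theorem t9_mem_FK (hM : 9 ∣ M) :
    coeffMap (Int.castRingHom K) t9 ∈ Fermat.Agent.S24.Real.FK K M := by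
  rw [show Fermat.Agent.S24.Real.FK K M = modularFunctionFieldFullC K M from
    Fermat.Agent.S18x.Desc.H19.h19_laurentBaseChange_eq K M]
  exact t9_mem_full K M hM

include e in
/-- **Level 4, horizontal unramifiedness, no hypothesis**: at every place `v` of `F_M`
(`4 ∣ M`) where `j` is regular, `t4` is regular, `t4 ≠ 0, -16` there, and `t4 - c` is a
uniformiser for EVERY value `c` (no elliptic value). -/
theorem unramified_t4 (hM : 4 ∣ M) (v : AlgebraicCurve.Place K (Fermat.Agent.S24.Real.FK K M))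
    (hj : 0 ≤ v.ord (Fermat.Agent.S24.Final.jF K M)) :
    0 ≤ v.ord (⟨coeffMap (Int.castRingHom K) t4, t4_mem_FK M hM⟩ :
        Fermat.Agent.S24.Real.FK K M) ∧
      ∀ c : K, 0 < v.ord ((⟨coeffMap (Int.castRingHom K) t4, t4_mem_FK M hM⟩ :
          Fermat.Agent.S24.Real.FK K M) - algebraMap K (Fermat.Agent.S24.Real.FK K M) c) →
        c ≠ 0 ∧ c ≠ -16 ∧
          v.ord ((⟨coeffMap (Int.castRingHom K) t4, t4_mem_FK M hM⟩ :
            Fermat.Agent.S24.Real.FK K M) - algebraMap K (Fermat.Agent.S24.Real.FK K M) c) = 1 :=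
  H4.h4_unramified_level4 e M t4 (t4_mem_FK M hM) j1_t4 v hj

include e in
/-- **Level 9, horizontal unramifiedness, no hypothesis.** -/
theorem unramified_t9 (hM : 9 ∣ M) (v : AlgebraicCurve.Place K (Fermat.Agent.S24.Real.FK K M))
    (hj : 0 ≤ v.ord (Fermat.Agent.S24.Final.jF K M)) :
    0 ≤ v.ord (⟨coeffMap (Int.castRingHom K) t9, t9_mem_FK M hM⟩ :
        Fermat.Agent.S24.Real.FK K M) ∧
      ∀ c : K, 0 < v.ord ((⟨coeffMap (Int.castRingHom K) t9, t9_mem_FK M hM⟩ :
          Fermat.Agent.S24.Real.FK K M) - algebraMap K (Fermat.Agent.S24.Real.FK K M) c) →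
        c ≠ 0 ∧ c ^ 2 + 9 * c + 27 ≠ 0 ∧
          v.ord ((⟨coeffMap (Int.castRingHom K) t9, t9_mem_FK M hM⟩ :
            Fermat.Agent.S24.Real.FK K M) - algebraMap K (Fermat.Agent.S24.Real.FK K M) c) = 1 :=
  H4.h4_unramified_level9 e M t9 (t9_mem_FK M hM) j1_t9 v hj

end Hor

end Fermat.Agent.S18x.IG.H8
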